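import Mathlib
import Fermat.Agent.CAR.V3.GaussPkg
import Fermat.Agent.CAR.Glob.ChartX
import Fermat.Agent.CAR.Glob.Charts
import Fermat.Agent.CAR.Local.Inst.ChartFields
import Fermat.Agent.CAR.V3.CountGood
import Fermat.Agent.CAR.Glob.CuspQuotInst
import Fermat.Agent.CAR.Glob.ChartFieldInst
import Fermat.Agent.Lib.Red.Unconditional
import Fermat.Agent.CAR.V3.Restrict
import Fermat.Agent.CAR.K0.Setup

/-!
# CAR (instance layer): `hmin` and `not_max` for the two chart rings

Abstract part.  `L ⊆ E` fields, `A` a discrete valuation subring of `L` (uniformiser `ϖ`),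
`V : ι → ValuationSubring E` finitely many pairwise distinct valuation subrings above `A`,
`s : E` a *Gauss point* of every `V i` (`s ∈ V i` with residue transcendental over the residue
field of `A`: `ChartX.ResTransc A (V i) s`), such that the `V i` are ALL the valuation subrings of
`E` above `A` at which `s` is a Gauss point, and `E` finite separable over `L(s)`.  Then for the
chart ring `chart A s` (the integral closure of `A[s]` in `E`):

* `minimalPrimes_chart`      : the primes of `chart A s` minimal over `ϖ` are the centres of the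
  `V i` (the binder `hmin` of `Charts.exists_eq_const_mul_pow_of_charts`, and the field `hmin` of
  `Inst.Contract` / `Inst.V3Base` / `InstCusp.V3BaseCusp`);
* `centre_not_isMaximal_chart` : no centre is a maximal ideal (the field `not_max`);
* `inv_mem_of_resTransc`, `resTransc_inv`, `exists_eq_of_resTransc_inv` : a Gauss point `s` is a
  unit, `s⁻¹` is a Gauss point, and exhaustion passes from `s` to `s⁻¹`;
* `minimalPrimes_chart_inv`, `centre_not_isMaximal_chart_inv` : the same two statements for the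
  chart at infinity `chart A s⁻¹`, from the hypotheses for `s`.
-/

set_option autoImplicit false
set_option linter.style.haveILetI false
set_option linter.unusedSectionVars false

namespace Fermat.Agent.CAR.Inst.HMin

open Polynomial IntermediateField IsLocalRing
open Fermat.Agent.CAR.Formal (IsUnif)
open Fermat.Agent.CAR.V3.CountAbs Fermat.Agent.CAR.V3.GaussPkg Fermat.Agent.CAR.Glob.ChartX
  Fermat.Agent.CAR.Glob.Charts

section Abstract

variable {L E : Type*} [Field L] [Field E] [Algebra L E] {A : ValuationSubring L}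

/-- The Gauss triple of `ChartX` (`IsAbove`, membership, `ResTransc`) is `GaussPkg.IsGauss`. -/
theorem isGauss_of_resTransc {V : ValuationSubring E} {s : E} (hV : IsAbove A V) (hs : s ∈ V)
    (htr : ResTransc A V s) : IsGauss A s V :=
  ⟨hV, hs, resTransc_iff_forall_polynomial.mp htr⟩

/-- A Gauss point is a unit. -/
theorem inv_mem_of_resTransc {V : ValuationSubring E} {s : E} (htr : ResTransc A V s) :
    s⁻¹ ∈ V := by
  by_contra hinv
  have hnu : aeval s (X : L[X]) ∈ V.nonunits := by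
    rw [aeval_X, ValuationSubring.mem_nonunits_iff_or]
    exact Or.inr hinv
  have h1 := htr X (fun n => by
    rw [coeff_X]
    split_ifs
    · exact A.one_mem
    · exact A.zero_mem) hnu 1
  rw [coeff_X_one, ValuationSubring.mem_nonunits_iff, map_one] at h1
  exact lt_irrefl _ h1

/-- The inverse of a Gauss point is a Gauss point. -/
theorem resTransc_inv {V : ValuationSubring E} {s : E} (hV : IsAbove A V) (hs : s ∈ V)
    (htr : ResTransc A V s) : ResTransc A V s⁻¹ := by
  have hinv := inv_mem_of_resTransc htr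
  refine resTransc_of_transcendental_residue hV hinv ?_
  letI := (resHom hV).toAlgebra
  have h1 := htr.transcendental_residue hV hs
  have hs0 : s ≠ 0 := by
    rintro rfl
    have hnu : aeval (0 : E) (X : L[X]) ∈ V.nonunits := by
      rw [aeval_X, ValuationSubring.mem_nonunits_iff_or]
      exact Or.inl rfl
    have h2 := htr X (fun n => by
      rw [coeff_X]
      split_ifs
      · exact A.one_mem
      · exact A.zero_mem) hnu 1
    rw [coeff_X_one, ValuationSubring.mem_nonunits_iff, map_one] at h2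
    exact lt_irrefl _ h2
  have h2 : residue V ⟨s⁻¹, hinv⟩ = (residue V ⟨s, hs⟩)⁻¹ := by
    have h3 : residue V ⟨s, hs⟩ * residue V ⟨s⁻¹, hinv⟩ = 1 := by
      rw [← map_mul, ← map_one (residue V)]
      exact congrArg _ (Subtype.ext (mul_inv_cancel₀ hs0))
    exact eq_inv_of_mul_eq_one_right h3
  rw [h2]
  intro halg
  exact h1 (by simpa using halg.inv)

/-- Exhaustion at the Gauss point `s` gives exhaustion at the Gauss point `s⁻¹`. -/
theorem exists_eq_of_resTransc_inv {ι : Type*} {V : ι → ValuationSubring E} {s : E}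
    (hex : ∀ V' : ValuationSubring E, IsAbove A V' → s ∈ V' → ResTransc A V' s → ∃ i, V' = V i)
    (V' : ValuationSubring E) (hV' : IsAbove A V') (hs : s⁻¹ ∈ V')
    (htr : ResTransc A V' s⁻¹) : ∃ i, V' = V i := by
  have h1 := inv_mem_of_resTransc htr
  have h2 := resTransc_inv hV' hs htr
  rw [inv_inv] at h1 h2
  exact hex V' hV' h1 h2

/-- `L(s⁻¹) = L(s)`. -/
theorem adjoin_simple_inv_eq (s : E) : L⟮s⁻¹⟯ = L⟮s⟯ := by
  refine le_antisymm ?_ ?_
  · rw [adjoin_simple_le_iff]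
    exact inv_mem (mem_adjoin_simple_self L s)
  · rw [adjoin_simple_le_iff]
    simpa using inv_mem (mem_adjoin_simple_self L s⁻¹)

variable [Algebra ↥A E] [IsScalarTower ↥A L E]

omit [IsScalarTower ↥A L E] in
/-- The chart ring and the integral closure of `A[s]` have the same elements. -/
theorem mem_chart_iff' {s y : E} :
    y ∈ chart ↥A s ↔ y ∈ integralClosure ↥(Algebra.adjoin ↥A {s}) E := Iff.rfl

/-- **`hmin` for a chart ring.**  If the pairwise distinct `V i` are all the valuation subrings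
of `E` above the discrete valuation ring `A` at which `s` is a Gauss point, and `E` is finite
separable over `L(s)`, then every prime of the chart ring `chart A s` minimal over the
uniformiser is the centre of some `V i`. -/
theorem minimalPrimes_chart {ϖ : L} (hϖ : IsUnif A ϖ) {ι : Type*} [Fintype ι]
    {V : ι → ValuationSubring E} (hinj : Function.Injective V) (s : E)
    [FiniteDimensional ↥(L⟮s⟯) E] [Algebra.IsSeparable ↥(L⟮s⟯) E]
    (habove : ∀ i, IsAbove A (V i)) (hs : ∀ i, s ∈ V i) (htr : ∀ i, ResTransc A (V i) s)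
    (hex : ∀ V' : ValuationSubring E, IsAbove A V' → s ∈ V' → ResTransc A V' s → ∃ i, V' = V i)
    (i₀ : ι) (ϖ₀ : ↥A) (hϖ₀ : (ϖ₀ : L) = ϖ)
    (hRV : ∀ i, ∀ r ∈ chart ↥A s, r ∈ V i) :
    ∀ 𝔮 ∈ (Ideal.span {algebraMap ↥A ↥(chart ↥A s) ϖ₀}).minimalPrimes,
      ∃ i, 𝔮 = Local.centre (V i) (fun a : chart ↥A s => hRV i a a.2) := by
  classical
  have hG : IsGauss A s (V i₀) := isGauss_of_resTransc (habove i₀) (hs i₀) (htr i₀)
  -- the uniformiser as an element of `L(s)`
  set ϖ' : ↥(L⟮s⟯) := ⟨algebraMap L E ϖ, IntermediateField.algebraMap_mem _ ϖ⟩ with hϖ'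
  have hu : IsUnif (Ox L s (V i₀)) ϖ' := hG.isUnif_of_coe hϖ ϖ' rfl
  have habove' : ∀ i, IsAbove (Ox L s (V i₀)) (V i) := fun i =>
    (isAbove_comap_adjoin_iff (habove i₀) (hs i₀) (htr i₀) (V i)).mpr ⟨habove i, hs i, htr i⟩
  have hfam := family_of_exhaust hu habove' hinj (fun V' hV' => by
    obtain ⟨h1, h2, h3⟩ := (isAbove_comap_adjoin_iff (habove i₀) (hs i₀) (htr i₀) V').mp hV'
    exact hex V' h1 h2 h3)
  -- the chart data for `R0 = A[s]`, `R1 = L[X]`
  letI algR0 : Algebra ↥(Algebra.adjoin ↥A {s}) ↥(L⟮s⟯) :=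
    adjoinAlgebra (W := ↥A) s (L⟮s⟯) (mem_adjoin_simple_self L s)
  haveI towR0 : IsScalarTower ↥(Algebra.adjoin ↥A {s}) ↥(L⟮s⟯) E :=
    adjoinAlgebra_isScalarTower (W := ↥A) s (L⟮s⟯) (mem_adjoin_simple_self L s)
  letI algR1 : Algebra L[X] ↥(L⟮s⟯) := (aeval (AdjoinSimple.gen L s)).toRingHom.toAlgebra
  letI algR1E : Algebra L[X] E := (aeval s).toRingHom.toAlgebra
  have hgen : ∀ P : L[X], ((aeval (AdjoinSimple.gen L s) P : ↥(L⟮s⟯)) : E) = aeval s P := by
    intro P
    rw [← IntermediateField.aeval_coe, AdjoinSimple.coe_gen]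
  haveI towR1 : IsScalarTower L[X] ↥(L⟮s⟯) E :=
    IsScalarTower.of_algebraMap_eq (fun P => (hgen P).symm)
  have hmapA : ∀ P : Polynomial ↥A, aeval s (P.map A.subtype) = aeval s P := by
    intro P
    rw [aeval_def, aeval_def, eval₂_map]
    congr 1
    exact (IsScalarTower.algebraMap_eq ↥A L E).symm
  have hc : Chart (Ox L s (V i₀)) ϖ' ↥(Algebra.adjoin ↥A {s}) L[X] := by
    refine hG.chart_of_coe ϖ ϖ' rfl (fun y => ?_) (fun y => ?_)
    · constructor
      · rintro ⟨r, rfl⟩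
        have hr : (r : E) ∈ (aeval s : Polynomial ↥A →ₐ[↥A] E).range := by
          rw [← Algebra.adjoin_singleton_eq_range_aeval]
          exact r.2
        obtain ⟨P, hP⟩ := hr
        exact ⟨P, by rw [hmapA]; exact hP.symm⟩
      · rintro ⟨P, hP⟩
        refine ⟨⟨aeval s P, aeval_mem_adjoin_singleton _ _⟩, Subtype.ext ?_⟩
        rw [hP, hmapA]
        rfl
    · constructor
      · rintro ⟨P, rfl⟩
        exact ⟨P, hgen P⟩
      · rintro ⟨P, hP⟩
        exact ⟨P, Subtype.ext (by rw [hP]; exact hgen P)⟩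
  have key := hfam.minimalPrimes_chart hc (algebraMap ↥A ↥(Algebra.adjoin ↥A {s}) ϖ₀)
    (Subtype.ext (by
      show algebraMap ↥A E ϖ₀ = algebraMap L E ϖ
      rw [IsScalarTower.algebraMap_apply ↥A L E, ← hϖ₀]
      rfl))
  intro 𝔮 h𝔮
  exact key 𝔮 h𝔮

/-- **`hmin` for the chart at infinity.**  The hypotheses are those of `minimalPrimes_chart` for
the Gauss point `s`; the conclusion is for the chart ring `chart A s⁻¹`. -/
theorem minimalPrimes_chart_inv {ϖ : L} (hϖ : IsUnif A ϖ) {ι : Type*} [Fintype ι]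
    {V : ι → ValuationSubring E} (hinj : Function.Injective V) (s : E)
    [hfin : FiniteDimensional ↥(L⟮s⟯) E] [hsep : Algebra.IsSeparable ↥(L⟮s⟯) E]
    (habove : ∀ i, IsAbove A (V i)) (hs : ∀ i, s ∈ V i) (htr : ∀ i, ResTransc A (V i) s)
    (hex : ∀ V' : ValuationSubring E, IsAbove A V' → s ∈ V' → ResTransc A V' s → ∃ i, V' = V i)
    (i₀ : ι) (ϖ₀ : ↥A) (hϖ₀ : (ϖ₀ : L) = ϖ)
    (hRV : ∀ i, ∀ r ∈ chart ↥A s⁻¹, r ∈ V i) :
    ∀ 𝔮 ∈ (Ideal.span {algebraMap ↥A ↥(chart ↥A s⁻¹) ϖ₀}).minimalPrimes,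
      ∃ i, 𝔮 = Local.centre (V i) (fun a : chart ↥A s⁻¹ => hRV i a a.2) := by
  have hfin' : FiniteDimensional ↥(L⟮s⁻¹⟯) E := by
    rw [adjoin_simple_inv_eq]
    exact hfin
  have hsep' : Algebra.IsSeparable ↥(L⟮s⁻¹⟯) E := by
    rw [adjoin_simple_inv_eq]
    exact hsep
  exact minimalPrimes_chart hϖ hinj s⁻¹ habove (fun i => inv_mem_of_resTransc (htr i))
    (fun i => resTransc_inv (habove i) (hs i) (htr i)) (exists_eq_of_resTransc_inv hex) i₀ ϖ₀ hϖ₀
    hRV

/-- **`not_max` for a chart ring.**  The centre on `chart A s` of a valuation subring above `A`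
at which `s` is a Gauss point is not a maximal ideal. -/
theorem centre_not_isMaximal_chart {V : ValuationSubring E} {s : E} (hV : IsAbove A V)
    (hs : s ∈ V) (htr : ResTransc A V s)
    (hRV : ∀ b : chart ↥A s, algebraMap ↥(chart ↥A s) E b ∈ V) :
    ¬ (Local.centre V hRV).IsMaximal := by
  letI := (resHom hV).toAlgebra
  have hW : ∀ w : ↥A, algebraMap ↥A E w ∈ V := fun w => by
    rw [IsScalarTower.algebraMap_apply ↥A L E]
    exact (hV _).mpr w.2
  refine Local.Inst.ChartFields.centre_not_isMaximal (W := ↥A) (k := ResidueField A) V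
    (residue V) (fun x => residue_eq_zero_iff x) hRV (x := s) (fun b => b.2)
    ⟨s, self_mem_chart s⟩ rfl hW (fun w => ⟨residue A w, ?_⟩) ?_
  · have h1 := resHom_residue hV w
    have h2 : aboveHom hV w = ⟨algebraMap ↥A E w, hW w⟩ := by
      apply Subtype.ext
      rw [coe_aboveHom]
      exact (IsScalarTower.algebraMap_apply ↥A L E w).symm
    rw [← h2]
    exact h1.symm
  · exact htr.transcendental_residue hV hs

/-- **`not_max` for the chart at infinity.** -/
theorem centre_not_isMaximal_chart_inv {V : ValuationSubring E} {s : E} (hV : IsAbove A V)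
    (hs : s ∈ V) (htr : ResTransc A V s)
    (hRV : ∀ b : chart ↥A s⁻¹, algebraMap ↥(chart ↥A s⁻¹) E b ∈ V) :
    ¬ (Local.centre V hRV).IsMaximal :=
  centre_not_isMaximal_chart hV (inv_mem_of_resTransc htr) (resTransc_inv hV hs htr) hRV

end Abstract

/-! ### The modular instance: the chart function `x = J_0 J_2` of level `M' q²`

RED setting `(L, A, π, k)` with `(M' : k) ≠ 0`; `F' = L·F_{M'}`, `F3 = L·F_{M'q²}`,
`J_i = π_i^*(xL) ∈ F3` (`CuspQuot.J0`, `J2`: the series `J(q^{M'})`, `J(q^{M' q²})`),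
`x = J_0 J_2`.  A valuation subring `V` of `F3` is *above `Ow` along `π_0^*`* if
`π_0^* y ∈ V ↔ y ∈ Ow` (the literal `IsAbove` of `CAR/V3/Count.family3`). -/

section Modular

open ModularCurve HahnSeries Fermat.Agent.S28 Fermat.Agent.Lib.Red Fermat.Agent.Lib.Red.BaseFn
  Fermat.Agent.CAR.V3 Fermat.Agent.CAR.Glob.CuspQuot

/-- Non-units of the restriction of a valuation subring along a field homomorphism. -/
theorem mem_nonunits_comap_iff {F₁ F₂ : Type*} [Field F₁] [Field F₂] (φ : F₁ →+* F₂)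
    (V : ValuationSubring F₂) (y : F₁) : y ∈ (V.comap φ).nonunits ↔ φ y ∈ V.nonunits := by
  simp only [ValuationSubring.mem_nonunits_iff_or, ValuationSubring.mem_comap, map_inv₀,
    map_eq_zero]

variable {L : Type} [Field L] [Algebra ℚ L] {A : ValuationSubring L} {k : Type} [Field k]
  {π : A →+* k} {M' q : ℕ} [NeZero M'] [NeZero q]

/-- `J_0` is integral over `ℤ[J_0 J_2]`. -/
theorem isIntegral_J0_adjoin_mul (D : TD.ModEq q) :
    IsIntegral (Algebra.adjoin ℤ {J0 (q := q) L M' * J2 (q := q) L M'}) (J0 (q := q) L M') :=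
  (piStar_isIntegral_of_mul (q := q) L M' D
    (R := ↥(Algebra.adjoin ℤ {J0 (q := q) L M' * J2 (q := q) L M'}))
    ⟨⟨_, Algebra.self_mem_adjoin_singleton ℤ _⟩, rfl⟩).1

/-- `J_0 J_2` is integral over `ℤ[J_0]`. -/
theorem isIntegral_mul_adjoin_J0 (D : TD.ModEq q) :
    IsIntegral (Algebra.adjoin ℤ {J0 (q := q) L M'}) (J0 (q := q) L M' * J2 (q := q) L M') := by
  rw [isIntegral_adjoin_singleton_iff]
  intro V _ h0
  obtain ⟨r1, -, r3, -⟩ := rel_of_coe D _ M' (NeZero.ne M') (coe_J0 (q := q) L M')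
    (coe_J1 (q := q) L M') (coe_J2 (q := q) L M')
  have h1 := val_le_one_of_rel V D.monic r1 ((V.valuation_le_one_iff _).mpr h0)
  have h2 := val_le_one_of_rel V D.monic r3 h1
  exact V.mul_mem _ _ h0 ((V.valuation_le_one_iff _).mp h2)

/-- The chart function `J_0 J_2` has nonzero `q`-order. -/
theorem order_J0_mul_J2_ne_zero :
    ((J0 (q := q) L M' * J2 (q := q) L M' :
      ↥(laurentBaseChange L (modularFunctionFieldFull (M' * q * q)))) : LaurentSeries L).order
      ≠ 0 := by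
  have hM : M' ≠ 0 := NeZero.ne M'
  have hq : q ≠ 0 := NeZero.ne q
  have hMq : M' * q * q ≠ 0 := Nat.mul_ne_zero (Nat.mul_ne_zero hM hq) hq
  have h0 : (TD.Jd L M') ≠ 0 := fun h => Fermat.Agent.S28.ValInd.Jd_ne_zero (K := L) M' hM h
  have h2 : (TD.Jd L (M' * q * q)) ≠ 0 := fun h =>
    Fermat.Agent.S28.ValInd.Jd_ne_zero (K := L) (M' * q * q) hMq h
  have e : ((J0 (q := q) L M' * J2 (q := q) L M' :
      ↥(laurentBaseChange L (modularFunctionFieldFull (M' * q * q)))) : LaurentSeries L)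
      = TD.Jd L M' * TD.Jd L (M' * q * q) := by
    rw [← coe_J0 (q := q) L M', ← coe_J2 (q := q) L M']
    rfl
  rw [e, HahnSeries.order_mul h0 h2, Fermat.Agent.S28.ValInd.order_Jd (K := L) M' hM,
    Fermat.Agent.S28.ValInd.order_Jd (K := L) (M' * q * q) hMq]
  have h3 : (0 : ℤ) < (M' : ℤ) := by exact_mod_cast Nat.pos_of_ne_zero hM
  have h4 : (0 : ℤ) < ((M' * q * q : ℕ) : ℤ) := by exact_mod_cast Nat.pos_of_ne_zero hMq
  omega

/-- `Ow` is a Gauss ring at `xL`, in the vocabulary of `ChartX`. -/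
theorem gauss_xL (hπ : ∀ a : A, ¬ IsUnit a → π a = 0) (hNk : (M' : k) ≠ 0) :
    IsAbove A (Ow A π M' hNk) ∧ xL L M' ∈ Ow A π M' hNk ∧
      ResTransc A (Ow A π M' hNk) (xL L M') := by
  have hG := CountGood.isGauss (Data.ofJ A π M') hπ hNk
  rw [Data.ofJ_x] at hG
  exact ⟨hG.hA, hG.hx, resTransc_iff_forall_polynomial.mpr hG.htr⟩

/-- **From "above `Ow` along `π_0^*`" to the Gauss triple at `J_0`.** -/
theorem gauss_J0_of_above (hπ : ∀ a : A, ¬ IsUnit a → π a = 0) (hNk : (M' : k) ≠ 0)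
    {V : ValuationSubring ↥(laurentBaseChange L (modularFunctionFieldFull (M' * q * q)))}
    (hV : ∀ y : ↥(laurentBaseChange L (modularFunctionFieldFull M')),
      piStar0 L M' q y ∈ V ↔ y ∈ Ow A π M' hNk) :
    IsAbove A V ∧ J0 (q := q) L M' ∈ V ∧ ResTransc A V (J0 (q := q) L M') := by
  obtain ⟨h1, h2, h3⟩ := gauss_xL (A := A) (π := π) (M' := M') hπ hNk
  have hnu : ∀ y : ↥(laurentBaseChange L (modularFunctionFieldFull M')),
      piStar0 L M' q y ∈ V.nonunits ↔ y ∈ (Ow A π M' hNk).nonunits := by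
    intro y
    rw [ValuationSubring.mem_nonunits_iff_or, ValuationSubring.mem_nonunits_iff_or, ← map_inv₀,
      hV, map_eq_zero]
  refine ⟨fun a => ?_, (hV _).mpr h2, fun p hp hpn n => ?_⟩
  · rw [← (piStar0 L M' q).commutes a, hV]
    exact h1 a
  · refine h3 p hp ?_ n
    rw [← hnu]
    have e : piStar0 L M' q (aeval (xL L M') p) = aeval (J0 (q := q) L M') p :=
      (aeval_algHom_apply (piStar0 L M' q) (xL L M') p).symm
    rw [e]
    exact hpn

/-- **`Ow` is the only Gauss ring**: a valuation subring of `F' = L·F_N` above `A` at which the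
base function `B.x` is a Gauss point is `Ow`. -/
theorem eq_Ow_of_resTransc {N : ℕ} [NeZero N] (B : BaseFn.Data A π N)
    (hπ : ∀ a : A, ¬ IsUnit a → π a = 0) (hsurj : Function.Surjective π) (hNk : (N : k) ≠ 0)
    {ϖ : L} (hϖ : IsUnif A ϖ)
    (V : ValuationSubring ↥(laurentBaseChange L (modularFunctionFieldFull N)))
    (hV : IsAbove A V) (hx : B.x ∈ V) (htr : ResTransc A V B.x) : V = Ow A π N hNk := by
  have hG := CountGood.isGauss B hπ hNk
  haveI := CountGood.finiteDimensional B hπ hsurj hNk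
  haveI := CountGood.isSeparable B hπ hsurj hNk
  obtain ⟨n, hfam⟩ := CountGood.goodFamily_of_coe B hπ hsurj hNk hϖ
    ⟨algebraMap L _ ϖ, IntermediateField.algebraMap_mem _ ϖ⟩ rfl
  have hab : IsAbove (B.Ov hNk) V := by
    rw [CountGood.Ov_eq]
    exact (isAbove_comap_adjoin_iff hG.hA hG.hx (resTransc_iff_forall_polynomial.mpr hG.htr)
      V).mpr ⟨hV, hx, htr⟩
  obtain ⟨-, h⟩ := hfam.eq_of_isAbove V hab
  exact h

/-- `eq_Ow_of_resTransc` for the base function `xL = J(q^N)`. -/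
theorem eq_Ow_of_resTransc_xL {N : ℕ} [NeZero N]
    (hπ : ∀ a : A, ¬ IsUnit a → π a = 0) (hsurj : Function.Surjective π) (hNk : (N : k) ≠ 0)
    {ϖ : L} (hϖ : IsUnif A ϖ)
    (V : ValuationSubring ↥(laurentBaseChange L (modularFunctionFieldFull N)))
    (hV : IsAbove A V) (hx : xL L N ∈ V) (htr : ResTransc A V (xL L N)) :
    V = Ow A π N hNk := by
  rw [← Data.ofJ_x A π N] at hx htr
  exact eq_Ow_of_resTransc (Data.ofJ A π N) hπ hsurj hNk hϖ V hV hx htr

/-- **From the Gauss triple at `J_0` to "above `Ow` along `π_0^*`"**: `Ow` is the only valuation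
subring of `F'` above `A` at which `xL` is a Gauss point. -/
theorem above_of_gauss_J0 (hπ : ∀ a : A, ¬ IsUnit a → π a = 0) (hsurj : Function.Surjective π)
    (hNk : (M' : k) ≠ 0) {ϖ : L} (hϖ : IsUnif A ϖ)
    {V : ValuationSubring ↥(laurentBaseChange L (modularFunctionFieldFull (M' * q * q)))}
    (hV : IsAbove A V) (hJ : J0 (q := q) L M' ∈ V) (htr : ResTransc A V (J0 (q := q) L M')) :
    ∀ y : ↥(laurentBaseChange L (modularFunctionFieldFull M')),
      piStar0 L M' q y ∈ V ↔ y ∈ Ow A π M' hNk := by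
  have hab₁ : IsAbove A (V.comap (piStar0 L M' q).toRingHom) := fun a => by
    rw [ValuationSubring.mem_comap]
    have e : (piStar0 L M' q).toRingHom (algebraMap L _ a) = algebraMap L _ a :=
      (piStar0 L M' q).commutes a
    rw [e]
    exact hV a
  have hx₁ : xL L M' ∈ V.comap (piStar0 L M' q).toRingHom := by
    rw [ValuationSubring.mem_comap]
    exact hJ
  have htr₁ : ResTransc A (V.comap (piStar0 L M' q).toRingHom) (xL L M') := by
    intro p hp hpn n
    refine htr p hp ?_ n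
    have e : (piStar0 L M' q).toRingHom (aeval (xL L M') p) = aeval (J0 (q := q) L M') p :=
      (aeval_algHom_apply (piStar0 L M' q) (xL L M') p).symm
    rw [← e]
    exact (mem_nonunits_comap_iff _ V _).mp hpn
  have h := eq_Ow_of_resTransc_xL hπ hsurj hNk hϖ _ hab₁ hx₁ htr₁
  intro y
  rw [← h, ValuationSubring.mem_comap]
  rfl

variable [Algebra ↥A ↥(laurentBaseChange L (modularFunctionFieldFull (M' * q * q)))]
  [IsScalarTower ↥A L ↥(laurentBaseChange L (modularFunctionFieldFull (M' * q * q)))]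

/-- **From "above `Ow` along `π_0^*`" to the Gauss triple at the chart function `J_0 J_2`.** -/
theorem gauss_chartFn_of_above (hπ : ∀ a : A, ¬ IsUnit a → π a = 0) (hNk : (M' : k) ≠ 0)
    (D : TD.ModEq q)
    {V : ValuationSubring ↥(laurentBaseChange L (modularFunctionFieldFull (M' * q * q)))}
    (hV : ∀ y : ↥(laurentBaseChange L (modularFunctionFieldFull M')),
      piStar0 L M' q y ∈ V ↔ y ∈ Ow A π M' hNk) :
    IsAbove A V ∧ J0 (q := q) L M' * J2 (q := q) L M' ∈ V ∧
      ResTransc A V (J0 (q := q) L M' * J2 (q := q) L M') := by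
  obtain ⟨h1, h2, h3⟩ := gauss_J0_of_above hπ hNk hV
  exact ⟨h1, (gauss_iff_of_isIntegral (R := ℤ) h1 (fun r => by
    rw [eq_intCast]
    exact intCast_mem A r)
    (isIntegral_J0_adjoin_mul D) (isIntegral_mul_adjoin_J0 D)).mpr ⟨h2, h3⟩⟩

/-- **From the Gauss triple at the chart function to "above `Ow` along `π_0^*`".** -/
theorem above_of_gauss_chartFn (hπ : ∀ a : A, ¬ IsUnit a → π a = 0)
    (hsurj : Function.Surjective π) (hNk : (M' : k) ≠ 0) {ϖ : L} (hϖ : IsUnif A ϖ)
    (D : TD.ModEq q)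
    {V : ValuationSubring ↥(laurentBaseChange L (modularFunctionFieldFull (M' * q * q)))}
    (hV : IsAbove A V) (hx : J0 (q := q) L M' * J2 (q := q) L M' ∈ V)
    (htr : ResTransc A V (J0 (q := q) L M' * J2 (q := q) L M')) :
    ∀ y : ↥(laurentBaseChange L (modularFunctionFieldFull M')),
      piStar0 L M' q y ∈ V ↔ y ∈ Ow A π M' hNk := by
  obtain ⟨h2, h3⟩ := (gauss_iff_of_isIntegral (R := ℤ) hV (fun r => by
    rw [eq_intCast]
    exact intCast_mem A r)
    (isIntegral_J0_adjoin_mul D) (isIntegral_mul_adjoin_J0 D)).mp ⟨hx, htr⟩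
  exact above_of_gauss_J0 hπ hsurj hNk hϖ hV h2 h3

/-- The finite chart ring lies in every valuation subring above `Ow` along `π_0^*`. -/
theorem mem_of_mem_chart (hπ : ∀ a : A, ¬ IsUnit a → π a = 0) (hNk : (M' : k) ≠ 0)
    (D : TD.ModEq q)
    {V : ValuationSubring ↥(laurentBaseChange L (modularFunctionFieldFull (M' * q * q)))}
    (hV : ∀ y : ↥(laurentBaseChange L (modularFunctionFieldFull M')),
      piStar0 L M' q y ∈ V ↔ y ∈ Ow A π M' hNk)
    {r : ↥(laurentBaseChange L (modularFunctionFieldFull (M' * q * q)))}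
    (hr : r ∈ chart ↥A (J0 (q := q) L M' * J2 (q := q) L M')) : r ∈ V := by
  obtain ⟨h1, h2, -⟩ := gauss_chartFn_of_above hπ hNk D hV
  refine Local.Inst.ChartFields.mem_of_isIntegral_adjoin V (fun w => ?_) h2 hr
  rw [IsScalarTower.algebraMap_apply ↥A L]
  exact (h1 _).mpr w.2

/-- The chart ring at infinity lies in every valuation subring above `Ow` along `π_0^*`. -/
theorem mem_of_mem_chart_inv (hπ : ∀ a : A, ¬ IsUnit a → π a = 0) (hNk : (M' : k) ≠ 0)
    (D : TD.ModEq q)
    {V : ValuationSubring ↥(laurentBaseChange L (modularFunctionFieldFull (M' * q * q)))}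
    (hV : ∀ y : ↥(laurentBaseChange L (modularFunctionFieldFull M')),
      piStar0 L M' q y ∈ V ↔ y ∈ Ow A π M' hNk)
    {r : ↥(laurentBaseChange L (modularFunctionFieldFull (M' * q * q)))}
    (hr : r ∈ chart ↥A (J0 (q := q) L M' * J2 (q := q) L M')⁻¹) : r ∈ V := by
  obtain ⟨h1, -, h3⟩ := gauss_chartFn_of_above hπ hNk D hV
  refine Local.Inst.ChartFields.mem_of_isIntegral_adjoin V (fun w => ?_)
    (inv_mem_of_resTransc h3) hr
  rw [IsScalarTower.algebraMap_apply ↥A L]
  exact (h1 _).mpr w.2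

variable {ι : Type*} [Fintype ι]
  {V : ι → ValuationSubring ↥(laurentBaseChange L (modularFunctionFieldFull (M' * q * q)))}

/-- **`hmin` for the finite chart `chart A (J_0 J_2)`**: if the pairwise distinct `V i` are all
the valuation subrings of `F3` above `Ow` along `π_0^*`, every prime of the chart ring minimal
over the uniformiser is the centre of some `V i`. -/
theorem hmin_chart (hπ : ∀ a : A, ¬ IsUnit a → π a = 0) (hsurj : Function.Surjective π)
    (hNk : (M' : k) ≠ 0) {ϖ : L} (hϖ : IsUnif A ϖ) (D : TD.ModEq q)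
    (hinj : Function.Injective V)
    (hab : ∀ i, ∀ y : ↥(laurentBaseChange L (modularFunctionFieldFull M')),
      piStar0 L M' q y ∈ V i ↔ y ∈ Ow A π M' hNk)
    (hex : ∀ V' : ValuationSubring ↥(laurentBaseChange L (modularFunctionFieldFull (M' * q * q))),
      (∀ y : ↥(laurentBaseChange L (modularFunctionFieldFull M')),
        piStar0 L M' q y ∈ V' ↔ y ∈ Ow A π M' hNk) → ∃ i, V' = V i)
    (i₀ : ι) (ϖ₀ : ↥A) (hϖ₀ : (ϖ₀ : L) = ϖ)
    (hRV : ∀ i, ∀ r ∈ chart ↥A (J0 (q := q) L M' * J2 (q := q) L M'), r ∈ V i) :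
    ∀ 𝔮 ∈ (Ideal.span {algebraMap ↥A
        ↥(chart ↥A (J0 (q := q) L M' * J2 (q := q) L M')) ϖ₀}).minimalPrimes,
      ∃ i, 𝔮 = Local.centre (V i)
        (fun a : chart ↥A (J0 (q := q) L M' * J2 (q := q) L M') => hRV i a a.2) := by
  haveI := Fermat.Agent.CAR.Glob.ChartField.finiteDimensional_FNK L (M' * q * q) _
    (order_J0_mul_J2_ne_zero (L := L) (M' := M') (q := q))
  haveI := Fermat.Agent.CAR.Glob.ChartField.isSeparable_FNK L (M' * q * q) _
    (order_J0_mul_J2_ne_zero (L := L) (M' := M') (q := q))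
  exact minimalPrimes_chart hϖ hinj _
    (fun i => (gauss_chartFn_of_above hπ hNk D (hab i)).1)
    (fun i => (gauss_chartFn_of_above hπ hNk D (hab i)).2.1)
    (fun i => (gauss_chartFn_of_above hπ hNk D (hab i)).2.2)
    (fun V' h1 h2 h3 => hex V' (above_of_gauss_chartFn hπ hsurj hNk hϖ D h1 h2 h3))
    i₀ ϖ₀ hϖ₀ hRV

/-- **`hmin` for the chart at infinity `chart A (J_0 J_2)⁻¹`.** -/
theorem hmin_chart_inv (hπ : ∀ a : A, ¬ IsUnit a → π a = 0) (hsurj : Function.Surjective π)
    (hNk : (M' : k) ≠ 0) {ϖ : L} (hϖ : IsUnif A ϖ) (D : TD.ModEq q)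
    (hinj : Function.Injective V)
    (hab : ∀ i, ∀ y : ↥(laurentBaseChange L (modularFunctionFieldFull M')),
      piStar0 L M' q y ∈ V i ↔ y ∈ Ow A π M' hNk)
    (hex : ∀ V' : ValuationSubring ↥(laurentBaseChange L (modularFunctionFieldFull (M' * q * q))),
      (∀ y : ↥(laurentBaseChange L (modularFunctionFieldFull M')),
        piStar0 L M' q y ∈ V' ↔ y ∈ Ow A π M' hNk) → ∃ i, V' = V i)
    (i₀ : ι) (ϖ₀ : ↥A) (hϖ₀ : (ϖ₀ : L) = ϖ)
    (hRV : ∀ i, ∀ r ∈ chart ↥A (J0 (q := q) L M' * J2 (q := q) L M')⁻¹, r ∈ V i) :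
    ∀ 𝔮 ∈ (Ideal.span {algebraMap ↥A
        ↥(chart ↥A (J0 (q := q) L M' * J2 (q := q) L M')⁻¹) ϖ₀}).minimalPrimes,
      ∃ i, 𝔮 = Local.centre (V i)
        (fun a : chart ↥A (J0 (q := q) L M' * J2 (q := q) L M')⁻¹ => hRV i a a.2) := by
  haveI := Fermat.Agent.CAR.Glob.ChartField.finiteDimensional_FNK L (M' * q * q) _
    (order_J0_mul_J2_ne_zero (L := L) (M' := M') (q := q))
  haveI := Fermat.Agent.CAR.Glob.ChartField.isSeparable_FNK L (M' * q * q) _
    (order_J0_mul_J2_ne_zero (L := L) (M' := M') (q := q))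
  exact minimalPrimes_chart_inv hϖ hinj _
    (fun i => (gauss_chartFn_of_above hπ hNk D (hab i)).1)
    (fun i => (gauss_chartFn_of_above hπ hNk D (hab i)).2.1)
    (fun i => (gauss_chartFn_of_above hπ hNk D (hab i)).2.2)
    (fun V' h1 h2 h3 => hex V' (above_of_gauss_chartFn hπ hsurj hNk hϖ D h1 h2 h3))
    i₀ ϖ₀ hϖ₀ hRV

omit [Fintype ι] in
/-- **`not_max` for the finite chart**: the centre of a valuation subring above `Ow` along
`π_0^*` is not a maximal ideal of `chart A (J_0 J_2)`. -/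
theorem not_max_chart (hπ : ∀ a : A, ¬ IsUnit a → π a = 0) (hNk : (M' : k) ≠ 0)
    (D : TD.ModEq q)
    {V : ValuationSubring ↥(laurentBaseChange L (modularFunctionFieldFull (M' * q * q)))}
    (hV : ∀ y : ↥(laurentBaseChange L (modularFunctionFieldFull M')),
      piStar0 L M' q y ∈ V ↔ y ∈ Ow A π M' hNk)
    (hRV : ∀ b : chart ↥A (J0 (q := q) L M' * J2 (q := q) L M'),
      algebraMap ↥(chart ↥A (J0 (q := q) L M' * J2 (q := q) L M')) _ b ∈ V) :
    ¬ (Local.centre V hRV).IsMaximal := by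
  obtain ⟨h1, h2, h3⟩ := gauss_chartFn_of_above hπ hNk D hV
  exact centre_not_isMaximal_chart h1 h2 h3 hRV

omit [Fintype ι] in
/-- **`not_max` for the chart at infinity.** -/
theorem not_max_chart_inv (hπ : ∀ a : A, ¬ IsUnit a → π a = 0) (hNk : (M' : k) ≠ 0)
    (D : TD.ModEq q)
    {V : ValuationSubring ↥(laurentBaseChange L (modularFunctionFieldFull (M' * q * q)))}
    (hV : ∀ y : ↥(laurentBaseChange L (modularFunctionFieldFull M')),
      piStar0 L M' q y ∈ V ↔ y ∈ Ow A π M' hNk)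
    (hRV : ∀ b : chart ↥A (J0 (q := q) L M' * J2 (q := q) L M')⁻¹,
      algebraMap ↥(chart ↥A (J0 (q := q) L M' * J2 (q := q) L M')⁻¹) _ b ∈ V) :
    ¬ (Local.centre V hRV).IsMaximal := by
  obtain ⟨h1, h2, h3⟩ := gauss_chartFn_of_above hπ hNk D hV
  exact centre_not_isMaximal_chart_inv h1 h2 h3 hRV

end Modular

/-! ### The CAR instance `(L, A, π) = (K0, W0, resW0)`

`A` a valuation subring of `ℚ̄` over the prime `q`, `K0` its inertia field, `W0 = A ∩ K0`,
`q ∤ M'`, `F3 = K0·F_{M'q²}`, `x = J_0 J_2`, uniformiser `q`.  The three statements take the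
exhaustion "the `V i` are all the valuation subrings above `Ow` along `π_0^*`" in the literal
shapes exported by `CAR/V3/Count` (`family3_K0.above`, `family3_K0.inj`, `eq_of_isAbove3_K0`). -/

section K0Inst

open ModularCurve Fermat.Agent.S28 Fermat.Agent.Lib.Red Fermat.Agent.CAR.V3
  Fermat.Agent.CAR.Glob.CuspQuot Fermat.Agent.CAR.K0

local notation "Qb" => AlgebraicClosure ℚ

set_option synthInstance.maxHeartbeats 400000
set_option maxHeartbeats 1000000

variable {q : ℕ} (hq : q.Prime) {A : ValuationSubring Qb} (hA : A.LiesOverPrime q) (M' : ℕ)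
  [NeZero M'] [NeZero q] (hqM : ¬ q ∣ M')
  [Algebra ↥(W0 A) ↥(laurentBaseChange ↥(K0 A) (modularFunctionFieldFull (M' * q * q)))]
  [IsScalarTower ↥(W0 A) ↥(K0 A)
    ↥(laurentBaseChange ↥(K0 A) (modularFunctionFieldFull (M' * q * q)))]

include hq hA hqM

/-- `hRV`: the finite chart ring lies in every valuation subring above `Ow` along `π_0^*`. -/
theorem mem_of_mem_chart_K0
    {V : ValuationSubring ↥(laurentBaseChange ↥(K0 A) (modularFunctionFieldFull (M' * q * q)))}
    (hV : ∀ y : ↥(laurentBaseChange ↥(K0 A) (modularFunctionFieldFull M')),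
      piStar0 ↥(K0 A) M' q y ∈ V ↔
        y ∈ Ow (W0 A) (resW0 A) M' (badSetup_W0 hq hA M' hqM).hMk)
    {r : ↥(laurentBaseChange ↥(K0 A) (modularFunctionFieldFull (M' * q * q)))}
    (hr : r ∈ chart ↥(W0 A) (J0 (q := q) ↥(K0 A) M' * J2 (q := q) ↥(K0 A) M')) : r ∈ V := by
  obtain ⟨D⟩ := modEq_all q hq
  exact mem_of_mem_chart (resW0_eq_zero_of_not_isUnit A) _ D hV hr

/-- `hR'V`: the chart ring at infinity lies in every valuation subring above `Ow` along
`π_0^*`. -/
theorem mem_of_mem_chart_inv_K0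
    {V : ValuationSubring ↥(laurentBaseChange ↥(K0 A) (modularFunctionFieldFull (M' * q * q)))}
    (hV : ∀ y : ↥(laurentBaseChange ↥(K0 A) (modularFunctionFieldFull M')),
      piStar0 ↥(K0 A) M' q y ∈ V ↔
        y ∈ Ow (W0 A) (resW0 A) M' (badSetup_W0 hq hA M' hqM).hMk)
    {r : ↥(laurentBaseChange ↥(K0 A) (modularFunctionFieldFull (M' * q * q)))}
    (hr : r ∈ chart ↥(W0 A) (J0 (q := q) ↥(K0 A) M' * J2 (q := q) ↥(K0 A) M')⁻¹) : r ∈ V := by
  obtain ⟨D⟩ := modEq_all q hq
  exact mem_of_mem_chart_inv (resW0_eq_zero_of_not_isUnit A) _ D hV hr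

/-- **`not_max` for the finite chart** (fields `not_max` of `Inst.Contract`, `Inst.V3Base`). -/
theorem not_max_chart_K0
    {V : ValuationSubring ↥(laurentBaseChange ↥(K0 A) (modularFunctionFieldFull (M' * q * q)))}
    (hV : ∀ y : ↥(laurentBaseChange ↥(K0 A) (modularFunctionFieldFull M')),
      piStar0 ↥(K0 A) M' q y ∈ V ↔
        y ∈ Ow (W0 A) (resW0 A) M' (badSetup_W0 hq hA M' hqM).hMk)
    (hRV : ∀ b : chart ↥(W0 A) (J0 (q := q) ↥(K0 A) M' * J2 (q := q) ↥(K0 A) M'),
      algebraMap ↥(chart ↥(W0 A) (J0 (q := q) ↥(K0 A) M' * J2 (q := q) ↥(K0 A) M')) _ b ∈ V) :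
    ¬ (Local.centre V hRV).IsMaximal := by
  obtain ⟨D⟩ := modEq_all q hq
  exact not_max_chart (resW0_eq_zero_of_not_isUnit A) _ D hV hRV

/-- **`not_max` for the chart at infinity** (field `not_max` of `InstCusp.V3BaseCusp`). -/
theorem not_max_chart_inv_K0
    {V : ValuationSubring ↥(laurentBaseChange ↥(K0 A) (modularFunctionFieldFull (M' * q * q)))}
    (hV : ∀ y : ↥(laurentBaseChange ↥(K0 A) (modularFunctionFieldFull M')),
      piStar0 ↥(K0 A) M' q y ∈ V ↔
        y ∈ Ow (W0 A) (resW0 A) M' (badSetup_W0 hq hA M' hqM).hMk)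
    (hRV : ∀ b : chart ↥(W0 A) (J0 (q := q) ↥(K0 A) M' * J2 (q := q) ↥(K0 A) M')⁻¹,
      algebraMap ↥(chart ↥(W0 A) (J0 (q := q) ↥(K0 A) M' * J2 (q := q) ↥(K0 A) M')⁻¹) _ b ∈ V) :
    ¬ (Local.centre V hRV).IsMaximal := by
  obtain ⟨D⟩ := modEq_all q hq
  exact not_max_chart_inv (resW0_eq_zero_of_not_isUnit A) _ D hV hRV

variable {ι : Type*} [Fintype ι]
  {V : ι → ValuationSubring ↥(laurentBaseChange ↥(K0 A) (modularFunctionFieldFull (M' * q * q)))}

/-- **`hmin` for the finite chart `chart W0 (J_0 J_2)`**, in the literal shape of the binder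
`hmin` of `Charts.exists_eq_const_mul_pow_of_charts_FNK` (and of the field `hmin` of
`Inst.Contract` / `Inst.V3Base`, with `q := algebraMap W0 (chart W0 x) q`). -/
theorem hmin_chart_K0 (hinj : Function.Injective V)
    (hab : ∀ i, ∀ y : ↥(laurentBaseChange ↥(K0 A) (modularFunctionFieldFull M')),
      piStar0 ↥(K0 A) M' q y ∈ V i ↔
        y ∈ Ow (W0 A) (resW0 A) M' (badSetup_W0 hq hA M' hqM).hMk)
    (hex : ∀ V' : ValuationSubring
        ↥(laurentBaseChange ↥(K0 A) (modularFunctionFieldFull (M' * q * q))),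
      (∀ y : ↥(laurentBaseChange ↥(K0 A) (modularFunctionFieldFull M')),
        piStar0 ↥(K0 A) M' q y ∈ V' ↔
          y ∈ Ow (W0 A) (resW0 A) M' (badSetup_W0 hq hA M' hqM).hMk) → ∃ i, V' = V i)
    (i₀ : ι)
    (hRV : ∀ i, ∀ r ∈ chart ↥(W0 A) (J0 (q := q) ↥(K0 A) M' * J2 (q := q) ↥(K0 A) M'),
      r ∈ V i) :
    ∀ 𝔮 ∈ (Ideal.span {algebraMap ↥(W0 A)
        ↥(chart ↥(W0 A) (J0 (q := q) ↥(K0 A) M' * J2 (q := q) ↥(K0 A) M'))
        ((q : ℕ) : ↥(W0 A))}).minimalPrimes,
      ∃ i, 𝔮 = Local.centre (V i)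
        (fun a : chart ↥(W0 A) (J0 (q := q) ↥(K0 A) M' * J2 (q := q) ↥(K0 A) M') =>
          hRV i a a.2) := by
  obtain ⟨D⟩ := modEq_all q hq
  exact hmin_chart (resW0_eq_zero_of_not_isUnit A) (resW0_surjective hq hA) _
    (Restrict.isUnif_W0 hq hA) D hinj hab hex i₀ ((q : ℕ) : ↥(W0 A)) (by push_cast; rfl) hRV

/-- **`hmin'` for the chart at infinity `chart W0 (J_0 J_2)⁻¹`**, in the literal shape of the
binder `hmin'` of `Charts.exists_eq_const_mul_pow_of_charts_FNK` (and of the field `hmin` of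
`InstCusp.V3BaseCusp`). -/
theorem hmin_chart_inv_K0 (hinj : Function.Injective V)
    (hab : ∀ i, ∀ y : ↥(laurentBaseChange ↥(K0 A) (modularFunctionFieldFull M')),
      piStar0 ↥(K0 A) M' q y ∈ V i ↔
        y ∈ Ow (W0 A) (resW0 A) M' (badSetup_W0 hq hA M' hqM).hMk)
    (hex : ∀ V' : ValuationSubring
        ↥(laurentBaseChange ↥(K0 A) (modularFunctionFieldFull (M' * q * q))),
      (∀ y : ↥(laurentBaseChange ↥(K0 A) (modularFunctionFieldFull M')),
        piStar0 ↥(K0 A) M' q y ∈ V' ↔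
          y ∈ Ow (W0 A) (resW0 A) M' (badSetup_W0 hq hA M' hqM).hMk) → ∃ i, V' = V i)
    (i₀ : ι)
    (hRV : ∀ i, ∀ r ∈ chart ↥(W0 A) (J0 (q := q) ↥(K0 A) M' * J2 (q := q) ↥(K0 A) M')⁻¹,
      r ∈ V i) :
    ∀ 𝔮 ∈ (Ideal.span {algebraMap ↥(W0 A)
        ↥(chart ↥(W0 A) (J0 (q := q) ↥(K0 A) M' * J2 (q := q) ↥(K0 A) M')⁻¹)
        ((q : ℕ) : ↥(W0 A))}).minimalPrimes,
      ∃ i, 𝔮 = Local.centre (V i)
        (fun a : chart ↥(W0 A) (J0 (q := q) ↥(K0 A) M' * J2 (q := q) ↥(K0 A) M')⁻¹ =>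
          hRV i a a.2) := by
  obtain ⟨D⟩ := modEq_all q hq
  exact hmin_chart_inv (resW0_eq_zero_of_not_isUnit A) (resW0_surjective hq hA) _
    (Restrict.isUnif_W0 hq hA) D hinj hab hex i₀ ((q : ℕ) : ↥(W0 A)) (by push_cast; rfl) hRV

end K0Inst

end Fermat.Agent.CAR.Inst.HMin
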