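import Mathlib
import Fermat.Agent.CAR.Glob.ChartsFNK
import Fermat.Agent.CAR.Glob.ChartRam
import Fermat.Agent.CAR.Glob.CuspQuotInst
import Fermat.Agent.CAR.K0.Setup
import Fermat.Agent.CAR.V3.Zero
import Fermat.Agent.CAR.V3.MidRing
import Fermat.Agent.CAR.V3.Restrict
import Fermat.Agent.CAR.V3.RestrictZero
import Fermat.Agent.CAR.Local.Inst.ChartFields

/-!
# CAR-37: the chart theorem at the CAR objects

`Glob.Charts.exists_eq_const_mul_pow_of_charts_FNK` at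

* `K := K0 A` (the inertia field of a valuation subring `A` of `ℚ̄` over the prime `q`),
  `W := W0 A`, `N := M' * q * q` (`q ∤ M'`), `hB := K0.badSetup_W0 hq hA M' hqM`;
* the chart function `x := CuspQuot.J0 * CuspQuot.J2` (series `J(q^M') · J(q^(M' q²))`);
* the vertical family `V := ![OInf3 hB, OMid hq A hA hζ M' hqM (residue A), OZero3 hB w]`
  (`w` the Atkin–Lehner involution, `IsAL3 M' q w`);
* `m` any natural number prime to `q`, `e := q - 1`,

with `hx`, `hRV`, `hR'V`, `hqV`, `he`, `m'` and the instances discharged.  What remains are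
exactly `hmin`, `hmin'`, `f`/`hf1`, `hlocal`, `hlocal'`.

The instances `Algebra (W0 A) F3`, `IsScalarTower (W0 A) (K0 A) F3` are abstract binders (as in
`CAR/Inst/Hor.lean`), so every choice of the consumer plugs in.
-/

set_option autoImplicit false
set_option linter.unusedSectionVars false
set_option linter.style.haveILetI false

noncomputable section

namespace Fermat.Agent.CAR.Inst.ChartsCAR

open ModularCurve HahnSeries Fermat.Agent.S24 Fermat.Agent.S28 Fermat.Agent.Lib.Red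
  Fermat.Agent.BAD.TwoVal
  Fermat.Agent.CAR.K0 Fermat.Agent.CAR.V3 Fermat.Agent.CAR.V3.MidRing Fermat.Agent.CAR.Glob
  Fermat.Agent.CAR.Formal Fermat.Agent.CAR.Glob.Charts

local notation "Qb" => AlgebraicClosure ℚ

/-! ### Generalities -/

/-- The inverse of a unit of a valuation subring lies in it. -/
theorem inv_mem_of_isUnit {F : Type*} [Field F] (V : ValuationSubring F) (f : V)
    (hu : IsUnit f) : (f : F)⁻¹ ∈ V := by
  obtain ⟨u, rfl⟩ := hu
  have h1 : ((u⁻¹ : Vˣ) : V) * (u : V) = 1 := Units.inv_mul u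
  have h2 : (((u⁻¹ : Vˣ) : V) : F) * ((u : V) : F) = 1 :=
    congrArg (fun t : V => (t : F)) h1
  rw [← eq_inv_of_mul_eq_one_left h2]
  exact ((u⁻¹ : Vˣ) : V).2

/-- `J(q^e)` is nonzero for `e ≠ 0`. -/
theorem Jd_ne_zero_of_ne (k : Type*) [Field k] {e : ℕ} (he : e ≠ 0) : TD.Jd k e ≠ 0 := by
  intro h0
  have h1 := ValInd.order_Jd (K := k) e he
  rw [h0, HahnSeries.order_zero] at h1
  have : (e : ℤ) = 0 := by omega
  exact he (by exact_mod_cast this)

/-- `red` of two equal series. -/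
theorem red_eq_of_eq {L : Type*} [Field L] {A : ValuationSubring L} {k : Type*} [Field k]
    {π : A →+* k} {y z : LaurentSeries L} (e : y = z) (hy : y ∈ gaussRing A π)
    (hz : z ∈ gaussRing A π) : red A π ⟨y, hy⟩ = red A π ⟨z, hz⟩ := by
  subst e
  rfl

/-! ### The chart function: generic base -/

section Generic

variable {L : Type} [Field L] [Algebra ℚ L] {A : ValuationSubring L} {k : Type} [Field k]
  {π : A →+* k} {M' q : ℕ} [NeZero M'] [NeZero q]

/-- The chart function `x = J_0 J_2` has `q`-order `-(M' + M' q²) ≠ 0`. -/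
theorem order_J0_mul_J2_ne_zero (L : Type) [Field L] [Algebra ℚ L] (M' q : ℕ) [NeZero M']
    [NeZero q] :
    (((CuspQuot.J0 (q := q) L M' * CuspQuot.J2 (q := q) L M' :
      ↥(laurentBaseChange L (modularFunctionFieldFull (M' * q * q)))) : LaurentSeries L)).order
      ≠ 0 := by
  have hM : M' ≠ 0 := NeZero.ne M'
  have hq : q ≠ 0 := NeZero.ne q
  have hMqq : M' * q * q ≠ 0 := Nat.mul_ne_zero (Nat.mul_ne_zero hM hq) hq
  have e : (((CuspQuot.J0 (q := q) L M' * CuspQuot.J2 (q := q) L M' :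
      ↥(laurentBaseChange L (modularFunctionFieldFull (M' * q * q)))) : LaurentSeries L))
      = TD.Jd L M' * TD.Jd L (M' * q * q) := by
    rw [← CuspQuot.coe_J0 (q := q) L M', ← CuspQuot.coe_J2 (q := q) L M']
    rfl
  rw [e, HahnSeries.order_mul (Jd_ne_zero_of_ne L hM) (Jd_ne_zero_of_ne L hMqq),
    ValInd.order_Jd (K := L) M' hM, ValInd.order_Jd (K := L) (M' * q * q) hMqq]
  have h1 : (0 : ℤ) < (M' : ℤ) := by exact_mod_cast Nat.pos_of_ne_zero hM
  have h2 : (0 : ℤ) < ((M' * q * q : ℕ) : ℤ) := by exact_mod_cast Nat.pos_of_ne_zero hMqq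
  omega

/-- `J_0 ∈ O_∞`, with nonzero reduction. -/
theorem J0_mem_OInf3 (h : BadSetup A π M' q) : CuspQuot.J0 (q := q) L M' ∈ OInf3 h := by
  rw [mem_OInf3_iff, CuspQuot.coe_J0]
  exact Jd_mem_gaussRing A π M'

theorem J2_mem_OInf3 (h : BadSetup A π M' q) : CuspQuot.J2 (q := q) L M' ∈ OInf3 h := by
  rw [mem_OInf3_iff, CuspQuot.coe_J2]
  exact Jd_mem_gaussRing A π (M' * q * q)

theorem J0_inv_mem_OInf3 (h : BadSetup A π M' q) : (CuspQuot.J0 (q := q) L M')⁻¹ ∈ OInf3 h := by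
  refine inv_mem_OInf3 h _ (J0_mem_OInf3 h) ?_
  intro h0
  have h1 : ((redInf3 h ⟨_, J0_mem_OInf3 h⟩ : modularFunctionFieldFullC k M') : LaurentSeries k)
      = TD.Jd k M' :=
    (coe_redInf3 h _ _).trans ((red_eq_of_eq (CuspQuot.coe_J0 (q := q) L M') _
      (Jd_mem_gaussRing A π M')).trans (red_Jd A π M' _))
  rw [h0] at h1
  exact Jd_ne_zero_of_ne k (NeZero.ne M') h1.symm

theorem J2_inv_mem_OInf3 (h : BadSetup A π M' q) : (CuspQuot.J2 (q := q) L M')⁻¹ ∈ OInf3 h := by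
  refine inv_mem_OInf3 h _ (J2_mem_OInf3 h) ?_
  intro h0
  have h1 : ((redInf3 h ⟨_, J2_mem_OInf3 h⟩ : modularFunctionFieldFullC k M') : LaurentSeries k)
      = TD.Jd k (M' * q * q) :=
    (coe_redInf3 h _ _).trans ((red_eq_of_eq (CuspQuot.coe_J2 (q := q) L M') _
      (Jd_mem_gaussRing A π (M' * q * q))).trans (red_Jd A π (M' * q * q) _))
  rw [h0] at h1
  exact Jd_ne_zero_of_ne k
    (Nat.mul_ne_zero (Nat.mul_ne_zero (NeZero.ne M') (NeZero.ne q)) (NeZero.ne q)) h1.symm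

/-- `x = J_0 J_2 ∈ O_∞` and `x⁻¹ ∈ O_∞`. -/
theorem x_mem_OInf3 (h : BadSetup A π M' q) :
    CuspQuot.J0 (q := q) L M' * CuspQuot.J2 (q := q) L M' ∈ OInf3 h :=
  (OInf3 h).mul_mem _ _ (J0_mem_OInf3 h) (J2_mem_OInf3 h)

theorem x_inv_mem_OInf3 (h : BadSetup A π M' q) :
    (CuspQuot.J0 (q := q) L M' * CuspQuot.J2 (q := q) L M')⁻¹ ∈ OInf3 h := by
  rw [mul_inv]
  exact (OInf3 h).mul_mem _ _ (J0_inv_mem_OInf3 h) (J2_inv_mem_OInf3 h)

variable {w : laurentBaseChange L (modularFunctionFieldFull (M' * q * q)) ≃ₐ[L]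
    laurentBaseChange L (modularFunctionFieldFull (M' * q * q))}

/-- The Atkin–Lehner involution fixes the chart function `x = J_0 J_2`. -/
theorem w_x (hw : IsAL3 M' q w) :
    w (CuspQuot.J0 (q := q) L M' * CuspQuot.J2 (q := q) L M')
      = CuspQuot.J0 (q := q) L M' * CuspQuot.J2 (q := q) L M' := by
  have h0 : w (CuspQuot.J0 (q := q) L M') = CuspQuot.J2 (q := q) L M' := hw.pi0 _
  have h2 : w (CuspQuot.J2 (q := q) L M') = CuspQuot.J0 (q := q) L M' := hw.pi2 _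
  rw [map_mul, h0, h2]
  exact mul_comm _ _

theorem x_mem_OZero3 (h : BadSetup A π M' q) (hw : IsAL3 M' q w) :
    CuspQuot.J0 (q := q) L M' * CuspQuot.J2 (q := q) L M' ∈ OZero3 h w := by
  rw [mem_OZero3_iff, w_x hw]
  exact x_mem_OInf3 h

theorem x_inv_mem_OZero3 (h : BadSetup A π M' q) (hw : IsAL3 M' q w) :
    (CuspQuot.J0 (q := q) L M' * CuspQuot.J2 (q := q) L M')⁻¹ ∈ OZero3 h w := by
  rw [mem_OZero3_iff, map_inv₀, w_x hw]
  exact x_inv_mem_OInf3 h

end Generic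

/-! ### The instance `(L, A, π) = (K0, W0, resW0)` -/

section K0Inst

set_option synthInstance.maxHeartbeats 400000
set_option maxHeartbeats 1600000

variable {q : ℕ} [NeZero q] (hq : q.Prime) (A : ValuationSubring Qb) (hA : A.LiesOverPrime q)
  {ζ : Qb} (hζ : IsPrimitiveRoot ζ q) (M' : ℕ) [NeZero M'] (hqM : ¬ q ∣ M')

/-- The function field `F3 = K0 · F_{M' q²}`. -/
abbrev F3 (A : ValuationSubring Qb) (M' q : ℕ) : Type :=
  ↥(laurentBaseChange ↥(K0 A) (modularFunctionFieldFull (M' * q * q)))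

/-- The chart function `x = J_0 J_2 = π_0^*(x_L) · π_2^*(x_L)` (ruling #6, convention B). -/
abbrev xChart (A : ValuationSubring Qb) (M' q : ℕ) [NeZero M'] [NeZero q] : F3 A M' q :=
  CuspQuot.J0 (q := q) ↥(K0 A) M' * CuspQuot.J2 (q := q) ↥(K0 A) M'

/-- The vertical family `![O_∞, O_mid, O_0]`. -/
abbrev comp3 (w : F3 A M' q ≃ₐ[↥(K0 A)] F3 A M' q) : Fin 3 → ValuationSubring (F3 A M' q) :=
  ![OInf3 (badSetup_W0 hq hA M' hqM), OMid hq A hA hζ M' hqM (IsLocalRing.residue A),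
    OZero3 (badSetup_W0 hq hA M' hqM) w]

/-- A statement about the three components, componentwise. -/
theorem forall_comp3 {P : ValuationSubring (F3 A M' q) → Prop}
    (w : F3 A M' q ≃ₐ[↥(K0 A)] F3 A M' q)
    (h0 : P (OInf3 (badSetup_W0 hq hA M' hqM)))
    (h1 : P (OMid hq A hA hζ M' hqM (IsLocalRing.residue A)))
    (h2 : P (OZero3 (badSetup_W0 hq hA M' hqM) w)) :
    ∀ i, P (comp3 hq A hA hζ M' hqM w i) := by
  intro i
  fin_cases i
  · exact h0
  · exact h1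
  · exact h2

theorem residue_eq_zero_of_not_isUnit (a : A) (ha : ¬ IsUnit a) : IsLocalRing.residue A a = 0 :=
  (IsLocalRing.residue_eq_zero_iff a).mpr ((IsLocalRing.mem_maximalIdeal a).mpr ha)

/-- `J_0 = J(q^M')` as a generator `JK`. -/
theorem J0_eq_JK : CuspQuot.J0 (q := q) ↥(K0 A) M'
    = JK (inertiaField A) (M' * q * q) ⟨M', ⟨q * q, by ring⟩⟩ :=
  Subtype.ext (by rw [CuspQuot.coe_J0, coe_JK])

/-- `J_2 = J(q^(M' q²))` as a generator `JK`. -/
theorem J2_eq_JK : CuspQuot.J2 (q := q) ↥(K0 A) M'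
    = JK (inertiaField A) (M' * q * q) ⟨M' * q * q, dvd_rfl⟩ :=
  Subtype.ext (by rw [CuspQuot.coe_J2, coe_JK])

include hq hA in
/-- The inverses of the generators `J(q^d)` lie in `O_mid`. -/
theorem JK_inv_mem_OMid (d : Dv (M' * q * q)) :
    (JK (inertiaField A) (M' * q * q) d)⁻¹ ∈ OMid hq A hA hζ M' hqM (IsLocalRing.residue A) := by
  have hπ := residue_eq_zero_of_not_isUnit A
  have hm := JK_mem_OMid hq A hA hζ M' hqM (IsLocalRing.residue A) hπ d
  have hr := redMid_JK hq A hA hζ M' hqM (IsLocalRing.residue A) hπ d hm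
  have hN : M' * q * q ≠ 0 :=
    Nat.mul_ne_zero (Nat.mul_ne_zero (NeZero.ne M') (NeZero.ne q)) (NeZero.ne q)
  have hd0 : d.1 ≠ 0 := by
    intro h0
    have h1 := d.2
    rw [h0] at h1
    exact hN (Nat.eq_zero_of_zero_dvd h1)
  have hidx : (if q ^ 2 ∣ d.1 then d.1 / q ^ 2 else d.1) ≠ 0 := by
    split_ifs with hdvd
    · exact (Nat.div_pos (Nat.le_of_dvd (Nat.pos_of_ne_zero hd0) hdvd)
        (pow_pos hq.pos 2)).ne'
    · exact hd0
  have hu : IsUnit (⟨_, hm⟩ : OMid hq A hA hζ M' hqM (IsLocalRing.residue A)) := by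
    by_contra hnu
    have h0 := (redMid_eq_zero_iff hq A hA hζ M' hqM (IsLocalRing.residue A) _).mpr hnu
    rw [hr] at h0
    exact Jd_ne_zero_of_ne _ hidx h0
  have hinv := inv_mem_of_isUnit (OMid hq A hA hζ M' hqM (IsLocalRing.residue A)) ⟨_, hm⟩ hu
  exact hinv

include hq hA in
theorem x_mem_OMid :
    xChart A M' q ∈ OMid hq A hA hζ M' hqM (IsLocalRing.residue A) := by
  have hπ := residue_eq_zero_of_not_isUnit A
  show CuspQuot.J0 (q := q) ↥(K0 A) M' * CuspQuot.J2 (q := q) ↥(K0 A) M' ∈ _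
  rw [J0_eq_JK, J2_eq_JK]
  exact (OMid hq A hA hζ M' hqM (IsLocalRing.residue A)).mul_mem _ _
    (JK_mem_OMid hq A hA hζ M' hqM (IsLocalRing.residue A) hπ _)
    (JK_mem_OMid hq A hA hζ M' hqM (IsLocalRing.residue A) hπ _)

include hq hA in
theorem x_inv_mem_OMid :
    (xChart A M' q)⁻¹ ∈ OMid hq A hA hζ M' hqM (IsLocalRing.residue A) := by
  show (CuspQuot.J0 (q := q) ↥(K0 A) M' * CuspQuot.J2 (q := q) ↥(K0 A) M')⁻¹ ∈ _
  rw [J0_eq_JK, J2_eq_JK, mul_inv]
  exact (OMid hq A hA hζ M' hqM (IsLocalRing.residue A)).mul_mem _ _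
    (JK_inv_mem_OMid hq A hA hζ M' hqM _) (JK_inv_mem_OMid hq A hA hζ M' hqM _)

/-- Constants of `K0` as elements `CK`. -/
theorem algebraMap_eq_CK (c : ↥(K0 A)) :
    algebraMap ↥(K0 A) (F3 A M' q) c = CK (inertiaField A) (M' * q * q) c :=
  Subtype.ext (by
    rw [coe_CK, Lib.Red.C_eq_algebraMap]
    rfl)

/-- `x` and `x⁻¹` lie in the three components. -/
theorem x_mem_comp3 (w : F3 A M' q ≃ₐ[↥(K0 A)] F3 A M' q) (hw : IsAL3 M' q w) :
    ∀ i, xChart A M' q ∈ comp3 hq A hA hζ M' hqM w i :=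
  forall_comp3 (P := fun V => xChart A M' q ∈ V) hq A hA hζ M' hqM w
    (x_mem_OInf3 (badSetup_W0 hq hA M' hqM)) (x_mem_OMid hq A hA hζ M' hqM)
    (x_mem_OZero3 (badSetup_W0 hq hA M' hqM) hw)

theorem x_inv_mem_comp3 (w : F3 A M' q ≃ₐ[↥(K0 A)] F3 A M' q) (hw : IsAL3 M' q w) :
    ∀ i, (xChart A M' q)⁻¹ ∈ comp3 hq A hA hζ M' hqM w i :=
  forall_comp3 (P := fun V => (xChart A M' q)⁻¹ ∈ V) hq A hA hζ M' hqM w
    (x_inv_mem_OInf3 (badSetup_W0 hq hA M' hqM)) (x_inv_mem_OMid hq A hA hζ M' hqM)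
    (x_inv_mem_OZero3 (badSetup_W0 hq hA M' hqM) hw)

/-- Constants: `c ∈ W0` lies in the three components. -/
theorem algebraMap_K0_mem_comp3 (w : F3 A M' q ≃ₐ[↥(K0 A)] F3 A M' q) (c : ↥(K0 A))
    (hc : c ∈ W0 A) : ∀ i, algebraMap ↥(K0 A) (F3 A M' q) c ∈ comp3 hq A hA hζ M' hqM w i := by
  refine forall_comp3 (P := fun V => algebraMap ↥(K0 A) (F3 A M' q) c ∈ V) hq A hA hζ M' hqM w
    ?_ ?_ ?_
  · exact (algebraMap_mem_OInf3_iff (badSetup_W0 hq hA M' hqM) c).mpr hc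
  · rw [algebraMap_eq_CK]
    exact (CK_mem_OMid_iff hq A hA hζ M' hqM (IsLocalRing.residue A)
      (residue_eq_zero_of_not_isUnit A) c).mpr hc
  · exact (algebraMap_mem_OZero3_iff (badSetup_W0 hq hA M' hqM) c).mpr hc

section Tower

variable [Algebra ↥(W0 A) (F3 A M' q)] [IsScalarTower ↥(W0 A) ↥(K0 A) (F3 A M' q)]

/-- `W0` lies in the three components. -/
theorem algebraMap_W0_mem_comp3 (w : F3 A M' q ≃ₐ[↥(K0 A)] F3 A M' q) (c : ↥(W0 A)) :
    ∀ i, algebraMap ↥(W0 A) (F3 A M' q) c ∈ comp3 hq A hA hζ M' hqM w i := by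
  rw [IsScalarTower.algebraMap_apply ↥(W0 A) ↥(K0 A) (F3 A M' q)]
  exact algebraMap_K0_mem_comp3 hq A hA hζ M' hqM w _ c.2

/-- **`hRV`**: the finite chart `R = chart W0 x` lies in the three components. -/
theorem chart_le_comp3 (w : F3 A M' q ≃ₐ[↥(K0 A)] F3 A M' q) (hw : IsAL3 M' q w) :
    ∀ i, ∀ r ∈ chart ↥(W0 A) (xChart A M' q), r ∈ comp3 hq A hA hζ M' hqM w i :=
  fun i _ hr => Local.Inst.ChartFields.mem_of_isIntegral_adjoin _
    (fun c => algebraMap_W0_mem_comp3 hq A hA hζ M' hqM w c i)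
    (x_mem_comp3 hq A hA hζ M' hqM w hw i) ((mem_chart_iff).mp hr)

/-- **`hR'V`**: the chart at infinity `R' = chart W0 x⁻¹` lies in the three components. -/
theorem chart_inv_le_comp3 (w : F3 A M' q ≃ₐ[↥(K0 A)] F3 A M' q) (hw : IsAL3 M' q w) :
    ∀ i, ∀ r ∈ chart ↥(W0 A) (xChart A M' q)⁻¹, r ∈ comp3 hq A hA hζ M' hqM w i :=
  fun i _ hr => Local.Inst.ChartFields.mem_of_isIntegral_adjoin _
    (fun c => algebraMap_W0_mem_comp3 hq A hA hζ M' hqM w c i)
    (x_inv_mem_comp3 hq A hA hζ M' hqM w hw i) ((mem_chart_iff).mp hr)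

end Tower

/-! ### `q` in the three components: `hqV` and the ramification bound `he` -/

/-- A non-unit of a valuation subring, as an element of its `nonunits`. -/
theorem coe_mem_nonunits_of_not_isUnit {F : Type*} [Field F] (V : ValuationSubring F) (f : V)
    (h : ¬ IsUnit f) : (f : F) ∈ V.nonunits := by
  rw [ValuationSubring.mem_nonunits_iff_exists_mem_maximalIdeal]
  exact ⟨f.2, by rw [IsLocalRing.mem_maximalIdeal, mem_nonunits_iff]; exact h⟩

include hq hA in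
/-- `q` is a non-unit of `O_mid`. -/
theorem natCast_mem_nonunits_OMid :
    ((q : ℕ) : F3 A M' q) ∈ (OMid hq A hA hζ M' hqM (IsLocalRing.residue A)).nonunits := by
  have hπ := residue_eq_zero_of_not_isUnit A
  have e : ((q : ℕ) : F3 A M' q) = CK (inertiaField A) (M' * q * q) ((q : ℕ) : ↥(K0 A)) := by
    rw [← algebraMap_eq_CK, map_natCast]
  have hc : ((((q : ℕ) : ↥(K0 A)) : ↥(K0 A)) : Qb) ∈ A := (natCast_mem (W0 A) q : _)
  have hm : CK (inertiaField A) (M' * q * q) ((q : ℕ) : ↥(K0 A))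
      ∈ OMid hq A hA hζ M' hqM (IsLocalRing.residue A) :=
    (CK_mem_OMid_iff hq A hA hζ M' hqM (IsLocalRing.residue A) hπ _).mpr hc
  have hr := redMid_CK hq A hA hζ M' hqM (IsLocalRing.residue A) _ hc hm
  have h0 : IsLocalRing.residue A ⟨_, hc⟩ = 0 := by
    have h1 : (⟨((((q : ℕ) : ↥(K0 A)) : ↥(K0 A)) : Qb), hc⟩ : A) = ((q : ℕ) : A) :=
      Subtype.ext (by push_cast; rfl)
    rw [h1, map_natCast]
    exact natCast_eq_zero_of_liesOver A (IsLocalRing.residue A) hπ hA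
  have hnu : ¬ IsUnit (⟨_, hm⟩ : OMid hq A hA hζ M' hqM (IsLocalRing.residue A)) :=
    (redMid_eq_zero_iff hq A hA hζ M' hqM (IsLocalRing.residue A) _).mp
      (by rw [hr, h0, map_zero])
  rw [e]
  exact coe_mem_nonunits_of_not_isUnit _ _ hnu

include hq hA in
/-- **`hqV`** (natural-number form): `q` is a non-unit of the three components. -/
theorem natCast_mem_nonunits_comp3 (w : F3 A M' q ≃ₐ[↥(K0 A)] F3 A M' q) :
    ∀ i, ((q : ℕ) : F3 A M' q) ∈ (comp3 hq A hA hζ M' hqM w i).nonunits :=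
  forall_comp3 (P := fun V => ((q : ℕ) : F3 A M' q) ∈ V.nonunits) hq A hA hζ M' hqM w
    (Restrict.isUnif_OInf3_natCast (badSetup_W0 hq hA M' hqM) q
      (Restrict.isUnif_W0 hq hA)).mem_nonunits
    (natCast_mem_nonunits_OMid hq A hA hζ M' hqM)
    (RestrictZero.isUnif_OZero3_natCast (badSetup_W0 hq hA M' hqM) w q
      (Restrict.isUnif_W0 hq hA)).mem_nonunits

include hq hA in
/-- **`he`** (natural-number form), with `e = q - 1`: `z ^ (q - 1) / q` is integral on each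
component for every non-unit `z` (`q` is a uniformiser of `O_∞`, `O_0`; `d_mid ^ (q - 1) / q` is
a unit of `O_mid`). -/
theorem pow_div_natCast_mem_comp3 (w : F3 A M' q ≃ₐ[↥(K0 A)] F3 A M' q) :
    ∀ i, ∀ z ∈ (comp3 hq A hA hζ M' hqM w i).nonunits,
      z ^ (q - 1) / ((q : ℕ) : F3 A M' q) ∈ comp3 hq A hA hζ M' hqM w i := by
  have hπ := residue_eq_zero_of_not_isUnit A
  have hq1 : 0 < q - 1 := Nat.sub_pos_of_lt hq.one_lt
  refine forall_comp3 (P := fun V => ∀ z ∈ V.nonunits, z ^ (q - 1) / ((q : ℕ) : F3 A M' q) ∈ V)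
    hq A hA hζ M' hqM w ?_ ?_ ?_
  · exact pow_div_mem_of_isUnif_self
      (Restrict.isUnif_OInf3_natCast (badSetup_W0 hq hA M' hqM) q (Restrict.isUnif_W0 hq hA)) hq1
  · refine pow_div_mem_of_isUnif
      (isUnif_dMid hq A hA hζ M' hqM (IsLocalRing.residue A) hπ) ?_
    obtain ⟨t, ht, -⟩ := exists_dMid_pow hq A hA hζ M' hqM (IsLocalRing.residue A) hπ
    have hq0 : ((q : ℕ) : F3 A M' q) ≠ 0 := Nat.cast_ne_zero.mpr hq.ne_zero
    rw [ht, mul_div_cancel_left₀ _ hq0]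
    exact t.2
  · exact pow_div_mem_of_isUnif_self
      (RestrictZero.isUnif_OZero3_natCast (badSetup_W0 hq hA M' hqM) w q
        (Restrict.isUnif_W0 hq hA)) hq1

/-! ### The base ring `W0` -/

include hq hA in
/-- A natural number prime to `q` is invertible in `W0`. -/
theorem exists_natCast_mul_eq_one (m : ℕ) (hqm : ¬ q ∣ m) :
    ∃ m' : ↥(W0 A), ((m : ℕ) : ↥(W0 A)) * m' = 1 := by
  have hqk : (q : IsLocalRing.ResidueField A) = 0 := resW0_natCast_eq_zero hq hA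
  haveI : CharP (IsLocalRing.ResidueField A) q := (CharP.charP_iff_prime_eq_zero hq).mpr hqk
  have hu : IsUnit ((m : ℕ) : ↥(W0 A)) := by
    by_contra hnu
    have h0 := resW0_eq_zero_of_not_isUnit A _ hnu
    rw [map_natCast] at h0
    exact hqm ((CharP.cast_eq_zero_iff (IsLocalRing.ResidueField A) q m).mp h0)
  exact hu.exists_right_inv

include hq hA in
theorem isNoetherianRing_W0 : IsNoetherianRing ↥(W0 A) := by
  haveI := isDiscreteValuationRing_W0 hq hA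
  infer_instance

theorem isIntegrallyClosed_W0 : IsIntegrallyClosed ↥(W0 A) := inferInstance

theorem natCast_W0_ne_zero (hq : q.Prime) : ((q : ℕ) : ↥(W0 A)) ≠ 0 :=
  Nat.cast_ne_zero.mpr hq.ne_zero

/-! ### The chart theorem at the CAR objects -/

section Main

variable [Algebra ↥(W0 A) (F3 A M' q)] [IsScalarTower ↥(W0 A) ↥(K0 A) (F3 A M' q)]

include hq hA in
/-- **`hqV`** in the literal shape of the chart theorem. -/
theorem algebraMap_natCast_mem_nonunits_comp3 (w : F3 A M' q ≃ₐ[↥(K0 A)] F3 A M' q) :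
    ∀ i, algebraMap ↥(W0 A) (F3 A M' q) ((q : ℕ) : ↥(W0 A))
      ∈ (comp3 hq A hA hζ M' hqM w i).nonunits := by
  rw [map_natCast]
  exact natCast_mem_nonunits_comp3 hq A hA hζ M' hqM w

include hq hA in
/-- **`he`** in the literal shape of the chart theorem (`e = q - 1`). -/
theorem pow_div_algebraMap_mem_comp3 (w : F3 A M' q ≃ₐ[↥(K0 A)] F3 A M' q) :
    ∀ i, ∀ z ∈ (comp3 hq A hA hζ M' hqM w i).nonunits,
      z ^ (q - 1) / algebraMap ↥(W0 A) (F3 A M' q) ((q : ℕ) : ↥(W0 A))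
        ∈ comp3 hq A hA hζ M' hqM w i := by
  rw [map_natCast]
  exact pow_div_natCast_mem_comp3 hq A hA hζ M' hqM w

include hq hA in
/-- **CAR-37: the chart theorem at the CAR objects.**  `K0` the inertia field of `A` at `q`,
`F3 = K0 · F_{M' q²}`, `x = J_0 J_2`, `R = chart W0 x`, `R' = chart W0 x⁻¹`, the vertical family
`comp3 = ![O_∞, O_mid, O_0]`, `m` prime to `q`.  If the minimal primes over `q` of the two charts
are the centres of the three components (`hmin`, `hmin'`), `f` reduces to `1` on the three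
components (`hf1`) and has local `m`-th roots modulo the radical at the closed points of `R`
(`hlocal`) and at the points `x = ∞` of `R'` (`hlocal'`), then `f` is a nonzero constant of `W0`
times an `m`-th power. -/
theorem exists_eq_const_mul_pow_CAR
    (w : F3 A M' q ≃ₐ[↥(K0 A)] F3 A M' q) (hw : IsAL3 M' q w) (m : ℕ) (hqm : ¬ q ∣ m)
    (hmin : ∀ 𝔮 ∈ (Ideal.span {algebraMap ↥(W0 A) (chart ↥(W0 A) (xChart A M' q))
        ((q : ℕ) : ↥(W0 A))}).minimalPrimes,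
      ∃ i, 𝔮 = Local.centre (comp3 hq A hA hζ M' hqM w i)
        (fun a : chart ↥(W0 A) (xChart A M' q) =>
          chart_le_comp3 hq A hA hζ M' hqM w hw i a a.2))
    (hmin' : ∀ 𝔮 ∈ (Ideal.span {algebraMap ↥(W0 A) (chart ↥(W0 A) (xChart A M' q)⁻¹)
        ((q : ℕ) : ↥(W0 A))}).minimalPrimes,
      ∃ i, 𝔮 = Local.centre (comp3 hq A hA hζ M' hqM w i)
        (fun a : chart ↥(W0 A) (xChart A M' q)⁻¹ =>
          chart_inv_le_comp3 hq A hA hζ M' hqM w hw i a a.2))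
    (f : F3 A M' q)
    (hf1 : ∀ i, f - 1 ∈ (comp3 hq A hA hζ M' hqM w i).nonunits)
    (hlocal : ∀ Q : Ideal (chart ↥(W0 A) (xChart A M' q)), Q.IsMaximal →
      algebraMap ↥(W0 A) (chart ↥(W0 A) (xChart A M' q)) ((q : ℕ) : ↥(W0 A)) ∈ Q →
      ∃ h : chart ↥(W0 A) (xChart A M' q), h ∉ Q ∧
        ∃ s : F3 A M' q, s ^ m * f ∈ chart ↥(W0 A) (xChart A M' q) ∧
          ∀ i, s - h ∈ (comp3 hq A hA hζ M' hqM w i).nonunits)
    (hlocal' : ∀ Q : Ideal (chart ↥(W0 A) (xChart A M' q)⁻¹), Q.IsMaximal →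
      algebraMap ↥(W0 A) (chart ↥(W0 A) (xChart A M' q)⁻¹) ((q : ℕ) : ↥(W0 A)) ∈ Q →
      (⟨(xChart A M' q)⁻¹, self_mem_chart (xChart A M' q)⁻¹⟩ :
        chart ↥(W0 A) (xChart A M' q)⁻¹) ∈ Q →
      ∃ h : chart ↥(W0 A) (xChart A M' q)⁻¹, h ∉ Q ∧
        ∃ s : F3 A M' q, s ^ m * f ∈ chart ↥(W0 A) (xChart A M' q)⁻¹ ∧
          ∀ i, s - h ∈ (comp3 hq A hA hζ M' hqM w i).nonunits) :
    ∃ (c : ↥(W0 A)) (τ : F3 A M' q), τ ≠ 0 ∧ algebraMap ↥(W0 A) (F3 A M' q) c ≠ 0 ∧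
      f = algebraMap ↥(W0 A) (F3 A M' q) c * τ ^ m := by
  haveI := isNoetherianRing_W0 hq A hA
  obtain ⟨m', hmm⟩ := exists_natCast_mul_eq_one hq A hA m hqm
  exact exists_eq_const_mul_pow_of_charts_FNK ↥(K0 A) (M' * q * q)
    ((q : ℕ) : ↥(W0 A)) (natCast_W0_ne_zero A hq) m m' hmm (xChart A M' q)
    (order_J0_mul_J2_ne_zero ↥(K0 A) M' q) (comp3 hq A hA hζ M' hqM w)
    (chart_le_comp3 hq A hA hζ M' hqM w hw) (chart_inv_le_comp3 hq A hA hζ M' hqM w hw)
    (algebraMap_natCast_mem_nonunits_comp3 hq A hA hζ M' hqM w) hmin hmin' (q - 1)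
    (pow_div_algebraMap_mem_comp3 hq A hA hζ M' hqM w) f hf1 hlocal hlocal'

end Main

end K0Inst

end Fermat.Agent.CAR.Inst.ChartsCAR

end
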