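import Mathlib
import Fermat.Agent.CAR.V3.Zero
import Fermat.Agent.CAR.V3.Restrict
import Fermat.Agent.CAR.Glob.CuspQuotInst
import Fermat.Agent.CAR.Glob.Charts
import Fermat.Agent.CAR.Lift

/-!
# CAR (instance layer, G3): the pull-back fields of the contract, on the raw V3 objects

Setting: `h : BadSetup A π M' q` (base `(L, A, π, k)`), `F₃ = L·F_{M' q²}` with its components
`O_∞ = OInf3 h`, `O_0 = OZero3 h w` (`hw : IsAL3 M' q w`), the three pull-backs
`π_i^* = piStar_i L M' q : F' → F₃` from `F' = L·F_{M'}`, the Gauss ring `Ow` of `F'` with its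
reduction `redF`, and the twist `ψ = FrobAut.vHom k q M'` (`h(t) ↦ h(t^q)`) of the residue field.

* `div_mem_of_isUnif` : the `Contract` shape `∀ z ∈ O.nonunits, z / ϖ ∈ O` of a uniformiser;
  `unif_inf`, `unif_zero` : `q` is a uniformiser of `O_∞`, `O_0` in that shape;
* `inf_pi0`, `zero_pi2` : `red_∞ ∘ π_0^* = red`, `red_0 ∘ π_2^* = red`;
* `inf_pi1`, `zero_pi1` : `red_∞ ∘ π_1^* = ψ ∘ red`, `red_0 ∘ π_1^* = ψ ∘ red`; `inf_pi2`,
  `zero_pi0` : the double twists; `frob` : every `q`-th power of `κ` is in the image of `ψ`;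
* `isIntegral_piStar0/1/2` : `π_i^*` maps the integral closure of `A[J]` in `F'` into the integral
  closure of every subring of `F₃` containing `A` and `J_0 J_2`;
  `piStar0/1/2_mem_chart` : the same in the vocabulary of `Glob.Charts.chart W (J_0 * J_2)`, for
  any `W`-algebra structures on `F'`, `F₃` with image `A`.
-/

set_option autoImplicit false

namespace Fermat.Agent.CAR.Inst.Pull

open HahnSeries ModularCurve Polynomial AlgebraicCurve Fermat.Agent.Lib.Red Fermat.Agent.S28
open Fermat.Agent.BAD.TwoVal Fermat.Agent.CAR.Formal Fermat.Agent.CAR.V3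
open Fermat.Agent.CAR.Glob Fermat.Agent.CAR.Glob.CuspQuot

noncomputable section

/-! ### Uniformisers in the shape of the contract -/

/-- A uniformiser `ϖ` of a discrete valuation ring `O` divides every non-unit in `O`. -/
theorem div_mem_of_isUnif {F : Type*} [Field F] {O : ValuationSubring F} {ϖ : F}
    (h : IsUnif O ϖ) : ∀ z ∈ O.nonunits, z / ϖ ∈ O := by
  intro z hz
  by_cases hz0 : z = 0
  · rw [hz0, zero_div]
    exact O.zero_mem
  have h1 : 0 < h.ord z := (h.ord_pos_iff hz0).2 hz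
  have hne : z / ϖ ≠ 0 := div_ne_zero hz0 h.ne_zero
  have h2 : h.ord (z / ϖ) = h.ord z - h.ord ϖ := h.ord_div hz0 h.ne_zero
  have h3 : h.ord ϖ = 1 := by
    refine h.ord_eq (n := 1) (u := 1) O.one_mem (by rw [inv_one]; exact O.one_mem)
      one_ne_zero ?_
    rw [zpow_one, mul_one]
  rw [← h.ord_nonneg_iff hne, h2, h3]
  omega

/-- Integrality over `W[x]` gives integrality over every subring containing the image of `W`
and `x`. -/
theorem isIntegral_subring_of_adjoin {W F : Type*} [CommRing W] [Field F] [Algebra W F]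
    {x y : F} (hy : IsIntegral ↥(Algebra.adjoin W {x}) y) (R : Subring F)
    (hW : ∀ w : W, algebraMap W F w ∈ R) (hx : x ∈ R) : IsIntegral R y := by
  have hle : (Algebra.adjoin W {x}).toSubring ≤ R := by
    rw [Algebra.adjoin_eq_ring_closure, Subring.closure_le]
    rintro v (⟨r, rfl⟩ | hv)
    · exact hW r
    · rw [Set.mem_singleton_iff] at hv
      rw [hv]
      exact hx
  obtain ⟨p, hp, hpy⟩ := hy
  refine ⟨p.map (Subring.inclusion hle), hp.map _, ?_⟩
  rw [Polynomial.eval₂_map]
  exact hpy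

section Bad

variable {L : Type} [Field L] [Algebra ℚ L] {A : ValuationSubring L} {k : Type} [Field k]
  {π : A →+* k} {M' q : ℕ} [NeZero M'] [NeZero q]
  {w : laurentBaseChange L (modularFunctionFieldFull (M' * q * q)) ≃ₐ[L]
    laurentBaseChange L (modularFunctionFieldFull (M' * q * q))}

/-- **`unif_inf`**: `q` is a uniformiser of `O_∞`, in the shape of the contract. -/
theorem unif_inf (h : BadSetup A π M' q) (hA : IsUnif A ((q : ℕ) : L)) :
    ∀ z ∈ (OInf3 h).nonunits,
      z / ((q : ℕ) : ↥(laurentBaseChange L (modularFunctionFieldFull (M' * q * q)))) ∈ OInf3 h :=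
  div_mem_of_isUnif (Restrict.isUnif_OInf3_natCast h q hA)

/-- **`unif_zero`**: `q` is a uniformiser of `O_0`, in the shape of the contract. -/
theorem unif_zero (h : BadSetup A π M' q)
    (w : laurentBaseChange L (modularFunctionFieldFull (M' * q * q)) ≃ₐ[L]
      laurentBaseChange L (modularFunctionFieldFull (M' * q * q)))
    (hA : IsUnif A ((q : ℕ) : L)) :
    ∀ z ∈ (OZero3 h w).nonunits,
      z / ((q : ℕ) : ↥(laurentBaseChange L (modularFunctionFieldFull (M' * q * q)))) ∈
        OZero3 h w :=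
  div_mem_of_isUnif (Restrict.isUnif_comap_OInf3_natCast h w q hA)

/-- `q` is a non-unit of `O_∞`. -/
theorem q_mem_inf (h : BadSetup A π M' q) (hA : IsUnif A ((q : ℕ) : L)) :
    ((q : ℕ) : ↥(laurentBaseChange L (modularFunctionFieldFull (M' * q * q)))) ∈
      (OInf3 h).nonunits :=
  (Restrict.isUnif_OInf3_natCast h q hA).mem_nonunits

/-- `q` is a non-unit of `O_0`. -/
theorem q_mem_zero (h : BadSetup A π M' q)
    (w : laurentBaseChange L (modularFunctionFieldFull (M' * q * q)) ≃ₐ[L]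
      laurentBaseChange L (modularFunctionFieldFull (M' * q * q)))
    (hA : IsUnif A ((q : ℕ) : L)) :
    ((q : ℕ) : ↥(laurentBaseChange L (modularFunctionFieldFull (M' * q * q)))) ∈
      (OZero3 h w).nonunits :=
  (Restrict.isUnif_comap_OInf3_natCast h w q hA).mem_nonunits

/-! ### The untwisted compatibilities -/

/-- **`inf_π₀`**: `red_∞ ∘ π_0^* = red`. -/
theorem inf_pi0 (h : BadSetup A π M' q)
    (y : laurentBaseChange L (modularFunctionFieldFull M')) (hy : y ∈ Ow A π M' h.hMk) :
    ∃ hy' : piStar0 L M' q y ∈ OInf3 h,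
      redInf3 h ⟨piStar0 L M' q y, hy'⟩ = redF A π M' h.hπ h.hMk ⟨y, hy⟩ :=
  ⟨(piStar0_mem_OInf3_iff h y).2 hy, redInf3_piStar0 h y hy _⟩

/-- **`zero_π₂`**: `red_0 ∘ π_2^* = red`. -/
theorem zero_pi2 (h : BadSetup A π M' q) (hw : IsAL3 M' q w)
    (y : laurentBaseChange L (modularFunctionFieldFull M')) (hy : y ∈ Ow A π M' h.hMk) :
    ∃ hy' : piStar2 L M' q y ∈ OZero3 h w,
      redZero3 h w ⟨piStar2 L M' q y, hy'⟩ = redF A π M' h.hπ h.hMk ⟨y, hy⟩ :=
  ⟨(piStar2_mem_OZero3_iff h hw y).2 hy, redZero3_piStar2 h hw y hy _⟩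

/-! ### The twisted compatibilities -/

section Psi

variable [Fact q.Prime] [CharP k q] [PerfectRing k q]

/-- **`inf_π₁`**: `red_∞ ∘ π_1^* = ψ ∘ red`. -/
theorem inf_pi1 (h : BadSetup A π M' q)
    (y : laurentBaseChange L (modularFunctionFieldFull M')) (hy : y ∈ Ow A π M' h.hMk) :
    ∃ hy' : piStar1 L M' q y ∈ OInf3 h,
      redInf3 h ⟨piStar1 L M' q y, hy'⟩ =
        Fermat.Agent.ESJ.Cong.FrobAut.vHom k q M' (redF A π M' h.hπ h.hMk ⟨y, hy⟩) :=
  ⟨(piStar1_mem_OInf3_iff h y).2 hy, Subtype.ext (coe_redInf3_piStar1 h y hy _)⟩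

/-- **`zero_π₁`**: `red_0 ∘ π_1^* = ψ ∘ red`. -/
theorem zero_pi1 (h : BadSetup A π M' q) (hw : IsAL3 M' q w)
    (y : laurentBaseChange L (modularFunctionFieldFull M')) (hy : y ∈ Ow A π M' h.hMk) :
    ∃ hy' : piStar1 L M' q y ∈ OZero3 h w,
      redZero3 h w ⟨piStar1 L M' q y, hy'⟩ =
        Fermat.Agent.ESJ.Cong.FrobAut.vHom k q M' (redF A π M' h.hπ h.hMk ⟨y, hy⟩) :=
  ⟨(piStar1_mem_OZero3_iff h hw y).2 hy, Subtype.ext (coe_redZero3_piStar1 h hw y hy _)⟩

/-- `red_∞ ∘ π_2^* = ψ ∘ ψ ∘ red`. -/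
theorem inf_pi2 (h : BadSetup A π M' q)
    (y : laurentBaseChange L (modularFunctionFieldFull M')) (hy : y ∈ Ow A π M' h.hMk) :
    ∃ hy' : piStar2 L M' q y ∈ OInf3 h,
      redInf3 h ⟨piStar2 L M' q y, hy'⟩ =
        Fermat.Agent.ESJ.Cong.FrobAut.vHom k q M'
          (Fermat.Agent.ESJ.Cong.FrobAut.vHom k q M' (redF A π M' h.hπ h.hMk ⟨y, hy⟩)) :=
  ⟨(piStar2_mem_OInf3_iff h y).2 hy, Subtype.ext (coe_redInf3_piStar2 h y hy _)⟩

/-- `red_0 ∘ π_0^* = ψ ∘ ψ ∘ red`. -/
theorem zero_pi0 (h : BadSetup A π M' q) (hw : IsAL3 M' q w)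
    (y : laurentBaseChange L (modularFunctionFieldFull M')) (hy : y ∈ Ow A π M' h.hMk) :
    ∃ hy' : piStar0 L M' q y ∈ OZero3 h w,
      redZero3 h w ⟨piStar0 L M' q y, hy'⟩ =
        Fermat.Agent.ESJ.Cong.FrobAut.vHom k q M'
          (Fermat.Agent.ESJ.Cong.FrobAut.vHom k q M' (redF A π M' h.hπ h.hMk ⟨y, hy⟩)) :=
  ⟨(piStar0_mem_OZero3_iff h hw y).2 hy, Subtype.ext (coe_redZero3_piStar0 h hw y hy _)⟩

omit [NeZero M'] [NeZero q] in
/-- **`frob`**: every `q`-th power of the residue field is in the image of `ψ`. -/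
theorem frob (z : modularFunctionFieldFullC k M') :
    ∃ z' : modularFunctionFieldFullC k M',
      Fermat.Agent.ESJ.Cong.FrobAut.vHom k q M' z' = z ^ q :=
  Restrict.exists_vHom_eq_pow z

end Psi

/-! ### The pull-backs map the level-`M'` integral ring into the chart ring -/

section Chart

variable (A π) in
/-- `π_0^*` maps the integral closure of `A[J]` into the integral closure of every subring of
`F₃` containing `A` and `J_0 J_2`. -/
theorem isIntegral_piStar0 (D : TD.ModEq q)
    (R : Subring ↥(laurentBaseChange L (modularFunctionFieldFull (M' * q * q))))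
    (hA : ∀ a : A, algebraMap L ↥(laurentBaseChange L (modularFunctionFieldFull (M' * q * q)))
      (a : L) ∈ R)
    (hx : J0 (q := q) L M' * J2 L M' ∈ R)
    {y : ↥(laurentBaseChange L (modularFunctionFieldFull M'))}
    (hy : IsIntegral ↥((BaseFn.Data.ofJ A π M').AX) y) : IsIntegral R (piStar0 L M' q y) := by
  refine Lift.isIntegral_map (BaseFn.Data.ofJ A π M') (piStar0 L M' q) R hA ?_ hy
  rw [BaseFn.Data.ofJ_x]
  exact (piStar_isIntegral_of_mul L M' D (R := R) ⟨⟨_, hx⟩, rfl⟩).1

variable (A π) in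
/-- `π_1^*` maps the integral closure of `A[J]` into the integral closure of every subring of
`F₃` containing `A` and `J_0 J_2`. -/
theorem isIntegral_piStar1 (D : TD.ModEq q)
    (R : Subring ↥(laurentBaseChange L (modularFunctionFieldFull (M' * q * q))))
    (hA : ∀ a : A, algebraMap L ↥(laurentBaseChange L (modularFunctionFieldFull (M' * q * q)))
      (a : L) ∈ R)
    (hx : J0 (q := q) L M' * J2 L M' ∈ R)
    {y : ↥(laurentBaseChange L (modularFunctionFieldFull M'))}
    (hy : IsIntegral ↥((BaseFn.Data.ofJ A π M').AX) y) : IsIntegral R (piStar1 L M' q y) := by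
  refine Lift.isIntegral_map (BaseFn.Data.ofJ A π M') (piStar1 L M' q) R hA ?_ hy
  rw [BaseFn.Data.ofJ_x]
  exact (piStar_isIntegral_of_mul L M' D (R := R) ⟨⟨_, hx⟩, rfl⟩).2.1

variable (A π) in
/-- `π_2^*` maps the integral closure of `A[J]` into the integral closure of every subring of
`F₃` containing `A` and `J_0 J_2`. -/
theorem isIntegral_piStar2 (D : TD.ModEq q)
    (R : Subring ↥(laurentBaseChange L (modularFunctionFieldFull (M' * q * q))))
    (hA : ∀ a : A, algebraMap L ↥(laurentBaseChange L (modularFunctionFieldFull (M' * q * q)))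
      (a : L) ∈ R)
    (hx : J0 (q := q) L M' * J2 L M' ∈ R)
    {y : ↥(laurentBaseChange L (modularFunctionFieldFull M'))}
    (hy : IsIntegral ↥((BaseFn.Data.ofJ A π M').AX) y) : IsIntegral R (piStar2 L M' q y) := by
  refine Lift.isIntegral_map (BaseFn.Data.ofJ A π M') (piStar2 L M' q) R hA ?_ hy
  rw [BaseFn.Data.ofJ_x]
  exact (piStar_isIntegral_of_mul L M' D (R := R) ⟨⟨_, hx⟩, rfl⟩).2.2

end Chart

/-! ### The same in the vocabulary of `Glob.Charts.chart` -/

section ChartW

variable {W : Type*} [CommRing W]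
  [Algebra W ↥(laurentBaseChange L (modularFunctionFieldFull M'))]
  [Algebra W ↥(laurentBaseChange L (modularFunctionFieldFull (M' * q * q)))]

variable (A π) in
/-- An element of `F'` integral over `W[J]` is integral over `A[J]`, for any `W`-algebra
structure on `F'` with image inside that of `A`. -/
theorem isIntegral_AX_of_adjoin
    (hW' : ∀ w : W, ∃ a : A, algebraMap W ↥(laurentBaseChange L (modularFunctionFieldFull M')) w =
      algebraMap L ↥(laurentBaseChange L (modularFunctionFieldFull M')) (a : L))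
    {y : ↥(laurentBaseChange L (modularFunctionFieldFull M'))}
    (hy : IsIntegral ↥(Algebra.adjoin W {xL L M'}) y) :
    IsIntegral ↥((BaseFn.Data.ofJ A π M').AX) y := by
  refine isIntegral_subring_of_adjoin hy _ (fun w => ?_) ?_
  · obtain ⟨a, ha⟩ := hW' w
    rw [ha, BaseFn.Data.mem_AX_iff]
    exact ⟨Polynomial.C a, by simp [Polynomial.aeval_C]⟩
  · rw [BaseFn.Data.mem_AX_iff]
    exact ⟨Polynomial.X, by simp [BaseFn.Data.ofJ_x]⟩

/-- **`π₀ (B') ⊆ B`**: `π_0^*` maps the integral closure of `W[J]` in `F'` into the chart ring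
`chart W (J_0 J_2)`. -/
theorem piStar0_mem_chart (π₀ : A →+* k) (D : TD.ModEq q)
    (hW' : ∀ w : W, ∃ a : A, algebraMap W ↥(laurentBaseChange L (modularFunctionFieldFull M')) w =
      algebraMap L ↥(laurentBaseChange L (modularFunctionFieldFull M')) (a : L))
    (hW3 : ∀ a : A, ∃ w : W,
      algebraMap W ↥(laurentBaseChange L (modularFunctionFieldFull (M' * q * q))) w =
        algebraMap L ↥(laurentBaseChange L (modularFunctionFieldFull (M' * q * q))) (a : L))
    {y : ↥(laurentBaseChange L (modularFunctionFieldFull M'))}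
    (hy : IsIntegral ↥(Algebra.adjoin W {xL L M'}) y) :
    piStar0 L M' q y ∈ Charts.chart W (J0 (q := q) L M' * J2 L M') :=
  isIntegral_piStar0 A π₀ D (Algebra.adjoin W {J0 (q := q) L M' * J2 L M'}).toSubring
    (fun a => by
      obtain ⟨w, hw⟩ := hW3 a
      rw [← hw]
      exact Subalgebra.algebraMap_mem _ w)
    (Algebra.self_mem_adjoin_singleton W _) (isIntegral_AX_of_adjoin A π₀ hW' hy)

/-- **`π₁ (B') ⊆ B`**. -/
theorem piStar1_mem_chart (π₀ : A →+* k) (D : TD.ModEq q)
    (hW' : ∀ w : W, ∃ a : A, algebraMap W ↥(laurentBaseChange L (modularFunctionFieldFull M')) w =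
      algebraMap L ↥(laurentBaseChange L (modularFunctionFieldFull M')) (a : L))
    (hW3 : ∀ a : A, ∃ w : W,
      algebraMap W ↥(laurentBaseChange L (modularFunctionFieldFull (M' * q * q))) w =
        algebraMap L ↥(laurentBaseChange L (modularFunctionFieldFull (M' * q * q))) (a : L))
    {y : ↥(laurentBaseChange L (modularFunctionFieldFull M'))}
    (hy : IsIntegral ↥(Algebra.adjoin W {xL L M'}) y) :
    piStar1 L M' q y ∈ Charts.chart W (J0 (q := q) L M' * J2 L M') :=
  isIntegral_piStar1 A π₀ D (Algebra.adjoin W {J0 (q := q) L M' * J2 L M'}).toSubring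
    (fun a => by
      obtain ⟨w, hw⟩ := hW3 a
      rw [← hw]
      exact Subalgebra.algebraMap_mem _ w)
    (Algebra.self_mem_adjoin_singleton W _) (isIntegral_AX_of_adjoin A π₀ hW' hy)

/-- **`π₂ (B') ⊆ B`**. -/
theorem piStar2_mem_chart (π₀ : A →+* k) (D : TD.ModEq q)
    (hW' : ∀ w : W, ∃ a : A, algebraMap W ↥(laurentBaseChange L (modularFunctionFieldFull M')) w =
      algebraMap L ↥(laurentBaseChange L (modularFunctionFieldFull M')) (a : L))
    (hW3 : ∀ a : A, ∃ w : W,
      algebraMap W ↥(laurentBaseChange L (modularFunctionFieldFull (M' * q * q))) w =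
        algebraMap L ↥(laurentBaseChange L (modularFunctionFieldFull (M' * q * q))) (a : L))
    {y : ↥(laurentBaseChange L (modularFunctionFieldFull M'))}
    (hy : IsIntegral ↥(Algebra.adjoin W {xL L M'}) y) :
    piStar2 L M' q y ∈ Charts.chart W (J0 (q := q) L M' * J2 L M') :=
  isIntegral_piStar2 A π₀ D (Algebra.adjoin W {J0 (q := q) L M' * J2 L M'}).toSubring
    (fun a => by
      obtain ⟨w, hw⟩ := hW3 a
      rw [← hw]
      exact Subalgebra.algebraMap_mem _ w)
    (Algebra.self_mem_adjoin_singleton W _) (isIntegral_AX_of_adjoin A π₀ hW' hy)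

end ChartW

/-! ### The literal form: `W = A`, with an abstract `A`-algebra structure on `F₃` -/

section Tower

variable [Algebra ↥A ↥(laurentBaseChange L (modularFunctionFieldFull (M' * q * q)))]
  [IsScalarTower ↥A L ↥(laurentBaseChange L (modularFunctionFieldFull (M' * q * q)))]

/-- **`π₀ (B') ⊆ B_fin`**, `B' = integralClosure (A[J]) F'`, `B_fin = chart A (J_0 J_2)`. -/
theorem piStar0_mem_chart_of_tower (π₀ : A →+* k) (D : TD.ModEq q)
    {y : ↥(laurentBaseChange L (modularFunctionFieldFull M'))}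
    (hy : IsIntegral ↥((BaseFn.Data.ofJ A π₀ M').AX) y) :
    piStar0 L M' q y ∈ Charts.chart ↥A (J0 (q := q) L M' * J2 L M') :=
  isIntegral_piStar0 A π₀ D (Algebra.adjoin ↥A {J0 (q := q) L M' * J2 L M'}).toSubring
    (fun a => by
      have e : algebraMap L ↥(laurentBaseChange L (modularFunctionFieldFull (M' * q * q)))
          (a : L) = algebraMap ↥A ↥(laurentBaseChange L (modularFunctionFieldFull (M' * q * q)))
          a := (IsScalarTower.algebraMap_apply ↥A L _ a).symm
      rw [e]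
      exact Subalgebra.algebraMap_mem _ a)
    (Algebra.self_mem_adjoin_singleton _ _) hy

/-- **`π₁ (B') ⊆ B_fin`**. -/
theorem piStar1_mem_chart_of_tower (π₀ : A →+* k) (D : TD.ModEq q)
    {y : ↥(laurentBaseChange L (modularFunctionFieldFull M'))}
    (hy : IsIntegral ↥((BaseFn.Data.ofJ A π₀ M').AX) y) :
    piStar1 L M' q y ∈ Charts.chart ↥A (J0 (q := q) L M' * J2 L M') :=
  isIntegral_piStar1 A π₀ D (Algebra.adjoin ↥A {J0 (q := q) L M' * J2 L M'}).toSubring
    (fun a => by
      have e : algebraMap L ↥(laurentBaseChange L (modularFunctionFieldFull (M' * q * q)))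
          (a : L) = algebraMap ↥A ↥(laurentBaseChange L (modularFunctionFieldFull (M' * q * q)))
          a := (IsScalarTower.algebraMap_apply ↥A L _ a).symm
      rw [e]
      exact Subalgebra.algebraMap_mem _ a)
    (Algebra.self_mem_adjoin_singleton _ _) hy

/-- **`π₂ (B') ⊆ B_fin`**. -/
theorem piStar2_mem_chart_of_tower (π₀ : A →+* k) (D : TD.ModEq q)
    {y : ↥(laurentBaseChange L (modularFunctionFieldFull M'))}
    (hy : IsIntegral ↥((BaseFn.Data.ofJ A π₀ M').AX) y) :
    piStar2 L M' q y ∈ Charts.chart ↥A (J0 (q := q) L M' * J2 L M') :=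
  isIntegral_piStar2 A π₀ D (Algebra.adjoin ↥A {J0 (q := q) L M' * J2 L M'}).toSubring
    (fun a => by
      have e : algebraMap L ↥(laurentBaseChange L (modularFunctionFieldFull (M' * q * q)))
          (a : L) = algebraMap ↥A ↥(laurentBaseChange L (modularFunctionFieldFull (M' * q * q)))
          a := (IsScalarTower.algebraMap_apply ↥A L _ a).symm
      rw [e]
      exact Subalgebra.algebraMap_mem _ a)
    (Algebra.self_mem_adjoin_singleton _ _) hy

omit [IsScalarTower ↥A L ↥(laurentBaseChange L (modularFunctionFieldFull (M' * q * q)))] in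
/-- The chart functions `J_0`, `J_1`, `J_2` lie in `B_fin = chart A (J_0 J_2)`. -/
theorem J_mem_chart (D : TD.ModEq q) :
    J0 (q := q) L M' ∈ Charts.chart ↥A (J0 (q := q) L M' * J2 L M') ∧
    J1 (q := q) L M' ∈ Charts.chart ↥A (J0 (q := q) L M' * J2 L M') ∧
    J2 (q := q) L M' ∈ Charts.chart ↥A (J0 (q := q) L M' * J2 L M') :=
  piStar_isIntegral_of_mul L M' D
    (R := ↥(Algebra.adjoin ↥A {J0 (q := q) L M' * J2 L M'}))
    ⟨⟨_, Algebra.self_mem_adjoin_singleton _ _⟩, rfl⟩

end Tower

end Bad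

end

end Fermat.Agent.CAR.Inst.Pull
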