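/-
CAR (B8, instance layer): the horizontal hypothesis `hhor` of `Glue.LStart.exists_factor` /
`hlocal_at_point` / `hlocalV_at_point` for the chart rings, from (UNR-H)
(`CAR/Formal/HorizontalRR.lean`), and its stability under the normal form and the killing step.

* `IsPowUnit V m f` : `f` is an `m`-th power times a unit of the valuation subring `V`
  (`∃ g ≠ 0, g ^ m * f ∈ V ∧ (g ^ m * f)⁻¹ ∈ V`), with its calculus (`mul`, `inv`, `pow`, `zpow`,
  `of_unit`, `of_pow`).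
* `HHor qB m f` : LITERALLY the hypothesis `hhor` (for a ring `B` with `Algebra B F` and
  `qB : B`): every discrete valuation subring `(V, t)` of `F` containing the image of `B` and
  `qB⁻¹` satisfies `IsPowUnit V m f`.
* `HHor.of_normalForm` : `hhor f ⟹ hhor f₃` for `f ^ E = q ^ j * G ^ m * f₃`;
  `HHor.of_kill` : `hhor f₃ ⟹ hhor f₄` for `f₄ = f₃ ^ e₂ * φ ^ m`; `HHor.mul`, `pow`, `inv`,
  `of_pow`, `congr`.
* `hHor_of_isDiv` : `hhor f` for a `K0`-rational function `f` (`K0` the inertia field at `q`)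
  whose divisor over `ℚ̄` is `m • D`, for every ring `B → K0·F_M` whose image contains `W0` and
  with `qB ↦ q`; `hHor_subalgebra` : the same for a `W0`-subalgebra `R` of `K0·F_M` (a chart
  ring) and `qB = algebraMap W0 R q`.
-/
import Mathlib
import Fermat.Agent.CAR.Formal.HorizontalRR

set_option autoImplicit false

namespace Fermat.Agent.CAR.Inst.Hor

open Fermat.Agent.CAR.Formal

/-! ### `m`-th powers up to units of a valuation subring -/

section PowUnit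

variable {F : Type*} [Field F]

/-- `f` is an `m`-th power times a unit of the valuation subring `V`. -/
def IsPowUnit (V : ValuationSubring F) (m : ℕ) (f : F) : Prop :=
  ∃ g : F, g ≠ 0 ∧ g ^ m * f ∈ V ∧ (g ^ m * f)⁻¹ ∈ V

variable {V : ValuationSubring F} {m : ℕ}

theorem IsPowUnit.of_unit {u : F} (hu : u ∈ V) (hu' : u⁻¹ ∈ V) : IsPowUnit V m u :=
  ⟨1, one_ne_zero, by rw [one_pow, one_mul]; exact hu, by rw [one_pow, one_mul]; exact hu'⟩

theorem isPowUnit_one : IsPowUnit V m (1 : F) :=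
  IsPowUnit.of_unit V.one_mem (by rw [inv_one]; exact V.one_mem)

theorem IsPowUnit.of_pow {h : F} (hh : h ≠ 0) : IsPowUnit V m (h ^ m) := by
  refine ⟨h⁻¹, inv_ne_zero hh, ?_, ?_⟩
  · rw [inv_pow, inv_mul_cancel₀ (pow_ne_zero m hh)]
    exact V.one_mem
  · rw [inv_pow, inv_mul_cancel₀ (pow_ne_zero m hh), inv_one]
    exact V.one_mem

theorem IsPowUnit.mul {f₁ f₂ : F} (h₁ : IsPowUnit V m f₁) (h₂ : IsPowUnit V m f₂) :
    IsPowUnit V m (f₁ * f₂) := by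
  obtain ⟨g₁, hg₁, hu₁, hu₁'⟩ := h₁
  obtain ⟨g₂, hg₂, hu₂, hu₂'⟩ := h₂
  have e : (g₁ * g₂) ^ m * (f₁ * f₂) = (g₁ ^ m * f₁) * (g₂ ^ m * f₂) := by ring
  refine ⟨g₁ * g₂, mul_ne_zero hg₁ hg₂, ?_, ?_⟩
  · rw [e]
    exact V.mul_mem _ _ hu₁ hu₂
  · rw [e, mul_inv]
    exact V.mul_mem _ _ hu₁' hu₂'

theorem IsPowUnit.inv {f : F} (h : IsPowUnit V m f) : IsPowUnit V m f⁻¹ := by
  obtain ⟨g, hg, hu, hu'⟩ := h
  have e : g⁻¹ ^ m * f⁻¹ = (g ^ m * f)⁻¹ := by rw [mul_inv, inv_pow]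
  refine ⟨g⁻¹, inv_ne_zero hg, ?_, ?_⟩
  · rw [e]
    exact hu'
  · rw [e, inv_inv]
    exact hu

theorem IsPowUnit.pow {f : F} (h : IsPowUnit V m f) (n : ℕ) : IsPowUnit V m (f ^ n) := by
  induction n with
  | zero => rw [pow_zero]; exact isPowUnit_one
  | succ n ih => rw [pow_succ]; exact ih.mul h

theorem IsPowUnit.zpow {f : F} (h : IsPowUnit V m f) (n : ℤ) : IsPowUnit V m (f ^ n) := by
  obtain ⟨k, rfl | rfl⟩ := n.eq_nat_or_neg
  · rw [zpow_natCast]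
    exact h.pow k
  · rw [zpow_neg, zpow_natCast]
    exact (h.pow k).inv

theorem IsPowUnit.div {f₁ f₂ : F} (h₁ : IsPowUnit V m f₁) (h₂ : IsPowUnit V m f₂) :
    IsPowUnit V m (f₁ / f₂) := by
  rw [div_eq_mul_inv]
  exact h₁.mul h₂.inv

/-- Stability under the normal form `f ^ E = ϖ ^ j * G ^ m * f₃` (`ϖ` a unit of `V`). -/
theorem IsPowUnit.of_normalForm {f f₃ ϖ G : F} {E : ℕ} {j : ℤ} (h : IsPowUnit V m f)
    (hϖ0 : ϖ ≠ 0) (hϖ : ϖ ∈ V) (hϖ' : ϖ⁻¹ ∈ V) (hG : G ≠ 0)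
    (he : f ^ E = ϖ ^ j * G ^ m * f₃) : IsPowUnit V m f₃ := by
  have e : f₃ = f ^ E / (ϖ ^ j * G ^ m) := by
    rw [he]
    field_simp
  rw [e]
  exact (h.pow E).div (((IsPowUnit.of_unit hϖ hϖ').zpow j).mul (IsPowUnit.of_pow hG))

/-- Stability under the killing step `f₄ = f₃ ^ e₂ * φ ^ m`. -/
theorem IsPowUnit.of_kill {f₃ f₄ φ : F} {e₂ : ℕ} (h : IsPowUnit V m f₃) (hφ : φ ≠ 0)
    (he : f₄ = f₃ ^ e₂ * φ ^ m) : IsPowUnit V m f₄ := by
  rw [he]
  exact (h.pow e₂).mul (IsPowUnit.of_pow hφ)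

end PowUnit

/-! ### The hypothesis `hhor` -/

section HHor

variable {B F : Type*} [CommRing B] [Field F] [Algebra B F]

/-- The horizontal hypothesis `hhor` of `Glue.LStart.exists_factor` (literally): every discrete
valuation subring `(V, t)` of `F` containing the image of `B` and `qB⁻¹` sees `f` as an `m`-th
power times a unit. -/
def HHor (qB : B) (m : ℕ) (f : F) : Prop :=
  ∀ (V : ValuationSubring F) (t : F), IsUnif V t → (∀ a : B, algebraMap B F a ∈ V) →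
    (algebraMap B F qB)⁻¹ ∈ V → ∃ g : F, g ≠ 0 ∧ g ^ m * f ∈ V ∧ (g ^ m * f)⁻¹ ∈ V

variable {qB : B} {m : ℕ}

theorem hHor_iff {f : F} :
    HHor qB m f ↔ ∀ (V : ValuationSubring F) (t : F), IsUnif V t →
      (∀ a : B, algebraMap B F a ∈ V) → (algebraMap B F qB)⁻¹ ∈ V → IsPowUnit V m f :=
  Iff.rfl

theorem HHor.mul {f₁ f₂ : F} (h₁ : HHor qB m f₁) (h₂ : HHor qB m f₂) : HHor qB m (f₁ * f₂) :=
  fun V t hU hB hq => IsPowUnit.mul (h₁ V t hU hB hq) (h₂ V t hU hB hq)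

theorem HHor.inv {f : F} (h : HHor qB m f) : HHor qB m f⁻¹ :=
  fun V t hU hB hq => IsPowUnit.inv (h V t hU hB hq)

theorem HHor.pow {f : F} (h : HHor qB m f) (n : ℕ) : HHor qB m (f ^ n) :=
  fun V t hU hB hq => IsPowUnit.pow (h V t hU hB hq) n

theorem HHor.of_pow {h : F} (hh : h ≠ 0) : HHor qB m (h ^ m) :=
  fun _ _ _ _ _ => IsPowUnit.of_pow hh

/-- The image of `B` consists of units at the horizontal valuations as soon as it is invertible
there; in particular `hhor` holds for the powers of `qB`. -/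
theorem hHor_zpow_q (j : ℤ) : HHor qB m ((algebraMap B F qB) ^ j) :=
  fun _ _ _ hB hq => (IsPowUnit.of_unit (hB qB) hq).zpow j

/-- **Stability under the normal form**: `hhor f ⟹ hhor f₃` for
`f ^ E = q ^ j * G ^ m * f₃`. -/
theorem HHor.of_normalForm {f f₃ G ϖ : F} {E : ℕ} {j : ℤ} (h : HHor qB m f)
    (hϖ : algebraMap B F qB = ϖ) (hϖ0 : ϖ ≠ 0) (hG : G ≠ 0)
    (he : f ^ E = ϖ ^ j * G ^ m * f₃) : HHor qB m f₃ :=
  fun V t hU hB hq => IsPowUnit.of_normalForm (h V t hU hB hq) hϖ0 (hϖ ▸ hB qB) (hϖ ▸ hq) hG he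

/-- **Stability under the killing step**: `hhor f₃ ⟹ hhor f₄` for `f₄ = f₃ ^ e₂ * φ ^ m`. -/
theorem HHor.of_kill {f₃ f₄ φ : F} {e₂ : ℕ} (h : HHor qB m f₃) (hφ : φ ≠ 0)
    (he : f₄ = f₃ ^ e₂ * φ ^ m) : HHor qB m f₄ :=
  fun V t hU hB hq => IsPowUnit.of_kill (h V t hU hB hq) hφ he

end HHor

/-! ### The instance: `K0`-rational functions with divisor divisible by `m` -/

section Instance

open AlgebraicCurve ModularCurve Fermat.Agent.BAD.Dict Fermat.Agent.ESJ.Jac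
open Fermat.Agent.ESJ.Dict.Bc Fermat.Agent.CAR.K0

local notation "Qb" => AlgebraicClosure ℚ

variable {q : ℕ} (hq : q.Prime) {A : ValuationSubring Qb} (hA : A.LiesOverPrime q)
  (M : ℕ) [NeZero M]

set_option synthInstance.maxHeartbeats 400000 in
include hq hA in
/-- **`hhor` from (UNR-H).**  Let `f` be a `K0`-rational function (`K0` the inertia field at `q`)
whose divisor over `ℚ̄` is `m • D`.  Then `hhor` holds for every ring `B → K0·F_M` whose image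
contains the constants of `W0` and every `qB : B` mapping to `q`. -/
theorem hHor_of_isDiv {B : Type*} [CommRing B] [Algebra B (FNK ↥(K0 A) M)] (qB : B)
    (hqB : algebraMap B (FNK ↥(K0 A) M) qB = ((q : ℕ) : FNK ↥(K0 A) M))
    (hBW : ∀ w : W0 A, ∃ b : B, algebraMap B (FNK ↥(K0 A) M) b
      = algebraMap ↥(K0 A) (FNK ↥(K0 A) M) (w : ↥(K0 A)))
    {m : ℕ} {f : FNK ↥(K0 A) M} {D : Divisor Qb (FNK Qb M)}
    (hD : IsDiv (m • D) (bcK (algebraMap ↥(K0 A) Qb) (modularFunctionFieldFull M) f)) :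
    HHor qB m f := by
  intro V t hU hB hqV
  refine HorizontalRR.exists_pow_mul_unit_of_isDiv M (K0 A) V
    (HorizontalRR.algebraMap_mem_of_W0 M hq hA V (fun w => ?_) ?_) hU hD
  · obtain ⟨b, hb⟩ := hBW w
    rw [← hb]
    exact hB b
  · rw [← hqB]
    exact hqV

set_option synthInstance.maxHeartbeats 400000 in
set_option maxHeartbeats 1000000 in
include hq hA in
/-- **`hhor` for a chart ring.**  The same for a `W0`-subalgebra `R` of `K0·F_M` (e.g.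
`Glob.Charts.chart W0 x`), in the literal shape of `LStart.hlocal_at_point`:
`B = ↥R`, `qB = algebraMap W0 R qW` with `qW = q`. -/
theorem hHor_subalgebra [Algebra ↥(W0 A) (FNK ↥(K0 A) M)]
    [IsScalarTower ↥(W0 A) ↥(K0 A) (FNK ↥(K0 A) M)]
    (R : Subalgebra ↥(W0 A) (FNK ↥(K0 A) M)) (qW : ↥(W0 A))
    (hqW : (qW : ↥(K0 A)) = ((q : ℕ) : ↥(K0 A)))
    {m : ℕ} {f : FNK ↥(K0 A) M} {D : Divisor Qb (FNK Qb M)}
    (hD : IsDiv (m • D) (bcK (algebraMap ↥(K0 A) Qb) (modularFunctionFieldFull M) f)) :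
    HHor (B := ↥R) (algebraMap ↥(W0 A) ↥R qW) m f := by
  refine hHor_of_isDiv hq hA M _ ?_ (fun w => ⟨algebraMap ↥(W0 A) ↥R w, ?_⟩) hD
  · rw [← IsScalarTower.algebraMap_apply,
      IsScalarTower.algebraMap_apply ↥(W0 A) ↥(K0 A) (FNK ↥(K0 A) M)]
    show algebraMap ↥(K0 A) (FNK ↥(K0 A) M) (qW : ↥(K0 A)) = _
    rw [hqW, map_natCast]
  · rw [← IsScalarTower.algebraMap_apply,
      IsScalarTower.algebraMap_apply ↥(W0 A) ↥(K0 A) (FNK ↥(K0 A) M)]
    rfl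

set_option synthInstance.maxHeartbeats 400000 in
set_option maxHeartbeats 1000000 in
include hq hA in
/-- **`hhor` for the normalised generator on a chart ring**: from the Kummer hypothesis of
`NormBc.NewInertiaK0At` on `f`, the normal form `f ^ E = q ^ j * G ^ m * f₃` and the killing
step `f₄ = f₃ ^ e₂ * φ ^ m`. -/
theorem hHor_subalgebra_of_normalForm_kill [Algebra ↥(W0 A) (FNK ↥(K0 A) M)]
    [IsScalarTower ↥(W0 A) ↥(K0 A) (FNK ↥(K0 A) M)]
    (R : Subalgebra ↥(W0 A) (FNK ↥(K0 A) M)) (qW : ↥(W0 A))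
    (hqW : (qW : ↥(K0 A)) = ((q : ℕ) : ↥(K0 A)))
    {m : ℕ} {f : FNK ↥(K0 A) M}
    (hD : ∃ D : Divisor Qb (FNK Qb M),
      IsDiv (m • D) (bcK (algebraMap ↥(K0 A) Qb) (modularFunctionFieldFull M) f))
    {f₃ f₄ G φ : FNK ↥(K0 A) M} {E e₂ : ℕ} {j : ℤ} (hG : G ≠ 0) (hφ : φ ≠ 0)
    (h₃ : f ^ E = ((q : ℕ) : FNK ↥(K0 A) M) ^ j * G ^ m * f₃)
    (h₄ : f₄ = f₃ ^ e₂ * φ ^ m) :
    HHor (B := ↥R) (algebraMap ↥(W0 A) ↥R qW) m f₃ ∧
      HHor (B := ↥R) (algebraMap ↥(W0 A) ↥R qW) m f₄ := by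
  obtain ⟨D, hD⟩ := hD
  have h := hHor_subalgebra hq hA M R qW hqW hD
  have hϖ : algebraMap ↥R (FNK ↥(K0 A) M) (algebraMap ↥(W0 A) ↥R qW)
      = ((q : ℕ) : FNK ↥(K0 A) M) := by
    rw [← IsScalarTower.algebraMap_apply,
      IsScalarTower.algebraMap_apply ↥(W0 A) ↥(K0 A) (FNK ↥(K0 A) M)]
    show algebraMap ↥(K0 A) (FNK ↥(K0 A) M) (qW : ↥(K0 A)) = _
    rw [hqW, map_natCast]
  have h3 := h.of_normalForm hϖ (Nat.cast_ne_zero.mpr hq.ne_zero) hG h₃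
  exact ⟨h3, h3.of_kill hφ h₄⟩

end Instance

end Fermat.Agent.CAR.Inst.Hor
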