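import Mathlib
import Fermat.Agent.CAR.Glue.LocalInstCuspBase
import Fermat.Agent.CAR.Glob.ChartsFNK
import Fermat.Agent.CAR.Inst.Hor

/-!
# CAR-34: the chart at infinity — `hlocal'` for the chart ring `chart W x⁻¹` of `K · F_N`

The cusp half of the local input of the chart theorem
`Glob.Charts.exists_eq_const_mul_pow_of_charts_FNK`, for `F = K · F_N`, a chart function `x` of
nonzero `q`-order and the chart ring at infinity `R' = chart W x⁻¹`:

* `chart_inv_instances` : `R'` has fraction field `F`, is Noetherian and integrally closed;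
* `v3BaseCusp_chart` : the record `InstCusp.V3BaseCusp` for `R'` from its seven inputs, in the
  literal shapes of the chart theorem (`hR'V`, `hqV`, `hmin'`) and of the instance bricks;
* `hlocal'_cusp_FNK` : from the three cusp records (`V3BaseCusp`, `V3Cusp`, `V3CuspMid`) and the
  horizontal hypothesis `Hor.HHor`, LITERALLY the binder `hlocal'` of
  `exists_eq_const_mul_pow_of_charts_FNK`.
-/

set_option autoImplicit false

namespace Fermat.Agent.CAR.Inst.Cusp

open IsLocalRing ModularCurve IntermediateField Fermat.Agent.CAR.Local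
  Fermat.Agent.CAR.Local.Inst Fermat.Agent.CAR.Local.InstCusp Fermat.Agent.CAR.Glob
  Fermat.Agent.CAR.Glob.Charts

section FNK

variable (K : Type) [Field K] [Algebra ℚ K] (N : ℕ) [NeZero N]
  {W : Type*} [CommRing W] [IsDomain W] [Algebra W K] [IsFractionRing W K]
  [Algebra W ↥(laurentBaseChange K (modularFunctionFieldFull N))]
  [IsScalarTower W K ↥(laurentBaseChange K (modularFunctionFieldFull N))]
  [IsNoetherianRing W] [IsIntegrallyClosed W]

/-- The chart ring at infinity `chart W x⁻¹` of `K · F_N` (`x` of nonzero `q`-order) has fraction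
field `K · F_N`, is Noetherian and integrally closed. -/
theorem chart_inv_instances (x : ↥(laurentBaseChange K (modularFunctionFieldFull N)))
    (hx : (x : LaurentSeries K).order ≠ 0) :
    IsFractionRing (chart W x⁻¹) ↥(laurentBaseChange K (modularFunctionFieldFull N)) ∧
      IsNoetherianRing (chart W x⁻¹) ∧ IsIntegrallyClosed (chart W x⁻¹) := by
  have := ChartField.finiteDimensional_FNK K N x hx
  have := ChartField.isSeparable_FNK K N x hx
  have hT : Transcendental K x⁻¹ := transcendental_inv (ChartField.transcendental_FNK K N x hx)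
  have hxK : x⁻¹ ∈ K⟮x⟯ := inv_mem (mem_adjoin_simple_self K x)
  have hK : K⟮x⟯ ≤ K⟮x⁻¹⟯ := le_adjoin_inv le_rfl
  exact ⟨chart_isFractionRing (W := W) K⟮x⟯ hxK hK, chart_isNoetherianRing (W := W) hT K⟮x⟯ hxK hK,
    chart_isIntegrallyClosed (W := W) K⟮x⟯ hxK hK⟩

/-- The chart ring `chart W x` of `K · F_N` (`x` of nonzero `q`-order) has fraction field
`K · F_N`, is Noetherian and integrally closed. -/
theorem chart_instances (x : ↥(laurentBaseChange K (modularFunctionFieldFull N)))
    (hx : (x : LaurentSeries K).order ≠ 0) :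
    IsFractionRing (chart W x) ↥(laurentBaseChange K (modularFunctionFieldFull N)) ∧
      IsNoetherianRing (chart W x) ∧ IsIntegrallyClosed (chart W x) := by
  have := ChartField.finiteDimensional_FNK K N x hx
  have := ChartField.isSeparable_FNK K N x hx
  have hT : Transcendental K x := ChartField.transcendental_FNK K N x hx
  have hxK : x ∈ K⟮x⟯ := mem_adjoin_simple_self K x
  exact ⟨chart_isFractionRing (W := W) K⟮x⟯ hxK le_rfl,
    chart_isNoetherianRing (W := W) hT K⟮x⟯ hxK le_rfl,
    chart_isIntegrallyClosed (W := W) K⟮x⟯ hxK le_rfl⟩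

variable {κ : Type*} [Field κ]

omit [NeZero N] [IsDomain W] [IsNoetherianRing W] [IsIntegrallyClosed W] in
/-- **The base record at the cusps for the chart ring at infinity**, from its inputs in the
literal shapes of the chart theorem (`hR'V`, `hqV`, `hmin'`) and of the instance bricks
(`not_max`, the two uniformiser statements, (LIFT) at the cusp places). -/
theorem v3BaseCusp_chart (q : W) (hq : q ≠ 0)
    (x : ↥(laurentBaseChange K (modularFunctionFieldFull N)))
    (V : Fin 3 → ValuationSubring ↥(laurentBaseChange K (modularFunctionFieldFull N)))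
    (red : ∀ i, V i →+* κ) (hred : ∀ i, ∀ z : V i, red i z = 0 ↔ z ∈ maximalIdeal (V i))
    (hR'V : ∀ i, ∀ r ∈ chart W x⁻¹, r ∈ V i) (yb : κ)
    (hqV : ∀ i, algebraMap W ↥(laurentBaseChange K (modularFunctionFieldFull N)) q ∈
      (V i).nonunits)
    (hmin' : ∀ 𝔮 ∈ (Ideal.span {algebraMap W (chart W x⁻¹) q}).minimalPrimes,
      ∃ i, 𝔮 = centre (V i) (fun a : chart W x⁻¹ => hR'V i a a.2))
    (hnot : ∀ i, ¬ (centre (V i) (fun a : chart W x⁻¹ => hR'V i a a.2)).IsMaximal)
    (hunif₀ : ∀ z ∈ (V 0).nonunits,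
      z / algebraMap W ↥(laurentBaseChange K (modularFunctionFieldFull N)) q ∈ V 0)
    (hunif₂ : ∀ z ∈ (V 2).nonunits,
      z / algebraMap W ↥(laurentBaseChange K (modularFunctionFieldFull N)) q ∈ V 2)
    (hlift : ∀ i, ∀ Vs : ValuationSubring κ,
      (∀ b : chart W x⁻¹, redOn (V i) (red i) (fun a : chart W x⁻¹ => hR'V i a a.2) b ∈ Vs) →
      yb ∈ Vs.nonunits →
      ∀ c ∈ Vs, ∃ a b : chart W x⁻¹,
        redOn (V i) (red i) (fun a : chart W x⁻¹ => hR'V i a a.2) b ∉ Vs.nonunits ∧
        redOn (V i) (red i) (fun a : chart W x⁻¹ => hR'V i a a.2) a =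
          c * redOn (V i) (red i) (fun a : chart W x⁻¹ => hR'V i a a.2) b) :
    V3BaseCusp V red hred (fun i (a : chart W x⁻¹) => hR'V i a a.2)
      (algebraMap W (chart W x⁻¹) q) yb where
  q_ne := by
    intro h0
    apply hq
    have h1 : algebraMap W ↥(laurentBaseChange K (modularFunctionFieldFull N)) q = 0 := by
      have h2 := congrArg (algebraMap (chart W x⁻¹)
        ↥(laurentBaseChange K (modularFunctionFieldFull N))) h0
      rwa [map_zero, ← IsScalarTower.algebraMap_apply] at h2
    exact algebraMap_base_injective W K _ (by rw [h1, map_zero])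
  hmin := hmin'
  not_max := hnot
  q_mem := fun i => by
    rw [← IsScalarTower.algebraMap_apply]
    exact hqV i
  unif_inf := fun z hz => by
    rw [← IsScalarTower.algebraMap_apply]
    exact hunif₀ z hz
  unif_zero := fun z hz => by
    rw [← IsScalarTower.algebraMap_apply]
    exact hunif₂ z hz
  lift := hlift

/-- **`hlocal'` for the chart at infinity of `K · F_N`**: from the three cusp records for
`R' = chart W x⁻¹` and the horizontal hypothesis, LITERALLY the binder `hlocal'` of
`Glob.Charts.exists_eq_const_mul_pow_of_charts_FNK`. -/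
theorem hlocal'_cusp_FNK (q : W) (m : ℕ) (m' : W) (hmm : (m : W) * m' = 1)
    (x : ↥(laurentBaseChange K (modularFunctionFieldFull N)))
    (hx : (x : LaurentSeries K).order ≠ 0)
    (V : Fin 3 → ValuationSubring ↥(laurentBaseChange K (modularFunctionFieldFull N)))
    {red : ∀ i, V i →+* κ} {hred : ∀ i, ∀ z : V i, red i z = 0 ↔ z ∈ maximalIdeal (V i)}
    (hR'V : ∀ i, ∀ r ∈ chart W x⁻¹, r ∈ V i)
    {y₀ y₁ y₂ y₃ : chart W x⁻¹} {e : ↥(laurentBaseChange K (modularFunctionFieldFull N))}
    {m₀ n N' : ℕ} {yb g : κ}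
    (H : V3BaseCusp V red hred (fun i (a : chart W x⁻¹) => hR'V i a a.2)
      (algebraMap W (chart W x⁻¹) q) yb)
    (C : V3Cusp V red (fun i (a : chart W x⁻¹) => hR'V i a a.2)
      (⟨x⁻¹, self_mem_chart x⁻¹⟩ : chart W x⁻¹) y₀ y₁ y₂ y₃ yb)
    (M : V3CuspMid V red (fun i (a : chart W x⁻¹) => hR'V i a a.2)
      (algebraMap W (chart W x⁻¹) q) y₁ y₂ e m₀ n N' yb g)
    (f : ↥(laurentBaseChange K (modularFunctionFieldFull N)))
    (hf1 : ∀ i, f - 1 ∈ (V i).nonunits)
    (hhor : Hor.HHor (B := chart W x⁻¹) (algebraMap W (chart W x⁻¹) q) m f) :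
    ∀ Q : Ideal (chart W x⁻¹), Q.IsMaximal → algebraMap W (chart W x⁻¹) q ∈ Q →
      (⟨x⁻¹, self_mem_chart x⁻¹⟩ : chart W x⁻¹) ∈ Q →
      ∃ h : chart W x⁻¹, h ∉ Q ∧
        ∃ s : ↥(laurentBaseChange K (modularFunctionFieldFull N)),
          s ^ m * f ∈ chart W x⁻¹ ∧ ∀ i, s - h ∈ (V i).nonunits := by
  obtain ⟨h1, h2, h3⟩ := chart_inv_instances (W := W) K N x hx
  exact Glue.LInstCuspB.hlocal'_of_cuspBase q m m' hmm (chart W x⁻¹) H C M f hf1 hhor

end FNK

end Fermat.Agent.CAR.Inst.Cusp
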