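import Mathlib
import Fermat.Agent.CAR.Local.InstCuspOf
import Fermat.Agent.CAR.Local.Inst.OffMid
import Fermat.Agent.CAR.Glob.Charts
import Fermat.Agent.CAR.Glob.ChartX
import Fermat.Agent.CAR.Glob.CuspQuotInst
import Fermat.Agent.CAR.K0.Setup
import Fermat.Agent.CAR.V3.MidPull
import Fermat.Agent.CAR.V3.Zero
import Fermat.Agent.CAR.V3.CuspUnit
import Fermat.Agent.CAR.V3.CuspUnitM
import Fermat.Agent.CAR.V3.MidCuspB
import Fermat.Agent.Lib.Red.Unconditional
import Fermat.Agent.BAD.TwoVal.Semilocal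

/-!
# CAR (instance layer, cusps): the records `V3Cusp` / `V3CuspMid` for the chart at infinity

`q` prime, `q ∤ M'`, `F = L·F_{M' q²}`, `J_i = π_i^* J` (`J = jLevel`), so that
`J_0 = J(q)`, `J_1 = J(q^q)`, `J_2 = J(q^{q²})` as Laurent series.

* §1 (any `BadSetup A π M' q`): the reductions of `J_0, J_1, J_2` on `O_∞ = OInf3 h` and on
  `O_0 = OZero3 h w` in the `RedTo` form of `InstCuspOf.lean`:
  `(Jb, Jb^q, Jb^(q²))` resp. `(Jb^(q²), Jb^q, Jb)`, for every `Jb` in the residue function field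
  with expansion `J̄`;
* §2 (`(L, A, π) = (K0, W0, resW0)`): the reductions `(Jb, Jb^q, Jb)` on `O_mid = OMid`, for every
  `κ`-valued form `redK` of `redMid`; `J_2 - J_0` is a uniformiser of `O_mid`, and
  `(J_2 - J_0)^(q-1)/q` reduces to an element with expansion `-(θ J̄)^(q-1)`;
* §3 (any `L`, any base ring `W`): the five elements of the chart ring at infinity
  `B_∞ = chart W (J_0 J_2)⁻¹`: `(J_0 J_2)⁻¹`, `J_1/J_0^q`, `J_1/J_2^q`, `J_2/J_0^(q²)`,
  `J_0/J_2^(q²)` (helper15's corrected (Cu-1));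
* §4 the records `V3Cusp`, `V3CuspMid` for every family `(O, red)` whose three members are
  (`O_∞`, `red_∞`), (`O_mid`, `redK`), (`O_0`, `red_0`).
-/

set_option autoImplicit false
set_option linter.unusedSectionVars false
set_option linter.style.haveILetI false

noncomputable section

namespace Fermat.Agent.CAR.Inst.CuspInst

open IsLocalRing ModularCurve HahnSeries
open Fermat.Agent.Lib.Red Fermat.Agent.S28 Fermat.Agent.BAD.TwoVal
open Fermat.Agent.ESJ.Cong.LevelGen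
open Fermat.Agent.CAR.K0 Fermat.Agent.CAR.V3 Fermat.Agent.CAR.V3.MidRing
open Fermat.Agent.CAR.Local Fermat.Agent.CAR.Local.Inst Fermat.Agent.CAR.Local.InstCusp
open Fermat.Agent.CAR.Local.ThetaJ
open Fermat.Agent.CAR.Glob

local notation "Qb" => AlgebraicClosure ℚ

/-! ### §0 The residue function field: powers and the Frobenius twist -/

section Kappa

variable {k : Type} [Field k] {M' : ℕ}

theorem coe_pow_kappa (x : ↥(modularFunctionFieldFullC k M')) (n : ℕ) :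
    ((x ^ n : ↥(modularFunctionFieldFullC k M')) : LaurentSeries k) =
      (x : LaurentSeries k) ^ n := rfl

/-- An element of the residue function field with expansion `J̄` is nonzero. -/
theorem ne_zero_of_coe_eq_jq {Jb : ↥(modularFunctionFieldFullC k M')}
    (hJb : (Jb : LaurentSeries k) = jqModC k) : Jb ≠ 0 := by
  rintro rfl
  have h1 : TD.Jd k 1 = 0 := by
    rw [TD.Jd_one, ← hJb]
    rfl
  exact Fermat.Agent.S28.ValInd.Jd_ne_zero (K := k) 1 one_ne_zero h1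

/-- The constants of the residue function field. -/
theorem coe_algebraMap_kappa (a : k) :
    ((algebraMap k ↥(modularFunctionFieldFullC k M') a : ↥(modularFunctionFieldFullC k M')) :
      LaurentSeries k) = HahnSeries.C a := by
  show algebraMap k (LaurentSeries k) a = HahnSeries.C a
  rw [HahnSeries.C_apply, ← algebraMap_laurentSeries_eq_single]

/-- **(Cu-5) for the residue function field** (helper83's `theta_div_unit_at_cusp`): an element
`g` with expansion `-(θ J̄ / J̄)^(q-1)` is a unit at every place `Vs` containing the constants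
at which `1/J̄` vanishes. -/
theorem g_notMem_nonunits {q : ℕ} (hq : q.Prime) [NeZero q] [CharP k q]
    (Vs : ValuationSubring ↥(modularFunctionFieldFullC k M'))
    (hk : ∀ (a : k) (c : ↥(modularFunctionFieldFullC k M')),
      (c : LaurentSeries k) = HahnSeries.C a → c ∈ Vs)
    {Jb g : ↥(modularFunctionFieldFullC k M')} (hJb : (Jb : LaurentSeries k) = jqModC k)
    (hg : (g : LaurentSeries k) * jqModC k ^ (q - 1) = -(thetaL k (jqModC k)) ^ (q - 1))
    (hy : Jb⁻¹ ∈ Vs.nonunits) : g ∉ Vs.nonunits := by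
  haveI : Fact q.Prime := ⟨hq⟩
  have hJb0 := ne_zero_of_coe_eq_jq hJb
  have hpole : Jb ∉ Vs := by
    intro hJ
    have h9 := LThm.mul_mem_nonunits_of_mem Vs hy hJ
    rw [inv_mul_cancel₀ hJb0] at h9
    exact one_notMem_nonunits Vs h9
  exact (CuspUnit.theta_div_unit_at_cusp Vs q (modularFunctionFieldFullC k M').val
    (fun a => hk a _ (coe_algebraMap_kappa a)) hJb hg hpole).2

end Kappa

/-! ### §1 Reductions on `O_∞` and `O_0` -/

section InfZero

variable {L : Type} [Field L] [Algebra ℚ L] {A : ValuationSubring L} {k : Type} [Field k]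
  {π : A →+* k} {M' q : ℕ} [NeZero M'] [NeZero q]

/-- The reduction of `J = jLevel` is any element with expansion `J̄`. -/
theorem redF_jLevel_eq (h : BadSetup A π M' q) {Jb : ↥(modularFunctionFieldFullC k M')}
    (hJb : (Jb : LaurentSeries k) = jqModC k) :
    redF A π M' h.hπ h.hMk ⟨jLevel L M', jLevel_mem_Ow h⟩ = Jb := by
  apply Subtype.ext
  rw [coe_redF_jLevel h, TD.Jd_one, hJb]

theorem coe_redF_jLevel_eq (h : BadSetup A π M' q) :
    ((redF A π M' h.hπ h.hMk ⟨jLevel L M', jLevel_mem_Ow h⟩ : modularFunctionFieldFullC k M') :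
      LaurentSeries k) = jqModC k := by
  rw [coe_redF_jLevel h, TD.Jd_one]

/-- The Frobenius twist of `J̄`. -/
theorem qExpand_jq (h : BadSetup A π M' q) : qExpand k q (jqModC k) = jqModC k ^ q := by
  have h1 := jLevel_rat h
  rwa [coe_redF_jLevel_eq h] at h1

theorem qExpand_qExpand_jq (h : BadSetup A π M' q) :
    qExpand k q (qExpand k q (jqModC k)) = jqModC k ^ q ^ 2 := by
  rw [qExpand_jq h, map_pow, qExpand_jq h, ← pow_mul, sq]

variable (h : BadSetup A π M' q) {Jb : ↥(modularFunctionFieldFullC k M')}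
  (hJb : (Jb : LaurentSeries k) = jqModC k)

include hJb

/-- `red_∞ J_0 = J̄`. -/
theorem redTo_inf₀ : RedTo (OInf3 h) (redInf3 h) (piStar0 L M' q (jLevel L M')) Jb := by
  have hx := jLevel_mem_Ow h
  have hx' : piStar0 L M' q (jLevel L M') ∈ OInf3 h := (piStar0_mem_OInf3_iff h _).mpr hx
  refine ⟨hx', ?_⟩
  rw [redInf3_piStar0 h _ hx hx']
  exact redF_jLevel_eq h hJb

/-- `red_∞ J_1 = J̄^q`. -/
theorem redTo_inf₁ : RedTo (OInf3 h) (redInf3 h) (piStar1 L M' q (jLevel L M')) (Jb ^ q) := by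
  have hx := jLevel_mem_Ow h
  have hx' : piStar1 L M' q (jLevel L M') ∈ OInf3 h := (piStar1_mem_OInf3_iff h _).mpr hx
  refine ⟨hx', ?_⟩
  apply Subtype.ext
  rw [coe_redInf3_piStar1 h _ hx hx', coe_redF_jLevel_eq h, qExpand_jq h, coe_pow_kappa, hJb]

/-- `red_∞ J_2 = J̄^(q²)`. -/
theorem redTo_inf₂ :
    RedTo (OInf3 h) (redInf3 h) (piStar2 L M' q (jLevel L M')) (Jb ^ q ^ 2) := by
  have hx := jLevel_mem_Ow h
  have hx' : piStar2 L M' q (jLevel L M') ∈ OInf3 h := (piStar2_mem_OInf3_iff h _).mpr hx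
  refine ⟨hx', ?_⟩
  apply Subtype.ext
  rw [coe_redInf3_piStar2 h _ hx hx', coe_redF_jLevel_eq h, qExpand_qExpand_jq h, coe_pow_kappa,
    hJb]

variable {w : laurentBaseChange L (modularFunctionFieldFull (M' * q * q)) ≃ₐ[L]
    laurentBaseChange L (modularFunctionFieldFull (M' * q * q))} (hw : IsAL3 M' q w)

include hw

/-- `red_0 J_0 = J̄^(q²)`. -/
theorem redTo_zero₀ :
    RedTo (OZero3 h w) (redZero3 h w) (piStar0 L M' q (jLevel L M')) (Jb ^ q ^ 2) := by
  have hx := jLevel_mem_Ow h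
  have hx' : piStar0 L M' q (jLevel L M') ∈ OZero3 h w :=
    (piStar0_mem_OZero3_iff h hw _).mpr hx
  refine ⟨hx', ?_⟩
  apply Subtype.ext
  rw [coe_redZero3_piStar0 h hw _ hx hx', coe_redF_jLevel_eq h, qExpand_qExpand_jq h,
    coe_pow_kappa, hJb]

/-- `red_0 J_1 = J̄^q`. -/
theorem redTo_zero₁ :
    RedTo (OZero3 h w) (redZero3 h w) (piStar1 L M' q (jLevel L M')) (Jb ^ q) := by
  have hx := jLevel_mem_Ow h
  have hx' : piStar1 L M' q (jLevel L M') ∈ OZero3 h w :=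
    (piStar1_mem_OZero3_iff h hw _).mpr hx
  refine ⟨hx', ?_⟩
  apply Subtype.ext
  rw [coe_redZero3_piStar1 h hw _ hx hx', coe_redF_jLevel_eq h, qExpand_jq h, coe_pow_kappa, hJb]

/-- `red_0 J_2 = J̄`. -/
theorem redTo_zero₂ : RedTo (OZero3 h w) (redZero3 h w) (piStar2 L M' q (jLevel L M')) Jb := by
  have hx := jLevel_mem_Ow h
  have hx' : piStar2 L M' q (jLevel L M') ∈ OZero3 h w :=
    (piStar2_mem_OZero3_iff h hw _).mpr hx
  refine ⟨hx', ?_⟩
  rw [redZero3_piStar2 h hw _ hx hx']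
  exact redF_jLevel_eq h hJb

end InfZero

/-! ### §2 Reductions on `O_mid` -/

section Mid

variable {q : ℕ} (hq : q.Prime) (A : ValuationSubring Qb) (hA : A.LiesOverPrime q)
  {ζ : Qb} (hζ : IsPrimitiveRoot ζ q) (M' : ℕ) [NeZero M'] [NeZero q] (hqM : ¬ q ∣ M')

/-- `J_2 - J_0` is helper7's `dMid`. -/
theorem dMid_eq_sub :
    dMid A M' q = piStar2 ↥(K0 A) M' q (jLevel ↥(K0 A) M') -
      piStar0 ↥(K0 A) M' q (jLevel ↥(K0 A) M') := by
  apply Subtype.ext
  have h2 := coe_piStar2_jLevel ↥(K0 A) M' q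
  have h0 := coe_piStar0_jLevel ↥(K0 A) M' q
  show TD.Jd (inertiaField A) (q * q) - TD.Jd (inertiaField A) 1 = _
  rw [← h2, ← h0]
  rfl

include hq hA hζ hqM in
/-- `J_2 - J_0` is a non-unit of `O_mid`. -/
theorem sub_mem_nonunits_OMid :
    piStar2 ↥(K0 A) M' q (jLevel ↥(K0 A) M') - piStar0 ↥(K0 A) M' q (jLevel ↥(K0 A) M') ∈
      (OMid hq A hA hζ M' hqM (IsLocalRing.residue A)).nonunits := by
  rw [← dMid_eq_sub]
  exact dMid_mem_nonunits_OMid hq A hA hζ M' hqM (IsLocalRing.residue A)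
    (residue_eq_zero_of_not_isUnit A)

include hq hA hζ hqM in
/-- `J_2 - J_0` is a uniformiser of `O_mid`. -/
theorem div_sub_mem_OMid :
    ∀ z ∈ (OMid hq A hA hζ M' hqM (IsLocalRing.residue A)).nonunits,
      z / (piStar2 ↥(K0 A) M' q (jLevel ↥(K0 A) M') -
        piStar0 ↥(K0 A) M' q (jLevel ↥(K0 A) M')) ∈
        OMid hq A hA hζ M' hqM (IsLocalRing.residue A) := by
  rw [← dMid_eq_sub]
  exact OffMid.div_mem_of_isUnif (isUnif_dMid hq A hA hζ M' hqM (IsLocalRing.residue A)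
    (residue_eq_zero_of_not_isUnit A))

variable (redK : OMid hq A hA hζ M' hqM (IsLocalRing.residue A) →+*
    ↥(modularFunctionFieldFullC (IsLocalRing.ResidueField A) M'))
  (hK : ∀ f : OMid hq A hA hζ M' hqM (IsLocalRing.residue A),
    ((redK f : ↥(modularFunctionFieldFullC (IsLocalRing.ResidueField A) M')) :
      LaurentSeries (IsLocalRing.ResidueField A)) =
      redMid hq A hA hζ M' hqM (IsLocalRing.residue A) f)

include hK in
/-- `(J_2 - J_0)^(q-1) / q` lies in `O_mid` and reduces to an element with expansion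
`-(θ J̄)^(q-1)` (helper7's `exists_dMid_pow`). -/
theorem exists_redTo_cert :
    ∃ c : ↥(modularFunctionFieldFullC (IsLocalRing.ResidueField A) M'),
      RedTo (OMid hq A hA hζ M' hqM (IsLocalRing.residue A)) redK
        ((piStar2 ↥(K0 A) M' q (jLevel ↥(K0 A) M') -
          piStar0 ↥(K0 A) M' q (jLevel ↥(K0 A) M')) ^ (q - 1) /
          ((q : ℕ) : ↥(laurentBaseChange ↥(K0 A) (modularFunctionFieldFull (M' * q * q))))) c ∧
      (c : LaurentSeries (IsLocalRing.ResidueField A)) =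
        -(thetaL (IsLocalRing.ResidueField A) (jqModC (IsLocalRing.ResidueField A))) ^ (q - 1) := by
  obtain ⟨t, ht, htr⟩ := exists_dMid_pow hq A hA hζ M' hqM (IsLocalRing.residue A)
    (residue_eq_zero_of_not_isUnit A)
  have hd0 : dMid A M' q ≠ 0 := dMid_ne_zero hq A hA hζ M' hqM (IsLocalRing.residue A)
    (residue_eq_zero_of_not_isUnit A)
  have hq0 : ((q : ℕ) : ↥(laurentBaseChange ↥(K0 A) (modularFunctionFieldFull (M' * q * q)))) ≠
      0 := by
    intro h0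
    have h1 := ht
    rw [h0, zero_mul] at h1
    exact hd0 (pow_eq_zero_iff (n := q - 1) (by
      have := hq.two_le
      omega) |>.mp h1)
  have he : (piStar2 ↥(K0 A) M' q (jLevel ↥(K0 A) M') -
      piStar0 ↥(K0 A) M' q (jLevel ↥(K0 A) M')) ^ (q - 1) /
      ((q : ℕ) : ↥(laurentBaseChange ↥(K0 A) (modularFunctionFieldFull (M' * q * q)))) =
      (t : ↥(laurentBaseChange ↥(K0 A) (modularFunctionFieldFull (M' * q * q)))) := by
    rw [← dMid_eq_sub, ht, mul_div_cancel_left₀ _ hq0]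
  refine ⟨redK t, ⟨he ▸ t.2, ?_⟩, ?_⟩
  · congr 1
    exact Subtype.ext he
  · rw [hK, htr]

variable {Jb : ↥(modularFunctionFieldFullC (IsLocalRing.ResidueField A) M')}
  (hJb : (Jb : LaurentSeries (IsLocalRing.ResidueField A)) = jqModC (IsLocalRing.ResidueField A))

include hK hJb

/-- `red_mid J_0 = J̄`. -/
theorem redTo_mid₀ :
    RedTo (OMid hq A hA hζ M' hqM (IsLocalRing.residue A)) redK
      (piStar0 ↥(K0 A) M' q (jLevel ↥(K0 A) M')) Jb := by
  have hB := badSetup_W0 hq hA M' hqM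
  have hx := jLevel_mem_Ow hB
  have hx' := piStar0_mem_OMid hq A hA hζ M' hqM hB.hMk _ hx
  refine ⟨hx', ?_⟩
  apply Subtype.ext
  rw [hK, redMid_piStar0 hq A hA hζ M' hqM hB.hMk _ hx hx']
  exact (coe_redF_jLevel_eq hB).trans hJb.symm

/-- `red_mid J_1 = J̄^q`. -/
theorem redTo_mid₁ :
    RedTo (OMid hq A hA hζ M' hqM (IsLocalRing.residue A)) redK
      (piStar1 ↥(K0 A) M' q (jLevel ↥(K0 A) M')) (Jb ^ q) := by
  have hB := badSetup_W0 hq hA M' hqM
  have hx := jLevel_mem_Ow hB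
  have hx' := piStar1_mem_OMid hq A hA hζ M' hqM hB.hMk _ hx
  refine ⟨hx', ?_⟩
  apply Subtype.ext
  rw [hK, redMid_piStar1 hq A hA hζ M' hqM hB.hMk _ hx hx', coe_pow_kappa, hJb]
  have h1 := coe_redF_jLevel_eq hB
  rw [h1]
  exact qExpand_jq hB

/-- `red_mid J_2 = J̄`. -/
theorem redTo_mid₂ :
    RedTo (OMid hq A hA hζ M' hqM (IsLocalRing.residue A)) redK
      (piStar2 ↥(K0 A) M' q (jLevel ↥(K0 A) M')) Jb := by
  have hB := badSetup_W0 hq hA M' hqM
  have hx := jLevel_mem_Ow hB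
  have hx' := piStar2_mem_OMid hq A hA hζ M' hqM hB.hMk _ hx
  refine ⟨hx', ?_⟩
  apply Subtype.ext
  rw [hK, redMid_piStar2 hq A hA hζ M' hqM hB.hMk _ hx hx']
  exact (coe_redF_jLevel_eq hB).trans hJb.symm

omit hJb in
/-- The reduction on `O_mid` of a constant of `W0`: any element of the residue function field
with expansion the constant series `resW0 a`. -/
theorem redTo_mid_const (a : W0 A)
    {c : ↥(modularFunctionFieldFullC (IsLocalRing.ResidueField A) M')}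
    (hc : (c : LaurentSeries (IsLocalRing.ResidueField A)) = HahnSeries.C (resW0 A a)) :
    RedTo (OMid hq A hA hζ M' hqM (IsLocalRing.residue A)) redK
      (CK (inertiaField A) (M' * q * q) (a : K0 A)) c := by
  have hcA : ((a : K0 A) : Qb) ∈ A := (mem_W0_iff A _).mp a.2
  have hm : CK (inertiaField A) (M' * q * q) (a : K0 A) ∈
      OMid hq A hA hζ M' hqM (IsLocalRing.residue A) :=
    (CK_mem_OMid_iff hq A hA hζ M' hqM (IsLocalRing.residue A)
      (residue_eq_zero_of_not_isUnit A) _).mpr hcA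
  refine ⟨hm, ?_⟩
  apply Subtype.ext
  rw [hK, redMid_CK hq A hA hζ M' hqM (IsLocalRing.residue A) _ hcA hm, hc]
  rfl

end Mid

/-! ### §3 The five elements of the chart ring at infinity -/

section Chart

variable (L : Type) [Field L] [Algebra ℚ L] (M' : ℕ) [NeZero M'] {q : ℕ} [NeZero q]
  (W : Type*) [CommRing W]
  [Algebra W ↥(laurentBaseChange L (modularFunctionFieldFull (M' * q * q)))]

theorem piStar0_jLevel_ne_zero : piStar0 L M' q (jLevel L M') ≠ 0 :=
  CuspQuot.ne_zero_of_coe _ 1 one_ne_zero (coe_piStar0_jLevel L M' q)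

theorem piStar1_jLevel_ne_zero : piStar1 L M' q (jLevel L M') ≠ 0 :=
  CuspQuot.ne_zero_of_coe _ q (NeZero.ne q) (coe_piStar1_jLevel L M' q)

theorem piStar2_jLevel_ne_zero : piStar2 L M' q (jLevel L M') ≠ 0 :=
  CuspQuot.ne_zero_of_coe _ (q * q) (Nat.mul_ne_zero (NeZero.ne q) (NeZero.ne q))
    (coe_piStar2_jLevel L M' q)

/-- **(Cu-1), corrected (helper15), for `J_i = π_i^* J`**: the Kronecker quotients lie in the
chart ring at infinity `B_∞ = chart W (J_0 J_2)⁻¹`, for every base ring `W`. -/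
theorem quot_mem_chart (hq : q.Prime) :
    piStar1 L M' q (jLevel L M') / piStar0 L M' q (jLevel L M') ^ q ∈
        Charts.chart W (piStar0 L M' q (jLevel L M') * piStar2 L M' q (jLevel L M'))⁻¹ ∧
      piStar1 L M' q (jLevel L M') / piStar2 L M' q (jLevel L M') ^ q ∈
        Charts.chart W (piStar0 L M' q (jLevel L M') * piStar2 L M' q (jLevel L M'))⁻¹ ∧
      piStar2 L M' q (jLevel L M') / piStar0 L M' q (jLevel L M') ^ q ^ 2 ∈
        Charts.chart W (piStar0 L M' q (jLevel L M') * piStar2 L M' q (jLevel L M'))⁻¹ ∧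
      piStar0 L M' q (jLevel L M') / piStar2 L M' q (jLevel L M') ^ q ^ 2 ∈
        Charts.chart W (piStar0 L M' q (jLevel L M') * piStar2 L M' q (jLevel L M'))⁻¹ ∧
      (piStar0 L M' q (jLevel L M'))⁻¹ ∈
        Charts.chart W (piStar0 L M' q (jLevel L M') * piStar2 L M' q (jLevel L M'))⁻¹ ∧
      (piStar2 L M' q (jLevel L M'))⁻¹ ∈
        Charts.chart W (piStar0 L M' q (jLevel L M') * piStar2 L M' q (jLevel L M'))⁻¹ := by
  obtain ⟨D⟩ := modEq_all q hq
  have h := CuspQuot.isIntegral_quot_modEq hq D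
    (laurentBaseChange L (modularFunctionFieldFull (M' * q * q))) 1 one_ne_zero
    (j0 := piStar0 L M' q (jLevel L M')) (j1 := piStar1 L M' q (jLevel L M'))
    (j2 := piStar2 L M' q (jLevel L M')) (coe_piStar0_jLevel L M' q)
    (by rw [coe_piStar1_jLevel, one_mul]) (by rw [coe_piStar2_jLevel, one_mul])
    (R := Algebra.adjoin W
      {(piStar0 L M' q (jLevel L M') * piStar2 L M' q (jLevel L M'))⁻¹})
    ⟨⟨_, Algebra.self_mem_adjoin_singleton W _⟩, rfl⟩
  exact ⟨h.2.2.1, h.2.2.2.1, h.2.2.2.2.1, h.2.2.2.2.2, h.1, h.2.1⟩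

/-- `x⁻¹ = (J_0 J_2)⁻¹` as an element of `B_∞`. -/
def xinvB : ↥(Charts.chart W (piStar0 L M' q (jLevel L M') * piStar2 L M' q (jLevel L M'))⁻¹) :=
  ⟨(piStar0 L M' q (jLevel L M') * piStar2 L M' q (jLevel L M'))⁻¹, Charts.self_mem_chart _⟩

/-- `y₁ = J_1 / J_0^q ∈ B_∞`. -/
def y₁B (hq : q.Prime) :
    ↥(Charts.chart W (piStar0 L M' q (jLevel L M') * piStar2 L M' q (jLevel L M'))⁻¹) :=
  ⟨_, (quot_mem_chart L M' W hq).1⟩

/-- `y₂ = J_1 / J_2^q ∈ B_∞`. -/
def y₂B (hq : q.Prime) :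
    ↥(Charts.chart W (piStar0 L M' q (jLevel L M') * piStar2 L M' q (jLevel L M'))⁻¹) :=
  ⟨_, (quot_mem_chart L M' W hq).2.1⟩

/-- `y₃ = J_2 / J_0^(q²) ∈ B_∞`. -/
def y₃B (hq : q.Prime) :
    ↥(Charts.chart W (piStar0 L M' q (jLevel L M') * piStar2 L M' q (jLevel L M'))⁻¹) :=
  ⟨_, (quot_mem_chart L M' W hq).2.2.1⟩

/-- `y₀ = J_0 / J_2^(q²) ∈ B_∞`. -/
def y₀B (hq : q.Prime) :
    ↥(Charts.chart W (piStar0 L M' q (jLevel L M') * piStar2 L M' q (jLevel L M'))⁻¹) :=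
  ⟨_, (quot_mem_chart L M' W hq).2.2.2.1⟩

theorem algebraMap_chart_apply
    {x : ↥(laurentBaseChange L (modularFunctionFieldFull (M' * q * q)))}
    (b : ↥(Charts.chart W x)) :
    algebraMap ↥(Charts.chart W x) ↥(laurentBaseChange L (modularFunctionFieldFull (M' * q * q)))
      b = (b : ↥(laurentBaseChange L (modularFunctionFieldFull (M' * q * q)))) := rfl

theorem xinvB_mul :
    algebraMap _ ↥(laurentBaseChange L (modularFunctionFieldFull (M' * q * q)))
      (xinvB L M' (q := q) W) *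
      (piStar0 L M' q (jLevel L M') * piStar2 L M' q (jLevel L M')) = 1 := by
  rw [algebraMap_chart_apply]
  exact inv_mul_cancel₀ (mul_ne_zero (piStar0_jLevel_ne_zero L M')
    (piStar2_jLevel_ne_zero L M'))

theorem y₁B_mul (hq : q.Prime) :
    algebraMap _ ↥(laurentBaseChange L (modularFunctionFieldFull (M' * q * q)))
      (y₁B L M' W hq) * piStar0 L M' q (jLevel L M') ^ q = piStar1 L M' q (jLevel L M') := by
  rw [algebraMap_chart_apply]
  exact div_mul_cancel₀ _ (pow_ne_zero _ (piStar0_jLevel_ne_zero L M'))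

theorem y₂B_mul (hq : q.Prime) :
    algebraMap _ ↥(laurentBaseChange L (modularFunctionFieldFull (M' * q * q)))
      (y₂B L M' W hq) * piStar2 L M' q (jLevel L M') ^ q = piStar1 L M' q (jLevel L M') := by
  rw [algebraMap_chart_apply]
  exact div_mul_cancel₀ _ (pow_ne_zero _ (piStar2_jLevel_ne_zero L M'))

theorem y₃B_mul (hq : q.Prime) :
    algebraMap _ ↥(laurentBaseChange L (modularFunctionFieldFull (M' * q * q)))
      (y₃B L M' W hq) * piStar0 L M' q (jLevel L M') ^ q ^ 2 =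
        piStar2 L M' q (jLevel L M') := by
  rw [algebraMap_chart_apply]
  exact div_mul_cancel₀ _ (pow_ne_zero _ (piStar0_jLevel_ne_zero L M'))

theorem y₀B_mul (hq : q.Prime) :
    algebraMap _ ↥(laurentBaseChange L (modularFunctionFieldFull (M' * q * q)))
      (y₀B L M' W hq) * piStar2 L M' q (jLevel L M') ^ q ^ 2 =
        piStar0 L M' q (jLevel L M') := by
  rw [algebraMap_chart_apply]
  exact div_mul_cancel₀ _ (pow_ne_zero _ (piStar2_jLevel_ne_zero L M'))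

end Chart

/-! ### §4 The records -/

section Transfer

variable {F κ : Type*} [Field F] [Field κ]

/-- Transfer of `RedTo` along an identification of valuation rings and reduction maps. -/
theorem redTo_transfer {O O' : ValuationSubring F} {red : O →+* κ} {red' : O' →+* κ}
    (hO : O' = O) (hr : ∀ (f : F) (hf : f ∈ O') (hf' : f ∈ O), red' ⟨f, hf⟩ = red ⟨f, hf'⟩)
    {J : F} {c : κ} (h : RedTo O red J c) : RedTo O' red' J c := by
  obtain ⟨hJ, rfl⟩ := h
  exact ⟨hO ▸ hJ, hr J _ hJ⟩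

/-- A chart ring `chart W x` lies in every valuation ring containing `W` and `x`. -/
theorem mem_of_mem_chart {W : Type*} [CommRing W] [Algebra W F] (O : ValuationSubring F)
    (hW : ∀ a : W, algebraMap W F a ∈ O) {x : F} (hx : x ∈ O) (b : ↥(Charts.chart W x)) :
    algebraMap ↥(Charts.chart W x) F b ∈ O :=
  (ChartX.isIntegral_adjoin_singleton_iff.mp b.2) O hW hx

end Transfer

section Records

variable {q : ℕ} (hq : q.Prime) (A : ValuationSubring Qb) (hA : A.LiesOverPrime q)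
  {ζ : Qb} (hζ : IsPrimitiveRoot ζ q) (M' : ℕ) [NeZero M'] [NeZero q] (hqM : ¬ q ∣ M')
  (hB : BadSetup (W0 A) (resW0 A) M' q)
  {w : laurentBaseChange ↥(K0 A) (modularFunctionFieldFull (M' * q * q)) ≃ₐ[↥(K0 A)]
    laurentBaseChange ↥(K0 A) (modularFunctionFieldFull (M' * q * q))} (hw : IsAL3 M' q w)
  (redK : OMid hq A hA hζ M' hqM (IsLocalRing.residue A) →+*
    ↥(modularFunctionFieldFullC (IsLocalRing.ResidueField A) M'))
  (hK : ∀ f : OMid hq A hA hζ M' hqM (IsLocalRing.residue A),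
    ((redK f : ↥(modularFunctionFieldFullC (IsLocalRing.ResidueField A) M')) :
      LaurentSeries (IsLocalRing.ResidueField A)) =
      redMid hq A hA hζ M' hqM (IsLocalRing.residue A) f)
  {Jb : ↥(modularFunctionFieldFullC (IsLocalRing.ResidueField A) M')}
  (hJb : (Jb : LaurentSeries (IsLocalRing.ResidueField A)) = jqModC (IsLocalRing.ResidueField A))
  (W : Type*) [CommRing W]
  [Algebra W ↥(laurentBaseChange ↥(K0 A) (modularFunctionFieldFull (M' * q * q)))]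
  (O : Fin 3 →
    ValuationSubring ↥(laurentBaseChange ↥(K0 A) (modularFunctionFieldFull (M' * q * q))))
  (red : ∀ i, O i →+* ↥(modularFunctionFieldFullC (IsLocalRing.ResidueField A) M'))
  (hBO : ∀ i, ∀ b : ↥(Charts.chart W (piStar0 ↥(K0 A) M' q (jLevel ↥(K0 A) M') *
      piStar2 ↥(K0 A) M' q (jLevel ↥(K0 A) M'))⁻¹),
    algebraMap _ ↥(laurentBaseChange ↥(K0 A) (modularFunctionFieldFull (M' * q * q))) b ∈ O i)
  (h0 : O 0 = OInf3 hB)
  (r0 : ∀ (f : ↥(laurentBaseChange ↥(K0 A) (modularFunctionFieldFull (M' * q * q))))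
    (hf : f ∈ O 0) (hf' : f ∈ OInf3 hB), red 0 ⟨f, hf⟩ = redInf3 hB ⟨f, hf'⟩)
  (h1 : O 1 = OMid hq A hA hζ M' hqM (IsLocalRing.residue A))
  (r1 : ∀ (f : ↥(laurentBaseChange ↥(K0 A) (modularFunctionFieldFull (M' * q * q))))
    (hf : f ∈ O 1) (hf' : f ∈ OMid hq A hA hζ M' hqM (IsLocalRing.residue A)),
    red 1 ⟨f, hf⟩ = redK ⟨f, hf'⟩)
  (h2 : O 2 = OZero3 hB w)
  (r2 : ∀ (f : ↥(laurentBaseChange ↥(K0 A) (modularFunctionFieldFull (M' * q * q))))
    (hf : f ∈ O 2) (hf' : f ∈ OZero3 hB w), red 2 ⟨f, hf⟩ = redZero3 hB w ⟨f, hf'⟩)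

include hw hK hJb h0 r0 h1 r1 h2 r2 in
/-- **The cusp record `V3Cusp` for the chart at infinity** `B_∞ = chart W (J_0 J_2)⁻¹`, for every
family `(O, red)` whose members are `(O_∞, red_∞)`, `(O_mid, redK)`, `(O_0, red_0)`; the local
parameter at the cusps is `Jb⁻¹ = 1/J̄`. -/
theorem v3Cusp :
    V3Cusp O red hBO (xinvB ↥(K0 A) M' (q := q) W) (y₀B ↥(K0 A) M' W hq) (y₁B ↥(K0 A) M' W hq)
      (y₂B ↥(K0 A) M' W hq) (y₃B ↥(K0 A) M' W hq) Jb⁻¹ :=
  V3Cusp.of_J (ne_zero_of_coe_eq_jq hJb) hq.two_le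
    (redTo_transfer h0 r0 (redTo_inf₀ hB hJb)) (redTo_transfer h0 r0 (redTo_inf₁ hB hJb))
    (redTo_transfer h0 r0 (redTo_inf₂ hB hJb))
    (redTo_transfer h1 r1 (redTo_mid₀ hq A hA hζ M' hqM redK hK hJb))
    (redTo_transfer h1 r1 (redTo_mid₁ hq A hA hζ M' hqM redK hK hJb))
    (redTo_transfer h1 r1 (redTo_mid₂ hq A hA hζ M' hqM redK hK hJb))
    (redTo_transfer h2 r2 (redTo_zero₀ hB hJb hw)) (redTo_transfer h2 r2 (redTo_zero₁ hB hJb hw))
    (redTo_transfer h2 r2 (redTo_zero₂ hB hJb hw))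
    (xinvB_mul ↥(K0 A) M' W) (y₁B_mul ↥(K0 A) M' W hq) (y₂B_mul ↥(K0 A) M' W hq)
    (y₃B_mul ↥(K0 A) M' W hq) (y₀B_mul ↥(K0 A) M' W hq)

include hw hK h0 r0 h1 r1 h2 r2 in
/-- `B_∞ ⊆ O_i` for the three components, as soon as the base ring `W` maps into them. -/
theorem algebraMap_chart_mem
    (hred : ∀ i, ∀ x : O i, red i x = 0 ↔ x ∈ maximalIdeal (O i))
    (hW : ∀ i, ∀ a : W,
      algebraMap W ↥(laurentBaseChange ↥(K0 A) (modularFunctionFieldFull (M' * q * q))) a ∈ O i) :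
    ∀ i, ∀ b : ↥(Charts.chart W (piStar0 ↥(K0 A) M' q (jLevel ↥(K0 A) M') *
      piStar2 ↥(K0 A) M' q (jLevel ↥(K0 A) M'))⁻¹),
      algebraMap _ ↥(laurentBaseChange ↥(K0 A) (modularFunctionFieldFull (M' * q * q))) b ∈
        O i := by
  obtain ⟨Jb, hJb⟩ : ∃ Jb : ↥(modularFunctionFieldFullC (IsLocalRing.ResidueField A) M'),
      (Jb : LaurentSeries (IsLocalRing.ResidueField A)) = jqModC (IsLocalRing.ResidueField A) :=
    ⟨_, coe_redF_jLevel_eq hB⟩
  have hJb0 := ne_zero_of_coe_eq_jq hJb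
  have hpn : ∀ n : ℕ, Jb ^ n ≠ 0 := fun n => pow_ne_zero n hJb0
  intro i b
  refine mem_of_mem_chart (O i) (hW i) ?_ b
  fin_cases i
  · exact (((redTo_transfer h0 r0 (redTo_inf₀ hB hJb)).mul
      (redTo_transfer h0 r0 (redTo_inf₂ hB hJb))).inv (hred 0)
      (mul_ne_zero hJb0 (hpn _))).mem
  · exact (((redTo_transfer h1 r1 (redTo_mid₀ hq A hA hζ M' hqM redK hK hJb)).mul
      (redTo_transfer h1 r1 (redTo_mid₂ hq A hA hζ M' hqM redK hK hJb))).inv (hred 1)
      (mul_ne_zero hJb0 hJb0)).mem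
  · exact (((redTo_transfer h2 r2 (redTo_zero₀ hB hJb hw)).mul
      (redTo_transfer h2 r2 (redTo_zero₂ hB hJb hw))).inv (hred 2)
      (mul_ne_zero (hpn _) hJb0)).mem

include hK h1 r1 in
/-- The constants of the residue function field are reductions on `O_mid` of elements of `B_∞`
(`hconst`: the constants of `W0` come from the base ring `W` of the chart). -/
theorem const_mem_of_redOn_mem
    (hconst : ∀ a : W0 A, ∃ b : W,
      algebraMap W ↥(laurentBaseChange ↥(K0 A) (modularFunctionFieldFull (M' * q * q))) b =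
        CK (inertiaField A) (M' * q * q) (a : K0 A))
    (Vs : ValuationSubring ↥(modularFunctionFieldFullC (IsLocalRing.ResidueField A) M'))
    (hVs : ∀ b : ↥(Charts.chart W (piStar0 ↥(K0 A) M' q (jLevel ↥(K0 A) M') *
      piStar2 ↥(K0 A) M' q (jLevel ↥(K0 A) M'))⁻¹), redOn (O 1) (red 1) (hBO 1) b ∈ Vs)
    (a : IsLocalRing.ResidueField A)
    (c : ↥(modularFunctionFieldFullC (IsLocalRing.ResidueField A) M'))
    (hca : (c : LaurentSeries (IsLocalRing.ResidueField A)) = HahnSeries.C a) : c ∈ Vs := by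
  obtain ⟨a', rfl⟩ := resW0_surjective hq hA a
  obtain ⟨b, hb⟩ := hconst a'
  have hmid := redTo_transfer h1 r1 (redTo_mid_const hq A hA hζ M' hqM redK hK a' hca)
  have h5 := hVs ⟨_, Subalgebra.algebraMap_mem _ b⟩
  have h7 := redTo_algebraMap (O 1) (red 1) (hBO 1)
    (⟨_, Subalgebra.algebraMap_mem _ b⟩ : ↥(Charts.chart W (piStar0 ↥(K0 A) M' q
      (jLevel ↥(K0 A) M') * piStar2 ↥(K0 A) M' q (jLevel ↥(K0 A) M'))⁻¹))
  have h8 : algebraMap ↥(Charts.chart W (piStar0 ↥(K0 A) M' q (jLevel ↥(K0 A) M') *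
      piStar2 ↥(K0 A) M' q (jLevel ↥(K0 A) M'))⁻¹)
      ↥(laurentBaseChange ↥(K0 A) (modularFunctionFieldFull (M' * q * q)))
      ⟨_, Subalgebra.algebraMap_mem _ b⟩ = CK (inertiaField A) (M' * q * q) (a' : K0 A) :=
    (algebraMap_chart_apply ↥(K0 A) M' W _).trans hb
  rw [h8] at h7
  rw [← h7.unique hmid]
  exact h5

include hB hK hJb h1 r1 in
/-- **The record `V3CuspMid` for the chart at infinity**: `e = 1 - J_0/J_2`, `m = q`,
`(n, N) = (q - 1, 1)`, `g` an element with expansion `-(θ J̄ / J̄)^(q-1)`.  `hconst`: the constants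
of `W0` come from the base ring `W` of the chart. -/
theorem exists_v3CuspMid
    (hred : ∀ i, ∀ x : O i, red i x = 0 ↔ x ∈ maximalIdeal (O i))
    (hconst : ∀ a : W0 A, ∃ b : W,
      algebraMap W ↥(laurentBaseChange ↥(K0 A) (modularFunctionFieldFull (M' * q * q))) b =
        CK (inertiaField A) (M' * q * q) (a : K0 A)) :
    ∃ g : ↥(modularFunctionFieldFullC (IsLocalRing.ResidueField A) M'),
      (g : LaurentSeries (IsLocalRing.ResidueField A)) *
          jqModC (IsLocalRing.ResidueField A) ^ (q - 1) =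
        -(thetaL (IsLocalRing.ResidueField A) (jqModC (IsLocalRing.ResidueField A))) ^ (q - 1) ∧
      V3CuspMid O red hBO
        ((q : ℕ) : ↥(Charts.chart W (piStar0 ↥(K0 A) M' q (jLevel ↥(K0 A) M') *
          piStar2 ↥(K0 A) M' q (jLevel ↥(K0 A) M'))⁻¹))
        (y₁B ↥(K0 A) M' W hq) (y₂B ↥(K0 A) M' W hq)
        (1 - piStar0 ↥(K0 A) M' q (jLevel ↥(K0 A) M') /
          piStar2 ↥(K0 A) M' q (jLevel ↥(K0 A) M'))
        q (q - 1) 1 Jb⁻¹ g := by
  have hJb0 := ne_zero_of_coe_eq_jq hJb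
  have hq1 : q - 1 ≠ 0 := by
    have := hq.two_le
    omega
  obtain ⟨c, hc, hcθ⟩ := exists_redTo_cert hq A hA hζ M' hqM redK hK
  have hc' := redTo_transfer h1 r1 hc
  have hg : c / Jb ^ (q - 1) * Jb ^ (q - 1) = c := div_mul_cancel₀ _ (pow_ne_zero _ hJb0)
  have hexp : ((c / Jb ^ (q - 1) : ↥(modularFunctionFieldFullC (IsLocalRing.ResidueField A) M')) :
      LaurentSeries (IsLocalRing.ResidueField A)) *
        jqModC (IsLocalRing.ResidueField A) ^ (q - 1) =
      -(thetaL (IsLocalRing.ResidueField A) (jqModC (IsLocalRing.ResidueField A))) ^ (q - 1) := by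
    rw [← hcθ, ← hJb]
    exact congrArg (fun x : ↥(modularFunctionFieldFullC (IsLocalRing.ResidueField A) M') =>
      (x : LaurentSeries (IsLocalRing.ResidueField A))) hg
  have hmid₀ := redTo_transfer h1 r1 (redTo_mid₀ hq A hA hζ M' hqM redK hK hJb)
  have hmid₂ := redTo_transfer h1 r1 (redTo_mid₂ hq A hA hζ M' hqM redK hK hJb)
  have hd : piStar2 ↥(K0 A) M' q (jLevel ↥(K0 A) M') - piStar0 ↥(K0 A) M' q (jLevel ↥(K0 A) M') ∈
      (O 1).nonunits := by
    rw [h1]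
    exact sub_mem_nonunits_OMid hq A hA hζ M' hqM
  have hunif : ∀ z ∈ (O 1).nonunits,
      z / (piStar2 ↥(K0 A) M' q (jLevel ↥(K0 A) M') -
        piStar0 ↥(K0 A) M' q (jLevel ↥(K0 A) M')) ∈ O 1 := by
    rw [h1]
    exact div_sub_mem_OMid hq A hA hζ M' hqM
  have hcert : RedTo (O 1) (red 1)
      ((piStar2 ↥(K0 A) M' q (jLevel ↥(K0 A) M') -
        piStar0 ↥(K0 A) M' q (jLevel ↥(K0 A) M')) ^ (q - 1) /
        algebraMap ↥(Charts.chart W (piStar0 ↥(K0 A) M' q (jLevel ↥(K0 A) M') *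
          piStar2 ↥(K0 A) M' q (jLevel ↥(K0 A) M'))⁻¹)
          ↥(laurentBaseChange ↥(K0 A) (modularFunctionFieldFull (M' * q * q)))
          ((q : ℕ) : ↥(Charts.chart W (piStar0 ↥(K0 A) M' q (jLevel ↥(K0 A) M') *
            piStar2 ↥(K0 A) M' q (jLevel ↥(K0 A) M'))⁻¹)) ^ 1) c := by
    rw [map_natCast, pow_one]
    exact hc'
  have hgu : ∀ Vs : ValuationSubring ↥(modularFunctionFieldFullC (IsLocalRing.ResidueField A) M'),
      (∀ b : ↥(Charts.chart W (piStar0 ↥(K0 A) M' q (jLevel ↥(K0 A) M') *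
        piStar2 ↥(K0 A) M' q (jLevel ↥(K0 A) M'))⁻¹), redOn (O 1) (red 1) (hBO 1) b ∈ Vs) →
      Jb⁻¹ ∈ Vs.nonunits → c / Jb ^ (q - 1) ∉ Vs.nonunits := by
    intro Vs hVs hy
    haveI : CharP (IsLocalRing.ResidueField A) q := hB.charP
    exact g_notMem_nonunits hq Vs
      (const_mem_of_redOn_mem hq A hA hζ M' hqM redK hK W O red hBO h1 r1 hconst Vs hVs)
      hJb hexp hy
  exact ⟨c / Jb ^ (q - 1), hexp, V3CuspMid.of_J hred hJb0 hq.ne_zero hmid₀ hmid₂
    (y₁B_mul ↥(K0 A) M' W hq) (y₂B_mul ↥(K0 A) M' W hq) hq1 hd hunif hcert hg hgu⟩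

end Records

/-! ## Convention (B) (architect's ruling #6, R1/R5): `J_i = π_i^* x`, `x = xL = J(q^{M'})`

The chart function of the CAR charts is `x = J_0 J_2` with `J_i := CuspQuot.J0/J1/J2 L M'`
(`= piStar_i (xL L M')`, series `J(q^{M'})`, `J(q^{M' q})`, `J(q^{M' q²})`), and the chart ring at
infinity is `B_∞ = chart W (J_0 J_2)⁻¹`.  The local parameter at the cusps of the residue
function field is `Jb⁻¹`, `Jb` the element with expansion `x̄ = J̄(q^{M'})` (`= Lib.Red.xk k M'`).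
Everything below is the convention-(B) twin of §0–§4. -/

namespace B

/-! ### §B0 The residue function field -/

section Kappa

variable {k : Type} [Field k] {M' : ℕ} [NeZero M']

/-- An element of the residue function field with expansion `x̄ = J̄(q^{M'})` is nonzero. -/
theorem ne_zero_of_coe_eq_Jd {Jb : ↥(modularFunctionFieldFullC k M')}
    (hJb : (Jb : LaurentSeries k) = TD.Jd k M') : Jb ≠ 0 := by
  rintro rfl
  exact Fermat.Agent.S28.ValInd.Jd_ne_zero (K := k) M' (NeZero.ne M') hJb.symm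

/-- **(Cu-5), convention (B)** (helper83's `CuspUnitM.g_unit_at_cusp_Jd`): an element `g` with
expansion `-(θ x̄ / x̄)^(q-1)` is a unit at every place `Vs` containing the constants at which
`1/x̄` vanishes. -/
theorem g_notMem_nonunits {q : ℕ} (hq : q.Prime) [NeZero q] [CharP k q] (hMk : (M' : k) ≠ 0)
    (Vs : ValuationSubring ↥(modularFunctionFieldFullC k M'))
    (hk : ∀ (a : k) (c : ↥(modularFunctionFieldFullC k M')),
      (c : LaurentSeries k) = HahnSeries.C a → c ∈ Vs)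
    {Jb g : ↥(modularFunctionFieldFullC k M')} (hJb : (Jb : LaurentSeries k) = TD.Jd k M')
    (hg : (g : LaurentSeries k) * TD.Jd k M' ^ (q - 1) = -(thetaL k (TD.Jd k M')) ^ (q - 1))
    (hy : Jb⁻¹ ∈ Vs.nonunits) : g ∉ Vs.nonunits := by
  haveI : Fact q.Prime := ⟨hq⟩
  have hc₀ : (modularFunctionFieldFullC k M').val (g * Jb ^ (q - 1)) =
      -(thetaL k (TD.Jd k M')) ^ (q - 1) := by
    rw [← hg, ← hJb]
    rfl
  exact (CuspUnitM.g_unit_at_cusp_Jd Vs q M' (modularFunctionFieldFullC k M').val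
    (fun a => hk a _ (coe_algebraMap_kappa a)) hMk hJb hc₀ rfl hy).2

end Kappa

/-! ### §B1 Reductions on `O_∞` and `O_0` -/

section InfZero

variable {L : Type} [Field L] [Algebra ℚ L] {A : ValuationSubring L} {k : Type} [Field k]
  {π : A →+* k} {M' q : ℕ} [NeZero M'] [NeZero q]

theorem coe_redF_xL_eq (h : BadSetup A π M' q) :
    ((redF A π M' h.hπ h.hMk ⟨xL L M', Fermat.Agent.Lib.Red.xL_mem_Ow h.hMk⟩ :
      modularFunctionFieldFullC k M') : LaurentSeries k) = TD.Jd k M' := by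
  rw [Fermat.Agent.Lib.Red.redF_xL h.hπ h.hMk]
  rfl

/-- The reduction of `x = xL` is any element with expansion `x̄`. -/
theorem redF_xL_eq (h : BadSetup A π M' q) {Jb : ↥(modularFunctionFieldFullC k M')}
    (hJb : (Jb : LaurentSeries k) = TD.Jd k M') :
    redF A π M' h.hπ h.hMk ⟨xL L M', Fermat.Agent.Lib.Red.xL_mem_Ow h.hMk⟩ = Jb :=
  Subtype.ext ((coe_redF_xL_eq h).trans hJb.symm)

/-- The Frobenius twist of `x̄`. -/
theorem qExpand_Jd (h : BadSetup A π M' q) : qExpand k q (TD.Jd k M') = TD.Jd k M' ^ q := by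
  haveI : Fact q.Prime := ⟨h.hℓ⟩
  haveI : CharP k q := h.charP
  exact MidCuspB.qExpand_Jd_charP k q M'

theorem qExpand_qExpand_Jd (h : BadSetup A π M' q) :
    qExpand k q (qExpand k q (TD.Jd k M')) = TD.Jd k M' ^ q ^ 2 := by
  rw [qExpand_Jd h, map_pow, qExpand_Jd h, ← pow_mul, sq]

variable (h : BadSetup A π M' q) {Jb : ↥(modularFunctionFieldFullC k M')}
  (hJb : (Jb : LaurentSeries k) = TD.Jd k M')

include hJb

/-- `red_∞ J_0 = x̄`. -/
theorem redTo_inf₀ : RedTo (OInf3 h) (redInf3 h) (CuspQuot.J0 (q := q) L M') Jb := by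
  have hx : xL L M' ∈ Ow A π M' h.hMk := Fermat.Agent.Lib.Red.xL_mem_Ow h.hMk
  have hx' : piStar0 L M' q (xL L M') ∈ OInf3 h := (piStar0_mem_OInf3_iff h _).mpr hx
  refine ⟨hx', ?_⟩
  have h1 := redInf3_piStar0 h _ hx hx'
  exact h1.trans (redF_xL_eq h hJb)

/-- `red_∞ J_1 = x̄^q`. -/
theorem redTo_inf₁ : RedTo (OInf3 h) (redInf3 h) (CuspQuot.J1 (q := q) L M') (Jb ^ q) := by
  have hx : xL L M' ∈ Ow A π M' h.hMk := Fermat.Agent.Lib.Red.xL_mem_Ow h.hMk
  have hx' : piStar1 L M' q (xL L M') ∈ OInf3 h := (piStar1_mem_OInf3_iff h _).mpr hx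
  refine ⟨hx', ?_⟩
  apply Subtype.ext
  have h1 := coe_redInf3_piStar1 h _ hx hx'
  rw [coe_redF_xL_eq h, qExpand_Jd h] at h1
  rw [coe_pow_kappa, hJb]
  exact h1

/-- `red_∞ J_2 = x̄^(q²)`. -/
theorem redTo_inf₂ : RedTo (OInf3 h) (redInf3 h) (CuspQuot.J2 (q := q) L M') (Jb ^ q ^ 2) := by
  have hx : xL L M' ∈ Ow A π M' h.hMk := Fermat.Agent.Lib.Red.xL_mem_Ow h.hMk
  have hx' : piStar2 L M' q (xL L M') ∈ OInf3 h := (piStar2_mem_OInf3_iff h _).mpr hx
  refine ⟨hx', ?_⟩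
  apply Subtype.ext
  have h1 := coe_redInf3_piStar2 h _ hx hx'
  rw [coe_redF_xL_eq h, qExpand_qExpand_Jd h] at h1
  rw [coe_pow_kappa, hJb]
  exact h1

variable {w : laurentBaseChange L (modularFunctionFieldFull (M' * q * q)) ≃ₐ[L]
    laurentBaseChange L (modularFunctionFieldFull (M' * q * q))} (hw : IsAL3 M' q w)

include hw

/-- `red_0 J_0 = x̄^(q²)`. -/
theorem redTo_zero₀ :
    RedTo (OZero3 h w) (redZero3 h w) (CuspQuot.J0 (q := q) L M') (Jb ^ q ^ 2) := by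
  have hx : xL L M' ∈ Ow A π M' h.hMk := Fermat.Agent.Lib.Red.xL_mem_Ow h.hMk
  have hx' : piStar0 L M' q (xL L M') ∈ OZero3 h w := (piStar0_mem_OZero3_iff h hw _).mpr hx
  refine ⟨hx', ?_⟩
  apply Subtype.ext
  have h1 := coe_redZero3_piStar0 h hw _ hx hx'
  rw [coe_redF_xL_eq h, qExpand_qExpand_Jd h] at h1
  rw [coe_pow_kappa, hJb]
  exact h1

/-- `red_0 J_1 = x̄^q`. -/
theorem redTo_zero₁ :
    RedTo (OZero3 h w) (redZero3 h w) (CuspQuot.J1 (q := q) L M') (Jb ^ q) := by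
  have hx : xL L M' ∈ Ow A π M' h.hMk := Fermat.Agent.Lib.Red.xL_mem_Ow h.hMk
  have hx' : piStar1 L M' q (xL L M') ∈ OZero3 h w := (piStar1_mem_OZero3_iff h hw _).mpr hx
  refine ⟨hx', ?_⟩
  apply Subtype.ext
  have h1 := coe_redZero3_piStar1 h hw _ hx hx'
  rw [coe_redF_xL_eq h, qExpand_Jd h] at h1
  rw [coe_pow_kappa, hJb]
  exact h1

/-- `red_0 J_2 = x̄`. -/
theorem redTo_zero₂ : RedTo (OZero3 h w) (redZero3 h w) (CuspQuot.J2 (q := q) L M') Jb := by
  have hx : xL L M' ∈ Ow A π M' h.hMk := Fermat.Agent.Lib.Red.xL_mem_Ow h.hMk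
  have hx' : piStar2 L M' q (xL L M') ∈ OZero3 h w := (piStar2_mem_OZero3_iff h hw _).mpr hx
  refine ⟨hx', ?_⟩
  have h1 := redZero3_piStar2 h hw _ hx hx'
  exact h1.trans (redF_xL_eq h hJb)

end InfZero

/-! ### §B2 Reductions on `O_mid` (helper83's `MidCuspB`, `κ`-valued) -/

section Mid

variable {q : ℕ} (hq : q.Prime) (A : ValuationSubring Qb) (hA : A.LiesOverPrime q)
  {ζ : Qb} (hζ : IsPrimitiveRoot ζ q) (M' : ℕ) [NeZero M'] [NeZero q] (hqM : ¬ q ∣ M')
  (hB : BadSetup (W0 A) (resW0 A) M' q)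
  (redK : OMid hq A hA hζ M' hqM (IsLocalRing.residue A) →+*
    ↥(modularFunctionFieldFullC (IsLocalRing.ResidueField A) M'))
  (hK : ∀ f : OMid hq A hA hζ M' hqM (IsLocalRing.residue A),
    ((redK f : ↥(modularFunctionFieldFullC (IsLocalRing.ResidueField A) M')) :
      LaurentSeries (IsLocalRing.ResidueField A)) =
      redMid hq A hA hζ M' hqM (IsLocalRing.residue A) f)

include hB hK in
/-- `(J_2 - J_0)^(q-1) / q` lies in `O_mid` and reduces to an element with expansion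
`-(θ x̄)^(q-1)` (helper83's `MidCuspB.hc`). -/
theorem exists_redTo_cert :
    ∃ c : ↥(modularFunctionFieldFullC (IsLocalRing.ResidueField A) M'),
      RedTo (OMid hq A hA hζ M' hqM (IsLocalRing.residue A)) redK
        ((CuspQuot.J2 (q := q) ↥(K0 A) M' - CuspQuot.J0 (q := q) ↥(K0 A) M') ^ (q - 1) /
          ((q : ℕ) : ↥(laurentBaseChange ↥(K0 A) (modularFunctionFieldFull (M' * q * q))))) c ∧
      (c : LaurentSeries (IsLocalRing.ResidueField A)) =
        -(thetaL (IsLocalRing.ResidueField A) (TD.Jd (IsLocalRing.ResidueField A) M')) ^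
          (q - 1) := by
  obtain ⟨hz, hr⟩ := MidCuspB.hc hq A hA hζ M' hqM hB.hMk
  exact ⟨redK ⟨_, hz⟩, ⟨hz, rfl⟩, (hK _).trans hr⟩

variable {Jb : ↥(modularFunctionFieldFullC (IsLocalRing.ResidueField A) M')}
  (hJb : (Jb : LaurentSeries (IsLocalRing.ResidueField A)) =
    TD.Jd (IsLocalRing.ResidueField A) M')

include hB hK hJb

/-- `red_mid J_0 = x̄`. -/
theorem redTo_mid₀ :
    RedTo (OMid hq A hA hζ M' hqM (IsLocalRing.residue A)) redK
      (CuspQuot.J0 (q := q) ↥(K0 A) M') Jb := by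
  obtain ⟨hm, hr⟩ := MidCuspB.mid₀ hq A hA hζ M' hqM hB.hMk
  exact ⟨hm, Subtype.ext ((hK _).trans (hr.trans hJb.symm))⟩

/-- `red_mid J_1 = x̄^q`. -/
theorem redTo_mid₁ :
    RedTo (OMid hq A hA hζ M' hqM (IsLocalRing.residue A)) redK
      (CuspQuot.J1 (q := q) ↥(K0 A) M') (Jb ^ q) := by
  obtain ⟨hm, hr⟩ := MidCuspB.mid₁ hq A hA hζ M' hqM hB.hMk
  refine ⟨hm, Subtype.ext ?_⟩
  rw [hK, hr, coe_pow_kappa, hJb]

/-- `red_mid J_2 = x̄`. -/
theorem redTo_mid₂ :
    RedTo (OMid hq A hA hζ M' hqM (IsLocalRing.residue A)) redK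
      (CuspQuot.J2 (q := q) ↥(K0 A) M') Jb := by
  obtain ⟨hm, hr⟩ := MidCuspB.mid₂ hq A hA hζ M' hqM hB.hMk
  exact ⟨hm, Subtype.ext ((hK _).trans (hr.trans hJb.symm))⟩

end Mid

/-! ### §B3 The five elements of the chart ring at infinity -/

section Chart

variable (L : Type) [Field L] [Algebra ℚ L] (M' : ℕ) [NeZero M'] {q : ℕ} [NeZero q]
  (W : Type*) [CommRing W]
  [Algebra W ↥(laurentBaseChange L (modularFunctionFieldFull (M' * q * q)))]

theorem J0_ne_zero : CuspQuot.J0 (q := q) L M' ≠ 0 :=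
  CuspQuot.ne_zero_of_coe _ M' (NeZero.ne M') (CuspQuot.coe_J0 L M')

theorem J2_ne_zero : CuspQuot.J2 (q := q) L M' ≠ 0 :=
  CuspQuot.ne_zero_of_coe _ (M' * q * q)
    (Nat.mul_ne_zero (Nat.mul_ne_zero (NeZero.ne M') (NeZero.ne q)) (NeZero.ne q))
    (CuspQuot.coe_J2 L M')

/-- **(Cu-1), corrected (helper15)**: the Kronecker quotients lie in the chart ring at infinity
`B_∞ = chart W (J_0 J_2)⁻¹`, for every base ring `W`. -/
theorem quot_mem_chart (hq : q.Prime) :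
    CuspQuot.J1 (q := q) L M' / CuspQuot.J0 (q := q) L M' ^ q ∈
        Charts.chart W (CuspQuot.J0 (q := q) L M' * CuspQuot.J2 (q := q) L M')⁻¹ ∧
      CuspQuot.J1 (q := q) L M' / CuspQuot.J2 (q := q) L M' ^ q ∈
        Charts.chart W (CuspQuot.J0 (q := q) L M' * CuspQuot.J2 (q := q) L M')⁻¹ ∧
      CuspQuot.J2 (q := q) L M' / CuspQuot.J0 (q := q) L M' ^ q ^ 2 ∈
        Charts.chart W (CuspQuot.J0 (q := q) L M' * CuspQuot.J2 (q := q) L M')⁻¹ ∧
      CuspQuot.J0 (q := q) L M' / CuspQuot.J2 (q := q) L M' ^ q ^ 2 ∈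
        Charts.chart W (CuspQuot.J0 (q := q) L M' * CuspQuot.J2 (q := q) L M')⁻¹ ∧
      (CuspQuot.J0 (q := q) L M')⁻¹ ∈
        Charts.chart W (CuspQuot.J0 (q := q) L M' * CuspQuot.J2 (q := q) L M')⁻¹ ∧
      (CuspQuot.J2 (q := q) L M')⁻¹ ∈
        Charts.chart W (CuspQuot.J0 (q := q) L M' * CuspQuot.J2 (q := q) L M')⁻¹ := by
  obtain ⟨D⟩ := modEq_all q hq
  have h := CuspQuot.piStar_isIntegral_quot L M' hq D
    (R := Algebra.adjoin W {(CuspQuot.J0 (q := q) L M' * CuspQuot.J2 (q := q) L M')⁻¹})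
    ⟨⟨_, Algebra.self_mem_adjoin_singleton W _⟩, rfl⟩
  exact ⟨h.2.2.1, h.2.2.2.1, h.2.2.2.2.1, h.2.2.2.2.2, h.1, h.2.1⟩

/-- `y₁ = J_1 / J_0^q ∈ B_∞`. -/
def y₁B (hq : q.Prime) :
    ↥(Charts.chart W (CuspQuot.J0 (q := q) L M' * CuspQuot.J2 (q := q) L M')⁻¹) :=
  ⟨_, (quot_mem_chart L M' W hq).1⟩

/-- `y₂ = J_1 / J_2^q ∈ B_∞`. -/
def y₂B (hq : q.Prime) :
    ↥(Charts.chart W (CuspQuot.J0 (q := q) L M' * CuspQuot.J2 (q := q) L M')⁻¹) :=
  ⟨_, (quot_mem_chart L M' W hq).2.1⟩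

/-- `y₃ = J_2 / J_0^(q²) ∈ B_∞`. -/
def y₃B (hq : q.Prime) :
    ↥(Charts.chart W (CuspQuot.J0 (q := q) L M' * CuspQuot.J2 (q := q) L M')⁻¹) :=
  ⟨_, (quot_mem_chart L M' W hq).2.2.1⟩

/-- `y₀ = J_0 / J_2^(q²) ∈ B_∞`. -/
def y₀B (hq : q.Prime) :
    ↥(Charts.chart W (CuspQuot.J0 (q := q) L M' * CuspQuot.J2 (q := q) L M')⁻¹) :=
  ⟨_, (quot_mem_chart L M' W hq).2.2.2.1⟩

theorem coe_y₁B (hq : q.Prime) :
    ((y₁B L M' W hq : ↥(Charts.chart W
      (CuspQuot.J0 (q := q) L M' * CuspQuot.J2 (q := q) L M')⁻¹)) :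
      ↥(laurentBaseChange L (modularFunctionFieldFull (M' * q * q)))) =
      CuspQuot.J1 (q := q) L M' / CuspQuot.J0 (q := q) L M' ^ q := rfl

theorem coe_y₂B (hq : q.Prime) :
    ((y₂B L M' W hq : ↥(Charts.chart W
      (CuspQuot.J0 (q := q) L M' * CuspQuot.J2 (q := q) L M')⁻¹)) :
      ↥(laurentBaseChange L (modularFunctionFieldFull (M' * q * q)))) =
      CuspQuot.J1 (q := q) L M' / CuspQuot.J2 (q := q) L M' ^ q := rfl

theorem coe_y₃B (hq : q.Prime) :
    ((y₃B L M' W hq : ↥(Charts.chart W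
      (CuspQuot.J0 (q := q) L M' * CuspQuot.J2 (q := q) L M')⁻¹)) :
      ↥(laurentBaseChange L (modularFunctionFieldFull (M' * q * q)))) =
      CuspQuot.J2 (q := q) L M' / CuspQuot.J0 (q := q) L M' ^ q ^ 2 := rfl

theorem coe_y₀B (hq : q.Prime) :
    ((y₀B L M' W hq : ↥(Charts.chart W
      (CuspQuot.J0 (q := q) L M' * CuspQuot.J2 (q := q) L M')⁻¹)) :
      ↥(laurentBaseChange L (modularFunctionFieldFull (M' * q * q)))) =
      CuspQuot.J0 (q := q) L M' / CuspQuot.J2 (q := q) L M' ^ q ^ 2 := rfl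

theorem xinv_mul :
    algebraMap _ ↥(laurentBaseChange L (modularFunctionFieldFull (M' * q * q)))
      (⟨(CuspQuot.J0 (q := q) L M' * CuspQuot.J2 (q := q) L M')⁻¹, Charts.self_mem_chart _⟩ :
        ↥(Charts.chart W (CuspQuot.J0 (q := q) L M' * CuspQuot.J2 (q := q) L M')⁻¹)) *
      (CuspQuot.J0 (q := q) L M' * CuspQuot.J2 (q := q) L M') = 1 := by
  rw [algebraMap_chart_apply]
  exact inv_mul_cancel₀ (mul_ne_zero (J0_ne_zero L M') (J2_ne_zero L M'))

theorem y₁B_mul (hq : q.Prime) :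
    algebraMap _ ↥(laurentBaseChange L (modularFunctionFieldFull (M' * q * q)))
      (y₁B L M' W hq) * CuspQuot.J0 (q := q) L M' ^ q = CuspQuot.J1 (q := q) L M' := by
  rw [algebraMap_chart_apply]
  exact div_mul_cancel₀ _ (pow_ne_zero _ (J0_ne_zero L M'))

theorem y₂B_mul (hq : q.Prime) :
    algebraMap _ ↥(laurentBaseChange L (modularFunctionFieldFull (M' * q * q)))
      (y₂B L M' W hq) * CuspQuot.J2 (q := q) L M' ^ q = CuspQuot.J1 (q := q) L M' := by
  rw [algebraMap_chart_apply]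
  exact div_mul_cancel₀ _ (pow_ne_zero _ (J2_ne_zero L M'))

theorem y₃B_mul (hq : q.Prime) :
    algebraMap _ ↥(laurentBaseChange L (modularFunctionFieldFull (M' * q * q)))
      (y₃B L M' W hq) * CuspQuot.J0 (q := q) L M' ^ q ^ 2 = CuspQuot.J2 (q := q) L M' := by
  rw [algebraMap_chart_apply]
  exact div_mul_cancel₀ _ (pow_ne_zero _ (J0_ne_zero L M'))

theorem y₀B_mul (hq : q.Prime) :
    algebraMap _ ↥(laurentBaseChange L (modularFunctionFieldFull (M' * q * q)))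
      (y₀B L M' W hq) * CuspQuot.J2 (q := q) L M' ^ q ^ 2 = CuspQuot.J0 (q := q) L M' := by
  rw [algebraMap_chart_apply]
  exact div_mul_cancel₀ _ (pow_ne_zero _ (J2_ne_zero L M'))

end Chart

/-! ### §B4 The records -/

section Const

variable {q : ℕ} (hq : q.Prime) (A : ValuationSubring Qb) (hA : A.LiesOverPrime q)
  {ζ : Qb} (hζ : IsPrimitiveRoot ζ q) (M' : ℕ) [NeZero M'] [NeZero q] (hqM : ¬ q ∣ M')
  (redK : OMid hq A hA hζ M' hqM (IsLocalRing.residue A) →+*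
    ↥(modularFunctionFieldFullC (IsLocalRing.ResidueField A) M'))
  (hK : ∀ f : OMid hq A hA hζ M' hqM (IsLocalRing.residue A),
    ((redK f : ↥(modularFunctionFieldFullC (IsLocalRing.ResidueField A) M')) :
      LaurentSeries (IsLocalRing.ResidueField A)) =
      redMid hq A hA hζ M' hqM (IsLocalRing.residue A) f)
  (W : Type*) [CommRing W]
  [Algebra W ↥(laurentBaseChange ↥(K0 A) (modularFunctionFieldFull (M' * q * q)))]

include hK in
/-- The constants of the residue function field are reductions on `O_mid` of elements of any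
chart ring `chart W x` (`hconst`: the constants of `W0` come from the base ring `W`). -/
theorem const_mem_of_redOn_mem
    (x : ↥(laurentBaseChange ↥(K0 A) (modularFunctionFieldFull (M' * q * q))))
    (O₁ : ValuationSubring ↥(laurentBaseChange ↥(K0 A) (modularFunctionFieldFull (M' * q * q))))
    (red₁ : O₁ →+* ↥(modularFunctionFieldFullC (IsLocalRing.ResidueField A) M'))
    (hBO₁ : ∀ b : ↥(Charts.chart W x),
      algebraMap _ ↥(laurentBaseChange ↥(K0 A) (modularFunctionFieldFull (M' * q * q))) b ∈ O₁)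
    (h1 : O₁ = OMid hq A hA hζ M' hqM (IsLocalRing.residue A))
    (r1 : ∀ (f : ↥(laurentBaseChange ↥(K0 A) (modularFunctionFieldFull (M' * q * q))))
      (hf : f ∈ O₁) (hf' : f ∈ OMid hq A hA hζ M' hqM (IsLocalRing.residue A)),
      red₁ ⟨f, hf⟩ = redK ⟨f, hf'⟩)
    (hconst : ∀ a : W0 A, ∃ b : W,
      algebraMap W ↥(laurentBaseChange ↥(K0 A) (modularFunctionFieldFull (M' * q * q))) b =
        CK (inertiaField A) (M' * q * q) (a : K0 A))
    (Vs : ValuationSubring ↥(modularFunctionFieldFullC (IsLocalRing.ResidueField A) M'))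
    (hVs : ∀ b : ↥(Charts.chart W x), redOn O₁ red₁ hBO₁ b ∈ Vs)
    (a : IsLocalRing.ResidueField A)
    (c : ↥(modularFunctionFieldFullC (IsLocalRing.ResidueField A) M'))
    (hca : (c : LaurentSeries (IsLocalRing.ResidueField A)) = HahnSeries.C a) : c ∈ Vs := by
  obtain ⟨a', rfl⟩ := resW0_surjective hq hA a
  obtain ⟨b, hb⟩ := hconst a'
  have hmid := redTo_transfer h1 r1 (redTo_mid_const hq A hA hζ M' hqM redK hK a' hca)
  have h5 := hVs ⟨_, Subalgebra.algebraMap_mem _ b⟩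
  have h7 := redTo_algebraMap O₁ red₁ hBO₁
    (⟨_, Subalgebra.algebraMap_mem _ b⟩ : ↥(Charts.chart W x))
  have h8 : algebraMap ↥(Charts.chart W x)
      ↥(laurentBaseChange ↥(K0 A) (modularFunctionFieldFull (M' * q * q)))
      ⟨_, Subalgebra.algebraMap_mem _ b⟩ = CK (inertiaField A) (M' * q * q) (a' : K0 A) :=
    (algebraMap_chart_apply ↥(K0 A) M' W _).trans hb
  rw [h8] at h7
  rw [← h7.unique hmid]
  exact h5

end Const

section Records

variable {q : ℕ} (hq : q.Prime) (A : ValuationSubring Qb) (hA : A.LiesOverPrime q)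
  {ζ : Qb} (hζ : IsPrimitiveRoot ζ q) (M' : ℕ) [NeZero M'] [NeZero q] (hqM : ¬ q ∣ M')
  (hB : BadSetup (W0 A) (resW0 A) M' q)
  {w : laurentBaseChange ↥(K0 A) (modularFunctionFieldFull (M' * q * q)) ≃ₐ[↥(K0 A)]
    laurentBaseChange ↥(K0 A) (modularFunctionFieldFull (M' * q * q))} (hw : IsAL3 M' q w)
  (redK : OMid hq A hA hζ M' hqM (IsLocalRing.residue A) →+*
    ↥(modularFunctionFieldFullC (IsLocalRing.ResidueField A) M'))
  (hK : ∀ f : OMid hq A hA hζ M' hqM (IsLocalRing.residue A),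
    ((redK f : ↥(modularFunctionFieldFullC (IsLocalRing.ResidueField A) M')) :
      LaurentSeries (IsLocalRing.ResidueField A)) =
      redMid hq A hA hζ M' hqM (IsLocalRing.residue A) f)
  {Jb : ↥(modularFunctionFieldFullC (IsLocalRing.ResidueField A) M')}
  (hJb : (Jb : LaurentSeries (IsLocalRing.ResidueField A)) =
    TD.Jd (IsLocalRing.ResidueField A) M')
  (W : Type*) [CommRing W]
  [Algebra W ↥(laurentBaseChange ↥(K0 A) (modularFunctionFieldFull (M' * q * q)))]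
  (O : Fin 3 →
    ValuationSubring ↥(laurentBaseChange ↥(K0 A) (modularFunctionFieldFull (M' * q * q))))
  (red : ∀ i, O i →+* ↥(modularFunctionFieldFullC (IsLocalRing.ResidueField A) M'))
  (hBO : ∀ i, ∀ b : ↥(Charts.chart W
      (CuspQuot.J0 (q := q) ↥(K0 A) M' * CuspQuot.J2 (q := q) ↥(K0 A) M')⁻¹),
    algebraMap _ ↥(laurentBaseChange ↥(K0 A) (modularFunctionFieldFull (M' * q * q))) b ∈ O i)
  (h0 : O 0 = OInf3 hB)
  (r0 : ∀ (f : ↥(laurentBaseChange ↥(K0 A) (modularFunctionFieldFull (M' * q * q))))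
    (hf : f ∈ O 0) (hf' : f ∈ OInf3 hB), red 0 ⟨f, hf⟩ = redInf3 hB ⟨f, hf'⟩)
  (h1 : O 1 = OMid hq A hA hζ M' hqM (IsLocalRing.residue A))
  (r1 : ∀ (f : ↥(laurentBaseChange ↥(K0 A) (modularFunctionFieldFull (M' * q * q))))
    (hf : f ∈ O 1) (hf' : f ∈ OMid hq A hA hζ M' hqM (IsLocalRing.residue A)),
    red 1 ⟨f, hf⟩ = redK ⟨f, hf'⟩)
  (h2 : O 2 = OZero3 hB w)
  (r2 : ∀ (f : ↥(laurentBaseChange ↥(K0 A) (modularFunctionFieldFull (M' * q * q))))
    (hf : f ∈ O 2) (hf' : f ∈ OZero3 hB w), red 2 ⟨f, hf⟩ = redZero3 hB w ⟨f, hf'⟩)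

include hw hK hJb h0 r0 h1 r1 h2 r2 in
/-- **The cusp record `V3Cusp` for the chart at infinity, convention (B)**:
`B_∞ = chart W (J_0 J_2)⁻¹`, `J_i = CuspQuot.J_i = π_i^* xL`, for every family `(O, red)` whose
members are `(O_∞, red_∞)`, `(O_mid, redK)`, `(O_0, red_0)`; the local parameter at the cusps is
`Jb⁻¹ = 1/x̄`. -/
theorem v3Cusp :
    V3Cusp O red hBO
      (⟨(CuspQuot.J0 (q := q) ↥(K0 A) M' * CuspQuot.J2 (q := q) ↥(K0 A) M')⁻¹,
        Charts.self_mem_chart _⟩ : ↥(Charts.chart W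
          (CuspQuot.J0 (q := q) ↥(K0 A) M' * CuspQuot.J2 (q := q) ↥(K0 A) M')⁻¹))
      (y₀B ↥(K0 A) M' W hq) (y₁B ↥(K0 A) M' W hq) (y₂B ↥(K0 A) M' W hq) (y₃B ↥(K0 A) M' W hq)
      Jb⁻¹ :=
  V3Cusp.of_J (ne_zero_of_coe_eq_Jd hJb) hq.two_le
    (redTo_transfer h0 r0 (redTo_inf₀ hB hJb)) (redTo_transfer h0 r0 (redTo_inf₁ hB hJb))
    (redTo_transfer h0 r0 (redTo_inf₂ hB hJb))
    (redTo_transfer h1 r1 (redTo_mid₀ hq A hA hζ M' hqM hB redK hK hJb))
    (redTo_transfer h1 r1 (redTo_mid₁ hq A hA hζ M' hqM hB redK hK hJb))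
    (redTo_transfer h1 r1 (redTo_mid₂ hq A hA hζ M' hqM hB redK hK hJb))
    (redTo_transfer h2 r2 (redTo_zero₀ hB hJb hw)) (redTo_transfer h2 r2 (redTo_zero₁ hB hJb hw))
    (redTo_transfer h2 r2 (redTo_zero₂ hB hJb hw))
    (xinv_mul ↥(K0 A) M' W) (y₁B_mul ↥(K0 A) M' W hq) (y₂B_mul ↥(K0 A) M' W hq)
    (y₃B_mul ↥(K0 A) M' W hq) (y₀B_mul ↥(K0 A) M' W hq)

include hw hK h0 r0 h1 r1 h2 r2 in
/-- `B_∞ ⊆ O_i` for the three components, as soon as the base ring `W` maps into them. -/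
theorem algebraMap_chart_mem
    (hred : ∀ i, ∀ x : O i, red i x = 0 ↔ x ∈ maximalIdeal (O i))
    (hW : ∀ i, ∀ a : W,
      algebraMap W ↥(laurentBaseChange ↥(K0 A) (modularFunctionFieldFull (M' * q * q))) a ∈ O i) :
    ∀ i, ∀ b : ↥(Charts.chart W
        (CuspQuot.J0 (q := q) ↥(K0 A) M' * CuspQuot.J2 (q := q) ↥(K0 A) M')⁻¹),
      algebraMap _ ↥(laurentBaseChange ↥(K0 A) (modularFunctionFieldFull (M' * q * q))) b ∈
        O i := by
  obtain ⟨Jb, hJb⟩ : ∃ Jb : ↥(modularFunctionFieldFullC (IsLocalRing.ResidueField A) M'),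
      (Jb : LaurentSeries (IsLocalRing.ResidueField A)) =
        TD.Jd (IsLocalRing.ResidueField A) M' := ⟨_, coe_redF_xL_eq hB⟩
  have hJb0 := ne_zero_of_coe_eq_Jd hJb
  have hpn : ∀ n : ℕ, Jb ^ n ≠ 0 := fun n => pow_ne_zero n hJb0
  intro i b
  refine mem_of_mem_chart (O i) (hW i) ?_ b
  fin_cases i
  · exact (((redTo_transfer h0 r0 (redTo_inf₀ hB hJb)).mul
      (redTo_transfer h0 r0 (redTo_inf₂ hB hJb))).inv (hred 0)
      (mul_ne_zero hJb0 (hpn _))).mem
  · exact (((redTo_transfer h1 r1 (redTo_mid₀ hq A hA hζ M' hqM hB redK hK hJb)).mul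
      (redTo_transfer h1 r1 (redTo_mid₂ hq A hA hζ M' hqM hB redK hK hJb))).inv (hred 1)
      (mul_ne_zero hJb0 hJb0)).mem
  · exact (((redTo_transfer h2 r2 (redTo_zero₀ hB hJb hw)).mul
      (redTo_transfer h2 r2 (redTo_zero₂ hB hJb hw))).inv (hred 2)
      (mul_ne_zero (hpn _) hJb0)).mem

include hB hK hJb h1 r1 in
/-- **The record `V3CuspMid` for the chart at infinity, convention (B)**: `e = 1 - J_0/J_2`,
`m = q`, `(n, N) = (q - 1, 1)`, `g` an element with expansion `-(θ x̄ / x̄)^(q-1)`.  `qB` is the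
element `q` of `B_∞` (`hqB`); `hconst`: the constants of `W0` come from the base ring `W`. -/
theorem exists_v3CuspMid
    (hred : ∀ i, ∀ x : O i, red i x = 0 ↔ x ∈ maximalIdeal (O i))
    (hconst : ∀ a : W0 A, ∃ b : W,
      algebraMap W ↥(laurentBaseChange ↥(K0 A) (modularFunctionFieldFull (M' * q * q))) b =
        CK (inertiaField A) (M' * q * q) (a : K0 A))
    (qB : ↥(Charts.chart W
      (CuspQuot.J0 (q := q) ↥(K0 A) M' * CuspQuot.J2 (q := q) ↥(K0 A) M')⁻¹))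
    (hqB : algebraMap _ ↥(laurentBaseChange ↥(K0 A) (modularFunctionFieldFull (M' * q * q))) qB =
      ((q : ℕ) : ↥(laurentBaseChange ↥(K0 A) (modularFunctionFieldFull (M' * q * q))))) :
    ∃ g : ↥(modularFunctionFieldFullC (IsLocalRing.ResidueField A) M'),
      (g : LaurentSeries (IsLocalRing.ResidueField A)) *
          TD.Jd (IsLocalRing.ResidueField A) M' ^ (q - 1) =
        -(thetaL (IsLocalRing.ResidueField A) (TD.Jd (IsLocalRing.ResidueField A) M')) ^
          (q - 1) ∧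
      V3CuspMid O red hBO qB (y₁B ↥(K0 A) M' W hq) (y₂B ↥(K0 A) M' W hq)
        (1 - CuspQuot.J0 (q := q) ↥(K0 A) M' / CuspQuot.J2 (q := q) ↥(K0 A) M')
        q (q - 1) 1 Jb⁻¹ g := by
  have hJb0 := ne_zero_of_coe_eq_Jd hJb
  have hq1 : q - 1 ≠ 0 := by
    have := hq.two_le
    omega
  obtain ⟨c, hc, hcθ⟩ := exists_redTo_cert hq A hA hζ M' hqM hB redK hK
  have hc' := redTo_transfer h1 r1 hc
  have hg : c / Jb ^ (q - 1) * Jb ^ (q - 1) = c := div_mul_cancel₀ _ (pow_ne_zero _ hJb0)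
  have hexp : ((c / Jb ^ (q - 1) : ↥(modularFunctionFieldFullC (IsLocalRing.ResidueField A) M')) :
      LaurentSeries (IsLocalRing.ResidueField A)) *
        TD.Jd (IsLocalRing.ResidueField A) M' ^ (q - 1) =
      -(thetaL (IsLocalRing.ResidueField A) (TD.Jd (IsLocalRing.ResidueField A) M')) ^
        (q - 1) := by
    rw [← hcθ, ← hJb]
    exact congrArg (fun x : ↥(modularFunctionFieldFullC (IsLocalRing.ResidueField A) M') =>
      (x : LaurentSeries (IsLocalRing.ResidueField A))) hg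
  have hmid₀ := redTo_transfer h1 r1 (redTo_mid₀ hq A hA hζ M' hqM hB redK hK hJb)
  have hmid₂ := redTo_transfer h1 r1 (redTo_mid₂ hq A hA hζ M' hqM hB redK hK hJb)
  have hd : CuspQuot.J2 (q := q) ↥(K0 A) M' - CuspQuot.J0 (q := q) ↥(K0 A) M' ∈
      (O 1).nonunits := by
    rw [h1]
    exact MidCuspB.hd hq A hA hζ M' hqM hB.hMk
  have hunif : ∀ z ∈ (O 1).nonunits,
      z / (CuspQuot.J2 (q := q) ↥(K0 A) M' - CuspQuot.J0 (q := q) ↥(K0 A) M') ∈ O 1 := by
    rw [h1]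
    exact MidCuspB.hunif hq A hA hζ M' hqM hB.hMk
  have hcert : RedTo (O 1) (red 1)
      ((CuspQuot.J2 (q := q) ↥(K0 A) M' - CuspQuot.J0 (q := q) ↥(K0 A) M') ^ (q - 1) /
        algebraMap ↥(Charts.chart W
          (CuspQuot.J0 (q := q) ↥(K0 A) M' * CuspQuot.J2 (q := q) ↥(K0 A) M')⁻¹)
          ↥(laurentBaseChange ↥(K0 A) (modularFunctionFieldFull (M' * q * q))) qB ^ 1) c := by
    rw [hqB, pow_one]
    exact hc'
  have hgu : ∀ Vs : ValuationSubring ↥(modularFunctionFieldFullC (IsLocalRing.ResidueField A) M'),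
      (∀ b : ↥(Charts.chart W
        (CuspQuot.J0 (q := q) ↥(K0 A) M' * CuspQuot.J2 (q := q) ↥(K0 A) M')⁻¹),
        redOn (O 1) (red 1) (hBO 1) b ∈ Vs) →
      Jb⁻¹ ∈ Vs.nonunits → c / Jb ^ (q - 1) ∉ Vs.nonunits := by
    intro Vs hVs hy
    haveI : CharP (IsLocalRing.ResidueField A) q := hB.charP
    exact g_notMem_nonunits hq hB.hMk Vs
      (const_mem_of_redOn_mem hq A hA hζ M' hqM redK hK W _ (O 1) (red 1) (hBO 1) h1 r1 hconst
        Vs hVs)
      hJb hexp hy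
  exact ⟨c / Jb ^ (q - 1), hexp, V3CuspMid.of_J hred hJb0 hq.ne_zero hmid₀ hmid₂
    (y₁B_mul ↥(K0 A) M' W hq) (y₂B_mul ↥(K0 A) M' W hq) hq1 hd hunif hcert hg hgu⟩

end Records

end B

end Fermat.Agent.CAR.Inst.CuspInst

end
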