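import Mathlib
import Fermat.Agent.CAR.Inst.HMinInst
import Fermat.Agent.CAR.V3.Count

/-!
# CAR (instance layer): `hmin`, `hmin'`, `not_max`, `hRV`, `hR'V`, `hqV` at the three components

The closed forms of `CAR/Inst/HMinInst.lean` for the literal triple
`![OInf3 h0, OMid hq A hA hζ M' hqM (residue A), OZero3 h0 w]` (`h0 := badSetup_W0 hq hA M' hqM`,
`w` the Atkin–Lehner involution, `hw : IsAL3 M' q w`), the chart function
`x = CuspQuot.J0 * CuspQuot.J2` over `K0`, `W = W0 A`, uniformiser `q`: every hypothesis is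
discharged by `CAR/V3/Count` (`family3_K0`, `eq_of_isAbove3_K0`).

* `above3`, `inj3`          : the three rings are above `Ow` along `π_0^*`, pairwise distinct;
* `gauss3`                  : they are above `W0`, contain `x`, and `x` is a Gauss point;
* `hRV3`, `hRV3_inv`        : the chart rings `chart W0 x`, `chart W0 x⁻¹` lie in the three rings;
* `hqV3`                    : `q` is a non-unit of the three rings;
* `hmin3`, `hmin3_inv`      : the binders `hmin`, `hmin'` of
  `Charts.exists_eq_const_mul_pow_of_charts_FNK` (= the field `hmin` of `Inst.Contract`,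
  `Inst.V3Base`, `InstCusp.V3BaseCusp`);
* `not_max3`, `not_max3_inv` : the field `not_max` for the two chart rings.
-/

set_option autoImplicit false
set_option linter.style.haveILetI false
set_option linter.unusedSectionVars false

namespace Fermat.Agent.CAR.Inst.HMin3

open ModularCurve Fermat.Agent.S28 Fermat.Agent.Lib.Red Fermat.Agent.CAR.V3
  Fermat.Agent.CAR.Glob.CuspQuot Fermat.Agent.CAR.K0 Fermat.Agent.CAR.V3.MidRing
  Fermat.Agent.CAR.Glob.Charts Fermat.Agent.CAR.V3.CountAbs Fermat.Agent.CAR.Glob.ChartX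
  Fermat.Agent.CAR.Inst.HMin

local notation "Qb" => AlgebraicClosure ℚ

set_option synthInstance.maxHeartbeats 400000
set_option maxHeartbeats 1000000

variable {q : ℕ} [NeZero q] (hq : q.Prime) (A : ValuationSubring Qb) (hA : A.LiesOverPrime q)
  {ζ : Qb} (hζ : IsPrimitiveRoot ζ q) (M' : ℕ) [NeZero M'] (hqM : ¬ q ∣ M')
  {w : laurentBaseChange ↥(K0 A) (modularFunctionFieldFull (M' * q * q)) ≃ₐ[↥(K0 A)]
    laurentBaseChange ↥(K0 A) (modularFunctionFieldFull (M' * q * q))}

/-- The three components are above `Ow` along `π_0^*`. -/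
theorem above3 (hw : IsAL3 M' q w) (i : Fin 3)
    (y : ↥(laurentBaseChange ↥(K0 A) (modularFunctionFieldFull M'))) :
    piStar0 ↥(K0 A) M' q y ∈
        (![OInf3 (badSetup_W0 hq hA M' hqM), OMid hq A hA hζ M' hqM (IsLocalRing.residue A),
          OZero3 (badSetup_W0 hq hA M' hqM) w] : Fin 3 → ValuationSubring
            ↥(laurentBaseChange ↥(K0 A) (modularFunctionFieldFull (M' * q * q)))) i ↔
      y ∈ Ow (W0 A) (resW0 A) M' (badSetup_W0 hq hA M' hqM).hMk := by
  letI := Count.alg0 ↥(K0 A) M' q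
  exact (Count.family3_K0 hq A hA hζ M' hqM hw).above i y

/-- The three components are pairwise distinct. -/
theorem inj3 (hw : IsAL3 M' q w) :
    Function.Injective
      (![OInf3 (badSetup_W0 hq hA M' hqM), OMid hq A hA hζ M' hqM (IsLocalRing.residue A),
        OZero3 (badSetup_W0 hq hA M' hqM) w] : Fin 3 → ValuationSubring
          ↥(laurentBaseChange ↥(K0 A) (modularFunctionFieldFull (M' * q * q)))) := by
  letI := Count.alg0 ↥(K0 A) M' q
  exact (Count.family3_K0 hq A hA hζ M' hqM hw).inj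

/-- **Exactly three**, in the `∃ i` form. -/
theorem exists_eq3 (hw : IsAL3 M' q w)
    (V' : ValuationSubring ↥(laurentBaseChange ↥(K0 A) (modularFunctionFieldFull (M' * q * q))))
    (hV' : ∀ y : ↥(laurentBaseChange ↥(K0 A) (modularFunctionFieldFull M')),
      piStar0 ↥(K0 A) M' q y ∈ V' ↔
        y ∈ Ow (W0 A) (resW0 A) M' (badSetup_W0 hq hA M' hqM).hMk) :
    ∃ i, V' =
      (![OInf3 (badSetup_W0 hq hA M' hqM), OMid hq A hA hζ M' hqM (IsLocalRing.residue A),
        OZero3 (badSetup_W0 hq hA M' hqM) w] : Fin 3 → ValuationSubring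
          ↥(laurentBaseChange ↥(K0 A) (modularFunctionFieldFull (M' * q * q)))) i := by
  rcases Count.eq_of_isAbove3_K0 hq A hA hζ M' hqM hw V' hV' with h | h | h
  · exact ⟨0, h⟩
  · exact ⟨1, h⟩
  · exact ⟨2, h⟩

variable [Algebra ↥(W0 A) ↥(laurentBaseChange ↥(K0 A) (modularFunctionFieldFull (M' * q * q)))]
  [IsScalarTower ↥(W0 A) ↥(K0 A)
    ↥(laurentBaseChange ↥(K0 A) (modularFunctionFieldFull (M' * q * q)))]

/-- The three components are above `W0`, contain the chart function `x = J_0 J_2`, and `x` is a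
Gauss point of each of them. -/
theorem gauss3 (hw : IsAL3 M' q w) (i : Fin 3) :
    IsAbove (W0 A)
        ((![OInf3 (badSetup_W0 hq hA M' hqM), OMid hq A hA hζ M' hqM (IsLocalRing.residue A),
          OZero3 (badSetup_W0 hq hA M' hqM) w] : Fin 3 → ValuationSubring
            ↥(laurentBaseChange ↥(K0 A) (modularFunctionFieldFull (M' * q * q)))) i) ∧
      J0 (q := q) ↥(K0 A) M' * J2 (q := q) ↥(K0 A) M' ∈
        (![OInf3 (badSetup_W0 hq hA M' hqM), OMid hq A hA hζ M' hqM (IsLocalRing.residue A),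
          OZero3 (badSetup_W0 hq hA M' hqM) w] : Fin 3 → ValuationSubring
            ↥(laurentBaseChange ↥(K0 A) (modularFunctionFieldFull (M' * q * q)))) i ∧
      ResTransc (W0 A)
        ((![OInf3 (badSetup_W0 hq hA M' hqM), OMid hq A hA hζ M' hqM (IsLocalRing.residue A),
          OZero3 (badSetup_W0 hq hA M' hqM) w] : Fin 3 → ValuationSubring
            ↥(laurentBaseChange ↥(K0 A) (modularFunctionFieldFull (M' * q * q)))) i)
        (J0 (q := q) ↥(K0 A) M' * J2 (q := q) ↥(K0 A) M') := by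
  obtain ⟨D⟩ := modEq_all q hq
  exact gauss_chartFn_of_above (resW0_eq_zero_of_not_isUnit A) _ D
    (above3 hq A hA hζ M' hqM hw i)

/-- **`hRV`**: the finite chart ring lies in the three components. -/
theorem hRV3 (hw : IsAL3 M' q w) (i : Fin 3)
    (r : ↥(laurentBaseChange ↥(K0 A) (modularFunctionFieldFull (M' * q * q))))
    (hr : r ∈ chart ↥(W0 A) (J0 (q := q) ↥(K0 A) M' * J2 (q := q) ↥(K0 A) M')) :
    r ∈ (![OInf3 (badSetup_W0 hq hA M' hqM), OMid hq A hA hζ M' hqM (IsLocalRing.residue A),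
      OZero3 (badSetup_W0 hq hA M' hqM) w] : Fin 3 → ValuationSubring
        ↥(laurentBaseChange ↥(K0 A) (modularFunctionFieldFull (M' * q * q)))) i :=
  mem_of_mem_chart_K0 hq hA M' hqM (above3 hq A hA hζ M' hqM hw i) hr

/-- **`hR'V`**: the chart ring at infinity lies in the three components. -/
theorem hRV3_inv (hw : IsAL3 M' q w) (i : Fin 3)
    (r : ↥(laurentBaseChange ↥(K0 A) (modularFunctionFieldFull (M' * q * q))))
    (hr : r ∈ chart ↥(W0 A) (J0 (q := q) ↥(K0 A) M' * J2 (q := q) ↥(K0 A) M')⁻¹) :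
    r ∈ (![OInf3 (badSetup_W0 hq hA M' hqM), OMid hq A hA hζ M' hqM (IsLocalRing.residue A),
      OZero3 (badSetup_W0 hq hA M' hqM) w] : Fin 3 → ValuationSubring
        ↥(laurentBaseChange ↥(K0 A) (modularFunctionFieldFull (M' * q * q)))) i :=
  mem_of_mem_chart_inv_K0 hq hA M' hqM (above3 hq A hA hζ M' hqM hw i) hr

/-- **`hqV`**: `q` is a non-unit of the three components. -/
theorem hqV3 (hw : IsAL3 M' q w) (i : Fin 3) :
    algebraMap ↥(W0 A) ↥(laurentBaseChange ↥(K0 A) (modularFunctionFieldFull (M' * q * q)))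
        ((q : ℕ) : ↥(W0 A)) ∈
      ((![OInf3 (badSetup_W0 hq hA M' hqM), OMid hq A hA hζ M' hqM (IsLocalRing.residue A),
        OZero3 (badSetup_W0 hq hA M' hqM) w] : Fin 3 → ValuationSubring
          ↥(laurentBaseChange ↥(K0 A) (modularFunctionFieldFull (M' * q * q)))) i).nonunits := by
  obtain ⟨h1, -, -⟩ := gauss3 hq A hA hζ M' hqM hw i
  rw [IsScalarTower.algebraMap_apply ↥(W0 A) ↥(K0 A)]
  exact (h1.algebraMap_mem_nonunits_iff _).mpr (liesOverPrime_W0 hq hA)

/-- **`hmin`** for the finite chart `chart W0 (J_0 J_2)` at the three components: the literal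
binder of `Charts.exists_eq_const_mul_pow_of_charts_FNK`. -/
theorem hmin3 (hw : IsAL3 M' q w)
    (hRV : ∀ i, ∀ r ∈ chart ↥(W0 A) (J0 (q := q) ↥(K0 A) M' * J2 (q := q) ↥(K0 A) M'),
      r ∈ (![OInf3 (badSetup_W0 hq hA M' hqM), OMid hq A hA hζ M' hqM (IsLocalRing.residue A),
        OZero3 (badSetup_W0 hq hA M' hqM) w] : Fin 3 → ValuationSubring
          ↥(laurentBaseChange ↥(K0 A) (modularFunctionFieldFull (M' * q * q)))) i) :
    ∀ 𝔮 ∈ (Ideal.span {algebraMap ↥(W0 A)
        ↥(chart ↥(W0 A) (J0 (q := q) ↥(K0 A) M' * J2 (q := q) ↥(K0 A) M'))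
        ((q : ℕ) : ↥(W0 A))}).minimalPrimes,
      ∃ i, 𝔮 = Local.centre
        ((![OInf3 (badSetup_W0 hq hA M' hqM), OMid hq A hA hζ M' hqM (IsLocalRing.residue A),
          OZero3 (badSetup_W0 hq hA M' hqM) w] : Fin 3 → ValuationSubring
            ↥(laurentBaseChange ↥(K0 A) (modularFunctionFieldFull (M' * q * q)))) i)
        (fun a : chart ↥(W0 A) (J0 (q := q) ↥(K0 A) M' * J2 (q := q) ↥(K0 A) M') =>
          hRV i a a.2) :=
  hmin_chart_K0 hq hA M' hqM (inj3 hq A hA hζ M' hqM hw) (above3 hq A hA hζ M' hqM hw)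
    (exists_eq3 hq A hA hζ M' hqM hw) 0 hRV

/-- **`hmin'`** for the chart at infinity `chart W0 (J_0 J_2)⁻¹` at the three components: the
literal binder of `Charts.exists_eq_const_mul_pow_of_charts_FNK`. -/
theorem hmin3_inv (hw : IsAL3 M' q w)
    (hRV : ∀ i, ∀ r ∈ chart ↥(W0 A) (J0 (q := q) ↥(K0 A) M' * J2 (q := q) ↥(K0 A) M')⁻¹,
      r ∈ (![OInf3 (badSetup_W0 hq hA M' hqM), OMid hq A hA hζ M' hqM (IsLocalRing.residue A),
        OZero3 (badSetup_W0 hq hA M' hqM) w] : Fin 3 → ValuationSubring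
          ↥(laurentBaseChange ↥(K0 A) (modularFunctionFieldFull (M' * q * q)))) i) :
    ∀ 𝔮 ∈ (Ideal.span {algebraMap ↥(W0 A)
        ↥(chart ↥(W0 A) (J0 (q := q) ↥(K0 A) M' * J2 (q := q) ↥(K0 A) M')⁻¹)
        ((q : ℕ) : ↥(W0 A))}).minimalPrimes,
      ∃ i, 𝔮 = Local.centre
        ((![OInf3 (badSetup_W0 hq hA M' hqM), OMid hq A hA hζ M' hqM (IsLocalRing.residue A),
          OZero3 (badSetup_W0 hq hA M' hqM) w] : Fin 3 → ValuationSubring
            ↥(laurentBaseChange ↥(K0 A) (modularFunctionFieldFull (M' * q * q)))) i)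
        (fun a : chart ↥(W0 A) (J0 (q := q) ↥(K0 A) M' * J2 (q := q) ↥(K0 A) M')⁻¹ =>
          hRV i a a.2) :=
  hmin_chart_inv_K0 hq hA M' hqM (inj3 hq A hA hζ M' hqM hw) (above3 hq A hA hζ M' hqM hw)
    (exists_eq3 hq A hA hζ M' hqM hw) 0 hRV

/-- **`not_max`** for the finite chart at the three components. -/
theorem not_max3 (hw : IsAL3 M' q w)
    (hBO : ∀ i, ∀ b : chart ↥(W0 A) (J0 (q := q) ↥(K0 A) M' * J2 (q := q) ↥(K0 A) M'),
      algebraMap ↥(chart ↥(W0 A) (J0 (q := q) ↥(K0 A) M' * J2 (q := q) ↥(K0 A) M')) _ b ∈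
        (![OInf3 (badSetup_W0 hq hA M' hqM), OMid hq A hA hζ M' hqM (IsLocalRing.residue A),
          OZero3 (badSetup_W0 hq hA M' hqM) w] : Fin 3 → ValuationSubring
            ↥(laurentBaseChange ↥(K0 A) (modularFunctionFieldFull (M' * q * q)))) i) (i : Fin 3) :
    ¬ (Local.centre _ (hBO i)).IsMaximal :=
  not_max_chart_K0 hq hA M' hqM (above3 hq A hA hζ M' hqM hw i) (hBO i)

/-- **`not_max`** for the chart at infinity at the three components. -/
theorem not_max3_inv (hw : IsAL3 M' q w)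
    (hBO : ∀ i, ∀ b : chart ↥(W0 A) (J0 (q := q) ↥(K0 A) M' * J2 (q := q) ↥(K0 A) M')⁻¹,
      algebraMap ↥(chart ↥(W0 A) (J0 (q := q) ↥(K0 A) M' * J2 (q := q) ↥(K0 A) M')⁻¹) _ b ∈
        (![OInf3 (badSetup_W0 hq hA M' hqM), OMid hq A hA hζ M' hqM (IsLocalRing.residue A),
          OZero3 (badSetup_W0 hq hA M' hqM) w] : Fin 3 → ValuationSubring
            ↥(laurentBaseChange ↥(K0 A) (modularFunctionFieldFull (M' * q * q)))) i) (i : Fin 3) :
    ¬ (Local.centre _ (hBO i)).IsMaximal :=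
  not_max_chart_inv_K0 hq hA M' hqM (above3 hq A hA hζ M' hqM hw i) (hBO i)

end Fermat.Agent.CAR.Inst.HMin3
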