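/-
CAR (row 389 (a), chart at infinity): the integrality web for `B'_∞ = Lift.Binf B`.

Generic setting of the RED layer: `(L, A, π, k)`, a level `N` with `(N : k) ≠ 0`, a base function
`B : BaseFn.Data A π N` (`x = B.x`), `F' = L·F_N`, the Gauss valuation ring `Ow` of `F'`.

* `inv_x_mem_Ow`, `aeval_inv_mem_Ow_iff` : `x⁻¹` is Gauss-integral and `p(x⁻¹) ∈ Ow ↔ p ∈ A[X]`;
* `AXinv B` : the ring `A[x⁻¹]`; `isIntegral_AXinv_of_isIntegral` : **Lemma A at infinity** — a
  Gauss-integral element which is integral over `L[x⁻¹]` is integral over `A[x⁻¹]`;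
* `mem_of_mem_Binf` (valuative form), `isIntegral_adjoin_inv_of_mem_Binf`,
  `mem_Binf_iff_isIntegral_adjoin_inv` : **`Lift.Binf B` is the integral closure of `A[x⁻¹]`**;
* `piStar0_mem_chart_inv`, `piStar2_mem_chart_inv` : for `B = ofJ` at level `M'` (`x = J(q^{M'})`)
  the pull-backs `π_0^*`, `π_2^*` map `Lift.Binf (ofJ)` into the chart ring at infinity
  `chart R (J_0 J_2)⁻¹` of level `M' q²` (`J_i = π_i^* x`, `CuspQuot.J0/J2`);
* the same at the CAR base `(K0 A, W0 A, resW0 A)`.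
-/
import Mathlib
import Fermat.Agent.CAR.Lift
import Fermat.Agent.CAR.Glob.CuspQuotInst
import Fermat.Agent.CAR.Glob.Charts
import Fermat.Agent.CAR.Glob.ChartX
import Fermat.Agent.CAR.K0.Setup

set_option autoImplicit false
set_option linter.unusedSectionVars false
set_option linter.style.haveILetI false

noncomputable section

namespace Fermat.Agent.CAR.Inst.BPrimeWebInf

open HahnSeries ModularCurve Polynomial AlgebraicCurve Fermat.Agent.S28 IntermediateField
  Fermat.Agent.Lib.FF Fermat.Agent.Lib.Red Fermat.Agent.S24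

open scoped IntermediateField.algebraAdjoinAdjoin

/-! ### Field-theoretic preliminaries -/

section Prelim

/-- `K(x⁻¹) = K(x)`. -/
theorem adjoin_simple_inv_eq {K E : Type*} [Field K] [Field E] [Algebra K E] (x : E) :
    K⟮x⁻¹⟯ = K⟮x⟯ := by
  apply le_antisymm
  · rw [adjoin_simple_le_iff]
    exact inv_mem (mem_adjoin_simple_self K x)
  · rw [adjoin_simple_le_iff]
    have h := inv_mem (mem_adjoin_simple_self K x⁻¹)
    rwa [inv_inv] at h

/-- The minimal polynomial over an intermediate field, pushed to the top field, only depends on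
the intermediate field. -/
theorem map_minpoly_congr {K E : Type*} [Field K] [Field E] [Algebra K E]
    {K₁ K₂ : IntermediateField K E} (h : K₁ = K₂) (y : E) :
    (minpoly ↥K₁ y).map (algebraMap ↥K₁ E) = (minpoly ↥K₂ y).map (algebraMap ↥K₂ E) := by
  subst h
  rfl

/-- An element integral over a subring contained in a valuation subring lies in it. -/
theorem mem_valuationSubring_of_isIntegral {E : Type*} [Field E] (S : Subring E)
    (V : ValuationSubring E) (hSV : ∀ s ∈ S, s ∈ V) {y : E} (hy : IsIntegral ↥S y) : y ∈ V := by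
  let φ : ↥S →+* ↥V := (S.subtype).codRestrict V (fun a => hSV a a.2)
  have h2 : IsIntegral ↥V (RingHom.id E y) :=
    IsIntegral.map_of_comp_eq φ (RingHom.id E) (by ext a; rfl) hy
  obtain ⟨z, hz⟩ := IsIntegrallyClosedIn.isIntegral_iff.mp h2
  rw [RingHom.id_apply] at hz
  rw [← hz]
  exact z.2

end Prelim

/-! ### Lemma A at infinity -/

section Generic

variable {L : Type*} [Field L] [Algebra ℚ L] {A : ValuationSubring L} {k : Type} [Field k]
  {π : A →+* k} {N : ℕ} [NeZero N] (B : BaseFn.Data A π N)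
  (hπ : ∀ a : A, ¬ IsUnit a → π a = 0) (hsurj : Function.Surjective π) (hNk : (N : k) ≠ 0)

include hπ hNk in
theorem x_ne_zero : B.x ≠ 0 := fun h =>
  (B.transcendental_x hπ hNk) (h ▸ isAlgebraic_zero)

include hπ hNk in
theorem transcendental_inv_x : Transcendental L (B.x)⁻¹ := fun h =>
  (B.transcendental_x hπ hNk) (by simpa using h.inv)

include hπ in
/-- `x⁻¹` is Gauss-integral. -/
theorem inv_x_mem_Ow : (B.x)⁻¹ ∈ Ow A π N hNk := by
  have h := B.inv_aeval_map_mem_Ow hπ hNk (Polynomial.X : Polynomial A) (by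
    rw [Polynomial.map_X]
    exact Polynomial.X_ne_zero)
  rwa [B.aeval_map_X_x] at h

include hπ hNk in
/-- Reversal: `(reverse p)(x) = p(x⁻¹) · x ^ deg p`. -/
theorem aeval_reverse_eq (p : Polynomial L) :
    Polynomial.aeval B.x p.reverse = Polynomial.aeval (B.x)⁻¹ p * B.x ^ p.natDegree := by
  have hx0 : B.x ≠ 0 := x_ne_zero B hπ hNk
  letI : Invertible (B.x)⁻¹ := invertibleOfNonzero (inv_ne_zero hx0)
  have h1 := Polynomial.eval₂_reverse_mul_pow
    (algebraMap L ↥(laurentBaseChange L (modularFunctionFieldFull N))) (B.x)⁻¹ p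
  rw [invOf_eq_inv, inv_inv] at h1
  rw [Polynomial.aeval_def, Polynomial.aeval_def, ← h1, mul_assoc, ← mul_pow,
    inv_mul_cancel₀ hx0, one_pow, mul_one]

include hπ in
/-- A polynomial in `x⁻¹` is Gauss-integral iff its coefficients lie in `A`. -/
theorem aeval_inv_mem_Ow_iff (p : Polynomial L) :
    Polynomial.aeval (B.x)⁻¹ p ∈ Ow A π N hNk ↔ ∀ i, p.coeff i ∈ A := by
  constructor
  · intro h i
    have h2 : Polynomial.aeval B.x p.reverse ∈ Ow A π N hNk := by
      rw [aeval_reverse_eq B hπ hNk]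
      exact mul_mem h (pow_mem (B.x_mem_Ow hNk) _)
    have h3 := (B.aeval_mem_Ow_iff hπ hNk p.reverse).mp h2
    by_cases hi : i ≤ p.natDegree
    · have h4 := h3 (p.natDegree - i)
      rwa [Polynomial.coeff_reverse, Polynomial.revAt_le (Nat.sub_le _ _),
        Nat.sub_sub_self hi] at h4
    · rw [Polynomial.coeff_eq_zero_of_natDegree_lt (not_le.mp hi)]
      exact A.zero_mem
  · intro h
    rw [Polynomial.aeval_eq_sum_range]
    refine sum_mem fun i _ => ?_
    rw [Algebra.smul_def]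
    exact mul_mem ((algebraMap_mem_Ow_iff hπ hNk _).mpr (h i))
      (pow_mem (inv_x_mem_Ow B hπ hNk) _)

/-- The ring `A[x⁻¹]`, as a subring of `L·F_N`. -/
def AXinv : Subring ↥(laurentBaseChange L (modularFunctionFieldFull N)) :=
  ((Polynomial.aeval (R := L) (B.x)⁻¹).toRingHom.comp (Polynomial.mapRingHom A.subtype)).range

theorem mem_AXinv_iff {z : ↥(laurentBaseChange L (modularFunctionFieldFull N))} :
    z ∈ AXinv B ↔ ∃ p : Polynomial A, Polynomial.aeval (B.x)⁻¹ (p.map A.subtype) = z :=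
  Iff.rfl

theorem algebraMap_mem_AXinv (a : A) :
    algebraMap L ↥(laurentBaseChange L (modularFunctionFieldFull N)) (a : L) ∈ AXinv B :=
  ⟨Polynomial.C a, by
    show Polynomial.aeval (B.x)⁻¹ ((Polynomial.C a).map A.subtype) = _
    rw [Polynomial.map_C, Polynomial.aeval_C]
    rfl⟩

theorem inv_x_mem_AXinv : (B.x)⁻¹ ∈ AXinv B :=
  ⟨Polynomial.X, by
    show Polynomial.aeval (B.x)⁻¹ ((Polynomial.X : Polynomial A).map A.subtype) = _
    rw [Polynomial.map_X, Polynomial.aeval_X]⟩

/-- A valuation subring containing `A` and `x⁻¹` contains `A[x⁻¹]`. -/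
theorem AXinv_le_of_mem (V : ValuationSubring ↥(laurentBaseChange L (modularFunctionFieldFull N)))
    (hAV : ∀ a : A, algebraMap L ↥(laurentBaseChange L (modularFunctionFieldFull N)) (a : L) ∈ V)
    (hxV : (B.x)⁻¹ ∈ V) : ∀ s ∈ AXinv B, s ∈ V := by
  rintro _ ⟨p, rfl⟩
  show Polynomial.aeval (B.x)⁻¹ (p.map A.subtype) ∈ V
  rw [Polynomial.aeval_eq_sum_range]
  refine sum_mem fun i _ => ?_
  rw [Algebra.smul_def, Polynomial.coeff_map]
  exact mul_mem (hAV (p.coeff i)) (pow_mem hxV _)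

include hπ in
/-- An element of `L[x⁻¹]` which is Gauss-integral lies in `A[x⁻¹]`. -/
theorem mem_AXinv_of_mem_adjoin {z : ↥(laurentBaseChange L (modularFunctionFieldFull N))}
    (hz : z ∈ Algebra.adjoin L {(B.x)⁻¹}) (hzO : z ∈ Ow A π N hNk) : z ∈ AXinv B := by
  have h3 : z ∈ (Polynomial.aeval (R := L) (B.x)⁻¹).range := by
    rw [← Algebra.adjoin_singleton_eq_range_aeval]
    exact hz
  obtain ⟨p, rfl⟩ := h3
  obtain ⟨P₀, hP₀⟩ := exists_map_subtype_eq p ((aeval_inv_mem_Ow_iff B hπ hNk p).mp hzO)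
  exact ⟨P₀, by rw [← hP₀]; rfl⟩

include hπ hsurj in
/-- The coefficients of the minimal polynomial over `L[x⁻¹]` of a Gauss-integral element integral
over `L[x⁻¹]` lie in `A[x⁻¹]`. -/
theorem coeff_minpoly_mem_AXinv (y : Ow A π N hNk)
    (hy : IsIntegral ↥(Algebra.adjoin L {(B.x)⁻¹})
      (y : ↥(laurentBaseChange L (modularFunctionFieldFull N)))) (i : ℕ) :
    (((minpoly ↥(Algebra.adjoin L {(B.x)⁻¹})
      (y : ↥(laurentBaseChange L (modularFunctionFieldFull N)))).coeff i :
        ↥(Algebra.adjoin L {(B.x)⁻¹})) :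
      ↥(laurentBaseChange L (modularFunctionFieldFull N))) ∈ AXinv B := by
  obtain ⟨n, ⟨G⟩⟩ := B.exists_goodBasis hπ hsurj hNk
  have : IsIntegrallyClosed ↥(Algebra.adjoin L {(B.x)⁻¹}) :=
    IsIntegrallyClosed.of_equiv
      (Polynomial.algEquivOfTranscendental L (B.x)⁻¹ (transcendental_inv_x B hπ hNk)).toRingEquiv
  obtain ⟨g', hg'⟩ := G.exists_map_eq_minpoly y
  have hmin := minpoly.isIntegrallyClosed_eq_field_fractions' ↥(L⟮(B.x)⁻¹⟯) hy
  refine mem_AXinv_of_mem_adjoin B hπ hNk (Subtype.property _) ?_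
  -- compare the two minimal polynomials inside `F'`
  have hbridge := map_minpoly_congr (adjoin_simple_inv_eq (K := L) B.x)
    (y : ↥(laurentBaseChange L (modularFunctionFieldFull N)))
  rw [hmin, ← hg', Polynomial.map_map, Polynomial.map_map] at hbridge
  have h2 := congrArg (fun p => p.coeff i) hbridge
  simp only [Polynomial.coeff_map] at h2
  have h6 : algebraMap ↥(L⟮B.x⟯) ↥(laurentBaseChange L (modularFunctionFieldFull N))
      ((g'.coeff i : B.Ov hNk) : ↥(L⟮B.x⟯)) ∈ Ow A π N hNk := (g'.coeff i).2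
  have h7 : (((minpoly ↥(Algebra.adjoin L {(B.x)⁻¹})
      (y : ↥(laurentBaseChange L (modularFunctionFieldFull N)))).coeff i :
        ↥(Algebra.adjoin L {(B.x)⁻¹})) :
      ↥(laurentBaseChange L (modularFunctionFieldFull N))) =
      algebraMap ↥(L⟮B.x⟯) ↥(laurentBaseChange L (modularFunctionFieldFull N))
      ((g'.coeff i : B.Ov hNk) : ↥(L⟮B.x⟯)) := h2
  rw [h7]
  exact h6

include hπ hsurj in
/-- **Lemma A at infinity.** A Gauss-integral element of `L·F_N` which is integral over `L[x⁻¹]`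
is integral over `A[x⁻¹]`. -/
theorem isIntegral_AXinv_of_isIntegral (y : Ow A π N hNk)
    (hy : IsIntegral ↥(Algebra.adjoin L {(B.x)⁻¹})
      (y : ↥(laurentBaseChange L (modularFunctionFieldFull N)))) :
    IsIntegral ↥(AXinv B) (y : ↥(laurentBaseChange L (modularFunctionFieldFull N))) := by
  have hcoeff := coeff_minpoly_mem_AXinv B hπ hsurj hNk y hy
  set q : Polynomial ↥(laurentBaseChange L (modularFunctionFieldFull N)) :=
    (minpoly ↥(Algebra.adjoin L {(B.x)⁻¹})
      (y : ↥(laurentBaseChange L (modularFunctionFieldFull N)))).map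
      (algebraMap ↥(Algebra.adjoin L {(B.x)⁻¹})
      ↥(laurentBaseChange L (modularFunctionFieldFull N))) with hq
  have hqm : q.Monic := (minpoly.monic hy).map _
  have hq0 : q.eval (y : ↥(laurentBaseChange L (modularFunctionFieldFull N))) = 0 := by
    rw [hq, Polynomial.eval_map, ← Polynomial.aeval_def]
    exact minpoly.aeval _ _
  have hlift : q ∈ Polynomial.lifts (AXinv B).subtype := by
    rw [Polynomial.lifts_iff_coeff_lifts]
    intro n
    rw [hq, Polynomial.coeff_map]
    exact ⟨⟨_, hcoeff n⟩, rfl⟩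
  obtain ⟨q', hq', -, hq'm⟩ := Polynomial.lifts_and_natDegree_eq_and_monic hlift hqm
  refine ⟨q', hq'm, ?_⟩
  have h5 : Polynomial.eval₂ (algebraMap ↥(AXinv B)
      ↥(laurentBaseChange L (modularFunctionFieldFull N)))
      (y : ↥(laurentBaseChange L (modularFunctionFieldFull N))) q' =
      (q'.map (AXinv B).subtype).eval (y : ↥(laurentBaseChange L (modularFunctionFieldFull N))) := by
    rw [Polynomial.eval_map]
    rfl
  rw [h5, hq', hq0]

include hπ hsurj in
/-- **`Lift.Binf B ⊆` integral closure of `A[x⁻¹]`, valuative form**: an element of `B'_∞` lies in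
every valuation subring of `L·F_N` containing `A` and `x⁻¹`. -/
theorem mem_of_mem_Binf {y : ↥(laurentBaseChange L (modularFunctionFieldFull N))}
    (hy : y ∈ Lift.Binf B hNk)
    (V : ValuationSubring ↥(laurentBaseChange L (modularFunctionFieldFull N)))
    (hAV : ∀ a : A, algebraMap L ↥(laurentBaseChange L (modularFunctionFieldFull N)) (a : L) ∈ V)
    (hxV : (B.x)⁻¹ ∈ V) : y ∈ V := by
  obtain ⟨hyO, hyI⟩ := (Lift.mem_Binf_iff_isIntegral B hπ hsurj hNk).mp hy
  exact mem_valuationSubring_of_isIntegral (AXinv B) V (AXinv_le_of_mem B V hAV hxV)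
    (isIntegral_AXinv_of_isIntegral B hπ hsurj hNk ⟨y, hyO⟩ hyI)

include hπ hsurj in
/-- **`Lift.Binf B ⊆` integral closure of `R[x⁻¹]`** for every ring `R → L·F_N` whose image
contains `A`. -/
theorem isIntegral_adjoin_inv_of_mem_Binf {R : Type*} [CommRing R]
    [Algebra R ↥(laurentBaseChange L (modularFunctionFieldFull N))]
    (hR : ∀ a : A, ∃ r : R, algebraMap R ↥(laurentBaseChange L (modularFunctionFieldFull N)) r =
      algebraMap L ↥(laurentBaseChange L (modularFunctionFieldFull N)) (a : L))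
    {y : ↥(laurentBaseChange L (modularFunctionFieldFull N))} (hy : y ∈ Lift.Binf B hNk) :
    IsIntegral (Algebra.adjoin R {(B.x)⁻¹}) y := by
  rw [Fermat.Agent.CAR.Glob.ChartX.isIntegral_adjoin_singleton_iff]
  intro V hRV hxV
  refine mem_of_mem_Binf B hπ hsurj hNk hy V (fun a => ?_) hxV
  obtain ⟨r, hr⟩ := hR a
  rw [← hr]
  exact hRV r

include hπ hsurj in
/-- Conversely, an element integral over `R[x⁻¹]` lies in `B'_∞`, for every ring `R → L·F_N`
whose image is contained in `A`. -/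
theorem mem_Binf_of_isIntegral_adjoin_inv {R : Type*} [CommRing R]
    [Algebra R ↥(laurentBaseChange L (modularFunctionFieldFull N))]
    (hR : ∀ r : R, ∃ a : A, algebraMap R ↥(laurentBaseChange L (modularFunctionFieldFull N)) r =
      algebraMap L ↥(laurentBaseChange L (modularFunctionFieldFull N)) (a : L))
    {y : ↥(laurentBaseChange L (modularFunctionFieldFull N))}
    (hy : IsIntegral (Algebra.adjoin R {(B.x)⁻¹}) y) : y ∈ Lift.Binf B hNk := by
  rw [Fermat.Agent.CAR.Glob.ChartX.isIntegral_adjoin_singleton_iff] at hy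
  rw [Lift.mem_Binf_iff_isIntegral B hπ hsurj hNk]
  refine ⟨hy _ (fun r => ?_) (inv_x_mem_Ow B hπ hNk), ?_⟩
  · obtain ⟨a, ha⟩ := hR r
    rw [ha]
    exact (algebraMap_mem_Ow_iff hπ hNk _).mpr a.2
  · rw [Fermat.Agent.CAR.Glob.ChartX.isIntegral_adjoin_singleton_iff]
    intro V hLV hxV
    refine hy V (fun r => ?_) hxV
    obtain ⟨a, ha⟩ := hR r
    rw [ha]
    exact hLV _

end Generic

/-! ### Transport to level `M' q²`: `π_0^*`, `π_2^*` map `B'_∞` into the chart at infinity -/

section Transport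

open Fermat.Agent.CAR.V3 Fermat.Agent.CAR.Glob

variable {L : Type} [Field L] [Algebra ℚ L] {A : ValuationSubring L} {k : Type} [Field k]
  {π : A →+* k} {M' q : ℕ} [NeZero M'] [NeZero q]
  (hπ : ∀ a : A, ¬ IsUnit a → π a = 0) (hsurj : Function.Surjective π) (hNk : (M' : k) ≠ 0)
  (hq : q.Prime)

include hπ hsurj in
/-- Abstract transport of `B'_∞ = Lift.Binf (ofJ)` (level `M'`, `x = xL = J(q^{M'})`): an
`L`-algebra map `φ` into a field `E` sends it into every valuation subring of `E` containing `A`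
and `(φ x)⁻¹`. -/
theorem map_mem_of_mem_Binf {E : Type*} [Field E] [Algebra L E]
    (φ : ↥(laurentBaseChange L (modularFunctionFieldFull M')) →ₐ[L] E)
    {y : ↥(laurentBaseChange L (modularFunctionFieldFull M'))}
    (hy : y ∈ Lift.Binf (BaseFn.Data.ofJ A π M') hNk)
    (V : ValuationSubring E)
    (hAV : ∀ a : A, algebraMap L E (a : L) ∈ V)
    (hxV : (φ (xL L M'))⁻¹ ∈ V) :
    φ y ∈ V := by
  have hφA : ∀ a : A, algebraMap L ↥(laurentBaseChange L (modularFunctionFieldFull M')) (a : L) ∈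
      V.comap (φ : ↥(laurentBaseChange L (modularFunctionFieldFull M')) →+* E) := fun a => by
    rw [ValuationSubring.mem_comap, RingHom.coe_coe, AlgHom.commutes]
    exact hAV a
  have hφx : ((BaseFn.Data.ofJ A π M').x)⁻¹ ∈
      V.comap (φ : ↥(laurentBaseChange L (modularFunctionFieldFull M')) →+* E) := by
    rw [ValuationSubring.mem_comap, RingHom.coe_coe, BaseFn.Data.ofJ_x, map_inv₀]
    exact hxV
  exact mem_of_mem_Binf (BaseFn.Data.ofJ A π M') hπ hsurj hNk hy _ hφA hφx

include hπ hsurj hq in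
/-- **`π_0^* (B'_∞)` at infinity, valuative form**: for `y ∈ Lift.Binf (ofJ)` (level `M'`), the
pull-back `π_0^* y` lies in every valuation subring of `L·F_{M' q²}` containing `A` and
`(J_0 J_2)⁻¹`. -/
theorem piStar0_mem_of_mem_Binf
    {y : ↥(laurentBaseChange L (modularFunctionFieldFull M'))}
    (hy : y ∈ Lift.Binf (BaseFn.Data.ofJ A π M') hNk)
    (V : ValuationSubring ↥(laurentBaseChange L (modularFunctionFieldFull (M' * q * q))))
    (hAV : ∀ a : A,
      algebraMap L ↥(laurentBaseChange L (modularFunctionFieldFull (M' * q * q))) (a : L) ∈ V)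
    (hxV : (CuspQuot.J0 (q := q) L M' * CuspQuot.J2 L M')⁻¹ ∈ V) :
    piStar0 L M' q y ∈ V := by
  obtain ⟨D⟩ := Fermat.Agent.ESJ.Cong.LevelGen.modEq_prime q hq
  have h0 := (CuspQuot.piStar_mem_of_inv_mul_mem L M' hq D V hxV).1
  exact map_mem_of_mem_Binf hπ hsurj hNk (piStar0 L M' q) hy V hAV h0

include hπ hsurj hq in
/-- **`π_2^* (B'_∞)` at infinity, valuative form.** -/
theorem piStar2_mem_of_mem_Binf
    {y : ↥(laurentBaseChange L (modularFunctionFieldFull M'))}
    (hy : y ∈ Lift.Binf (BaseFn.Data.ofJ A π M') hNk)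
    (V : ValuationSubring ↥(laurentBaseChange L (modularFunctionFieldFull (M' * q * q))))
    (hAV : ∀ a : A,
      algebraMap L ↥(laurentBaseChange L (modularFunctionFieldFull (M' * q * q))) (a : L) ∈ V)
    (hxV : (CuspQuot.J0 (q := q) L M' * CuspQuot.J2 L M')⁻¹ ∈ V) :
    piStar2 L M' q y ∈ V := by
  obtain ⟨D⟩ := Fermat.Agent.ESJ.Cong.LevelGen.modEq_prime q hq
  have h2 := (CuspQuot.piStar_mem_of_inv_mul_mem L M' hq D V hxV).2.1
  exact map_mem_of_mem_Binf hπ hsurj hNk (piStar2 L M' q) hy V hAV h2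

include hπ hsurj hq in
/-- **`π_0^* (B'_∞) ⊆ B_∞ = chart R (J_0 J_2)⁻¹`** for every ring `R → L·F_{M' q²}` whose image
contains `A`. -/
theorem piStar0_mem_chart_inv {R : Type*} [CommRing R]
    [Algebra R ↥(laurentBaseChange L (modularFunctionFieldFull (M' * q * q)))]
    (hR : ∀ a : A, ∃ r : R,
      algebraMap R ↥(laurentBaseChange L (modularFunctionFieldFull (M' * q * q))) r =
        algebraMap L ↥(laurentBaseChange L (modularFunctionFieldFull (M' * q * q))) (a : L))
    {y : ↥(laurentBaseChange L (modularFunctionFieldFull M'))}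
    (hy : y ∈ Lift.Binf (BaseFn.Data.ofJ A π M') hNk) :
    piStar0 L M' q y ∈ Charts.chart R (CuspQuot.J0 (q := q) L M' * CuspQuot.J2 L M')⁻¹ := by
  rw [Charts.mem_chart_iff, ChartX.isIntegral_adjoin_singleton_iff]
  intro V hRV hxV
  refine piStar0_mem_of_mem_Binf hπ hsurj hNk hq hy V (fun a => ?_) hxV
  obtain ⟨r, hr⟩ := hR a
  rw [← hr]
  exact hRV r

include hπ hsurj hq in
/-- **`π_2^* (B'_∞) ⊆ B_∞ = chart R (J_0 J_2)⁻¹`** for every ring `R → L·F_{M' q²}` whose image
contains `A`. -/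
theorem piStar2_mem_chart_inv {R : Type*} [CommRing R]
    [Algebra R ↥(laurentBaseChange L (modularFunctionFieldFull (M' * q * q)))]
    (hR : ∀ a : A, ∃ r : R,
      algebraMap R ↥(laurentBaseChange L (modularFunctionFieldFull (M' * q * q))) r =
        algebraMap L ↥(laurentBaseChange L (modularFunctionFieldFull (M' * q * q))) (a : L))
    {y : ↥(laurentBaseChange L (modularFunctionFieldFull M'))}
    (hy : y ∈ Lift.Binf (BaseFn.Data.ofJ A π M') hNk) :
    piStar2 L M' q y ∈ Charts.chart R (CuspQuot.J0 (q := q) L M' * CuspQuot.J2 L M')⁻¹ := by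
  rw [Charts.mem_chart_iff, ChartX.isIntegral_adjoin_singleton_iff]
  intro V hRV hxV
  refine piStar2_mem_of_mem_Binf hπ hsurj hNk hq hy V (fun a => ?_) hxV
  obtain ⟨r, hr⟩ := hR a
  rw [← hr]
  exact hRV r

end Transport

/-! ### The CAR base `(K0, W0, resW0)` -/

section K0Inst

open Fermat.Agent.CAR.V3 Fermat.Agent.CAR.Glob Fermat.Agent.CAR.K0

local notation "Qb" => AlgebraicClosure ℚ

variable {q : ℕ} [NeZero q] (hq : q.Prime) {A : ValuationSubring Qb} (hA : A.LiesOverPrime q)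
  (M' : ℕ) [NeZero M'] (hNk : ((M' : ℕ) : IsLocalRing.ResidueField A) ≠ 0)

set_option synthInstance.maxHeartbeats 400000 in
set_option maxHeartbeats 1000000 in
include hq hA in
/-- **`π_0^* (B'_∞) ⊆ B_∞`** at the CAR base: `B'_∞ = Lift.Binf (ofJ (W0 A) (resW0 A) M')`,
`B_∞ = chart W0 (J_0 J_2)⁻¹`. -/
theorem piStar0_mem_Binf_W0
    [Algebra ↥(W0 A) ↥(laurentBaseChange ↥(K0 A) (modularFunctionFieldFull (M' * q * q)))]
    [IsScalarTower ↥(W0 A) ↥(K0 A)
      ↥(laurentBaseChange ↥(K0 A) (modularFunctionFieldFull (M' * q * q)))]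
    {y : ↥(laurentBaseChange ↥(K0 A) (modularFunctionFieldFull M'))}
    (hy : y ∈ Lift.Binf (BaseFn.Data.ofJ (W0 A) (resW0 A) M') hNk) :
    piStar0 ↥(K0 A) M' q y ∈
      Charts.chart ↥(W0 A) (CuspQuot.J0 (q := q) ↥(K0 A) M' * CuspQuot.J2 ↥(K0 A) M')⁻¹ :=
  piStar0_mem_chart_inv (resW0_eq_zero_of_not_isUnit A) (resW0_surjective hq hA) hNk hq
    (fun a => ⟨a, by
      rw [IsScalarTower.algebraMap_apply ↥(W0 A) ↥(K0 A)
        ↥(laurentBaseChange ↥(K0 A) (modularFunctionFieldFull (M' * q * q)))]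
      rfl⟩) hy

set_option synthInstance.maxHeartbeats 400000 in
set_option maxHeartbeats 1000000 in
include hq hA in
/-- **`π_2^* (B'_∞) ⊆ B_∞`** at the CAR base. -/
theorem piStar2_mem_Binf_W0
    [Algebra ↥(W0 A) ↥(laurentBaseChange ↥(K0 A) (modularFunctionFieldFull (M' * q * q)))]
    [IsScalarTower ↥(W0 A) ↥(K0 A)
      ↥(laurentBaseChange ↥(K0 A) (modularFunctionFieldFull (M' * q * q)))]
    {y : ↥(laurentBaseChange ↥(K0 A) (modularFunctionFieldFull M'))}
    (hy : y ∈ Lift.Binf (BaseFn.Data.ofJ (W0 A) (resW0 A) M') hNk) :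
    piStar2 ↥(K0 A) M' q y ∈
      Charts.chart ↥(W0 A) (CuspQuot.J0 (q := q) ↥(K0 A) M' * CuspQuot.J2 ↥(K0 A) M')⁻¹ :=
  piStar2_mem_chart_inv (resW0_eq_zero_of_not_isUnit A) (resW0_surjective hq hA) hNk hq
    (fun a => ⟨a, by
      rw [IsScalarTower.algebraMap_apply ↥(W0 A) ↥(K0 A)
        ↥(laurentBaseChange ↥(K0 A) (modularFunctionFieldFull (M' * q * q)))]
      rfl⟩) hy

end K0Inst

end Fermat.Agent.CAR.Inst.BPrimeWebInf
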