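import Mathlib
import Fermat.Agent.CAR.Lift
import Fermat.Agent.CAR.Glob.Charts
import Fermat.Agent.BAD.Base.CuspX

/-!
# CAR / LIFT at `q ∈ {2, 3}`: change of chart `y ⇝ J` along a relation `J · y ^ a = G(y)`

Generic RED setting `(L, A, π, k)`, level `N`, two base functions `By`, `BJ : BaseFn.Data A π N`
(`y = By.x`, `J = BJ.x`) related by

  `J * y ^ a = G(y)`,  `G ∈ A[X]` monic of positive degree with `π (G 0) ≠ 0`

(for the Hauptmodul of level `2`: `J · y² = (y + 256)³`; of level `3`: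
`J · y³ = (y + 27)(y + 243)³`).  From `Lift.T3 By`, `Lift.T3' By`:

* `T3_of_rel` (R1): the LITERAL `Lift.T3 BJ` (needs `0 < a < deg G`);
* `lift_frac_inf_of_rel` (R2): the conclusion of `Lift.lift_frac_inf` for `BJ`;
* `lift_sep_inf_of_rel` (R3): the conclusion of `Lift.lift_sep_inf` for `BJ`;
* `exists_mul_u_mem_Binf`, `exists_mul_w_mem_Binf`: the multiplier trick
  (`u = y ^ d / G(y)`, `w = 1 / G(y)`) in place form.

Instances: `T3_ofJ_of_haupt2`, `lift_frac_inf_ofJ_of_haupt2`, `lift_sep_inf_ofJ_of_haupt2`, and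
the same for `haupt3`, for every `(L, A, π)`.
-/

set_option autoImplicit false
set_option linter.unusedSectionVars false

noncomputable section

namespace Fermat.Agent.CAR.Inst.LiftRel

open HahnSeries ModularCurve Polynomial AlgebraicCurve Fermat.Agent.S28 IntermediateField
  Fermat.Agent.Lib.FF Fermat.Agent.Lib.Red Fermat.Agent.S24 Fermat.Agent.BAD
  Fermat.Agent.CAR.Glob

/-! ### Places of a function field and a relation `J · y ^ a = p(y)` -/

section Abstract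

variable {K F : Type*} [Field K] [Field F] [Algebra K F]

/-- `p(y) ≠ 0` from the relation. -/
theorem aeval_ne_zero_of_rel {y J : F} {p : K[X]} {a : ℕ} (hrel : J * y ^ a = aeval y p)
    (hJ : J ≠ 0) (hy0 : y ≠ 0) : aeval y p ≠ 0 :=
  hrel ▸ mul_ne_zero hJ (pow_ne_zero a hy0)

/-- Where `y` is regular and `J` is not zero, `p(y)` is a unit. -/
theorem ord_aeval_eq_zero_of_nonneg (P : Place K F) {y J : F} {p : K[X]} {a : ℕ}
    (h0 : p.coeff 0 ≠ 0) (hrel : J * y ^ a = aeval y p) (hJ : J ≠ 0) (hy0 : y ≠ 0)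
    (hy : 0 ≤ P.ord y) (hPJ : P.ord J ≤ 0) : P.ord (aeval y p) = 0 := by
  rcases hy.lt_or_eq with hy | hy
  · exact (CuspX.ord_aeval_of_pos P hy p h0).2
  · have h1 := CuspX.ord_aeval_nonneg P hy.le p
    have h2 : P.ord (aeval y p) = P.ord J := by
      rw [← hrel, P.ord_mul hJ (pow_ne_zero a hy0), CuspX.ord_pow_nat, ← hy, mul_zero, add_zero]
    omega

/-- The multiplier `u = y ^ d / p(y)` is a unit where `y ≠ 0` and `J ≠ 0`. -/
theorem ord_u_eq_zero (P : Place K F) {y J : F} {p : K[X]} {a : ℕ} (hp : p.Monic)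
    (hrel : J * y ^ a = aeval y p) (hJ : J ≠ 0) (hy0 : y ≠ 0)
    (hy : P.ord y ≤ 0) (hPJ : P.ord J ≤ 0) :
    P.ord (y ^ p.natDegree * (aeval y p)⁻¹) = 0 := by
  have hne := aeval_ne_zero_of_rel hrel hJ hy0
  rw [P.ord_mul (pow_ne_zero _ hy0) (inv_ne_zero hne), CuspX.ord_pow_nat, P.ord_inv]
  rcases hy.lt_or_eq with hy | hy
  · rw [(CuspX.ord_aeval_of_neg P hy p hp.ne_zero).2]
    ring
  · have h1 := CuspX.ord_aeval_nonneg P hy.ge p
    have h2 : P.ord (aeval y p) = P.ord J := by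
      rw [← hrel, P.ord_mul hJ (pow_ne_zero a hy0), CuspX.ord_pow_nat, hy, mul_zero, add_zero]
    rw [hy, mul_zero]
    omega

/-- At a zero of `y` the multiplier `u` vanishes to order `d · ord y`. -/
theorem ord_u_of_pos (P : Place K F) {y : F} {p : K[X]} (h0 : p.coeff 0 ≠ 0)
    (hy : 0 < P.ord y) :
    P.ord (y ^ p.natDegree * (aeval y p)⁻¹) = (p.natDegree : ℤ) * P.ord y := by
  obtain ⟨hne, h⟩ := CuspX.ord_aeval_of_pos P hy p h0
  have hy0 : y ≠ 0 := by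
    rintro rfl
    rw [Place.ord_zero] at hy
    exact lt_irrefl _ hy
  rw [P.ord_mul (pow_ne_zero _ hy0) (inv_ne_zero hne), CuspX.ord_pow_nat, P.ord_inv, h]
  ring

/-- The multiplier `w = 1 / p(y)` is a unit where `y` is regular and `J ≠ 0`. -/
theorem ord_w_eq_zero (P : Place K F) {y J : F} {p : K[X]} {a : ℕ}
    (h0 : p.coeff 0 ≠ 0) (hrel : J * y ^ a = aeval y p) (hJ : J ≠ 0) (hy0 : y ≠ 0)
    (hy : 0 ≤ P.ord y) (hPJ : P.ord J ≤ 0) : P.ord (aeval y p)⁻¹ = 0 := by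
  rw [P.ord_inv, ord_aeval_eq_zero_of_nonneg P h0 hrel hJ hy0 hy hPJ, neg_zero]

/-- At a pole of `y` the multiplier `w` vanishes to order `- d · ord y`. -/
theorem ord_w_of_neg (P : Place K F) {y : F} {p : K[X]} (hp : p.Monic) (hy : P.ord y < 0) :
    P.ord (aeval y p)⁻¹ = -((p.natDegree : ℤ) * P.ord y) := by
  rw [P.ord_inv, (CuspX.ord_aeval_of_neg P hy p hp.ne_zero).2]

/-- On the finite `J`-chart, `y` is a unit (`0 < a < deg p`). -/
theorem ord_eq_zero_of_rel (P : Place K F) {y J : F} {p : K[X]} {a : ℕ} (hp : p.Monic)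
    (h0 : p.coeff 0 ≠ 0) (ha : 0 < a) (had : a < p.natDegree)
    (hrel : J * y ^ a = aeval y p) (hJ : J ≠ 0) (hy0 : y ≠ 0) (hPJ : 0 ≤ P.ord J) :
    P.ord y = 0 := by
  have h2 : P.ord (aeval y p) = P.ord J + (a : ℤ) * P.ord y := by
    rw [← hrel, P.ord_mul hJ (pow_ne_zero a hy0), CuspX.ord_pow_nat]
  have h4 : (1 : ℤ) ≤ a := by exact_mod_cast ha
  have h5 : (a : ℤ) + 1 ≤ p.natDegree := by exact_mod_cast had
  rcases lt_trichotomy (P.ord y) 0 with hy | hy | hy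
  · rw [(CuspX.ord_aeval_of_neg P hy p hp.ne_zero).2] at h2
    exfalso
    nlinarith
  · exact hy
  · rw [(CuspX.ord_aeval_of_pos P hy p h0).2] at h2
    exfalso
    nlinarith

/-- **Multiplier trick, chart `y ≠ 0`.**  If `t` is regular where `y ≠ 0`, then `t · u ^ n`
(`u = y ^ d / p(y)`) is regular where `J ≠ 0`, for all large `n`. -/
theorem exists_regular_mul_u (y J : F) [FiniteDimensional K⟮y⟯ F] {p : K[X]} (hp : p.Monic)
    (hd : 0 < p.natDegree) (h0 : p.coeff 0 ≠ 0) {a : ℕ} (hrel : J * y ^ a = aeval y p)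
    (hJ : J ≠ 0) (hy0 : y ≠ 0) {t : F} (ht : ∀ P : Place K F, P.ord y ≤ 0 → 0 ≤ P.ord t) :
    ∃ n₀ : ℕ, ∀ n, n₀ ≤ n → ∀ P : Place K F, P.ord J ≤ 0 →
      0 ≤ P.ord (t * (y ^ p.natDegree * (aeval y p)⁻¹) ^ n) := by
  have h1 : IsIntegral (Algebra.adjoin K {y⁻¹}) t := (Holo.isIntegral_adjoin_inv_iff y t).2 ht
  obtain ⟨n₀, hn₀⟩ := Charts.exists_pow_mul_mem_chart (W := K) hy0 (r := t)
    (Charts.mem_chart_iff.2 h1)
  have h2 : ∀ P : Place K F, 0 ≤ P.ord y → 0 ≤ P.ord (y ^ n₀ * t) :=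
    (Holo.isIntegral_adjoin_iff y _).1 (Charts.mem_chart_iff.1 hn₀)
  refine ⟨n₀, fun n hn P hPJ => ?_⟩
  rw [← mem_iff_ord_nonneg]
  rcases le_or_gt (P.ord y) 0 with hy | hy
  · have htP : t ∈ P.toValuationSubring := (mem_iff_ord_nonneg P).2 (ht P hy)
    have hu : y ^ p.natDegree * (aeval y p)⁻¹ ∈ P.toValuationSubring :=
      (mem_iff_ord_nonneg P).2 (ord_u_eq_zero P hp hrel hJ hy0 hy hPJ).ge
    exact mul_mem htP (pow_mem hu n)
  · have h3 : y ^ n₀ * t ∈ P.toValuationSubring := (mem_iff_ord_nonneg P).2 (h2 P hy.le)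
    have h4 : y ∈ P.toValuationSubring := (mem_iff_ord_nonneg P).2 hy.le
    have h5 : (aeval y p)⁻¹ ∈ P.toValuationSubring := by
      rw [mem_iff_ord_nonneg, P.ord_inv, (CuspX.ord_aeval_of_pos P hy p h0).2, neg_zero]
    have hle : n₀ ≤ p.natDegree * n := le_trans hn (Nat.le_mul_of_pos_left n hd)
    have h6 : t * (y ^ p.natDegree * (aeval y p)⁻¹) ^ n =
        (y ^ n₀ * t) * y ^ (p.natDegree * n - n₀) * ((aeval y p)⁻¹) ^ n := by
      rw [mul_pow, ← pow_mul]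
      have h7 : y ^ (p.natDegree * n) = y ^ n₀ * y ^ (p.natDegree * n - n₀) := by
        rw [← _root_.pow_add]
        congr 1
        omega
      rw [h7]
      ring
    rw [h6]
    exact mul_mem (mul_mem h3 (pow_mem h4 _)) (pow_mem h5 n)

/-- **Multiplier trick, chart `y ≠ ∞`.**  If `t` is regular where `y` is, then `t · w ^ n`
(`w = 1 / p(y)`) is regular where `J ≠ 0`, for all large `n`. -/
theorem exists_regular_mul_w (y J : F) [FiniteDimensional K⟮y⟯ F] {p : K[X]} (hp : p.Monic)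
    (hd : 0 < p.natDegree) (h0 : p.coeff 0 ≠ 0) {a : ℕ} (hrel : J * y ^ a = aeval y p)
    (hJ : J ≠ 0) (hy0 : y ≠ 0) {t : F} (ht : ∀ P : Place K F, 0 ≤ P.ord y → 0 ≤ P.ord t) :
    ∃ n₀ : ℕ, ∀ n, n₀ ≤ n → ∀ P : Place K F, P.ord J ≤ 0 →
      0 ≤ P.ord (t * ((aeval y p)⁻¹) ^ n) := by
  have h1 : IsIntegral (Algebra.adjoin K {y}) t := (Holo.isIntegral_adjoin_iff y t).2 ht
  obtain ⟨n₀, hn₀⟩ := Charts.exists_inv_pow_mul_mem_chart (W := K) hy0 (r := t)
    (Charts.mem_chart_iff.2 h1)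
  have h2 : ∀ P : Place K F, P.ord y ≤ 0 → 0 ≤ P.ord (y⁻¹ ^ n₀ * t) :=
    (Holo.isIntegral_adjoin_inv_iff y _).1 (Charts.mem_chart_iff.1 hn₀)
  have hne := aeval_ne_zero_of_rel hrel hJ hy0
  have hd' : (1 : ℤ) ≤ p.natDegree := by exact_mod_cast hd
  refine ⟨n₀, fun n hn P hPJ => ?_⟩
  rw [← mem_iff_ord_nonneg]
  rcases le_or_gt 0 (P.ord y) with hy | hy
  · have htP : t ∈ P.toValuationSubring := (mem_iff_ord_nonneg P).2 (ht P hy)
    have hw : (aeval y p)⁻¹ ∈ P.toValuationSubring :=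
      (mem_iff_ord_nonneg P).2 (ord_w_eq_zero P h0 hrel hJ hy0 hy hPJ).ge
    exact mul_mem htP (pow_mem hw n)
  · have h3 : y⁻¹ ^ n₀ * t ∈ P.toValuationSubring := (mem_iff_ord_nonneg P).2 (h2 P hy.le)
    have hw : (aeval y p)⁻¹ ∈ P.toValuationSubring := by
      rw [mem_iff_ord_nonneg, ord_w_of_neg P hp hy]
      nlinarith
    have hyw : y * (aeval y p)⁻¹ ∈ P.toValuationSubring := by
      rw [mem_iff_ord_nonneg, P.ord_mul hy0 (inv_ne_zero hne), ord_w_of_neg P hp hy]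
      nlinarith
    have h6 : t * ((aeval y p)⁻¹) ^ n =
        (y⁻¹ ^ n₀ * t) * (y * (aeval y p)⁻¹) ^ n₀ * ((aeval y p)⁻¹) ^ (n - n₀) := by
      have h7 : ((aeval y p)⁻¹) ^ n = ((aeval y p)⁻¹) ^ n₀ * ((aeval y p)⁻¹) ^ (n - n₀) := by
        rw [← _root_.pow_add]
        congr 1
        omega
      rw [h7, mul_pow, inv_pow y n₀]
      field_simp
    rw [h6]
    exact mul_mem (mul_mem h3 (pow_mem hyw _)) (pow_mem hw _)

end Abstract

/-! ### The Gauss valuation ring -/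

section Concrete

variable {L : Type*} [Field L] [Algebra ℚ L] {A : ValuationSubring L} {k : Type} [Field k]
  {π : A →+* k} {N : ℕ} [NeZero N] (By BJ : BaseFn.Data A π N)
  (hπ : ∀ a : A, ¬ IsUnit a → π a = 0) (hsurj : Function.Surjective π) (hNk : (N : k) ≠ 0)
  (G : Polynomial A) (hG : G.Monic)

/-- The coercion of the inverse of a unit of a valuation subring. -/
theorem coe_units_inv {E : Type*} [Field E] (O : ValuationSubring E) (U : Oˣ) :
    (((U⁻¹ : Oˣ) : O) : E) = ((U : O) : E)⁻¹ := by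
  have h : (((U⁻¹ : Oˣ) : O) : E) * ((U : O) : E) = 1 := congrArg Subtype.val U.inv_mul
  exact eq_inv_of_mul_eq_one_left h

/-- `G(y)` as a unit of the Gauss valuation ring. -/
def gUnit : (Ow A π N hNk)ˣ :=
  (By.isUnit_aeval_map hπ hNk G (hG.map π).ne_zero).unit

theorem coe_gUnit :
    (((gUnit By hπ hNk G hG : (Ow A π N hNk)ˣ) : Ow A π N hNk) :
      ↥(laurentBaseChange L (modularFunctionFieldFull N))) =
      Polynomial.aeval By.x (G.map A.subtype) := rfl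

theorem redF_gUnit :
    redF A π N hπ hNk ((gUnit By hπ hNk G hG : (Ow A π N hNk)ˣ) : Ow A π N hNk) =
      Polynomial.aeval (By.xt hπ hNk) (G.map π) :=
  By.redF_aeval_map hπ hNk G

/-- The multiplier `w = 1 / G(y)`. -/
def wUnit : (Ow A π N hNk)ˣ := (gUnit By hπ hNk G hG)⁻¹

/-- The multiplier `u = y ^ d / G(y)`. -/
def uUnit : (Ow A π N hNk)ˣ := By.xUnit hπ hNk ^ G.natDegree * (gUnit By hπ hNk G hG)⁻¹

theorem coe_wUnit :
    (((wUnit By hπ hNk G hG : (Ow A π N hNk)ˣ) : Ow A π N hNk) :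
      ↥(laurentBaseChange L (modularFunctionFieldFull N))) =
      (Polynomial.aeval By.x (G.map A.subtype))⁻¹ := by
  rw [wUnit, coe_units_inv, coe_gUnit]

theorem coe_uUnit :
    (((uUnit By hπ hNk G hG : (Ow A π N hNk)ˣ) : Ow A π N hNk) :
      ↥(laurentBaseChange L (modularFunctionFieldFull N))) =
      By.x ^ (G.map A.subtype).natDegree * (Polynomial.aeval By.x (G.map A.subtype))⁻¹ := by
  rw [uUnit, Units.val_mul, Units.val_pow_eq_pow_val, MulMemClass.coe_mul,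
    SubmonoidClass.coe_pow, coe_units_inv, coe_gUnit, BaseFn.Data.coe_xUnit,
    hG.natDegree_map A.subtype]

theorem redF_wUnit :
    redF A π N hπ hNk ((wUnit By hπ hNk G hG : (Ow A π N hNk)ˣ) : Ow A π N hNk) =
      (Polynomial.aeval (By.xt hπ hNk) (G.map π))⁻¹ := by
  rw [wUnit, map_units_inv, redF_gUnit]

theorem redF_uUnit :
    redF A π N hπ hNk ((uUnit By hπ hNk G hG : (Ow A π N hNk)ˣ) : Ow A π N hNk) =
      By.xt hπ hNk ^ (G.map π).natDegree * (Polynomial.aeval (By.xt hπ hNk) (G.map π))⁻¹ := by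
  rw [uUnit, Units.val_mul, Units.val_pow_eq_pow_val, map_mul, map_pow, map_units_inv,
    redF_gUnit, hG.natDegree_map π]
  rfl

theorem redF_unit_ne_zero (U : (Ow A π N hNk)ˣ) :
    redF A π N hπ hNk (U : Ow A π N hNk) ≠ 0 :=
  fun h => (redF_eq_zero_iff hπ hNk _).1 h U.isUnit

variable (a : ℕ)

/-- The relation between the reduced base functions. -/
theorem rel_xt (hrel : BJ.x * By.x ^ a = Polynomial.aeval By.x (G.map A.subtype)) :
    BJ.xt hπ hNk * By.xt hπ hNk ^ a = Polynomial.aeval (By.xt hπ hNk) (G.map π) := by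
  have h : (⟨BJ.x, BJ.x_mem_Ow hNk⟩ * ⟨By.x, By.x_mem_Ow hNk⟩ ^ a : Ow A π N hNk) =
      ⟨Polynomial.aeval By.x (G.map A.subtype), By.aeval_map_mem_Ow hNk G⟩ := Subtype.ext hrel
  have h' := congrArg (redF A π N hπ hNk) h
  rw [map_mul, map_pow, By.redF_aeval_map hπ hNk G] at h'
  exact h'

theorem xt_ne_zero (B : BaseFn.Data A π N) : B.xt hπ hNk ≠ 0 :=
  fun h0 => B.transcendental_xt hπ hNk (h0 ▸ isAlgebraic_zero)

theorem coeff_zero_map_subtype_ne_zero (hG0 : π (G.coeff 0) ≠ 0) :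
    (G.map A.subtype).coeff 0 ≠ 0 := by
  rw [Polynomial.coeff_map]
  intro h
  apply hG0
  have : G.coeff 0 = 0 := Subtype.ext h
  rw [this, map_zero]

theorem coeff_zero_map_ne_zero (hG0 : π (G.coeff 0) ≠ 0) : (G.map π).coeff 0 ≠ 0 := by
  rw [Polynomial.coeff_map]
  exact hG0

include hsurj in
/-- **Multiplier trick in `Ow`, chart `y ≠ 0`**: `t ∈ B'_∞(y)` ⟹ `t · u ^ n ∈ B'_∞(J)`. -/
theorem exists_mul_u_mem_Binf (hd : 0 < G.natDegree) (hG0 : π (G.coeff 0) ≠ 0)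
    (hrel : BJ.x * By.x ^ a = Polynomial.aeval By.x (G.map A.subtype))
    (t : Ow A π N hNk)
    (ht : (t : ↥(laurentBaseChange L (modularFunctionFieldFull N))) ∈ Lift.Binf By hNk) :
    ∃ n₀ : ℕ, ∀ n, n₀ ≤ n →
      ((t * ((uUnit By hπ hNk G hG : (Ow A π N hNk)ˣ) : Ow A π N hNk) ^ n : Ow A π N hNk) :
        ↥(laurentBaseChange L (modularFunctionFieldFull N))) ∈ Lift.Binf BJ hNk := by
  have : FiniteDimensional ↥(L⟮By.x⟯) ↥(laurentBaseChange L (modularFunctionFieldFull N)) :=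
    By.finite_L hπ hsurj hNk
  have hd' : 0 < (G.map A.subtype).natDegree := by rwa [hG.natDegree_map A.subtype]
  obtain ⟨n₀, hn₀⟩ := exists_regular_mul_u By.x BJ.x (hG.map A.subtype) hd'
    (coeff_zero_map_subtype_ne_zero G hG0) hrel (BJ.x_ne_zero hπ hNk) (By.x_ne_zero hπ hNk)
    (t := (t : ↥(laurentBaseChange L (modularFunctionFieldFull N)))) ht.2
  refine ⟨n₀, fun n hn => ⟨(t * _ ^ n : Ow A π N hNk).2, fun P hP => ?_⟩⟩
  have h := hn₀ n hn P hP
  rwa [← coe_uUnit By hπ hNk G hG] at h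

include hsurj in
/-- **Multiplier trick in `Ow`, chart `y ≠ ∞`**: `t` regular where `y` is ⟹
`t · w ^ n ∈ B'_∞(J)`. -/
theorem exists_mul_w_mem_Binf (hd : 0 < G.natDegree) (hG0 : π (G.coeff 0) ≠ 0)
    (hrel : BJ.x * By.x ^ a = Polynomial.aeval By.x (G.map A.subtype))
    (t : Ow A π N hNk)
    (ht : ∀ P : Place L ↥(laurentBaseChange L (modularFunctionFieldFull N)),
      0 ≤ P.ord By.x → 0 ≤ P.ord (t : ↥(laurentBaseChange L (modularFunctionFieldFull N)))) :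
    ∃ n₀ : ℕ, ∀ n, n₀ ≤ n →
      ((t * ((wUnit By hπ hNk G hG : (Ow A π N hNk)ˣ) : Ow A π N hNk) ^ n : Ow A π N hNk) :
        ↥(laurentBaseChange L (modularFunctionFieldFull N))) ∈ Lift.Binf BJ hNk := by
  have : FiniteDimensional ↥(L⟮By.x⟯) ↥(laurentBaseChange L (modularFunctionFieldFull N)) :=
    By.finite_L hπ hsurj hNk
  have hd' : 0 < (G.map A.subtype).natDegree := by rwa [hG.natDegree_map A.subtype]
  obtain ⟨n₀, hn₀⟩ := exists_regular_mul_w By.x BJ.x (hG.map A.subtype) hd'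
    (coeff_zero_map_subtype_ne_zero G hG0) hrel (BJ.x_ne_zero hπ hNk) (By.x_ne_zero hπ hNk)
    (t := (t : ↥(laurentBaseChange L (modularFunctionFieldFull N)))) ht
  refine ⟨n₀, fun n hn => ⟨(t * _ ^ n : Ow A π N hNk).2, fun P hP => ?_⟩⟩
  have h := hn₀ n hn P hP
  rwa [← coe_wUnit By hπ hNk G hG] at h

/-- On the chart `J̄ ≠ 0`, where `ȳ ≠ 0`, the reduction of `u` is a unit. -/
theorem ord_redF_uUnit_eq_zero
    (hrel : BJ.x * By.x ^ a = Polynomial.aeval By.x (G.map A.subtype))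
    (Q : Place k ↥(modularFunctionFieldFullC k N)) (hQ : Q.ord (BJ.xt hπ hNk) ≤ 0)
    (hy : Q.ord (By.xt hπ hNk) ≤ 0) :
    Q.ord (redF A π N hπ hNk
      ((uUnit By hπ hNk G hG : (Ow A π N hNk)ˣ) : Ow A π N hNk)) = 0 := by
  rw [redF_uUnit]
  exact ord_u_eq_zero Q (hG.map π) (rel_xt By BJ hπ hNk G a hrel) (xt_ne_zero hπ hNk BJ)
    (xt_ne_zero hπ hNk By) hy hQ

/-- On the chart `J̄ ≠ 0`, where `ȳ ≠ ∞`, the reduction of `w` is a unit. -/
theorem ord_redF_wUnit_eq_zero (hG0 : π (G.coeff 0) ≠ 0)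
    (hrel : BJ.x * By.x ^ a = Polynomial.aeval By.x (G.map A.subtype))
    (Q : Place k ↥(modularFunctionFieldFullC k N)) (hQ : Q.ord (BJ.xt hπ hNk) ≤ 0)
    (hy : 0 ≤ Q.ord (By.xt hπ hNk)) :
    Q.ord (redF A π N hπ hNk
      ((wUnit By hπ hNk G hG : (Ow A π N hNk)ˣ) : Ow A π N hNk)) = 0 := by
  rw [redF_wUnit]
  exact ord_w_eq_zero Q (coeff_zero_map_ne_zero G hG0) (rel_xt By BJ hπ hNk G a hrel)
    (xt_ne_zero hπ hNk BJ) (xt_ne_zero hπ hNk By) hy hQ

theorem ord_mul_pow_unit (Q : Place k ↥(modularFunctionFieldFullC k N)) (b : Ow A π N hNk)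
    (U : (Ow A π N hNk)ˣ) (n : ℕ) (hb : redF A π N hπ hNk b ≠ 0) :
    Q.ord (redF A π N hπ hNk (b * (U : Ow A π N hNk) ^ n)) =
      Q.ord (redF A π N hπ hNk b) + n * Q.ord (redF A π N hπ hNk (U : Ow A π N hNk)) := by
  rw [map_mul, map_pow, Q.ord_mul hb (pow_ne_zero _ (redF_unit_ne_zero hπ hNk U)),
    CuspX.ord_pow_nat]

include hsurj hG in
/-- **(R2)  Fractions at infinity for `J`** (conclusion of `Lift.lift_frac_inf` for `BJ`):
for a place `Q` of the special fibre with `J̄(Q) ≠ 0`, every `c ∈ V_Q` is `redF a / redF b`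
with `a, b ∈ B'_∞(J)`, `redF b` a unit at `Q`. -/
theorem lift_frac_inf_of_rel [IsAlgClosed k] (hd : 0 < G.natDegree) (hG0 : π (G.coeff 0) ≠ 0)
    (hrel : BJ.x * By.x ^ a = Polynomial.aeval By.x (G.map A.subtype))
    (h3 : Lift.T3 By hπ hNk) (h3' : Lift.T3' By hπ hNk)
    (Q : Place k ↥(modularFunctionFieldFullC k N)) (hQ : Q.ord (BJ.xt hπ hNk) ≤ 0)
    {c : ↥(modularFunctionFieldFullC k N)} (hc : 0 ≤ Q.ord c) :
    ∃ a' b : Ow A π N hNk,
      (a' : ↥(laurentBaseChange L (modularFunctionFieldFull N))) ∈ Lift.Binf BJ hNk ∧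
      (b : ↥(laurentBaseChange L (modularFunctionFieldFull N))) ∈ Lift.Binf BJ hNk ∧
      Q.ord (redF A π N hπ hNk b) = 0 ∧ redF A π N hπ hNk b ≠ 0 ∧
      redF A π N hπ hNk a' = c * redF A π N hπ hNk b := by
  rcases le_or_gt (Q.ord (By.xt hπ hNk)) 0 with hy | hy
  · obtain ⟨a₁, b₁, ha₁, hb₁, hQb, hb0, hab⟩ :=
      Lift.lift_frac_inf By hπ hsurj hNk h3' Q hy hc
    obtain ⟨n₁, hn₁⟩ := exists_mul_u_mem_Binf By BJ hπ hsurj hNk G hG a hd hG0 hrel a₁ ha₁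
    obtain ⟨n₂, hn₂⟩ := exists_mul_u_mem_Binf By BJ hπ hsurj hNk G hG a hd hG0 hrel b₁ hb₁
    refine ⟨a₁ * ((uUnit By hπ hNk G hG : (Ow A π N hNk)ˣ) : Ow A π N hNk) ^ max n₁ n₂,
      b₁ * ((uUnit By hπ hNk G hG : (Ow A π N hNk)ˣ) : Ow A π N hNk) ^ max n₁ n₂,
      hn₁ _ (le_max_left _ _), hn₂ _ (le_max_right _ _), ?_, ?_, ?_⟩
    · rw [ord_mul_pow_unit hπ hNk Q b₁ _ _ hb0, hQb,
        ord_redF_uUnit_eq_zero By BJ hπ hNk G hG a hrel Q hQ hy, mul_zero, add_zero]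
    · rw [map_mul, map_pow]
      exact mul_ne_zero hb0 (pow_ne_zero _ (redF_unit_ne_zero hπ hNk _))
    · rw [map_mul, map_mul, hab, mul_assoc]
  · obtain ⟨a₁, b₁, ha₁, hb₁, hQb, hb0, hab⟩ :=
      Lift.lift_frac By hπ hsurj hNk h3 Q hy.le hc
    obtain ⟨n₁, hn₁⟩ := exists_mul_w_mem_Binf By BJ hπ hsurj hNk G hG a hd hG0 hrel a₁
      ((Lift.isIntegral_AX_iff_place By hπ hsurj hNk).1 ha₁).2
    obtain ⟨n₂, hn₂⟩ := exists_mul_w_mem_Binf By BJ hπ hsurj hNk G hG a hd hG0 hrel b₁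
      ((Lift.isIntegral_AX_iff_place By hπ hsurj hNk).1 hb₁).2
    refine ⟨a₁ * ((wUnit By hπ hNk G hG : (Ow A π N hNk)ˣ) : Ow A π N hNk) ^ max n₁ n₂,
      b₁ * ((wUnit By hπ hNk G hG : (Ow A π N hNk)ˣ) : Ow A π N hNk) ^ max n₁ n₂,
      hn₁ _ (le_max_left _ _), hn₂ _ (le_max_right _ _), ?_, ?_, ?_⟩
    · rw [ord_mul_pow_unit hπ hNk Q b₁ _ _ hb0, hQb,
        ord_redF_wUnit_eq_zero By BJ hπ hNk G hG a hG0 hrel Q hQ hy.le, mul_zero, add_zero]
    · rw [map_mul, map_pow]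
      exact mul_ne_zero hb0 (pow_ne_zero _ (redF_unit_ne_zero hπ hNk _))
    · rw [map_mul, map_mul, hab, mul_assoc]

include hsurj hG in
/-- **(R3)  Separation at infinity for `J`** (conclusion of `Lift.lift_sep_inf` for `BJ`). -/
theorem lift_sep_inf_of_rel [IsAlgClosed k] (hd : 0 < G.natDegree) (hG0 : π (G.coeff 0) ≠ 0)
    (hrel : BJ.x * By.x ^ a = Polynomial.aeval By.x (G.map A.subtype))
    (h3 : Lift.T3 By hπ hNk) (h3' : Lift.T3' By hπ hNk)
    {Q Q' : Place k ↥(modularFunctionFieldFullC k N)} (hQ : Q.ord (BJ.xt hπ hNk) ≤ 0)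
    (hQ' : Q'.ord (BJ.xt hπ hNk) ≤ 0) (hne : Q ≠ Q') :
    ∃ y : Ow A π N hNk,
      (y : ↥(laurentBaseChange L (modularFunctionFieldFull N))) ∈ Lift.Binf BJ hNk ∧
      0 < Q.ord (redF A π N hπ hNk y) ∧ Q'.ord (redF A π N hπ hNk y) = 0 := by
  have hd' : (1 : ℤ) ≤ (G.map π).natDegree := by
    rw [hG.natDegree_map π]
    exact_mod_cast hd
  by_cases hy : Q.ord (By.xt hπ hNk) ≤ 0
  · by_cases hy' : Q'.ord (By.xt hπ hNk) ≤ 0
    · -- both in the chart `ȳ ≠ 0`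
      obtain ⟨t, ht, h1, h2⟩ := Lift.lift_sep_inf By hπ hsurj hNk h3' hy hy' hne
      obtain ⟨n, hn⟩ := exists_mul_u_mem_Binf By BJ hπ hsurj hNk G hG a hd hG0 hrel t ht
      have ht0 : redF A π N hπ hNk t ≠ 0 := by
        intro h0
        rw [h0, Place.ord_zero] at h1
        exact lt_irrefl _ h1
      refine ⟨t * ((uUnit By hπ hNk G hG : (Ow A π N hNk)ˣ) : Ow A π N hNk) ^ n,
        hn n le_rfl, ?_, ?_⟩
      · rw [ord_mul_pow_unit hπ hNk Q t _ _ ht0,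
          ord_redF_uUnit_eq_zero By BJ hπ hNk G hG a hrel Q hQ hy, mul_zero, add_zero]
        exact h1
      · rw [ord_mul_pow_unit hπ hNk Q' t _ _ ht0,
          ord_redF_uUnit_eq_zero By BJ hπ hNk G hG a hrel Q' hQ' hy', mul_zero, add_zero]
        exact h2
    · -- `ȳ(Q) ≠ 0`, `ȳ(Q') = 0`
      rw [not_le] at hy'
      by_cases hy0 : 0 ≤ Q.ord (By.xt hπ hNk)
      · -- both in the chart `ȳ ≠ ∞`
        obtain ⟨t, ht, h1, h2⟩ := Lift.lift_sep By hπ hsurj hNk h3 hy0 hy'.le hne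
        obtain ⟨n, hn⟩ := exists_mul_w_mem_Binf By BJ hπ hsurj hNk G hG a hd hG0 hrel t
          ((Lift.isIntegral_AX_iff_place By hπ hsurj hNk).1 ht).2
        have ht0 : redF A π N hπ hNk t ≠ 0 := by
          intro h0
          rw [h0, Place.ord_zero] at h1
          exact lt_irrefl _ h1
        refine ⟨t * ((wUnit By hπ hNk G hG : (Ow A π N hNk)ˣ) : Ow A π N hNk) ^ n,
          hn n le_rfl, ?_, ?_⟩
        · rw [ord_mul_pow_unit hπ hNk Q t _ _ ht0,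
            ord_redF_wUnit_eq_zero By BJ hπ hNk G hG a hG0 hrel Q hQ hy0, mul_zero, add_zero]
          exact h1
        · rw [ord_mul_pow_unit hπ hNk Q' t _ _ ht0,
            ord_redF_wUnit_eq_zero By BJ hπ hNk G hG a hG0 hrel Q' hQ' hy'.le, mul_zero,
            add_zero]
          exact h2
      · -- `ȳ(Q) = ∞`, `ȳ(Q') = 0`: the multiplier `w` itself
        rw [not_le] at hy0
        obtain ⟨n, hn⟩ := exists_mul_w_mem_Binf By BJ hπ hsurj hNk G hG a hd hG0 hrel 1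
          (fun P _ => by rw [OneMemClass.coe_one, Place.ord_one])
        refine ⟨1 * ((wUnit By hπ hNk G hG : (Ow A π N hNk)ˣ) : Ow A π N hNk) ^ (n + 1),
          hn (n + 1) (Nat.le_succ n), ?_, ?_⟩
        · rw [one_mul, map_pow, CuspX.ord_pow_nat, redF_wUnit,
            ord_w_of_neg Q (hG.map π) hy0]
          have h4 : 0 < -(((G.map π).natDegree : ℤ) * Q.ord (By.xt hπ hNk)) := by nlinarith
          have h5 : (0 : ℤ) < ((n + 1 : ℕ) : ℤ) := by exact_mod_cast Nat.succ_pos n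
          exact mul_pos h5 h4
        · rw [one_mul, map_pow, CuspX.ord_pow_nat,
            ord_redF_wUnit_eq_zero By BJ hπ hNk G hG a hG0 hrel Q' hQ' hy'.le, mul_zero]
  · -- `ȳ(Q) = 0`
    rw [not_le] at hy
    by_cases hy' : 0 ≤ Q'.ord (By.xt hπ hNk)
    · -- both in the chart `ȳ ≠ ∞`
      obtain ⟨t, ht, h1, h2⟩ := Lift.lift_sep By hπ hsurj hNk h3 hy.le hy' hne
      obtain ⟨n, hn⟩ := exists_mul_w_mem_Binf By BJ hπ hsurj hNk G hG a hd hG0 hrel t
        ((Lift.isIntegral_AX_iff_place By hπ hsurj hNk).1 ht).2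
      have ht0 : redF A π N hπ hNk t ≠ 0 := by
        intro h0
        rw [h0, Place.ord_zero] at h1
        exact lt_irrefl _ h1
      refine ⟨t * ((wUnit By hπ hNk G hG : (Ow A π N hNk)ˣ) : Ow A π N hNk) ^ n,
        hn n le_rfl, ?_, ?_⟩
      · rw [ord_mul_pow_unit hπ hNk Q t _ _ ht0,
          ord_redF_wUnit_eq_zero By BJ hπ hNk G hG a hG0 hrel Q hQ hy.le, mul_zero, add_zero]
        exact h1
      · rw [ord_mul_pow_unit hπ hNk Q' t _ _ ht0,
          ord_redF_wUnit_eq_zero By BJ hπ hNk G hG a hG0 hrel Q' hQ' hy', mul_zero, add_zero]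
        exact h2
    · -- `ȳ(Q) = 0`, `ȳ(Q') = ∞`: the multiplier `u` itself
      rw [not_le] at hy'
      obtain ⟨n, hn⟩ := exists_mul_u_mem_Binf By BJ hπ hsurj hNk G hG a hd hG0 hrel 1
        ⟨(1 : Ow A π N hNk).2, fun P _ => by rw [OneMemClass.coe_one, Place.ord_one]⟩
      refine ⟨1 * ((uUnit By hπ hNk G hG : (Ow A π N hNk)ˣ) : Ow A π N hNk) ^ (n + 1),
        hn (n + 1) (Nat.le_succ n), ?_, ?_⟩
      · rw [one_mul, map_pow, CuspX.ord_pow_nat, redF_uUnit,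
          ord_u_of_pos Q (coeff_zero_map_ne_zero G hG0) hy]
        have h4 : 0 < ((G.map π).natDegree : ℤ) * Q.ord (By.xt hπ hNk) :=
          mul_pos (by linarith) hy
        have h5 : (0 : ℤ) < ((n + 1 : ℕ) : ℤ) := by exact_mod_cast Nat.succ_pos n
        exact mul_pos h5 h4
      · rw [one_mul, map_pow, CuspX.ord_pow_nat,
          ord_redF_uUnit_eq_zero By BJ hπ hNk G hG a hrel Q' hQ' hy'.le, mul_zero]

include hsurj hG in
/-- **(R1)  The literal `Lift.T3` for `J`** from `Lift.T3` for `y` (`0 < a < deg G`):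
`s` regular where `J̄` is ⟹ `ȳ ^ n · s` regular where `ȳ` is; lift it and divide by `y ^ n`. -/
theorem T3_of_rel (hG0 : π (G.coeff 0) ≠ 0) (ha : 0 < a) (had : a < G.natDegree)
    (hrel : BJ.x * By.x ^ a = Polynomial.aeval By.x (G.map A.subtype))
    (h3 : Lift.T3 By hπ hNk) : Lift.T3 BJ hπ hNk := by
  intro s hs
  have hrelb := rel_xt By BJ hπ hNk G a hrel
  have hyb0 := xt_ne_zero hπ hNk By
  -- `s` is integral over `k[J̄] ⊆ k[ȳ, ȳ⁻¹]`
  have h1 : IsIntegral ↥(Algebra.adjoin k {BJ.xt hπ hNk}) s :=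
    (Lift.isIntegral_xt_iff_place BJ hπ hsurj hNk).2 hs
  have hle : Algebra.adjoin k {BJ.xt hπ hNk} ≤
      Algebra.adjoin k {By.xt hπ hNk, (By.xt hπ hNk)⁻¹} := by
    refine Algebra.adjoin_le ?_
    intro z hz
    rw [Set.mem_singleton_iff] at hz
    have hJ : BJ.xt hπ hNk =
        Polynomial.aeval (By.xt hπ hNk) (G.map π) * (By.xt hπ hNk)⁻¹ ^ a := by
      rw [← hrelb, mul_assoc, ← mul_pow, mul_inv_cancel₀ hyb0, one_pow, mul_one]
    rw [hz, hJ]
    refine mul_mem ?_ (pow_mem (Algebra.subset_adjoin (by simp)) a)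
    exact (Algebra.adjoin_mono (by simp) :
      Algebra.adjoin k {By.xt hπ hNk} ≤ Algebra.adjoin k {By.xt hπ hNk, (By.xt hπ hNk)⁻¹})
      (Polynomial.aeval_mem_adjoin_singleton k _)
  obtain ⟨n, hn⟩ := Charts.exists_pow_mul_isIntegral hyb0
    (Charts.isIntegral_of_subalgebra_le hle h1)
  obtain ⟨g, hg, hgreg⟩ := h3 _ ((Lift.isIntegral_xt_iff_place By hπ hsurj hNk).1 hn)
  refine ⟨(((By.xUnit hπ hNk)⁻¹ ^ n : (Ow A π N hNk)ˣ) : Ow A π N hNk) * g, ?_, ?_⟩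
  · rw [map_mul, hg, Units.val_pow_eq_pow_val, map_pow, map_units_inv]
    have hx : redF A π N hπ hNk ((By.xUnit hπ hNk : (Ow A π N hNk)ˣ) : Ow A π N hNk) =
        By.xt hπ hNk := rfl
    rw [hx, ← mul_assoc, ← mul_pow, inv_mul_cancel₀ hyb0, one_pow, one_mul]
  · intro P hP
    have hy : P.ord By.x = 0 := by
      have had' : a < (G.map A.subtype).natDegree := by rwa [hG.natDegree_map A.subtype]
      exact ord_eq_zero_of_rel P (hG.map A.subtype) (coeff_zero_map_subtype_ne_zero G hG0) ha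
        had' hrel (BJ.x_ne_zero hπ hNk) (By.x_ne_zero hπ hNk) hP
    rw [← mem_iff_ord_nonneg]
    have hgP : (g : ↥(laurentBaseChange L (modularFunctionFieldFull N))) ∈
        P.toValuationSubring := (mem_iff_ord_nonneg P).2 (hgreg P hy.ge)
    have hyP : (By.x)⁻¹ ∈ P.toValuationSubring := by
      rw [mem_iff_ord_nonneg, P.ord_inv, hy, neg_zero]
    have hc : (((((By.xUnit hπ hNk)⁻¹ ^ n : (Ow A π N hNk)ˣ) : Ow A π N hNk) * g :
        Ow A π N hNk) : ↥(laurentBaseChange L (modularFunctionFieldFull N))) =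
        (By.x)⁻¹ ^ n * (g : ↥(laurentBaseChange L (modularFunctionFieldFull N))) := by
      rw [MulMemClass.coe_mul, Units.val_pow_eq_pow_val, SubmonoidClass.coe_pow, coe_units_inv,
        BaseFn.Data.coe_xUnit]
    rw [hc]
    exact mul_mem (pow_mem hyP n) hgP

end Concrete

/-! ### The Hauptmodul bases of levels `2` and `3` -/

section Haupt

variable {L : Type*} [Field L] [Algebra ℚ L] (A : ValuationSubring L) {k : Type} [Field k]
  (π : A →+* k)

/-- `(X + 256)³`: the level `2` relation is `J · y² = (y + 256)³`. -/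
def G2 : Polynomial A := (Polynomial.X + Polynomial.C 256) ^ 3

/-- `(X + 27)(X + 243)³`: the level `3` relation is `J · y³ = (y + 27)(y + 243)³`. -/
def G3 : Polynomial A := (Polynomial.X + Polynomial.C 27) * (Polynomial.X + Polynomial.C 243) ^ 3

theorem G2_monic : (G2 A).Monic := (monic_X_add_C _).pow 3

theorem G3_monic : (G3 A).Monic := (monic_X_add_C _).mul ((monic_X_add_C _).pow 3)

theorem G2_natDegree : (G2 A).natDegree = 3 := by
  rw [G2, natDegree_pow, natDegree_X_add_C]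

theorem G3_natDegree : (G3 A).natDegree = 4 := by
  rw [G3, Monic.natDegree_mul (monic_X_add_C _) ((monic_X_add_C _).pow 3), natDegree_pow,
    natDegree_X_add_C, natDegree_X_add_C]

variable {A π}

theorem G2_coeff_zero_ne (h2 : (2 : k) ≠ 0) : π ((G2 A).coeff 0) ≠ 0 := by
  rw [G2, coeff_zero_eq_eval_zero, eval_pow, eval_add, eval_X, eval_C, zero_add, map_pow,
    map_ofNat]
  have h : (256 : k) ^ 3 = 2 ^ 24 := by norm_num
  rw [h]
  exact pow_ne_zero _ h2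

theorem G3_coeff_zero_ne (h3 : (3 : k) ≠ 0) : π ((G3 A).coeff 0) ≠ 0 := by
  rw [G3, coeff_zero_eq_eval_zero, eval_mul, eval_pow, eval_add, eval_add, eval_X, eval_C,
    eval_C, zero_add, zero_add, map_mul, map_pow, map_ofNat, map_ofNat]
  have h : (27 : k) * 243 ^ 3 = 3 ^ 18 := by norm_num
  rw [h]
  exact pow_ne_zero _ h3

/-- The level `2` relation in the shape of `T3_of_rel`. -/
theorem rel_haupt2 (M m : ℕ) [NeZero M] [NeZero m] (hM : M = m * 2) (h2 : (2 : k) ≠ 0) :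
    (BaseFn.Data.ofJ A π M).x * (BaseFn.ofHaupt2 A π M m hM h2).x ^ 2 =
      Polynomial.aeval (BaseFn.ofHaupt2 A π M m hM h2).x ((G2 A).map A.subtype) := by
  rw [BaseFn.Data.ofJ_x, BaseFn.ofHaupt2_rel M m hM h2, G2, Polynomial.map_pow,
    Polynomial.map_add, Polynomial.map_X, Polynomial.map_C, Polynomial.aeval_def,
    Polynomial.eval₂_pow, Polynomial.eval₂_add, Polynomial.eval₂_X, Polynomial.eval₂_C,
    map_ofNat A.subtype, map_ofNat (algebraMap L _)]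

/-- The level `3` relation in the shape of `T3_of_rel`. -/
theorem rel_haupt3 (M m : ℕ) [NeZero M] [NeZero m] (hM : M = m * 3) (h3 : (3 : k) ≠ 0) :
    (BaseFn.Data.ofJ A π M).x * (BaseFn.ofHaupt3 A π M m hM h3).x ^ 3 =
      Polynomial.aeval (BaseFn.ofHaupt3 A π M m hM h3).x ((G3 A).map A.subtype) := by
  rw [BaseFn.Data.ofJ_x, BaseFn.ofHaupt3_rel M m hM h3, G3, Polynomial.map_mul,
    Polynomial.map_pow, Polynomial.map_add, Polynomial.map_add, Polynomial.map_X,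
    Polynomial.map_C, Polynomial.map_C, Polynomial.aeval_def, Polynomial.eval₂_mul,
    Polynomial.eval₂_pow, Polynomial.eval₂_add, Polynomial.eval₂_add, Polynomial.eval₂_X,
    Polynomial.eval₂_C, Polynomial.eval₂_C, map_ofNat A.subtype, map_ofNat A.subtype,
    map_ofNat (algebraMap L _), map_ofNat (algebraMap L _)]

variable (hπ : ∀ a : A, ¬ IsUnit a → π a = 0) (hsurj : Function.Surjective π)
  (M m : ℕ) [NeZero M] [NeZero m] (hMk : (M : k) ≠ 0)

include hsurj in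
/-- **`Lift.T3` for `J`, residue characteristic `≠ 2`, level `M = m * 2`.** -/
theorem T3_ofJ_of_haupt2 (hM : M = m * 2) (h2 : (2 : k) ≠ 0)
    (h : Lift.T3 (BaseFn.ofHaupt2 A π M m hM h2) hπ hMk) :
    Lift.T3 (BaseFn.Data.ofJ A π M) hπ hMk :=
  T3_of_rel (BaseFn.ofHaupt2 A π M m hM h2) (BaseFn.Data.ofJ A π M) hπ hsurj hMk (G2 A)
    (G2_monic A) 2 (G2_coeff_zero_ne h2) two_pos (by rw [G2_natDegree]; norm_num)
    (rel_haupt2 M m hM h2) h

include hsurj in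
/-- **`Lift.T3` for `J`, residue characteristic `≠ 3`, level `M = m * 3`.** -/
theorem T3_ofJ_of_haupt3 (hM : M = m * 3) (h3 : (3 : k) ≠ 0)
    (h : Lift.T3 (BaseFn.ofHaupt3 A π M m hM h3) hπ hMk) :
    Lift.T3 (BaseFn.Data.ofJ A π M) hπ hMk :=
  T3_of_rel (BaseFn.ofHaupt3 A π M m hM h3) (BaseFn.Data.ofJ A π M) hπ hsurj hMk (G3 A)
    (G3_monic A) 3 (G3_coeff_zero_ne h3) three_pos (by rw [G3_natDegree]; norm_num)
    (rel_haupt3 M m hM h3) h

include hsurj in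
/-- **Fractions at infinity for `J`, level `M = m * 2`** (shape of `Lift.lift_frac_inf`). -/
theorem lift_frac_inf_ofJ_of_haupt2 [IsAlgClosed k] (hM : M = m * 2) (h2 : (2 : k) ≠ 0)
    (h : Lift.T3 (BaseFn.ofHaupt2 A π M m hM h2) hπ hMk)
    (h' : Lift.T3' (BaseFn.ofHaupt2 A π M m hM h2) hπ hMk)
    (Q : Place k ↥(modularFunctionFieldFullC k M))
    (hQ : Q.ord ((BaseFn.Data.ofJ A π M).xt hπ hMk) ≤ 0)
    {c : ↥(modularFunctionFieldFullC k M)} (hc : 0 ≤ Q.ord c) :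
    ∃ a b : Ow A π M hMk,
      (a : ↥(laurentBaseChange L (modularFunctionFieldFull M))) ∈
        Lift.Binf (BaseFn.Data.ofJ A π M) hMk ∧
      (b : ↥(laurentBaseChange L (modularFunctionFieldFull M))) ∈
        Lift.Binf (BaseFn.Data.ofJ A π M) hMk ∧
      Q.ord (redF A π M hπ hMk b) = 0 ∧ redF A π M hπ hMk b ≠ 0 ∧
      redF A π M hπ hMk a = c * redF A π M hπ hMk b :=
  lift_frac_inf_of_rel (BaseFn.ofHaupt2 A π M m hM h2) (BaseFn.Data.ofJ A π M) hπ hsurj hMk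
    (G2 A) (G2_monic A) 2 (by rw [G2_natDegree]; norm_num) (G2_coeff_zero_ne h2)
    (rel_haupt2 M m hM h2) h h' Q hQ hc

include hsurj in
/-- **Fractions at infinity for `J`, level `M = m * 3`** (shape of `Lift.lift_frac_inf`). -/
theorem lift_frac_inf_ofJ_of_haupt3 [IsAlgClosed k] (hM : M = m * 3) (h3 : (3 : k) ≠ 0)
    (h : Lift.T3 (BaseFn.ofHaupt3 A π M m hM h3) hπ hMk)
    (h' : Lift.T3' (BaseFn.ofHaupt3 A π M m hM h3) hπ hMk)
    (Q : Place k ↥(modularFunctionFieldFullC k M))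
    (hQ : Q.ord ((BaseFn.Data.ofJ A π M).xt hπ hMk) ≤ 0)
    {c : ↥(modularFunctionFieldFullC k M)} (hc : 0 ≤ Q.ord c) :
    ∃ a b : Ow A π M hMk,
      (a : ↥(laurentBaseChange L (modularFunctionFieldFull M))) ∈
        Lift.Binf (BaseFn.Data.ofJ A π M) hMk ∧
      (b : ↥(laurentBaseChange L (modularFunctionFieldFull M))) ∈
        Lift.Binf (BaseFn.Data.ofJ A π M) hMk ∧
      Q.ord (redF A π M hπ hMk b) = 0 ∧ redF A π M hπ hMk b ≠ 0 ∧
      redF A π M hπ hMk a = c * redF A π M hπ hMk b :=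
  lift_frac_inf_of_rel (BaseFn.ofHaupt3 A π M m hM h3) (BaseFn.Data.ofJ A π M) hπ hsurj hMk
    (G3 A) (G3_monic A) 3 (by rw [G3_natDegree]; norm_num) (G3_coeff_zero_ne h3)
    (rel_haupt3 M m hM h3) h h' Q hQ hc

include hsurj in
/-- **Separation at infinity for `J`, level `M = m * 2`** (shape of `Lift.lift_sep_inf`). -/
theorem lift_sep_inf_ofJ_of_haupt2 [IsAlgClosed k] (hM : M = m * 2) (h2 : (2 : k) ≠ 0)
    (h : Lift.T3 (BaseFn.ofHaupt2 A π M m hM h2) hπ hMk)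
    (h' : Lift.T3' (BaseFn.ofHaupt2 A π M m hM h2) hπ hMk)
    {Q Q' : Place k ↥(modularFunctionFieldFullC k M)}
    (hQ : Q.ord ((BaseFn.Data.ofJ A π M).xt hπ hMk) ≤ 0)
    (hQ' : Q'.ord ((BaseFn.Data.ofJ A π M).xt hπ hMk) ≤ 0) (hne : Q ≠ Q') :
    ∃ y : Ow A π M hMk,
      (y : ↥(laurentBaseChange L (modularFunctionFieldFull M))) ∈
        Lift.Binf (BaseFn.Data.ofJ A π M) hMk ∧
      0 < Q.ord (redF A π M hπ hMk y) ∧ Q'.ord (redF A π M hπ hMk y) = 0 :=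
  lift_sep_inf_of_rel (BaseFn.ofHaupt2 A π M m hM h2) (BaseFn.Data.ofJ A π M) hπ hsurj hMk
    (G2 A) (G2_monic A) 2 (by rw [G2_natDegree]; norm_num) (G2_coeff_zero_ne h2)
    (rel_haupt2 M m hM h2) h h' hQ hQ' hne

include hsurj in
/-- **Separation at infinity for `J`, level `M = m * 3`** (shape of `Lift.lift_sep_inf`). -/
theorem lift_sep_inf_ofJ_of_haupt3 [IsAlgClosed k] (hM : M = m * 3) (h3 : (3 : k) ≠ 0)
    (h : Lift.T3 (BaseFn.ofHaupt3 A π M m hM h3) hπ hMk)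
    (h' : Lift.T3' (BaseFn.ofHaupt3 A π M m hM h3) hπ hMk)
    {Q Q' : Place k ↥(modularFunctionFieldFullC k M)}
    (hQ : Q.ord ((BaseFn.Data.ofJ A π M).xt hπ hMk) ≤ 0)
    (hQ' : Q'.ord ((BaseFn.Data.ofJ A π M).xt hπ hMk) ≤ 0) (hne : Q ≠ Q') :
    ∃ y : Ow A π M hMk,
      (y : ↥(laurentBaseChange L (modularFunctionFieldFull M))) ∈
        Lift.Binf (BaseFn.Data.ofJ A π M) hMk ∧
      0 < Q.ord (redF A π M hπ hMk y) ∧ Q'.ord (redF A π M hπ hMk y) = 0 :=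
  lift_sep_inf_of_rel (BaseFn.ofHaupt3 A π M m hM h3) (BaseFn.Data.ofJ A π M) hπ hsurj hMk
    (G3 A) (G3_monic A) 3 (by rw [G3_natDegree]; norm_num) (G3_coeff_zero_ne h3)
    (rel_haupt3 M m hM h3) h h' hQ hQ' hne

end Haupt

end Fermat.Agent.CAR.Inst.LiftRel
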