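import Mathlib
import Fermat.Agent.CAR.Inst.Cusp
import Fermat.Agent.CAR.Inst.CuspInst
import Fermat.Agent.CAR.Inst.HMin3
import Fermat.Agent.CAR.Inst.ContractPull
import Fermat.Agent.CAR.Inst.ChartsCAR
import Fermat.Agent.CAR.Local.Inst.LiftCuspK0Closed
import Fermat.Agent.CAR.V3.MidKappa
import Fermat.Agent.CAR.V3.Count
import Fermat.Agent.CAR.Core.PointsCusp
import Fermat.Agent.CAR.Core.FrontK0

/-!
# CAR-34: the point packages at the cusps over `(K0, W0, resW0)` — the binder `hptR'`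

The closed form of the cusp half of the local theory for the chart at infinity
`R' = chart W0 (J_0 J_2)⁻¹` of `F3 = K0 · F_{M' q²}` and the three components
`![O_∞, O_mid, O_0]`:

* `red3` : the `κ`-valued residue maps of the three components (`redInf3`, `MidKappa.redMidK`,
  `redZero3`), `hred3` : their kernels;
* `v3BaseCusp_K0`, `v3Cusp_K0`, `exists_v3CuspMid_K0` : the three cusp records of
  `CAR/Local/InstCusp*.lean` for `R'`;
* `hptR'_K0` : LITERALLY the binder `hptR'` of `Core.newInertiaK0At_W0_of_points`.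

The only hypotheses left are `hw : IsAL3 M' q w` and the level conditions at `q ∈ {2, 3}`.
-/

set_option autoImplicit false
set_option linter.unusedSectionVars false

noncomputable section

namespace Fermat.Agent.CAR.Inst.CuspK0

open IsLocalRing ModularCurve Fermat.Agent.S28 Fermat.Agent.Lib.Red Fermat.Agent.CAR.V3
  Fermat.Agent.CAR.Glob Fermat.Agent.CAR.K0 Fermat.Agent.CAR.V3.MidRing
  Fermat.Agent.CAR.Glob.Charts Fermat.Agent.CAR.Local Fermat.Agent.CAR.Local.Inst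
  Fermat.Agent.CAR.Local.InstCusp Fermat.Agent.BAD.TwoVal Fermat.Agent.CAR.Core
  Fermat.Agent.CAR.V3.RestrictNF Fermat.Agent.ESJ.Jac

local notation "Qb" => AlgebraicClosure ℚ

set_option synthInstance.maxHeartbeats 400000
set_option maxHeartbeats 1600000

variable {q : ℕ} [NeZero q] (hq : q.Prime) (A : ValuationSubring Qb) (hA : A.LiesOverPrime q)
  {ζ : Qb} (hζ : IsPrimitiveRoot ζ q) (M' : ℕ) [NeZero M'] (hqM : ¬ q ∣ M')
  (w : laurentBaseChange ↥(K0 A) (modularFunctionFieldFull (M' * q * q)) ≃ₐ[↥(K0 A)]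
    laurentBaseChange ↥(K0 A) (modularFunctionFieldFull (M' * q * q)))

set_option quotPrecheck false in
/-- The function field `K0 · F_{M' q²}`. -/
local notation "F₃" => ↥(laurentBaseChange ↥(K0 A) (modularFunctionFieldFull (M' * q * q)))

set_option quotPrecheck false in
/-- The residue function field. -/
local notation "κ₃" => ↥(modularFunctionFieldFullC (IsLocalRing.ResidueField A) M')

set_option quotPrecheck false in
/-- The three components (the literal family of the trunk). -/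
local notation "O₃" =>
  (![OInf3 (badSetup_W0 hq hA M' hqM), OMid hq A hA hζ M' hqM (IsLocalRing.residue A),
    OZero3 (badSetup_W0 hq hA M' hqM) w] : Fin 3 → ValuationSubring
      ↥(laurentBaseChange ↥(K0 A) (modularFunctionFieldFull (M' * q * q))))

set_option quotPrecheck false in
/-- The chart function `x = J_0 J_2` (convention (B)). -/
local notation "x₃" =>
  (CuspQuot.J0 (q := q) ↥(K0 A) M' * CuspQuot.J2 (q := q) ↥(K0 A) M')

/-- **The `κ`-valued residue maps of the three components** `![O_∞, O_mid, O_0]`. -/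
def red3 : ∀ i : Fin 3, ↥(O₃ i) →+* κ₃
  | 0 => redInf3 (badSetup_W0 hq hA M' hqM)
  | 1 => MidKappa.redMidK hq A hA hζ M' hqM (Count.redMid_mem_fullC hq A hA hζ M' hqM)
  | 2 => redZero3 (badSetup_W0 hq hA M' hqM) w

/-- The kernel of `redInf3` is the maximal ideal. -/
theorem redInf3_eq_zero_iff_mem_maximalIdeal {L : Type} [Field L] [Algebra ℚ L]
    {A₀ : ValuationSubring L} {k : Type} [Field k] {π : A₀ →+* k} {M₀ q₀ : ℕ} [NeZero M₀]
    [NeZero q₀] (h : BadSetup A₀ π M₀ q₀) (z : ↥(OInf3 h)) :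
    redInf3 h z = 0 ↔ z ∈ maximalIdeal ↥(OInf3 h) := by
  rw [redInf3_eq_zero_iff, IsLocalRing.mem_maximalIdeal, mem_nonunits_iff]

/-- The kernel of `redZero3` is the maximal ideal. -/
theorem redZero3_eq_zero_iff_mem_maximalIdeal {L : Type} [Field L] [Algebra ℚ L]
    {A₀ : ValuationSubring L} {k : Type} [Field k] {π : A₀ →+* k} {M₀ q₀ : ℕ} [NeZero M₀]
    [NeZero q₀] (h : BadSetup A₀ π M₀ q₀)
    (w₀ : laurentBaseChange L (modularFunctionFieldFull (M₀ * q₀ * q₀)) ≃ₐ[L]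
      laurentBaseChange L (modularFunctionFieldFull (M₀ * q₀ * q₀))) (z : ↥(OZero3 h w₀)) :
    redZero3 h w₀ z = 0 ↔ z ∈ maximalIdeal ↥(OZero3 h w₀) := by
  rw [redZero3_eq_zero_iff, IsLocalRing.mem_maximalIdeal, mem_nonunits_iff]

/-- The kernels of the three residue maps are the maximal ideals. -/
theorem hred3 : ∀ i, ∀ z : ↥(O₃ i),
    red3 hq A hA hζ M' hqM w i z = 0 ↔ z ∈ maximalIdeal ↥(O₃ i) := by
  intro i
  fin_cases i
  · exact fun z => redInf3_eq_zero_iff_mem_maximalIdeal (badSetup_W0 hq hA M' hqM) z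
  · exact fun z => MidKappa.redMidK_eq_zero_iff_mem_maximalIdeal hq A hA hζ M' hqM _ z
  · exact fun z => redZero3_eq_zero_iff_mem_maximalIdeal (badSetup_W0 hq hA M' hqM) w z

variable {w}

section Records

variable [Algebra ↥(W0 A) ↥(laurentBaseChange ↥(K0 A) (modularFunctionFieldFull (M' * q * q)))]
  [IsScalarTower ↥(W0 A) ↥(K0 A)
    ↥(laurentBaseChange ↥(K0 A) (modularFunctionFieldFull (M' * q * q)))]

/-- **The base record at the cusps** for `R' = chart W0 (J_0 J_2)⁻¹` and `![O_∞, O_mid, O_0]`,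
`q₀ = q`, `yb = 1/x̄`. -/
theorem v3BaseCusp_K0 (hw : IsAL3 M' q w) (h2 : q = 2 → 3 ∣ M') (h3 : q = 3 → 2 ∣ M') :
    V3BaseCusp O₃ (red3 hq A hA hζ M' hqM w) (hred3 hq A hA hζ M' hqM w)
      (fun i (a : chart ↥(W0 A) (x₃)⁻¹) => HMin3.hRV3_inv hq A hA hζ M' hqM hw i a a.2)
      (algebraMap ↥(W0 A) (chart ↥(W0 A) (x₃)⁻¹) ((q : ℕ) : ↥(W0 A)))
      (xk (IsLocalRing.ResidueField A) M')⁻¹ := by
  refine Cusp.v3BaseCusp_chart ↥(K0 A) (M' * q * q) ((q : ℕ) : ↥(W0 A))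
    (ChartsCAR.natCast_W0_ne_zero A hq) x₃ O₃ (red3 hq A hA hζ M' hqM w)
    (hred3 hq A hA hζ M' hqM w) (HMin3.hRV3_inv hq A hA hζ M' hqM hw)
    (xk (IsLocalRing.ResidueField A) M')⁻¹ (HMin3.hqV3 hq A hA hζ M' hqM hw)
    (HMin3.hmin3_inv hq A hA hζ M' hqM hw _) (HMin3.not_max3_inv hq A hA hζ M' hqM hw _)
    ?_ ?_ ?_
  · rw [map_natCast]
    exact Pull.unif_inf (badSetup_W0 hq hA M' hqM) (Restrict.isUnif_W0 hq hA)
  · rw [map_natCast]
    exact Pull.unif_zero (badSetup_W0 hq hA M' hqM) w (Restrict.isUnif_W0 hq hA)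
  · exact LiftCuspK0.hlift_chart_K0 hq A hA M' hζ hqM (badSetup_W0 hq hA M' hqM) hw h2 h3
      O₃ (red3 hq A hA hζ M' hqM w)
      (fun i (a : chart ↥(W0 A) (x₃)⁻¹) => HMin3.hRV3_inv hq A hA hζ M' hqM hw i a a.2)
      (fun _ _ _ => rfl) (fun _ _ _ => rfl) (fun _ _ _ => rfl)

/-- **The cusp record `V3Cusp`** for `R' = chart W0 (J_0 J_2)⁻¹` and `![O_∞, O_mid, O_0]`. -/
theorem v3Cusp_K0 (hw : IsAL3 M' q w) :
    V3Cusp O₃ (red3 hq A hA hζ M' hqM w)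
      (fun i (a : chart ↥(W0 A) (x₃)⁻¹) => HMin3.hRV3_inv hq A hA hζ M' hqM hw i a a.2)
      (⟨(x₃)⁻¹, self_mem_chart (x₃)⁻¹⟩ : chart ↥(W0 A) (x₃)⁻¹)
      (CuspInst.B.y₀B ↥(K0 A) M' ↥(W0 A) hq) (CuspInst.B.y₁B ↥(K0 A) M' ↥(W0 A) hq)
      (CuspInst.B.y₂B ↥(K0 A) M' ↥(W0 A) hq) (CuspInst.B.y₃B ↥(K0 A) M' ↥(W0 A) hq)
      (xk (IsLocalRing.ResidueField A) M')⁻¹ :=
  CuspInst.B.v3Cusp hq A hA hζ M' hqM (badSetup_W0 hq hA M' hqM) hw
    (MidKappa.redMidK hq A hA hζ M' hqM (Count.redMid_mem_fullC hq A hA hζ M' hqM))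
    (fun _ => rfl) (coe_xk (IsLocalRing.ResidueField A) M') ↥(W0 A) O₃
    (red3 hq A hA hζ M' hqM w)
    (fun i (a : chart ↥(W0 A) (x₃)⁻¹) => HMin3.hRV3_inv hq A hA hζ M' hqM hw i a a.2)
    rfl (fun _ _ _ => rfl) rfl (fun _ _ _ => rfl) rfl (fun _ _ _ => rfl)

/-- **The record `V3CuspMid`** for `R' = chart W0 (J_0 J_2)⁻¹` and `![O_∞, O_mid, O_0]`:
`e = 1 - J_0/J_2`, `m = q`, `(n, N) = (q - 1, 1)`. -/
theorem exists_v3CuspMid_K0 (hw : IsAL3 M' q w) :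
    ∃ g : κ₃,
      V3CuspMid O₃ (red3 hq A hA hζ M' hqM w)
        (fun i (a : chart ↥(W0 A) (x₃)⁻¹) => HMin3.hRV3_inv hq A hA hζ M' hqM hw i a a.2)
        (algebraMap ↥(W0 A) (chart ↥(W0 A) (x₃)⁻¹) ((q : ℕ) : ↥(W0 A)))
        (CuspInst.B.y₁B ↥(K0 A) M' ↥(W0 A) hq) (CuspInst.B.y₂B ↥(K0 A) M' ↥(W0 A) hq)
        (1 - CuspQuot.J0 (q := q) ↥(K0 A) M' / CuspQuot.J2 (q := q) ↥(K0 A) M')
        q (q - 1) 1 (xk (IsLocalRing.ResidueField A) M')⁻¹ g := by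
  have hconst : ∀ a : W0 A, ∃ b : ↥(W0 A), algebraMap ↥(W0 A) F₃ b =
      CK (inertiaField A) (M' * q * q) (a : K0 A) := by
    intro a
    refine ⟨a, ?_⟩
    rw [IsScalarTower.algebraMap_apply ↥(W0 A) ↥(K0 A) F₃]
    exact ChartsCAR.algebraMap_eq_CK A M' _
  have hqB : algebraMap ↥(chart ↥(W0 A) (x₃)⁻¹) F₃
      (algebraMap ↥(W0 A) (chart ↥(W0 A) (x₃)⁻¹) ((q : ℕ) : ↥(W0 A))) = ((q : ℕ) : F₃) := by
    rw [← IsScalarTower.algebraMap_apply, map_natCast]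
  obtain ⟨g, -, hM⟩ := CuspInst.B.exists_v3CuspMid hq A hA hζ M' hqM (badSetup_W0 hq hA M' hqM)
    (MidKappa.redMidK hq A hA hζ M' hqM (Count.redMid_mem_fullC hq A hA hζ M' hqM))
    (fun _ => rfl) (coe_xk (IsLocalRing.ResidueField A) M') ↥(W0 A) O₃
    (red3 hq A hA hζ M' hqM w)
    (fun i (a : chart ↥(W0 A) (x₃)⁻¹) => HMin3.hRV3_inv hq A hA hζ M' hqM hw i a a.2)
    rfl (fun _ _ _ => rfl) (hred3 hq A hA hζ M' hqM w) hconst _ hqB
  exact ⟨g, hM⟩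

/-- **The binder `hptR'` of `Core.newInertiaK0At_W0_of_points`**, closed: the point packages at
the cusps of the chart at infinity `chart W0 (J_0 J_2)⁻¹` for the three components
`![O_∞, O_mid, O_0]`, every `m = p ^ n` with `p ≠ q`, every pair `PA`, `PC`. -/
theorem hptR'_K0 (hw : IsAL3 M' q w) (p : ℕ) (hp : p.Prime) (hqp : q ≠ p)
    (h2 : q = 2 → 3 ∣ M') (h3 : q = 3 → 2 ∣ M')
    [Algebra ↥(W0 A) (FNK ↥(K0 A) (M' * q))]
    (PA PC : ValuationSubring (FNK ↥(K0 A) (M' * q))) :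
    ∀ (n : ℕ) (Q : Ideal (chart ↥(W0 A) (x₃)⁻¹)), Q.IsMaximal →
      algebraMap (W0 A) (chart ↥(W0 A) (x₃)⁻¹) ((q : ℕ) : W0 A) ∈ Q →
      (⟨(x₃)⁻¹, self_mem_chart (x₃)⁻¹⟩ : chart ↥(W0 A) (x₃)⁻¹) ∈ Q →
      PointPkg ↥(K0 A) (resW0 A) (p ^ n) q (alphaStar ↥(K0 A) M' q) (betaStar ↥(K0 A) M' q)
        PA PC O₃ (LocalPair O₃ (chart ↥(W0 A) (x₃)⁻¹) Q (p ^ n)) := by
  intro n
  have := ChartsCAR.isNoetherianRing_W0 hq A hA
  obtain ⟨hfr, hno, hic⟩ := Cusp.chart_inv_instances (W := ↥(W0 A)) ↥(K0 A) (M' * q * q) x₃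
    (ChartsCAR.order_J0_mul_J2_ne_zero ↥(K0 A) M' q)
  obtain ⟨g, hM⟩ := exists_v3CuspMid_K0 hq A hA hζ M' hqM hw
  have hq0 : algebraMap ↥(W0 A) ↥(K0 A) ((q : ℕ) : ↥(W0 A)) ≠ 0 := by
    rw [map_natCast]
    exact Nat.cast_ne_zero.mpr hq.ne_zero
  have hm : IsUnit (((p ^ n : ℕ) : ℕ) : ↥(W0 A)) := by
    have hnd : ¬ q ∣ p ^ n := fun h =>
      hqp ((Nat.prime_dvd_prime_iff_eq hq hp).mp (hq.dvd_of_dvd_pow h))
    obtain ⟨m', hm'⟩ := ChartsCAR.exists_natCast_mul_eq_one hq A hA (p ^ n) hnd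
    exact IsUnit.of_mul_eq_one _ hm'
  exact hptR'_of_cuspBase (resW0 A) (p ^ n) q (alphaStar ↥(K0 A) M' q) (betaStar ↥(K0 A) M' q)
    PA PC O₃ (chart ↥(W0 A) (x₃)⁻¹) ((q : ℕ) : ↥(W0 A)) hq0 (frontK0_hK0' hq hA) hm
    (v3BaseCusp_K0 hq A hA hζ M' hqM hw h2 h3) (v3Cusp_K0 hq A hA hζ M' hqM hw) hM

end Records

end Fermat.Agent.CAR.Inst.CuspK0
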