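/-
CAR row 389 (a), FINITE chart: the integrality web (rulings #6 R1–R3).

`L ⊇ ℚ` a field, `A` a valuation subring of `L`, `π : A → k`; `F' = L·F_{M'}`,
`F = L·F_{M' q²}`; `B := BaseFn.Data.ofJ A π M'` (base function `xL L M' = J(q^{M'})`),
`B' = {y | IsIntegral ↥(B.AX) y}`; chart function (convention (B))
`x := CuspQuot.J0 L M' * CuspQuot.J2 L M' = J(q^{M'}) · J(q^{M' q²})`.

* `isIntegral_closure_Jd_Jd`, `isIntegral_adjoin_int_of_coe`, `mem_of_coe_of_mem` : all the
  `J(q^d)` are integral over each other's `ℤ`-algebra (series level, function-field level,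
  valuation-ring form);
* `isIntegral_AX_iff_forall` : the valuative criterion for integrality over `A[x]` (`B.AX`), for
  any base-function data `B`; `map_mem_chart_of_isIntegral_AX` : the pull-back form;
* (W1) `isIntegral_AX_of_coe_eq_Jd`, `isIntegral_AX_jLevel`, `isIntegral_AX_xL`,
  `isIntegral_AX_JK`;
* (W2) `piStar0_mem_chart`, `piStar1_mem_chart`, `piStar2_mem_chart`;
* (W4) `mem_chart_of_coe_eq_Jd`, `J0_mem_chart`, `J1_mem_chart`, `J2_mem_chart`, `JK_mem_chart`,
  `dMid_mem_chart`; the finite chart is convention-independent: `chart_eq_chart_of_coe`,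
  `chart_eq_chartX`.
-/
import Mathlib
import Fermat.Agent.CAR.Glob.ChartXInst
import Fermat.Agent.CAR.Glob.CuspQuotInst
import Fermat.Agent.CAR.Glob.Charts
import Fermat.Agent.CAR.V3.MidRing
import Fermat.Agent.CAR.K0
import Fermat.Agent.Lib.Red.IntegralX

set_option autoImplicit false

namespace Fermat.Agent.CAR.Inst.BPrimeWeb

open ModularCurve HahnSeries Fermat.Agent.S24 Fermat.Agent.S28 Fermat.Agent.Lib.Red
open Fermat.Agent.CAR.V3 Fermat.Agent.CAR.Glob Fermat.Agent.CAR.Glob.ChartX
open Fermat.Agent.CAR.K0 Fermat.Agent.ESJ.Cong.LevelGen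

local notation "Qb" => AlgebraicClosure ℚ

noncomputable section

/-! ### All the `J(q^d)` are integral over each other -/

section Series

/-- `J(q^e)` is integral over `ℤ[J(q^d)]`, for all `d, e ≠ 0` and every coefficient ring. -/
theorem isIntegral_closure_Jd_Jd (K : Type*) [CommRing K] {d e : ℕ} (hd : d ≠ 0) (he : e ≠ 0) :
    IsIntegral (Subring.closure ({TD.Jd K d} : Set (LaurentSeries K))) (TD.Jd K e) := by
  have h1 := (Integrality.isIntegral_Jd_of_commRing K d hd
    (fun r hr _ => Fermat.Agent.ESJ.Cong.LevelGen.modEq_prime r hr) 1 one_ne_zero).1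
  have h2 := (Integrality.isIntegral_Jd_of_commRing K e he
    (fun r hr _ => Fermat.Agent.ESJ.Cong.LevelGen.modEq_prime r hr) 1 one_ne_zero).2
  rw [one_mul] at h1 h2
  refine Integrality.isIntegral_closure_trans ?_ h2
  rintro y rfl
  exact h1

variable {L : Type*} [Field L] [Algebra ℚ L] {N : ℕ}

/-- Two functions of level `N` with expansions `J(q^d)`, `J(q^e)`: the second is integral over
the `ℤ`-algebra generated by the first. -/
theorem isIntegral_adjoin_int_of_coe {d e : ℕ} (hd : d ≠ 0) (he : e ≠ 0)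
    {x y : ↥(laurentBaseChange L (modularFunctionFieldFull N))}
    (hx : (x : LaurentSeries L) = TD.Jd L d) (hy : (y : LaurentSeries L) = TD.Jd L e) :
    IsIntegral (Algebra.adjoin ℤ {x}) y := by
  apply ChartXInst.isIntegral_adjoin_of_closure_algebraMap (E := LaurentSeries L)
  rw [Set.image_singleton]
  change IsIntegral (Subring.closure {(x : LaurentSeries L)}) (y : LaurentSeries L)
  rw [hx, hy]
  exact isIntegral_closure_Jd_Jd L hd he

/-- Valuation-ring form: a valuation subring of `L·F_N` containing one function with expansion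
`J(q^d)` contains every function with an expansion `J(q^e)`. -/
theorem mem_of_coe_of_mem {d e : ℕ} (hd : d ≠ 0) (he : e ≠ 0)
    {x y : ↥(laurentBaseChange L (modularFunctionFieldFull N))}
    (hx : (x : LaurentSeries L) = TD.Jd L d) (hy : (y : LaurentSeries L) = TD.Jd L e)
    (V : ValuationSubring ↥(laurentBaseChange L (modularFunctionFieldFull N))) (hxV : x ∈ V) :
    y ∈ V := by
  have h := isIntegral_adjoin_int_of_coe hd he hx hy
  rw [isIntegral_adjoin_singleton_iff] at h
  exact h V (fun n => by rw [eq_intCast]; exact intCast_mem V n) hxV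

/-- Integrality over `W[x]` for any coefficient ring `W`. -/
theorem isIntegral_adjoin_of_coe {W : Type*} [CommRing W]
    [Algebra W ↥(laurentBaseChange L (modularFunctionFieldFull N))] {d e : ℕ} (hd : d ≠ 0)
    (he : e ≠ 0) {x y : ↥(laurentBaseChange L (modularFunctionFieldFull N))}
    (hx : (x : LaurentSeries L) = TD.Jd L d) (hy : (y : LaurentSeries L) = TD.Jd L e) :
    IsIntegral (Algebra.adjoin W {x}) y := by
  rw [isIntegral_adjoin_singleton_iff]
  exact fun V _ hxV => mem_of_coe_of_mem hd he hx hy V hxV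

end Series

/-! ### The valuative criterion for `A[x]` -/

section AX

/-- A valuation subring contains every element integral over a subring it contains. -/
theorem mem_of_isIntegral_of_le {F : Type*} [Field F] (V : ValuationSubring F) {R : Subring F}
    (hR : R ≤ V.toSubring) {y : F} (hy : IsIntegral R y) : y ∈ V := by
  let φ : R →+* V := (Subring.subtype R).codRestrict V (fun a => hR a.2)
  have h2 : IsIntegral V (RingHom.id F y) :=
    IsIntegral.map_of_comp_eq φ (RingHom.id F) (by ext a; rfl) hy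
  obtain ⟨z, hz⟩ := IsIntegrallyClosedIn.isIntegral_iff.mp h2
  rw [RingHom.id_apply] at hz
  rw [← hz]
  exact z.2

variable {L : Type*} [Field L] [Algebra ℚ L] {A : ValuationSubring L} {k : Type} [Field k]
  {π : A →+* k} {N : ℕ} [NeZero N] (B : BaseFn.Data A π N)

/-- `A[x]` lies in every valuation subring containing `A` and `x`. -/
theorem AX_le_valuationSubring
    (V : ValuationSubring ↥(laurentBaseChange L (modularFunctionFieldFull N)))
    (hA : ∀ a : A, algebraMap L ↥(laurentBaseChange L (modularFunctionFieldFull N)) (a : L) ∈ V)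
    (hx : B.x ∈ V) : B.AX ≤ V.toSubring := by
  rintro z hz
  obtain ⟨p, rfl⟩ := B.mem_AX_iff.mp hz
  show Polynomial.aeval B.x (p.map A.subtype) ∈ V
  rw [Polynomial.aeval_eq_sum_range]
  refine sum_mem fun i _ => ?_
  rw [Algebra.smul_def, Polynomial.coeff_map]
  exact V.mul_mem _ _ (hA _) (pow_mem hx i)

/-- **Valuative criterion for `B' = integral closure of `A[x]`**: `y` is integral over `A[x]` iff
it lies in every valuation subring of `L·F_N` containing `A` and `x`. -/
theorem isIntegral_AX_iff_forall {y : ↥(laurentBaseChange L (modularFunctionFieldFull N))} :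
    IsIntegral ↥(B.AX) y ↔
      ∀ V : ValuationSubring ↥(laurentBaseChange L (modularFunctionFieldFull N)),
        (∀ a : A, algebraMap L ↥(laurentBaseChange L (modularFunctionFieldFull N)) (a : L) ∈ V) →
          B.x ∈ V → y ∈ V := by
  constructor
  · intro hy V hA hx
    exact mem_of_isIntegral_of_le V (AX_le_valuationSubring B V hA hx) hy
  · intro h
    have hS : IsIntegral (Subring.closure (Set.range (fun a : A =>
        algebraMap L ↥(laurentBaseChange L (modularFunctionFieldFull N)) (a : L)) ∪ {B.x})) y := by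
      rw [ChartX.isIntegral_closure_iff]
      intro V hV
      exact h V (fun a => hV _ (Or.inl ⟨a, rfl⟩)) (hV _ (Or.inr rfl))
    refine Integrality.isIntegral_of_le ?_ hS
    rw [Subring.closure_le]
    rintro z (⟨a, rfl⟩ | rfl)
    · refine B.mem_AX_iff.mpr ⟨Polynomial.C a, ?_⟩
      rw [Polynomial.map_C, Polynomial.aeval_C]
      rfl
    · exact B.x_mem_AX

/-- **Pull-back form.**  An `L`-algebra map `φ : L·F_N → F''` sends `B'` into the chart ring
`chart A x''` as soon as every valuation subring of `F''` containing `A` and `x''` contains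
`φ x`. -/
theorem map_mem_chart_of_isIntegral_AX {F'' : Type*} [Field F''] [Algebra L F''] [Algebra ↥A F'']
    [IsScalarTower ↥A L F''] (φ : ↥(laurentBaseChange L (modularFunctionFieldFull N)) →ₐ[L] F'')
    {x'' : F''}
    (hx : ∀ V : ValuationSubring F'', (∀ a : A, algebraMap ↥A F'' a ∈ V) → x'' ∈ V → φ B.x ∈ V)
    {y : ↥(laurentBaseChange L (modularFunctionFieldFull N))} (hy : IsIntegral ↥(B.AX) y) :
    φ y ∈ Charts.chart ↥A x'' := by
  rw [Charts.mem_chart_iff, isIntegral_adjoin_singleton_iff]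
  intro V hA hxV
  rw [isIntegral_AX_iff_forall] at hy
  have h := hy (V.comap (φ : ↥(laurentBaseChange L (modularFunctionFieldFull N)) →+* F''))
    (fun a => ?_) ?_
  · exact h
  · rw [ValuationSubring.mem_comap]
    show φ (algebraMap L ↥(laurentBaseChange L (modularFunctionFieldFull N)) (a : L)) ∈ V
    rw [AlgHom.commutes]
    have e : algebraMap L F'' (a : L) = algebraMap ↥A F'' a :=
      (IsScalarTower.algebraMap_apply ↥A L F'' a).symm
    rw [e]
    exact hA a
  · rw [ValuationSubring.mem_comap]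
    exact hx V hA hxV

end AX

/-! ### (W1): `jLevel` and every `J(q^d)` lie in `B'` -/

section W1

variable {L : Type*} [Field L] [Algebra ℚ L] (A : ValuationSubring L) {k : Type} [Field k]
  (π : A →+* k) (M' : ℕ) [NeZero M']

/-- **(W1)** Every function of level `M'` with expansion `J(q^d)` is integral over `A[xL]`. -/
theorem isIntegral_AX_of_coe_eq_Jd {d : ℕ} (hd : d ≠ 0)
    {y : ↥(laurentBaseChange L (modularFunctionFieldFull M'))}
    (hy : (y : LaurentSeries L) = TD.Jd L d) :
    IsIntegral ↥((BaseFn.Data.ofJ A π M').AX) y := by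
  rw [isIntegral_AX_iff_forall]
  intro V _ hx
  rw [BaseFn.Data.ofJ_x] at hx
  exact mem_of_coe_of_mem (NeZero.ne M') hd (coe_xL L M') hy V hx

/-- **(W1)** `jLevel = J(q) ∈ B'`. -/
theorem isIntegral_AX_jLevel : IsIntegral ↥((BaseFn.Data.ofJ A π M').AX) (jLevel L M') :=
  isIntegral_AX_of_coe_eq_Jd A π M' one_ne_zero rfl

/-- **(W1)** `xL = J(q^{M'}) ∈ B'`. -/
theorem isIntegral_AX_xL : IsIntegral ↥((BaseFn.Data.ofJ A π M').AX) (xL L M') :=
  isIntegral_AX_of_coe_eq_Jd A π M' (NeZero.ne M') (coe_xL L M')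

end W1

/-- A divisor of a nonzero level is nonzero. -/
theorem dv_ne_zero {M : ℕ} [NeZero M] (d : Dv M) : d.1 ≠ 0 := by
  intro h
  have h2 := d.2
  rw [h] at h2
  exact NeZero.ne M (Nat.eq_zero_of_zero_dvd h2)

/-- **(W1)** over a subfield `K` of `ℚ̄`: every `JK K M' d = J(q^d)`, `d ∣ M'`, lies in `B'`. -/
theorem isIntegral_AX_JK {K : IntermediateField ℚ Qb} (A : ValuationSubring ↥K) {k : Type}
    [Field k] (π : A →+* k) (M' : ℕ) [NeZero M'] (d : Dv M') :
    IsIntegral ↥((BaseFn.Data.ofJ A π M').AX) (MidRing.JK K M' d) :=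
  isIntegral_AX_of_coe_eq_Jd A π M' (dv_ne_zero d) (MidRing.coe_JK K M' d)

/-! ### The chart function `x = J_0 J_2` (convention (B)) -/

section Chart

variable (L : Type) [Field L] [Algebra ℚ L] (M' q : ℕ) [NeZero M'] [NeZero q]

/-- A valuation subring of `F = L·F_{M' q²}` containing `x = J_0 J_2` contains `J_0, J_1, J_2`. -/
theorem J_mem_of_mul_mem (hq : q.Prime)
    (V : ValuationSubring ↥(laurentBaseChange L (modularFunctionFieldFull (M' * q * q))))
    (hx : CuspQuot.J0 (q := q) L M' * CuspQuot.J2 L M' ∈ V) :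
    CuspQuot.J0 (q := q) L M' ∈ V ∧ CuspQuot.J1 (q := q) L M' ∈ V ∧
      CuspQuot.J2 (q := q) L M' ∈ V := by
  obtain ⟨D⟩ := Fermat.Agent.ESJ.Cong.LevelGen.modEq_prime q hq
  obtain ⟨h0, h1, h2⟩ := CuspQuot.piStar_isIntegral_of_mul L M' D
    (R := Algebra.adjoin ℤ {CuspQuot.J0 (q := q) L M' * CuspQuot.J2 L M'})
    ⟨⟨_, Algebra.self_mem_adjoin_singleton ℤ _⟩, rfl⟩
  rw [isIntegral_adjoin_singleton_iff] at h0 h1 h2
  have hZ : ∀ n : ℤ, algebraMap ℤ
      ↥(laurentBaseChange L (modularFunctionFieldFull (M' * q * q))) n ∈ V := fun n => by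
    rw [eq_intCast]
    exact intCast_mem V n
  exact ⟨h0 V hZ hx, h1 V hZ hx, h2 V hZ hx⟩

/-- A valuation subring of `F` containing `x = J_0 J_2` contains every function with an expansion
`J(q^d)`. -/
theorem mem_of_coe_of_mul_mem (hq : q.Prime) {d : ℕ} (hd : d ≠ 0)
    {y : ↥(laurentBaseChange L (modularFunctionFieldFull (M' * q * q)))}
    (hy : (y : LaurentSeries L) = TD.Jd L d)
    (V : ValuationSubring ↥(laurentBaseChange L (modularFunctionFieldFull (M' * q * q))))
    (hx : CuspQuot.J0 (q := q) L M' * CuspQuot.J2 L M' ∈ V) : y ∈ V :=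
  mem_of_coe_of_mem (NeZero.ne M') hd (CuspQuot.coe_J0 L M') hy V
    (J_mem_of_mul_mem L M' q hq V hx).1

/-- Conversely: a valuation subring of `F` containing one function with an expansion `J(q^d)`
contains `x = J_0 J_2`. -/
theorem mul_mem_of_coe_of_mem {d : ℕ} (hd : d ≠ 0)
    {y : ↥(laurentBaseChange L (modularFunctionFieldFull (M' * q * q)))}
    (hy : (y : LaurentSeries L) = TD.Jd L d)
    (V : ValuationSubring ↥(laurentBaseChange L (modularFunctionFieldFull (M' * q * q))))
    (hyV : y ∈ V) : CuspQuot.J0 (q := q) L M' * CuspQuot.J2 L M' ∈ V :=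
  V.mul_mem _ _
    (mem_of_coe_of_mem hd (NeZero.ne M') hy (CuspQuot.coe_J0 L M') V hyV)
    (mem_of_coe_of_mem hd
      (Nat.mul_ne_zero (Nat.mul_ne_zero (NeZero.ne M') (NeZero.ne q)) (NeZero.ne q)) hy
      (CuspQuot.coe_J2 L M') V hyV)

/-- Every function with an expansion `J(q^d)` is integral over `ℤ[x]`, `x = J_0 J_2`. -/
theorem isIntegral_int_chart_of_coe (hq : q.Prime) {d : ℕ} (hd : d ≠ 0)
    {y : ↥(laurentBaseChange L (modularFunctionFieldFull (M' * q * q)))}
    (hy : (y : LaurentSeries L) = TD.Jd L d) :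
    IsIntegral (Algebra.adjoin ℤ {CuspQuot.J0 (q := q) L M' * CuspQuot.J2 L M'}) y := by
  rw [isIntegral_adjoin_singleton_iff]
  exact fun V _ hx => mem_of_coe_of_mul_mem L M' q hq hd hy V hx

/-- `x = J_0 J_2` is integral over `ℤ[y]` for every function `y` with an expansion `J(q^d)`. -/
theorem isIntegral_int_of_coe_chart {d : ℕ} (hd : d ≠ 0)
    {y : ↥(laurentBaseChange L (modularFunctionFieldFull (M' * q * q)))}
    (hy : (y : LaurentSeries L) = TD.Jd L d) :
    IsIntegral (Algebra.adjoin ℤ {y}) (CuspQuot.J0 (q := q) L M' * CuspQuot.J2 L M') := by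
  rw [isIntegral_adjoin_singleton_iff]
  exact fun V _ hyV => mul_mem_of_coe_of_mem L M' q hd hy V hyV

section W4

variable {W : Type*} [CommRing W]
  [Algebra W ↥(laurentBaseChange L (modularFunctionFieldFull (M' * q * q)))]

/-- **(W4)** Every function of level `M' q²` with an expansion `J(q^d)` lies in the finite chart
ring `chart W (J_0 J_2)` (any coefficient ring `W`). -/
theorem mem_chart_of_coe_eq_Jd (hq : q.Prime) {d : ℕ} (hd : d ≠ 0)
    {y : ↥(laurentBaseChange L (modularFunctionFieldFull (M' * q * q)))}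
    (hy : (y : LaurentSeries L) = TD.Jd L d) :
    y ∈ Charts.chart W (CuspQuot.J0 (q := q) L M' * CuspQuot.J2 L M') := by
  rw [Charts.mem_chart_iff, isIntegral_adjoin_singleton_iff]
  exact fun V _ hx => mem_of_coe_of_mul_mem L M' q hq hd hy V hx

/-- **(W4)** `J_0 ∈ chart W (J_0 J_2)`. -/
theorem J0_mem_chart (hq : q.Prime) :
    CuspQuot.J0 (q := q) L M' ∈ Charts.chart W (CuspQuot.J0 (q := q) L M' * CuspQuot.J2 L M') :=
  mem_chart_of_coe_eq_Jd L M' q hq (NeZero.ne M') (CuspQuot.coe_J0 L M')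

/-- **(W4)** `J_1 ∈ chart W (J_0 J_2)`. -/
theorem J1_mem_chart (hq : q.Prime) :
    CuspQuot.J1 (q := q) L M' ∈ Charts.chart W (CuspQuot.J0 (q := q) L M' * CuspQuot.J2 L M') :=
  mem_chart_of_coe_eq_Jd L M' q hq (Nat.mul_ne_zero (NeZero.ne M') (NeZero.ne q))
    (CuspQuot.coe_J1 L M')

/-- **(W4)** `J_2 ∈ chart W (J_0 J_2)`. -/
theorem J2_mem_chart (hq : q.Prime) :
    CuspQuot.J2 (q := q) L M' ∈ Charts.chart W (CuspQuot.J0 (q := q) L M' * CuspQuot.J2 L M') :=
  mem_chart_of_coe_eq_Jd L M' q hq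
    (Nat.mul_ne_zero (Nat.mul_ne_zero (NeZero.ne M') (NeZero.ne q)) (NeZero.ne q))
    (CuspQuot.coe_J2 L M')

/-- **(W4)** `π_0^* y ∈ chart W (J_0 J_2)` for every `y` of level `M'` with an expansion
`J(q^d)` (any coefficient ring `W`; no compatibility needed). -/
theorem piStar0_mem_chart_of_coe (hq : q.Prime) {d : ℕ} (hd : d ≠ 0)
    {y : ↥(laurentBaseChange L (modularFunctionFieldFull M'))}
    (hy : (y : LaurentSeries L) = TD.Jd L d) :
    piStar0 L M' q y ∈ Charts.chart W (CuspQuot.J0 (q := q) L M' * CuspQuot.J2 L M') :=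
  mem_chart_of_coe_eq_Jd L M' q hq hd (by rw [coe_piStar0, hy])

/-- **(W4)** `π_1^* y ∈ chart W (J_0 J_2)` for every `y` with an expansion `J(q^d)`. -/
theorem piStar1_mem_chart_of_coe (hq : q.Prime) {d : ℕ} (hd : d ≠ 0)
    {y : ↥(laurentBaseChange L (modularFunctionFieldFull M'))}
    (hy : (y : LaurentSeries L) = TD.Jd L d) :
    piStar1 L M' q y ∈ Charts.chart W (CuspQuot.J0 (q := q) L M' * CuspQuot.J2 L M') :=
  mem_chart_of_coe_eq_Jd L M' q hq (Nat.mul_ne_zero (NeZero.ne q) hd)
    (by rw [coe_piStar1, hy, TD.qExpand_Jd L q d hd])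

/-- **(W4)** `π_2^* y ∈ chart W (J_0 J_2)` for every `y` with an expansion `J(q^d)`. -/
theorem piStar2_mem_chart_of_coe (hq : q.Prime) {d : ℕ} (hd : d ≠ 0)
    {y : ↥(laurentBaseChange L (modularFunctionFieldFull M'))}
    (hy : (y : LaurentSeries L) = TD.Jd L d) :
    piStar2 L M' q y ∈ Charts.chart W (CuspQuot.J0 (q := q) L M' * CuspQuot.J2 L M') :=
  mem_chart_of_coe_eq_Jd L M' q hq
    (Nat.mul_ne_zero (NeZero.ne q) (Nat.mul_ne_zero (NeZero.ne q) hd))
    (by rw [coe_piStar2, hy, TD.qExpand_Jd L q d hd,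
      TD.qExpand_Jd L q (q * d) (Nat.mul_ne_zero (NeZero.ne q) hd)])

/-- **(W4)**, the convention-(A) functions: `π_0^* jLevel = J(q)` is integral over `W[J_0 J_2]`. -/
theorem isIntegral_piStar0_jLevel (hq : q.Prime) :
    IsIntegral (Algebra.adjoin W {CuspQuot.J0 (q := q) L M' * CuspQuot.J2 L M'})
      (piStar0 L M' q (jLevel L M')) :=
  piStar0_mem_chart_of_coe L M' q hq one_ne_zero rfl

/-- **(W4)** `π_1^* jLevel = J(q^q)` is integral over `W[J_0 J_2]`. -/
theorem isIntegral_piStar1_jLevel (hq : q.Prime) :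
    IsIntegral (Algebra.adjoin W {CuspQuot.J0 (q := q) L M' * CuspQuot.J2 L M'})
      (piStar1 L M' q (jLevel L M')) :=
  piStar1_mem_chart_of_coe L M' q hq one_ne_zero rfl

/-- **(W4)** `π_2^* jLevel = J(q^{q²})` is integral over `W[J_0 J_2]`. -/
theorem isIntegral_piStar2_jLevel (hq : q.Prime) :
    IsIntegral (Algebra.adjoin W {CuspQuot.J0 (q := q) L M' * CuspQuot.J2 L M'})
      (piStar2 L M' q (jLevel L M')) :=
  piStar2_mem_chart_of_coe L M' q hq one_ne_zero rfl

/-- **The finite chart does not depend on the convention**: for every function `y` of level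
`M' q²` with an expansion `J(q^d)`, `chart W (J_0 J_2) = chart W y`. -/
theorem chart_eq_chart_of_coe (hq : q.Prime) {d : ℕ} (hd : d ≠ 0)
    {y : ↥(laurentBaseChange L (modularFunctionFieldFull (M' * q * q)))}
    (hy : (y : LaurentSeries L) = TD.Jd L d) :
    Charts.chart W (CuspQuot.J0 (q := q) L M' * CuspQuot.J2 L M') = Charts.chart W y := by
  ext z
  rw [Charts.mem_chart_iff, Charts.mem_chart_iff, isIntegral_adjoin_singleton_iff,
    isIntegral_adjoin_singleton_iff]
  constructor
  · exact fun h V hW hyV => h V hW (mul_mem_of_coe_of_mem L M' q hd hy V hyV)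
  · exact fun h V hW hx => h V hW (mem_of_coe_of_mul_mem L M' q hq hd hy V hx)

/-- The convention-(B) finite chart is the convention-(A) finite chart
(`ChartXInst.chartX = J(q) · J(q^{q²})`). -/
theorem chart_eq_chartX (hq : q.Prime) :
    Charts.chart W (CuspQuot.J0 (q := q) L M' * CuspQuot.J2 L M') =
      Charts.chart W (ChartXInst.chartX L M' q) := by
  ext z
  rw [Charts.mem_chart_iff, Charts.mem_chart_iff, isIntegral_adjoin_singleton_iff,
    isIntegral_adjoin_singleton_iff]
  have hqq : q * q ≠ 0 := Nat.mul_ne_zero (NeZero.ne q) (NeZero.ne q)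
  have c0 : ((ChartXInst.J0 L M' q : ↥(laurentBaseChange L
      (modularFunctionFieldFull (M' * q * q)))) : LaurentSeries L) = TD.Jd L 1 := rfl
  have c2 : ((ChartXInst.J2 L M' q : ↥(laurentBaseChange L
      (modularFunctionFieldFull (M' * q * q)))) : LaurentSeries L) = TD.Jd L (q * q) := rfl
  constructor
  · intro h V hW hxV
    refine h V hW (mul_mem_of_coe_of_mem L M' q one_ne_zero c0 V ?_)
    have h0 := ChartXInst.isIntegral_J0_chartX L M' q
    rw [isIntegral_adjoin_singleton_iff] at h0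
    exact h0 V (fun n => by rw [eq_intCast]; exact intCast_mem V n) hxV
  · intro h V hW hx
    exact h V hW (V.mul_mem _ _ (mem_of_coe_of_mul_mem L M' q hq one_ne_zero c0 V hx)
      (mem_of_coe_of_mul_mem L M' q hq hqq c2 V hx))

end W4

/-! ### (W2): `π_i^* B' ⊆ Bfin` -/

section W2

variable (A : ValuationSubring L) {k : Type} [Field k] (π : A →+* k)
  [Algebra ↥A ↥(laurentBaseChange L (modularFunctionFieldFull (M' * q * q)))]
  [IsScalarTower ↥A L ↥(laurentBaseChange L (modularFunctionFieldFull (M' * q * q)))]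

/-- **(W2)** `π_0^* B' ⊆ chart A (J_0 J_2)`. -/
theorem piStar0_mem_chart (hq : q.Prime)
    {y : ↥(laurentBaseChange L (modularFunctionFieldFull M'))}
    (hy : IsIntegral ↥((BaseFn.Data.ofJ A π M').AX) y) :
    piStar0 L M' q y ∈ Charts.chart ↥A (CuspQuot.J0 (q := q) L M' * CuspQuot.J2 L M') := by
  refine map_mem_chart_of_isIntegral_AX (BaseFn.Data.ofJ A π M') (piStar0 L M' q) ?_ hy
  intro V _ hx
  rw [BaseFn.Data.ofJ_x]
  exact (J_mem_of_mul_mem L M' q hq V hx).1

/-- **(W2)** `π_1^* B' ⊆ chart A (J_0 J_2)`. -/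
theorem piStar1_mem_chart (hq : q.Prime)
    {y : ↥(laurentBaseChange L (modularFunctionFieldFull M'))}
    (hy : IsIntegral ↥((BaseFn.Data.ofJ A π M').AX) y) :
    piStar1 L M' q y ∈ Charts.chart ↥A (CuspQuot.J0 (q := q) L M' * CuspQuot.J2 L M') := by
  refine map_mem_chart_of_isIntegral_AX (BaseFn.Data.ofJ A π M') (piStar1 L M' q) ?_ hy
  intro V _ hx
  rw [BaseFn.Data.ofJ_x]
  exact (J_mem_of_mul_mem L M' q hq V hx).2.1

/-- **(W2)** `π_2^* B' ⊆ chart A (J_0 J_2)`. -/
theorem piStar2_mem_chart (hq : q.Prime)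
    {y : ↥(laurentBaseChange L (modularFunctionFieldFull M'))}
    (hy : IsIntegral ↥((BaseFn.Data.ofJ A π M').AX) y) :
    piStar2 L M' q y ∈ Charts.chart ↥A (CuspQuot.J0 (q := q) L M' * CuspQuot.J2 L M') := by
  refine map_mem_chart_of_isIntegral_AX (BaseFn.Data.ofJ A π M') (piStar2 L M' q) ?_ hy
  intro V _ hx
  rw [BaseFn.Data.ofJ_x]
  exact (J_mem_of_mul_mem L M' q hq V hx).2.2

end W2

end Chart

/-! ### The instance over `(K0, W0)`: `JK d`, `dMid ∈ Bfin` -/

section K0Inst

variable (A : ValuationSubring Qb) (M' q : ℕ) [NeZero M'] [NeZero q]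
  {W : Type*} [CommRing W] [Algebra W ↥(MidRing.FK (K0 A) (M' * q * q))]

/-- **(W4)** Every `JK (K0 A) (M' q²) d = J(q^d)` lies in `chart W (J_0 J_2)`. -/
theorem JK_mem_chart (hq : q.Prime) (d : Dv (M' * q * q)) :
    MidRing.JK (K0 A) (M' * q * q) d ∈
      Charts.chart W (CuspQuot.J0 (q := q) ↥(K0 A) M' * CuspQuot.J2 ↥(K0 A) M') :=
  mem_chart_of_coe_eq_Jd ↥(K0 A) M' q hq (dv_ne_zero d) (MidRing.coe_JK (K0 A) (M' * q * q) d)

/-- **(W4)** `dMid = J(q^{q²}) - J(q) ∈ chart W (J_0 J_2)`. -/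
theorem dMid_mem_chart (hq : q.Prime) :
    MidRing.dMid A M' q ∈
      Charts.chart W (CuspQuot.J0 (q := q) ↥(K0 A) M' * CuspQuot.J2 ↥(K0 A) M') :=
  Subalgebra.sub_mem _ (JK_mem_chart A M' q hq (MidRing.dvSq M' q))
    (JK_mem_chart A M' q hq (MidRing.dvOne M' q))

end K0Inst

end

end Fermat.Agent.CAR.Inst.BPrimeWeb
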