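import Mathlib
import Fermat.Agent.CAR.Local.Inst.EllRel
import Fermat.Agent.CAR.Ell.EllJGood

/-!
# CAR, wall (ELL): the closing wire `hell` for the finite chart

`Glue.LInst.hlocal_of_contract` (and the finite-point plug of `Core.chain`) consume, for the
contract `H : Local.Inst.Contract …` of the finite chart, the hypothesis

  `hell : ∀ Vs, IsFinPlace red' Vs → ∃ y : B', D (red' y) ≠ 0 ∧ D (red' y) ^ 12 * G ∉ Vs.nonunits`.

Here it is proved for ANY contract written with `κ = modularFunctionFieldFullC k M'`,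
`k = ResidueField A` (`A` over the prime `q`, `q ∤ M'`), `D = Deriv.dJ k M'`, `G = Deriv.GJ k M'`
and `red' x' = Jbar k M'`, at a level `M'` divisible by a prime `r ≡ 11 (mod 12)`:

* `hell_of_five_le` : `5 ≤ q`, unconditional (from `EllSwitch.hell_J` and helper91's
  `three_dvd_ord_Jbar`, `two_dvd_ord_Jbar_sub_1728`);
* `hell_three`, `hell_two` : `q = 3` / `q = 2`, from a Hauptmodul element `yh : B'` in the literal
  binder shapes of `EllRel.hell_rel2` / `EllRel.hell_rel3` (no characteristic hypothesis);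
* `hell_fin` : the three cases in one statement (`Haupt2`, `Haupt3` the two Hauptmodul
  hypotheses, needed only for `q = 3`, resp. `q = 2`);
* `haupt2_of_series`, `haupt3_of_series` : `Haupt2` / `Haupt3` from an integral series `y` with the
  relation `J y² = (y + 256)³` (resp. `J y³ = (y + 27)(y + 243)³`) in `ℚ̄·F_{M'}` whose reduction is
  `red' yh` (helper91's `two_dvd_ord_add_64_of_rel` / `three_dvd_ord_add_27_of_rel`);
* `ufm_pointRing_fin` : factoriality of the closed points of the finite chart.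
-/

set_option autoImplicit false

namespace Fermat.Agent.CAR.Inst.EllFin

open IsLocalRing AlgebraicCurve ModularCurve
open Fermat.Agent.CAR.Local Fermat.Agent.CAR.Local.Inst Fermat.Agent.Lib.FF.ModL

variable (A : ValuationSubring (AlgebraicClosure ℚ)) [IsAlgClosed (ResidueField A)]
variable (M' : ℕ) [NeZero M']

variable {B B' F : Type*} [CommRing B] [IsDomain B] [Field F] [Algebra B F]
  [IsFractionRing B F] [CommRing B']

/-- The level-`2` Hauptmodul hypothesis of `EllRel.hell_rel2` (needed for `q = 3`): a unit `yh`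
of `B'` after reduction with `J̄ ȳ² = (ȳ + 256)³` whose reduction `ȳ + 64` has even order at its
zeros at the finite places. -/
def Haupt2 (red' : B' →+* modularFunctionFieldFullC (ResidueField A) M') : Prop :=
  ∃ yh yi : B', red' yh * red' yi = 1 ∧
    Jbar (ResidueField A) M' * red' yh ^ 2 = (red' yh + 256) ^ 3 ∧
    ∀ s : Place (ResidueField A) (modularFunctionFieldFullC (ResidueField A) M'),
      (∀ y : B', 0 ≤ s.ord (red' y)) → 0 < s.ord (red' yh + 64) →
        (2 : ℤ) ∣ s.ord (red' yh + 64)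

/-- The level-`3` Hauptmodul hypothesis of `EllRel.hell_rel3` (needed for `q = 2`): a unit `yh`
of `B'` after reduction with `J̄ ȳ³ = (ȳ + 27)(ȳ + 243)³` whose reduction `ȳ + 27` has order
divisible by `3` at its zeros at the finite places. -/
def Haupt3 (red' : B' →+* modularFunctionFieldFullC (ResidueField A) M') : Prop :=
  ∃ yh yi : B', red' yh * red' yi = 1 ∧
    Jbar (ResidueField A) M' * red' yh ^ 3 = (red' yh + 27) * (red' yh + 243) ^ 3 ∧
    ∀ s : Place (ResidueField A) (modularFunctionFieldFullC (ResidueField A) M'),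
      (∀ y : B', 0 ≤ s.ord (red' y)) → 0 < s.ord (red' yh + 27) →
        (3 : ℤ) ∣ s.ord (red' yh + 27)

variable {O : Fin 3 → ValuationSubring F}
  {red : ∀ i, O i →+* modularFunctionFieldFullC (ResidueField A) M'}
  {hred : ∀ i, ∀ x : O i, red i x = 0 ↔ x ∈ maximalIdeal (O i)}
  {hBO : ∀ i, ∀ b : B, algebraMap B F b ∈ O i}
  {red' : B' →+* modularFunctionFieldFullC (ResidueField A) M'} {π₀ π₂ : B' →+* B}
  {q₀ : B} {x' : B'} {u u₁ v₁ h : B} {Db : modularFunctionFieldFullC (ResidueField A) M'}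
  {N e : ℕ}

/-- **`hell` for `5 ≤ q`**, unconditional at a level divisible by a prime `r ≡ 11 (mod 12)`. -/
theorem hell_of_five_le [IsNoetherianRing B] [IsIntegrallyClosed B] {q : ℕ} (hq : q.Prime)
    (hA : A.LiesOverPrime q) (hqM : ¬ q ∣ M') (hq5 : 5 ≤ q)
    {r : ℕ} (hr : r.Prime) (hr12 : r ≡ 11 [MOD 12]) (hrM : r ∣ M')
    (H : Contract O red hred hBO red' π₀ π₂ (Deriv.dJ (ResidueField A) M') q₀ x' u u₁ v₁ h Db
      (Deriv.GJ (ResidueField A) M') N e)
    (hx' : red' x' = Jbar (ResidueField A) M')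
    (hk : ∀ Vs : ValuationSubring (modularFunctionFieldFullC (ResidueField A) M'),
      IsFinPlace red' Vs → ∀ c : ResidueField A,
        algebraMap (ResidueField A) (modularFunctionFieldFullC (ResidueField A) M') c ∈ Vs) :
    ∀ Vs : ValuationSubring (modularFunctionFieldFullC (ResidueField A) M'),
      IsFinPlace red' Vs → ∃ y : B', Deriv.dJ (ResidueField A) M' (red' y) ≠ 0 ∧
        Deriv.dJ (ResidueField A) M' (red' y) ^ 12 * Deriv.GJ (ResidueField A) M' ∉
          Vs.nonunits := by
  obtain ⟨hr4, hr3⟩ := Fermat.Agent.CAR.Ell.mod_of_modEq_eleven hr12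
  have h2 : (2 : ResidueField A) ≠ 0 := by
    have := Fermat.Agent.ESJ.natCast_residue_ne_zero' A hq hA 2 (fun hd => by
      have := Nat.le_of_dvd (by norm_num) hd
      omega)
    exact_mod_cast this
  have h3 : (3 : ResidueField A) ≠ 0 := by
    have := Fermat.Agent.ESJ.natCast_residue_ne_zero' A hq hA 3 (fun hd => by
      have := Nat.le_of_dvd (by norm_num) hd
      omega)
    exact_mod_cast this
  refine EllSwitch.hell_J (ResidueField A) M' H
    (Deriv.thetaL_eq_dJ_mul (ResidueField A) M') (Deriv.GJ_mul_delta_sq (ResidueField A) M')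
    hk hx' h2 h3 ?_ ?_
  · intro s _ hs
    exact Fermat.Agent.CAR.Ell.three_dvd_ord_Jbar A M' q hq hqM (Or.inl hq5) r hr hr3 hrM hA s hs
  · intro s _ hs
    exact Fermat.Agent.CAR.Ell.two_dvd_ord_Jbar_sub_1728 A M' q hq hqM (Or.inl hq5) r hr hr4 hrM
      hA s hs

/-- **`hell` for `q = 3`** (valid in every characteristic): from the level-`2` Hauptmodul
hypothesis. -/
theorem hell_three [IsNoetherianRing B] [IsIntegrallyClosed B]
    (H : Contract O red hred hBO red' π₀ π₂ (Deriv.dJ (ResidueField A) M') q₀ x' u u₁ v₁ h Db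
      (Deriv.GJ (ResidueField A) M') N e)
    (hk : ∀ Vs : ValuationSubring (modularFunctionFieldFullC (ResidueField A) M'),
      IsFinPlace red' Vs → ∀ c : ResidueField A,
        algebraMap (ResidueField A) (modularFunctionFieldFullC (ResidueField A) M') c ∈ Vs)
    (hh : Haupt2 A M' red') :
    ∀ Vs : ValuationSubring (modularFunctionFieldFullC (ResidueField A) M'),
      IsFinPlace red' Vs → ∃ y : B', Deriv.dJ (ResidueField A) M' (red' y) ≠ 0 ∧
        Deriv.dJ (ResidueField A) M' (red' y) ^ 12 * Deriv.GJ (ResidueField A) M' ∉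
          Vs.nonunits := by
  obtain ⟨yh, yi, hyy, hrel, hE⟩ := hh
  exact EllRel.hell_rel2 (ResidueField A) M' H
    (Deriv.thetaL_eq_dJ_mul (ResidueField A) M') (Deriv.GJ_mul_delta_sq (ResidueField A) M')
    hk yh yi hyy hrel hE

/-- **`hell` for `q = 2`** (valid in every characteristic): from the level-`3` Hauptmodul
hypothesis. -/
theorem hell_two [IsNoetherianRing B] [IsIntegrallyClosed B]
    (H : Contract O red hred hBO red' π₀ π₂ (Deriv.dJ (ResidueField A) M') q₀ x' u u₁ v₁ h Db
      (Deriv.GJ (ResidueField A) M') N e)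
    (hk : ∀ Vs : ValuationSubring (modularFunctionFieldFullC (ResidueField A) M'),
      IsFinPlace red' Vs → ∀ c : ResidueField A,
        algebraMap (ResidueField A) (modularFunctionFieldFullC (ResidueField A) M') c ∈ Vs)
    (hh : Haupt3 A M' red') :
    ∀ Vs : ValuationSubring (modularFunctionFieldFullC (ResidueField A) M'),
      IsFinPlace red' Vs → ∃ y : B', Deriv.dJ (ResidueField A) M' (red' y) ≠ 0 ∧
        Deriv.dJ (ResidueField A) M' (red' y) ^ 12 * Deriv.GJ (ResidueField A) M' ∉
          Vs.nonunits := by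
  obtain ⟨yh, yi, hyy, hrel, hE⟩ := hh
  exact EllRel.hell_rel3 (ResidueField A) M' H
    (Deriv.thetaL_eq_dJ_mul (ResidueField A) M') (Deriv.GJ_mul_delta_sq (ResidueField A) M')
    hk yh yi hyy hrel hE

/-- **The closing wire of (ELL)**: the hypothesis `hell` of `Glue.LInst.hlocal_of_contract` for
any contract of the finite chart written with `D = d/dJ̄`, `G = J̄⁸ (J̄ - 1728)⁶`, `x̄' = J̄`, at a
level `M'` prime to the residue characteristic `q` and divisible by a prime `r ≡ 11 (mod 12)`.
For `q = 3` (resp. `q = 2`) the Hauptmodul hypothesis `Haupt2` (resp. `Haupt3`) is consumed. -/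
theorem hell_fin [IsNoetherianRing B] [IsIntegrallyClosed B] {q : ℕ} (hq : q.Prime)
    (hA : A.LiesOverPrime q) (hqM : ¬ q ∣ M')
    (hr : ∃ r : ℕ, r.Prime ∧ r ≡ 11 [MOD 12] ∧ r ∣ M')
    (H : Contract O red hred hBO red' π₀ π₂ (Deriv.dJ (ResidueField A) M') q₀ x' u u₁ v₁ h Db
      (Deriv.GJ (ResidueField A) M') N e)
    (hx' : red' x' = Jbar (ResidueField A) M')
    (hk : ∀ Vs : ValuationSubring (modularFunctionFieldFullC (ResidueField A) M'),
      IsFinPlace red' Vs → ∀ c : ResidueField A,
        algebraMap (ResidueField A) (modularFunctionFieldFullC (ResidueField A) M') c ∈ Vs)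
    (h3 : q = 3 → Haupt2 A M' red') (h2 : q = 2 → Haupt3 A M' red') :
    ∀ Vs : ValuationSubring (modularFunctionFieldFullC (ResidueField A) M'),
      IsFinPlace red' Vs → ∃ y : B', Deriv.dJ (ResidueField A) M' (red' y) ≠ 0 ∧
        Deriv.dJ (ResidueField A) M' (red' y) ^ 12 * Deriv.GJ (ResidueField A) M' ∉
          Vs.nonunits := by
  obtain ⟨r, hr, hr12, hrM⟩ := hr
  by_cases hq5 : 5 ≤ q
  · exact hell_of_five_le A M' hq hA hqM hq5 hr hr12 hrM H hx' hk
  · have hq23 : q = 2 ∨ q = 3 := by
      have h1 : q < 5 := Nat.lt_of_not_le hq5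
      have h2 := hq.two_le
      interval_cases q
      · exact Or.inl rfl
      · exact Or.inr rfl
      · exact absurd hq (by decide)
    rcases hq23 with hq2 | hq3
    · exact hell_two A M' H hk (h2 hq2)
    · exact hell_three A M' H hk (h3 hq3)

/-- **Factoriality of the closed points of the finite chart over `q`** (`hell_fin` fed to
`Contract.ufm_pointRing`). -/
theorem ufm_pointRing_fin [IsNoetherianRing B] [IsIntegrallyClosed B] {q : ℕ} (hq : q.Prime)
    (hA : A.LiesOverPrime q) (hqM : ¬ q ∣ M')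
    (hr : ∃ r : ℕ, r.Prime ∧ r ≡ 11 [MOD 12] ∧ r ∣ M')
    (H : Contract O red hred hBO red' π₀ π₂ (Deriv.dJ (ResidueField A) M') q₀ x' u u₁ v₁ h Db
      (Deriv.GJ (ResidueField A) M') N e)
    (hx' : red' x' = Jbar (ResidueField A) M')
    (hk : ∀ Vs : ValuationSubring (modularFunctionFieldFullC (ResidueField A) M'),
      IsFinPlace red' Vs → ∀ c : ResidueField A,
        algebraMap (ResidueField A) (modularFunctionFieldFullC (ResidueField A) M') c ∈ Vs)
    (h3 : q = 3 → Haupt2 A M' red') (h2 : q = 2 → Haupt3 A M' red')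
    (𝔪 : Ideal B) [𝔪.IsMaximal] (hq₀ : q₀ ∈ 𝔪) :
    UniqueFactorizationMonoid (pointRing F 𝔪) :=
  H.ufm_pointRing (hell_fin A M' hq hA hqM hr H hx' hk h3 h2) 𝔪 hq₀

/-! ### The Hauptmodul hypotheses from an integral series with the modular relation -/

section Series

open Fermat.Agent.S28 Fermat.Agent.S24 Fermat.Agent.Lib.Red Fermat.Agent.ESJ

omit [IsAlgClosed (ResidueField A)] in
/-- The relation `J y² = (y + 256)³` for an integral series `y` in `ℚ̄·F_M` reduces to the
relation `J̄ ȳ² = (ȳ + 256)³` in the mod-`q` function field. -/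
theorem rel2_red (y : LaurentSeries A)
    (hy : coeffMap A.subtype y ∈ laurentBaseChange KQ (modularFunctionFieldFull M'))
    (hyk : coeffMap (residue A) y ∈ modularFunctionFieldFullC (ResidueField A) M')
    (hrel : jBar M' * (⟨coeffMap A.subtype y, hy⟩ : FN M') ^ 2 =
      ((⟨coeffMap A.subtype y, hy⟩ : FN M') + 256) ^ 3) :
    Jbar (ResidueField A) M' *
        (⟨coeffMap (residue A) y, hyk⟩ : modularFunctionFieldFullC (ResidueField A) M') ^ 2 =
      ((⟨coeffMap (residue A) y, hyk⟩ : modularFunctionFieldFullC (ResidueField A) M') + 256) ^ 3 := by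
  have hrelA : coeffMap A.subtype (jqModC A * y ^ 2 - (y + 256) ^ 3) = 0 := by
    have h1 := congrArg (fun z : FN M' => (z : LaurentSeries KQ)) hrel
    rw [map_sub, map_mul, map_pow, map_pow, map_add, map_ofNat, coeffMap_jqModC,
      ← Fermat.Agent.CAR.Ell.coe_jBar_eq_jqModC M']
    exact sub_eq_zero.mpr h1
  apply Subtype.ext
  have h1 := Fermat.Agent.CAR.Ell.red_eq_zero_of_incl_eq_zero A (residue A) _ hrelA
  rw [map_sub, map_mul, map_pow, map_pow, map_add, map_ofNat, coeffMap_jqModC] at h1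
  exact sub_eq_zero.mp h1

omit [IsAlgClosed (ResidueField A)] in
/-- The relation `J y³ = (y + 27)(y + 243)³` for an integral series `y` in `ℚ̄·F_M` reduces to
the same relation in the mod-`q` function field. -/
theorem rel3_red (y : LaurentSeries A)
    (hy : coeffMap A.subtype y ∈ laurentBaseChange KQ (modularFunctionFieldFull M'))
    (hyk : coeffMap (residue A) y ∈ modularFunctionFieldFullC (ResidueField A) M')
    (hrel : jBar M' * (⟨coeffMap A.subtype y, hy⟩ : FN M') ^ 3 =
      ((⟨coeffMap A.subtype y, hy⟩ : FN M') + 27) *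
        ((⟨coeffMap A.subtype y, hy⟩ : FN M') + 243) ^ 3) :
    Jbar (ResidueField A) M' *
        (⟨coeffMap (residue A) y, hyk⟩ : modularFunctionFieldFullC (ResidueField A) M') ^ 3 =
      ((⟨coeffMap (residue A) y, hyk⟩ : modularFunctionFieldFullC (ResidueField A) M') + 27) *
        ((⟨coeffMap (residue A) y, hyk⟩ : modularFunctionFieldFullC (ResidueField A) M') + 243) ^ 3 := by
  have hrelA : coeffMap A.subtype (jqModC A * y ^ 3 - (y + 27) * (y + 243) ^ 3) = 0 := by
    have h1 := congrArg (fun z : FN M' => (z : LaurentSeries KQ)) hrel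
    rw [map_sub, map_mul, map_mul, map_pow, map_pow, map_add, map_add, map_ofNat, map_ofNat,
      coeffMap_jqModC, ← Fermat.Agent.CAR.Ell.coe_jBar_eq_jqModC M']
    exact sub_eq_zero.mpr h1
  apply Subtype.ext
  have h1 := Fermat.Agent.CAR.Ell.red_eq_zero_of_incl_eq_zero A (residue A) _ hrelA
  rw [map_sub, map_mul, map_mul, map_pow, map_pow, map_add, map_add, map_ofNat, map_ofNat,
    coeffMap_jqModC] at h1
  exact sub_eq_zero.mp h1

omit [IsAlgClosed (ResidueField A)] in
/-- **`Haupt2` from an integral series** (for `q = 3`; valid at every good pair with `q ≠ 2`):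
`y` an integral series in `ℚ̄·F_{M'}` with `J y² = (y + 256)³`, whose reduction is `red' yh` for a
unit `yh` of `B'` after reduction, and a prime `r ≡ 3 (mod 4)` dividing `M'`. -/
theorem haupt2_of_series {q : ℕ} (hq : q.Prime) (hA : A.LiesOverPrime q) (hqM : ¬ q ∣ M')
    (hgood : 5 ≤ q ∨ (q = 3 ∧ 2 ∣ M') ∨ (q = 2 ∧ 3 ∣ M')) (hq2 : q ≠ 2)
    {r : ℕ} (hr : r.Prime) (hr4 : r % 4 = 3) (hrM : r ∣ M')
    (red' : B' →+* modularFunctionFieldFullC (ResidueField A) M') (x' : B')
    (hx' : red' x' = Jbar (ResidueField A) M')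
    (y : LaurentSeries A)
    (hy : coeffMap A.subtype y ∈ laurentBaseChange KQ (modularFunctionFieldFull M'))
    (hyk : coeffMap (residue A) y ∈ modularFunctionFieldFullC (ResidueField A) M')
    (hrel : jBar M' * (⟨coeffMap A.subtype y, hy⟩ : FN M') ^ 2 =
      ((⟨coeffMap A.subtype y, hy⟩ : FN M') + 256) ^ 3)
    (yh yi : B') (hyh : red' yh = ⟨coeffMap (residue A) y, hyk⟩)
    (hyy : red' yh * red' yi = 1) :
    Haupt2 A M' red' := by
  refine ⟨yh, yi, hyy, ?_, ?_⟩
  · rw [hyh]
    exact rel2_red A M' y hy hyk hrel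
  · intro s hs _
    have hQ : 0 ≤ s.ord (Jbar (ResidueField A) M') := hx' ▸ hs x'
    have key := Fermat.Agent.CAR.Ell.two_dvd_ord_add_64_of_rel A M' q hq hqM hgood hq2 r hr hr4
      hrM hA y hy hyk hrel s hQ
    rw [map_neg, sub_neg_eq_add, map_ofNat] at key
    rw [hyh]
    exact key

omit [IsAlgClosed (ResidueField A)] in
/-- **`Haupt3` from an integral series** (for `q = 2`; valid at every good pair with `q ≠ 3`):
`y` an integral series in `ℚ̄·F_{M'}` with `J y³ = (y + 27)(y + 243)³`, whose reduction is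
`red' yh` for a unit `yh` of `B'` after reduction, and a prime `r ≡ 2 (mod 3)` dividing `M'`. -/
theorem haupt3_of_series {q : ℕ} (hq : q.Prime) (hA : A.LiesOverPrime q) (hqM : ¬ q ∣ M')
    (hgood : 5 ≤ q ∨ (q = 3 ∧ 2 ∣ M') ∨ (q = 2 ∧ 3 ∣ M')) (hq3 : q ≠ 3)
    {r : ℕ} (hr : r.Prime) (hr3 : r % 3 = 2) (hrM : r ∣ M')
    (red' : B' →+* modularFunctionFieldFullC (ResidueField A) M') (x' : B')
    (hx' : red' x' = Jbar (ResidueField A) M')
    (y : LaurentSeries A)
    (hy : coeffMap A.subtype y ∈ laurentBaseChange KQ (modularFunctionFieldFull M'))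
    (hyk : coeffMap (residue A) y ∈ modularFunctionFieldFullC (ResidueField A) M')
    (hrel : jBar M' * (⟨coeffMap A.subtype y, hy⟩ : FN M') ^ 3 =
      ((⟨coeffMap A.subtype y, hy⟩ : FN M') + 27) *
        ((⟨coeffMap A.subtype y, hy⟩ : FN M') + 243) ^ 3)
    (yh yi : B') (hyh : red' yh = ⟨coeffMap (residue A) y, hyk⟩)
    (hyy : red' yh * red' yi = 1) :
    Haupt3 A M' red' := by
  refine ⟨yh, yi, hyy, ?_, ?_⟩
  · rw [hyh]
    exact rel3_red A M' y hy hyk hrel
  · intro s hs _
    have hQ : 0 ≤ s.ord (Jbar (ResidueField A) M') := hx' ▸ hs x'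
    have key := Fermat.Agent.CAR.Ell.three_dvd_ord_add_27_of_rel A M' q hq hqM hgood hq3 r hr hr3
      hrM hA y hy hyk hrel s hQ
    rw [map_neg, sub_neg_eq_add, map_ofNat] at key
    rw [hyh]
    exact key

end Series

end Fermat.Agent.CAR.Inst.EllFin
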