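import Mathlib
import Fermat.Agent.CAR.Inst.EllFin
import Fermat.Agent.CAR.LiftK0.ContractLiftJ
import Fermat.Agent.CAR.V3.MidRing

/-!
# CAR, wall (ELL): `hell` at the `K0`-level objects

`EllFin.hell_fin` is stated for any contract with `κ = modularFunctionFieldFullC k M'`.  Here its
two side hypotheses `hk` (constants at the finite places) and `hx'` (`red' x' = J̄`) are discharged
for the canonical `B' = integralClosure (W0[J(q^{M'})]) (K0·F_{M'})` (ruling #6, R2) and any
`red' : B' →+* κ` which is `redF` on `B'` (the binders of `LiftK0.Closed.contract_lift_J`):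

* `hk_of_redOnto` : generic `(L, A, π)`: the constants lie in every finite place (`RedOnto`);
* `hk_K0` : the same at `(K0, W0, resW0)` for the canonical `B'`;
* `coe_redF_of_coe_eq_Jd`, `red'_eq_Jbar` : `red' x' = J̄` for `x' : B'` with `x' = J(q)`;
* `hell_K0` : the hypothesis `hell` of `Core.pointPkg_of_contract` / `LInst.hlocal_of_contract`
  for any contract on the canonical `B'` with `D = d/dJ̄`, `G = J̄⁸ (J̄ - 1728)⁶`, `x' = J(q)`:
  unconditional for `5 ≤ q`; from `EllFin.Haupt2` / `EllFin.Haupt3` for `q = 3` / `q = 2`.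
-/

set_option autoImplicit false
set_option linter.unusedSectionVars false
set_option synthInstance.maxHeartbeats 400000
set_option maxHeartbeats 1000000

namespace Fermat.Agent.CAR.Inst.EllFinK0

open AlgebraicCurve ModularCurve HahnSeries IsLocalRing
open Fermat.Agent.S28 Fermat.Agent.Lib.Red Fermat.Agent.Lib.Red.BaseFn Fermat.Agent.CAR.K0
  Fermat.Agent.CAR.Local.Inst Fermat.Agent.CAR.Local.Inst.LiftInst Fermat.Agent.Lib.FF.ModL
  Fermat.Agent.ESJ.Cong.LevelGen

local notation "Qb" => AlgebraicClosure ℚ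

section Generic

variable {L : Type*} [Field L] [Algebra ℚ L] {A : ValuationSubring L} {k : Type} [Field k]
  {π : A →+* k} {N : ℕ} [NeZero N] {B : BaseFn.Data A π N}
  {hπ : ∀ a : A, ¬ IsUnit a → π a = 0} (hsurj : Function.Surjective π) {hNk : (N : k) ≠ 0}
  {B' : Type*} [CommRing B'] {red' : B' →+* ↥(modularFunctionFieldFullC k N)}

include hsurj in
/-- **The constants lie in every finite place** (`red' B'` contains the constants). -/
theorem hk_of_redOnto (H : RedOnto B hπ hNk red')
    (Vs : ValuationSubring ↥(modularFunctionFieldFullC k N)) (hVs : IsFinPlace red' Vs) (c : k) :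
    algebraMap k ↥(modularFunctionFieldFullC k N) c ∈ Vs := by
  obtain ⟨a, ha⟩ := H.exists_const hsurj c
  rw [← ha]
  exact hVs.2 a

/-- The reduction of an element of the Gauss ring with series `J(q^e)` is `J̄(q^e)`. -/
theorem coe_redF_of_coe_eq_Jd (hπ : ∀ a : A, ¬ IsUnit a → π a = 0) (hNk : (N : k) ≠ 0)
    (f : Ow A π N hNk) (e : ℕ)
    (hf : ((f : ↥(laurentBaseChange L (modularFunctionFieldFull N))) : LaurentSeries L) =
      TD.Jd L e) :
    ((redF A π N hπ hNk f : ↥(modularFunctionFieldFullC k N)) : LaurentSeries k) =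
      TD.Jd k e := by
  rw [coe_redF]
  have h1 : OwToGauss A π N hNk f =
      ⟨TD.Jd L e, Fermat.Agent.CAR.V3.MidRing.Jd_mem_gaussRing A π e⟩ :=
    Subtype.ext ((coe_OwToGauss hNk f).trans hf)
  rw [h1]
  exact Fermat.Agent.CAR.V3.MidRing.red_Jd A π e _

end Generic

section K0

variable {A : ValuationSubring Qb} {q : ℕ} (hq : q.Prime) (hA : A.LiesOverPrime q)
  (M' : ℕ) [NeZero M'] (hM' : (M' : ResidueField A) ≠ 0)
  (red' : ↥(integralClosure ↥((Data.ofJ (W0 A) (resW0 A) M').AX)
      ↥(laurentBaseChange ↥(K0 A) (modularFunctionFieldFull M'))) →+*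
    ↥(modularFunctionFieldFullC (ResidueField A) M'))
  (hred' : ∀ b : ↥(integralClosure ↥((Data.ofJ (W0 A) (resW0 A) M').AX)
      ↥(laurentBaseChange ↥(K0 A) (modularFunctionFieldFull M'))),
    red' b = redF (W0 A) (resW0 A) M' (resW0_eq_zero_of_not_isUnit A) hM'
      ⟨b, (Data.ofJ (W0 A) (resW0 A) M').mem_Ow_of_isIntegral_AX hM' b.2⟩)

include hq hA hred' in
/-- **`hk` at the `K0`-level objects**: the constants lie in every finite place of the canonical
`B'`. -/
theorem hk_K0 :
    ∀ Vs : ValuationSubring ↥(modularFunctionFieldFullC (ResidueField A) M'),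
      IsFinPlace red' Vs → ∀ c : ResidueField A,
        algebraMap (ResidueField A) ↥(modularFunctionFieldFullC (ResidueField A) M') c ∈ Vs :=
  fun Vs hVs c => hk_of_redOnto (resW0_surjective hq hA)
    (redOnto_of_apply (Data.ofJ (W0 A) (resW0 A) M') _ hM' red' hred') Vs hVs c

include hred' in
/-- **`hx'` at the `K0`-level objects**: an element of the canonical `B'` which is `J(q)` reduces
to `J̄`. -/
theorem red'_eq_Jbar
    (x' : ↥(integralClosure ↥((Data.ofJ (W0 A) (resW0 A) M').AX)
      ↥(laurentBaseChange ↥(K0 A) (modularFunctionFieldFull M'))))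
    (hx : (x' : ↥(laurentBaseChange ↥(K0 A) (modularFunctionFieldFull M'))) =
      jLevel ↥(K0 A) M') :
    red' x' = Jbar (ResidueField A) M' := by
  rw [hred' x']
  apply Subtype.ext
  rw [coe_redF_of_coe_eq_Jd (resW0_eq_zero_of_not_isUnit A) hM' _ 1 (by rw [hx]; rfl),
    TD.Jd_one]
  rfl

include hq hA hred' in
/-- **`hell` at the `K0`-level objects**: for any contract on the canonical `B'` written with
`D = d/dJ̄`, `G = J̄⁸ (J̄ - 1728)⁶` and `x' = J(q)`, at a level `M'` prime to `q` and divisible by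
a prime `r ≡ 11 (mod 12)`.  Unconditional for `5 ≤ q`. -/
theorem hell_K0 [IsAlgClosed (ResidueField A)] (hqM : ¬ q ∣ M')
    (hr : ∃ r : ℕ, r.Prime ∧ r ≡ 11 [MOD 12] ∧ r ∣ M')
    {B F : Type*} [CommRing B] [IsDomain B] [Field F] [Algebra B F] [IsFractionRing B F]
    [IsNoetherianRing B] [IsIntegrallyClosed B]
    {O : Fin 3 → ValuationSubring F}
    {red : ∀ i, O i →+* ↥(modularFunctionFieldFullC (ResidueField A) M')}
    {hred : ∀ i, ∀ x : O i, red i x = 0 ↔ x ∈ maximalIdeal (O i)}
    {hBO : ∀ i, ∀ b : B, algebraMap B F b ∈ O i}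
    {π₀ π₂ : ↥(integralClosure ↥((Data.ofJ (W0 A) (resW0 A) M').AX)
      ↥(laurentBaseChange ↥(K0 A) (modularFunctionFieldFull M'))) →+* B}
    {q₀ : B} {x' : ↥(integralClosure ↥((Data.ofJ (W0 A) (resW0 A) M').AX)
      ↥(laurentBaseChange ↥(K0 A) (modularFunctionFieldFull M')))}
    {u u₁ v₁ h : B} {Db : ↥(modularFunctionFieldFullC (ResidueField A) M')} {N e : ℕ}
    (hx : (x' : ↥(laurentBaseChange ↥(K0 A) (modularFunctionFieldFull M'))) =
      jLevel ↥(K0 A) M')
    (H : Contract O red hred hBO red' π₀ π₂ (Deriv.dJ (ResidueField A) M') q₀ x' u u₁ v₁ h Db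
      (Deriv.GJ (ResidueField A) M') N e)
    (h3 : q = 3 → EllFin.Haupt2 A M' red') (h2 : q = 2 → EllFin.Haupt3 A M' red') :
    ∀ Vs : ValuationSubring ↥(modularFunctionFieldFullC (ResidueField A) M'),
      IsFinPlace red' Vs → ∃ y, Deriv.dJ (ResidueField A) M' (red' y) ≠ 0 ∧
        Deriv.dJ (ResidueField A) M' (red' y) ^ 12 * Deriv.GJ (ResidueField A) M' ∉
          Vs.nonunits :=
  EllFin.hell_fin A M' hq hA hqM hr H (red'_eq_Jbar M' hM' red' hred' x' hx)
    (hk_K0 hq hA M' hM' red' hred') h3 h2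

end K0

end Fermat.Agent.CAR.Inst.EllFinK0
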