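import Mathlib
import Fermat.Agent.CAR.Local.Inst.Contract
import Fermat.Agent.CAR.Local.Inst.Deriv
import Fermat.Agent.CAR.Inst.ContractPull
import Fermat.Agent.CAR.Inst.EllFinK0
import Fermat.Agent.CAR.V3.MidKappa
import Fermat.Agent.CAR.V3.MidUnits
import Fermat.Agent.CAR.V3.Restrict
import Fermat.Agent.CAR.K0.Setup

/-!
# CAR (instance layer, finite chart): the `q`-, pull-back-, mid- and derivation fields of the
`Contract`, in TRANSFER form

Literal family `O = ![OInf3 hB, OMid …, OZero3 hB w]` (ruling #8), `hB = badSetup_W0 hq hA M' hqM`,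
ANY `red : ∀ i, O i →+* κ` agreeing pointwise with `redInf3 hB` / `redMid` (as series) /
`redZero3 hB w`, ANY ring `B` with `[Algebra B F3]` and `hBO`, ANY ring `B'` with a map
`ι : B' → F'` into the Gauss ring `Ow` and `red' = redF ∘ ι`, ANY `π₀ π₂ : B' →+* B` which are
`π_0^*`, `π_2^*` inside `F3`, `qB : B` with image `q`, `x' : B'` with `ι x' = J(q)`.

The statements are the fields `q_ne q_mem unif_inf unif_zero inf_π₀ mid_π₀ mid_π₂ zero_π₂ deriv
deriv_x d_mem unif_mid cd e_ne` of `CAR.Local.Inst.Contract`, literally (`D = Deriv.dJ k M'`,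
`e = q - 1`).
-/

set_option autoImplicit false
set_option linter.unusedSectionVars false
set_option linter.style.haveILetI false
set_option synthInstance.maxHeartbeats 400000
set_option maxHeartbeats 1000000

noncomputable section

namespace Fermat.Agent.CAR.Inst.FinClose

open ModularCurve HahnSeries IsLocalRing Fermat.Agent.S24 Fermat.Agent.S28
  Fermat.Agent.Lib.Red Fermat.Agent.CAR.K0 Fermat.Agent.CAR.V3
  Fermat.Agent.CAR.V3.MidRing Fermat.Agent.BAD.TwoVal Fermat.Agent.CAR.Local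
  Fermat.Agent.CAR.Local.Inst Fermat.Agent.ESJ.Cong.LevelGen

local notation "Qb" => AlgebraicClosure ℚ

variable {q : ℕ} [NeZero q] (hq : q.Prime) (A : ValuationSubring Qb) (hA : A.LiesOverPrime q)
  {ζ : Qb} (hζ : IsPrimitiveRoot ζ q) (M' : ℕ) [NeZero M'] (hqM : ¬ q ∣ M')
  {w : laurentBaseChange ↥(K0 A) (modularFunctionFieldFull (M' * q * q)) ≃ₐ[↥(K0 A)]
    laurentBaseChange ↥(K0 A) (modularFunctionFieldFull (M' * q * q))}
  (red : ∀ i : Fin 3, ((![OInf3 (badSetup_W0 hq hA M' hqM),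
      OMid hq A hA hζ M' hqM (IsLocalRing.residue A),
      OZero3 (badSetup_W0 hq hA M' hqM) w] :
      Fin 3 → ValuationSubring
        ↥(laurentBaseChange ↥(K0 A) (modularFunctionFieldFull (M' * q * q)))) i) →+*
    modularFunctionFieldFullC (IsLocalRing.ResidueField A) M')
  (hr0 : ∀ f : OInf3 (badSetup_W0 hq hA M' hqM), red 0 f = redInf3 (badSetup_W0 hq hA M' hqM) f)
  (hr1 : ∀ f : OMid hq A hA hζ M' hqM (IsLocalRing.residue A),
    ((red 1 f : modularFunctionFieldFullC (IsLocalRing.ResidueField A) M') :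
      LaurentSeries (IsLocalRing.ResidueField A))
      = redMid hq A hA hζ M' hqM (IsLocalRing.residue A) f)
  (hr2 : ∀ f : OZero3 (badSetup_W0 hq hA M' hqM) w,
    red 2 f = redZero3 (badSetup_W0 hq hA M' hqM) w f)
  {B : Type*} [CommRing B]
  [Algebra B ↥(laurentBaseChange ↥(K0 A) (modularFunctionFieldFull (M' * q * q)))]
  (hBO : ∀ i : Fin 3, ∀ b : B,
    algebraMap B ↥(laurentBaseChange ↥(K0 A) (modularFunctionFieldFull (M' * q * q))) b
      ∈ (![OInf3 (badSetup_W0 hq hA M' hqM),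
        OMid hq A hA hζ M' hqM (IsLocalRing.residue A),
        OZero3 (badSetup_W0 hq hA M' hqM) w] :
        Fin 3 → ValuationSubring
          ↥(laurentBaseChange ↥(K0 A) (modularFunctionFieldFull (M' * q * q)))) i)
  {B' : Type*} [CommRing B']
  (ι : B' → ↥(laurentBaseChange ↥(K0 A) (modularFunctionFieldFull M')))
  (hι : ∀ y, ι y ∈ Ow (W0 A) (resW0 A) M' (badSetup_W0 hq hA M' hqM).hMk)
  (red' : B' →+* modularFunctionFieldFullC (IsLocalRing.ResidueField A) M')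
  (hred' : ∀ y, red' y = redF (W0 A) (resW0 A) M' (resW0_eq_zero_of_not_isUnit A)
    (badSetup_W0 hq hA M' hqM).hMk ⟨ι y, hι y⟩)
  (π₀ π₂ : B' →+* B)
  (hπ₀ : ∀ y, algebraMap B ↥(laurentBaseChange ↥(K0 A) (modularFunctionFieldFull (M' * q * q)))
    (π₀ y) = piStar0 ↥(K0 A) M' q (ι y))
  (hπ₂ : ∀ y, algebraMap B ↥(laurentBaseChange ↥(K0 A) (modularFunctionFieldFull (M' * q * q)))
    (π₂ y) = piStar2 ↥(K0 A) M' q (ι y))
  {qB : B}
  (hqB : algebraMap B ↥(laurentBaseChange ↥(K0 A) (modularFunctionFieldFull (M' * q * q))) qB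
    = ((q : ℕ) : ↥(laurentBaseChange ↥(K0 A) (modularFunctionFieldFull (M' * q * q)))))
  {x' : B'} (hx' : ι x' = jLevel ↥(K0 A) M')

/-! ### The fields of `q` -/

include hq hζ hqM hqB in
/-- `q_ne`. -/
theorem q_ne : qB ≠ 0 := by
  intro h
  rw [h, map_zero] at hqB
  exact MidUnits.natCast_ne_zero_F3 hq A hζ M' hqM hqB.symm

include hqB in
/-- `q_mem`. -/
theorem q_mem : ∀ i : Fin 3,
    algebraMap B ↥(laurentBaseChange ↥(K0 A) (modularFunctionFieldFull (M' * q * q))) qB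
      ∈ ((![OInf3 (badSetup_W0 hq hA M' hqM),
        OMid hq A hA hζ M' hqM (IsLocalRing.residue A),
        OZero3 (badSetup_W0 hq hA M' hqM) w] :
        Fin 3 → ValuationSubring
          ↥(laurentBaseChange ↥(K0 A) (modularFunctionFieldFull (M' * q * q)))) i).nonunits := by
  intro i
  rw [hqB]
  fin_cases i
  · exact Pull.q_mem_inf (badSetup_W0 hq hA M' hqM) (Restrict.isUnif_W0 hq hA)
  · exact natCast_mem_nonunits_OMid hq A hA hζ M' hqM (IsLocalRing.residue A)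
      (residue_eq_zero_of_not_isUnit A)
  · exact Pull.q_mem_zero (badSetup_W0 hq hA M' hqM) w (Restrict.isUnif_W0 hq hA)

include hqB in
/-- `unif_inf`. -/
theorem unif_inf : ∀ z ∈ (OInf3 (badSetup_W0 hq hA M' hqM)).nonunits,
    z / algebraMap B ↥(laurentBaseChange ↥(K0 A) (modularFunctionFieldFull (M' * q * q))) qB
      ∈ OInf3 (badSetup_W0 hq hA M' hqM) := by
  rw [hqB]
  exact Pull.unif_inf (badSetup_W0 hq hA M' hqM) (Restrict.isUnif_W0 hq hA)

include hqB in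
/-- `unif_zero`. -/
theorem unif_zero : ∀ z ∈ (OZero3 (badSetup_W0 hq hA M' hqM) w).nonunits,
    z / algebraMap B ↥(laurentBaseChange ↥(K0 A) (modularFunctionFieldFull (M' * q * q))) qB
      ∈ OZero3 (badSetup_W0 hq hA M' hqM) w := by
  rw [hqB]
  exact Pull.unif_zero (badSetup_W0 hq hA M' hqM) w (Restrict.isUnif_W0 hq hA)

/-! ### The pull-backs -/

include hr0 hred' hπ₀ in
/-- `inf_π₀`. -/
theorem inf_π₀ : ∀ y : B', redOn _ (red 0) (hBO 0) (π₀ y) = red' y := by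
  intro y
  obtain ⟨hy', e⟩ := Pull.inf_pi0 (badSetup_W0 hq hA M' hqM) (ι y) (hι y)
  rw [hred' y, ← e]
  refine (hr0 _).trans ?_
  exact congrArg (redInf3 (badSetup_W0 hq hA M' hqM)) (Subtype.ext (hπ₀ y))

include hr2 hred' hπ₂ in
/-- `zero_π₂`. -/
theorem zero_π₂ (hw : IsAL3 M' q w) : ∀ y : B', redOn _ (red 2) (hBO 2) (π₂ y) = red' y := by
  intro y
  obtain ⟨hy', e⟩ := Pull.zero_pi2 (badSetup_W0 hq hA M' hqM) hw (ι y) (hι y)
  rw [hred' y, ← e]
  refine (hr2 _).trans ?_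
  exact congrArg (redZero3 (badSetup_W0 hq hA M' hqM) w) (Subtype.ext (hπ₂ y))

include hr1 hred' hπ₀ in
/-- `mid_π₀`. -/
theorem mid_π₀ : ∀ y : B', redOn _ (red 1) (hBO 1) (π₀ y) = red' y := by
  intro y
  apply Subtype.ext
  have hm : piStar0 ↥(K0 A) M' q (ι y) ∈ OMid hq A hA hζ M' hqM (IsLocalRing.residue A) :=
    hπ₀ y ▸ hBO 1 (π₀ y)
  rw [hred' y]
  refine (hr1 _).trans ?_
  refine Eq.trans (congrArg (redMid hq A hA hζ M' hqM (IsLocalRing.residue A))
    (Subtype.ext (hπ₀ y) : (⟨_, hBO 1 (π₀ y)⟩ :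
      OMid hq A hA hζ M' hqM (IsLocalRing.residue A)) = ⟨_, hm⟩)) ?_
  exact redMid_piStar0 hq A hA hζ M' hqM (badSetup_W0 hq hA M' hqM).hMk (ι y) (hι y) hm

include hr1 hred' hπ₂ in
/-- `mid_π₂`. -/
theorem mid_π₂ : ∀ y : B', redOn _ (red 1) (hBO 1) (π₂ y) = red' y := by
  intro y
  apply Subtype.ext
  have hm : piStar2 ↥(K0 A) M' q (ι y) ∈ OMid hq A hA hζ M' hqM (IsLocalRing.residue A) :=
    hπ₂ y ▸ hBO 1 (π₂ y)
  rw [hred' y]
  refine (hr1 _).trans ?_
  refine Eq.trans (congrArg (redMid hq A hA hζ M' hqM (IsLocalRing.residue A))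
    (Subtype.ext (hπ₂ y) : (⟨_, hBO 1 (π₂ y)⟩ :
      OMid hq A hA hζ M' hqM (IsLocalRing.residue A)) = ⟨_, hm⟩)) ?_
  exact redMid_piStar2 hq A hA hζ M' hqM (badSetup_W0 hq hA M' hqM).hMk (ι y) (hι y) hm

/-! ### The uniformiser `d = π₂ x' - π₀ x'` of the middle component -/

include hπ₀ hπ₂ hx' in
/-- `π₂ x' - π₀ x' = d` (helper7's `dMid`). -/
theorem coe_d :
    algebraMap B ↥(laurentBaseChange ↥(K0 A) (modularFunctionFieldFull (M' * q * q)))
      (π₂ x' - π₀ x') = dMid A M' q := by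
  rw [map_sub, hπ₂, hπ₀, hx']
  exact dPull_jLevel A M'

include hπ₀ hπ₂ hx' in
/-- `d_mem`. -/
theorem d_mem :
    algebraMap B ↥(laurentBaseChange ↥(K0 A) (modularFunctionFieldFull (M' * q * q)))
      (π₂ x' - π₀ x') ∈ (OMid hq A hA hζ M' hqM (IsLocalRing.residue A)).nonunits := by
  rw [coe_d A M' ι π₀ π₂ hπ₀ hπ₂ hx']
  exact dMid_mem_nonunits_OMid hq A hA hζ M' hqM (IsLocalRing.residue A)
    (residue_eq_zero_of_not_isUnit A)

include hπ₀ hπ₂ hx' in
/-- `unif_mid`. -/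
theorem unif_mid : ∀ z ∈ (OMid hq A hA hζ M' hqM (IsLocalRing.residue A)).nonunits,
    z / algebraMap B ↥(laurentBaseChange ↥(K0 A) (modularFunctionFieldFull (M' * q * q)))
      (π₂ x' - π₀ x') ∈ OMid hq A hA hζ M' hqM (IsLocalRing.residue A) := by
  rw [coe_d A M' ι π₀ π₂ hπ₀ hπ₂ hx']
  exact MidKappa.div_dMid_mem hq A hA hζ M' hqM

/-! ### The derivation -/

/-- `deriv`. -/
theorem deriv [IsAlgClosed (IsLocalRing.ResidueField A)] :
    EllOrder.IsDeriv (Deriv.dJ (IsLocalRing.ResidueField A) M') :=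
  Deriv.isDeriv_dJ (IsLocalRing.ResidueField A) M'

include hred' hx' in
/-- `red' x' = J̄`. -/
theorem red'_x' : red' x' = Fermat.Agent.Lib.FF.ModL.Jbar (IsLocalRing.ResidueField A) M' := by
  rw [hred' x']
  apply Subtype.ext
  have hc : (((⟨ι x', hι x'⟩ : Ow (W0 A) (resW0 A) M' (badSetup_W0 hq hA M' hqM).hMk) :
      ↥(laurentBaseChange ↥(K0 A) (modularFunctionFieldFull M'))) : LaurentSeries ↥(K0 A))
      = TD.Jd ↥(K0 A) 1 := by
    show ((ι x' : ↥(laurentBaseChange ↥(K0 A) (modularFunctionFieldFull M'))) :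
      LaurentSeries ↥(K0 A)) = _
    rw [hx']
    rfl
  rw [EllFinK0.coe_redF_of_coe_eq_Jd (resW0_eq_zero_of_not_isUnit A)
    (badSetup_W0 hq hA M' hqM).hMk _ 1 hc, TD.Jd_one]
  rfl

include hred' hx' in
/-- `deriv_x`. -/
theorem deriv_x [IsAlgClosed (IsLocalRing.ResidueField A)] :
    Deriv.dJ (IsLocalRing.ResidueField A) M' (red' x') = 1 := by
  rw [red'_x' hq A hA M' hqM ι hι red' hred' hx']
  exact Deriv.dJ_Jbar (IsLocalRing.ResidueField A) M'

include hr1 hred' hπ₀ hπ₂ hx' in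
/-- `cd`. -/
theorem cd [IsAlgClosed (IsLocalRing.ResidueField A)]
    (hκ : ∀ f : OMid hq A hA hζ M' hqM (IsLocalRing.residue A),
      redMid hq A hA hζ M' hqM (IsLocalRing.residue A) f
        ∈ modularFunctionFieldFullC (IsLocalRing.ResidueField A) M') :
    ∀ y : B', ∃ hz :
      algebraMap B ↥(laurentBaseChange ↥(K0 A) (modularFunctionFieldFull (M' * q * q)))
          (π₂ y - π₀ y)
        / algebraMap B ↥(laurentBaseChange ↥(K0 A) (modularFunctionFieldFull (M' * q * q)))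
          (π₂ x' - π₀ x')
        ∈ OMid hq A hA hζ M' hqM (IsLocalRing.residue A),
      red 1 ⟨_, hz⟩ = Deriv.dJ (IsLocalRing.ResidueField A) M' (red' y) := by
  intro y
  obtain ⟨hz, e⟩ := MidKappa.cd_dJ hq A hA hζ M' hqM hκ (badSetup_W0 hq hA M' hqM).hMk
    (ι y) (hι y)
  have e1 : algebraMap B ↥(laurentBaseChange ↥(K0 A) (modularFunctionFieldFull (M' * q * q)))
        (π₂ y - π₀ y)
      / algebraMap B ↥(laurentBaseChange ↥(K0 A) (modularFunctionFieldFull (M' * q * q)))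
        (π₂ x' - π₀ x')
      = (piStar2 ↥(K0 A) M' q (ι y) - piStar0 ↥(K0 A) M' q (ι y)) / dMid A M' q := by
    rw [coe_d A M' ι π₀ π₂ hπ₀ hπ₂ hx', map_sub, hπ₂, hπ₀]
  refine ⟨e1 ▸ hz, ?_⟩
  rw [hred' y, ← e]
  apply Subtype.ext
  refine (hr1 _).trans ?_
  rw [MidKappa.coe_redMidK]
  exact congrArg (redMid hq A hA hζ M' hqM (IsLocalRing.residue A)) (Subtype.ext e1)

include hq in
/-- `e_ne`. -/
theorem e_ne : q - 1 ≠ 0 := by
  have := hq.two_le
  omega

end Fermat.Agent.CAR.Inst.FinClose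

end
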