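import Mathlib
import Fermat.Agent.CAR.Inst.LiftRel
import Fermat.Agent.CAR.LiftK0.T3K0Closed
import Fermat.Agent.CAR.Local.Inst.LiftInstClosed
import Fermat.Agent.CAR.Local.Inst.LiftInstInf

/-!
# CAR / LIFT over `(K0, W0, resW0)` for EVERY residue characteristic (closed forms)

`A` a valuation subring of `ℚ̄` over a prime `q`, `K0` its inertia field, `W0 = A ∩ K0`,
`k` the residue field, `M'` a level with `(M' : k) ≠ 0`, and the base function
`BJ := BaseFn.Data.ofJ (W0 A) (resW0 A) M'` (`x = J(q^{M'})`).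

For `q ≥ 5` the statements `Lift.T3 BJ`, `Lift.T3' BJ` are `LiftK0.Closed.T3_ofJ_K0`,
`T3'_ofJ_K0`.  For `q = 3` with `2 ∣ M'` (resp. `q = 2` with `3 ∣ M'`) the chart change from the
Hauptmodul base of level `2` (resp. `3`) (`Inst/LiftRel.lean`) gives `Lift.T3 BJ` and the
conclusions of `Lift.lift_frac_inf BJ`, `Lift.lift_sep_inf BJ`.  Here they are put together:
under `(hq2 : q = 2 → 3 ∣ M') (hq3 : q = 3 → 2 ∣ M')`

* `T3_ofJ_all` : `Lift.T3 BJ`; `h23_ofJ` : the hypothesis `h23` of `LiftInstClosed`;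
* `liftFracInf_ofJ_all`, `liftSepInf_ofJ_all` : the conclusions of `Lift.lift_frac_inf BJ`,
  `Lift.lift_sep_inf BJ`; `cuspLift_ofJ_all` : `LiftInf.CuspLift BJ`;
* `contract_lift_ofJ_all`, `hlift_ofJ_all`, `contract_lift_redBp_all` : the contract field `lift`
  with no hypothesis left.
-/

set_option autoImplicit false
set_option synthInstance.maxHeartbeats 400000
set_option maxHeartbeats 1000000

namespace Fermat.Agent.CAR.Inst.LiftJ23Inst

open HahnSeries ModularCurve AlgebraicCurve Fermat.Agent.S28 Fermat.Agent.Lib.Red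
  Fermat.Agent.Lib.Red.BaseFn Fermat.Agent.CAR.Lift Fermat.Agent.CAR.K0
  Fermat.Agent.CAR.Local.Inst.LiftInst

local notation "Qb" => AlgebraicClosure ℚ

variable {q : ℕ} (hq : q.Prime) {A : ValuationSubring Qb} (hA : A.LiesOverPrime q)

/-! ### The residue characteristic -/

include hq hA in
/-- A prime `ℓ ≠ q` is nonzero in the residue field. -/
theorem natCast_prime_ne_zero {ℓ : ℕ} (hℓ : ℓ.Prime) (hne : q ≠ ℓ) :
    ((ℓ : ℕ) : IsLocalRing.ResidueField A) ≠ 0 := by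
  have hqk : (q : IsLocalRing.ResidueField A) = 0 := resW0_natCast_eq_zero hq hA
  have : CharP (IsLocalRing.ResidueField A) q := (CharP.charP_iff_prime_eq_zero hq).mpr hqk
  intro h0
  rw [CharP.cast_eq_zero_iff (IsLocalRing.ResidueField A) q] at h0
  exact hne ((Nat.prime_dvd_prime_iff_eq hq hℓ).1 h0)

include hq hA in
theorem two_ne_zero_of_ne (h2 : q ≠ 2) : (2 : IsLocalRing.ResidueField A) ≠ 0 := by
  have h := natCast_prime_ne_zero hq hA Nat.prime_two h2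
  exact_mod_cast h

include hq hA in
theorem three_ne_zero_of_ne (h3 : q ≠ 3) : (3 : IsLocalRing.ResidueField A) ≠ 0 := by
  have h := natCast_prime_ne_zero hq hA Nat.prime_three h3
  exact_mod_cast h

variable {M' : ℕ} [NeZero M'] {hM' : (M' : IsLocalRing.ResidueField A) ≠ 0}

/-! ### The finite chart: `Lift.T3` for `J` -/

include hq hA in
/-- **(T3) for `x = J(q^{M'})`, `q ≠ 2`, `M' = m * 2`** (chart change from the Hauptmodul of
level `2`). -/
theorem T3_ofJ_of_eq_mul_two (h2 : q ≠ 2) {m : ℕ} [NeZero m] (hM : M' = m * 2) :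
    T3 (Data.ofJ (W0 A) (resW0 A) M') (resW0_eq_zero_of_not_isUnit A) hM' :=
  Fermat.Agent.CAR.Inst.LiftRel.T3_ofJ_of_haupt2 (resW0_eq_zero_of_not_isUnit A)
    (resW0_surjective hq hA) M' m hM' hM (two_ne_zero_of_ne hq hA h2)
    (Fermat.Agent.CAR.LiftK0.Closed.T3_ofHaupt2_K0 hq hA hM hM' (two_ne_zero_of_ne hq hA h2))

include hq hA in
/-- **(T3) for `x = J(q^{M'})`, `q ≠ 3`, `M' = m * 3`** (chart change from the Hauptmodul of
level `3`). -/
theorem T3_ofJ_of_eq_mul_three (h3 : q ≠ 3) {m : ℕ} [NeZero m] (hM : M' = m * 3) :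
    T3 (Data.ofJ (W0 A) (resW0 A) M') (resW0_eq_zero_of_not_isUnit A) hM' :=
  Fermat.Agent.CAR.Inst.LiftRel.T3_ofJ_of_haupt3 (resW0_eq_zero_of_not_isUnit A)
    (resW0_surjective hq hA) M' m hM' hM (three_ne_zero_of_ne hq hA h3)
    (Fermat.Agent.CAR.LiftK0.Closed.T3_ofHaupt3_K0 hq hA hM hM' (three_ne_zero_of_ne hq hA h3))

omit [NeZero M'] in
/-- A factorisation `M' = m * ℓ` with `m ≠ 0` from `ℓ ∣ M'`. -/
theorem exists_eq_mul_of_dvd [NeZero M'] {ℓ : ℕ} (h : ℓ ∣ M') :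
    ∃ m : ℕ, NeZero m ∧ M' = m * ℓ := by
  obtain ⟨m, hm⟩ := h
  refine ⟨m, ⟨?_⟩, by rw [hm, mul_comm]⟩
  rintro rfl
  exact NeZero.ne M' (by rw [hm, mul_zero])

include hq hA in
/-- **(T3) for `x = J(q^{M'})` over `(K0, W0, resW0)`, every `q`**: `3 ∣ M'` if `q = 2`,
`2 ∣ M'` if `q = 3`. -/
theorem T3_ofJ_all (hq2 : q = 2 → 3 ∣ M') (hq3 : q = 3 → 2 ∣ M') :
    T3 (Data.ofJ (W0 A) (resW0 A) M') (resW0_eq_zero_of_not_isUnit A) hM' := by
  by_cases h2 : q = 2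
  · obtain ⟨m, hm, hM⟩ := exists_eq_mul_of_dvd (hq2 h2)
    have h3 : q ≠ 3 := by omega
    exact T3_ofJ_of_eq_mul_three hq hA h3 hM
  · by_cases h3 : q = 3
    · obtain ⟨m, hm, hM⟩ := exists_eq_mul_of_dvd (hq3 h3)
      exact T3_ofJ_of_eq_mul_two hq hA h2 hM
    · exact T3_ofJ hq hA h2 h3

include hq hA in
/-- The hypothesis `h23` of `LiftInstClosed` (`liftFrac_ofJ`, `contract_lift_ofJ`, `hlift_ofJ`,
`contract_lift_redBp`). -/
theorem h23_ofJ (hq2 : q = 2 → 3 ∣ M') (hq3 : q = 3 → 2 ∣ M') :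
    q = 2 ∨ q = 3 →
      T3 (Data.ofJ (W0 A) (resW0 A) M') (resW0_eq_zero_of_not_isUnit A) hM' :=
  fun _ => T3_ofJ_all hq hA hq2 hq3

include hq hA in
/-- (LIFT_s) for `x = J(q^{M'})`, every `q`. -/
theorem liftFrac_ofJ_all (hq2 : q = 2 → 3 ∣ M') (hq3 : q = 3 → 2 ∣ M') :
    LiftFrac (Data.ofJ (W0 A) (resW0 A) M') (resW0_eq_zero_of_not_isUnit A) hM' :=
  liftFrac_ofJ hq hA (h23_ofJ hq hA hq2 hq3)

variable {B' : Type*} [CommRing B']
  {red' : B' →+* ↥(modularFunctionFieldFullC (IsLocalRing.ResidueField A) M')}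

include hq hA in
/-- **The contract field `lift`** for `x = J(q^{M'})` over `(K0, W0, resW0)`, every `q`. -/
theorem contract_lift_ofJ_all
    (H : RedOnto (Data.ofJ (W0 A) (resW0 A) M') (resW0_eq_zero_of_not_isUnit A) hM' red')
    (hq2 : q = 2 → 3 ∣ M') (hq3 : q = 3 → 2 ∣ M') :
    ∀ Vs : ValuationSubring ↥(modularFunctionFieldFullC (IsLocalRing.ResidueField A) M'),
      Fermat.Agent.CAR.Local.Inst.IsFinPlace red' Vs →
        ∀ c ∈ Vs, ∃ a b : B', red' b ∉ Vs.nonunits ∧ red' a = c * red' b :=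
  contract_lift_ofJ hq hA H (h23_ofJ hq hA hq2 hq3)

include hq hA in
/-- (LIFT) in the `hlift` shape of `Uniq.eq_of_lift`, every `q`. -/
theorem hlift_ofJ_all
    (H : RedOnto (Data.ofJ (W0 A) (resW0 A) M') (resW0_eq_zero_of_not_isUnit A) hM' red')
    (hq2 : q = 2 → 3 ∣ M') (hq3 : q = 3 → 2 ∣ M') :
    ∀ V : ValuationSubring ↥(modularFunctionFieldFullC (IsLocalRing.ResidueField A) M'),
      V ≠ ⊤ → (∀ b : B', red' b ∈ V) →
        ∀ c ∈ V, ∃ a b : B', red' b ∉ V.nonunits ∧ red' a = c * red' b :=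
  hlift_ofJ hq hA H (h23_ofJ hq hA hq2 hq3)

include hq hA in
/-- **The contract field `lift`** for the canonical `B' = integralClosure (W0[J(q^{M'})]) F'`,
`red' = redF ∘ incl`, every `q`. -/
theorem contract_lift_redBp_all (hq2 : q = 2 → 3 ∣ M') (hq3 : q = 3 → 2 ∣ M') :
    ∀ Vs : ValuationSubring ↥(modularFunctionFieldFullC (IsLocalRing.ResidueField A) M'),
      Fermat.Agent.CAR.Local.Inst.IsFinPlace
          (redBp (Data.ofJ (W0 A) (resW0 A) M') (resW0_eq_zero_of_not_isUnit A) hM') Vs →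
        ∀ c ∈ Vs, ∃ a b : ↥(integralClosure ↥((Data.ofJ (W0 A) (resW0 A) M').AX)
            ↥(laurentBaseChange ↥(K0 A) (modularFunctionFieldFull M'))),
          redBp (Data.ofJ (W0 A) (resW0 A) M') (resW0_eq_zero_of_not_isUnit A) hM' b ∉
            Vs.nonunits ∧
          redBp (Data.ofJ (W0 A) (resW0 A) M') (resW0_eq_zero_of_not_isUnit A) hM' a =
            c * redBp (Data.ofJ (W0 A) (resW0 A) M') (resW0_eq_zero_of_not_isUnit A) hM' b :=
  contract_lift_redBp hq hA (h23_ofJ hq hA hq2 hq3)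

/-! ### The chart at infinity -/

include hq hA in
/-- **The conclusion of `Lift.lift_frac_inf` for `x = J(q^{M'})` over `(K0, W0, resW0)`, every
`q`.** -/
theorem liftFracInf_ofJ_all (hq2 : q = 2 → 3 ∣ M') (hq3 : q = 3 → 2 ∣ M')
    (Q : Place (IsLocalRing.ResidueField A)
      ↥(modularFunctionFieldFullC (IsLocalRing.ResidueField A) M'))
    (hQ : Q.ord ((Data.ofJ (W0 A) (resW0 A) M').xt (resW0_eq_zero_of_not_isUnit A) hM') ≤ 0)
    {c : ↥(modularFunctionFieldFullC (IsLocalRing.ResidueField A) M')} (hc : 0 ≤ Q.ord c) :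
    ∃ a b : Ow (W0 A) (resW0 A) M' hM',
      (a : ↥(laurentBaseChange ↥(K0 A) (modularFunctionFieldFull M'))) ∈
        Binf (Data.ofJ (W0 A) (resW0 A) M') hM' ∧
      (b : ↥(laurentBaseChange ↥(K0 A) (modularFunctionFieldFull M'))) ∈
        Binf (Data.ofJ (W0 A) (resW0 A) M') hM' ∧
      Q.ord (redF (W0 A) (resW0 A) M' (resW0_eq_zero_of_not_isUnit A) hM' b) = 0 ∧
      redF (W0 A) (resW0 A) M' (resW0_eq_zero_of_not_isUnit A) hM' b ≠ 0 ∧
      redF (W0 A) (resW0 A) M' (resW0_eq_zero_of_not_isUnit A) hM' a =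
        c * redF (W0 A) (resW0 A) M' (resW0_eq_zero_of_not_isUnit A) hM' b := by
  have := Fermat.Agent.Lib.FF.CharP.isAlgClosed_residueField A
  by_cases h2 : q = 2
  · obtain ⟨m, hm, hM⟩ := exists_eq_mul_of_dvd (hq2 h2)
    have h3 : q ≠ 3 := by omega
    exact Fermat.Agent.CAR.Inst.LiftRel.lift_frac_inf_ofJ_of_haupt3
      (resW0_eq_zero_of_not_isUnit A) (resW0_surjective hq hA) M' m hM' hM
      (three_ne_zero_of_ne hq hA h3)
      (Fermat.Agent.CAR.LiftK0.Closed.T3_ofHaupt3_K0 hq hA hM hM' (three_ne_zero_of_ne hq hA h3))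
      (Fermat.Agent.CAR.LiftK0.Closed.T3'_ofHaupt3_K0 hq hA hM hM' (three_ne_zero_of_ne hq hA h3))
      Q hQ hc
  · by_cases h3 : q = 3
    · obtain ⟨m, hm, hM⟩ := exists_eq_mul_of_dvd (hq3 h3)
      exact Fermat.Agent.CAR.Inst.LiftRel.lift_frac_inf_ofJ_of_haupt2
        (resW0_eq_zero_of_not_isUnit A) (resW0_surjective hq hA) M' m hM' hM
        (two_ne_zero_of_ne hq hA h2)
        (Fermat.Agent.CAR.LiftK0.Closed.T3_ofHaupt2_K0 hq hA hM hM' (two_ne_zero_of_ne hq hA h2))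
        (Fermat.Agent.CAR.LiftK0.Closed.T3'_ofHaupt2_K0 hq hA hM hM' (two_ne_zero_of_ne hq hA h2))
        Q hQ hc
    · exact lift_frac_inf (Data.ofJ (W0 A) (resW0 A) M') (resW0_eq_zero_of_not_isUnit A)
        (resW0_surjective hq hA) hM'
        (Fermat.Agent.CAR.LiftK0.Closed.T3'_ofJ_K0 hq hA M' hM'
          (natCast_1728_ne_zero hq hA h2 h3)) Q hQ hc

include hq hA in
/-- **The conclusion of `Lift.lift_sep_inf` for `x = J(q^{M'})` over `(K0, W0, resW0)`, every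
`q`.** -/
theorem liftSepInf_ofJ_all (hq2 : q = 2 → 3 ∣ M') (hq3 : q = 3 → 2 ∣ M')
    {Q Q' : Place (IsLocalRing.ResidueField A)
      ↥(modularFunctionFieldFullC (IsLocalRing.ResidueField A) M')}
    (hQ : Q.ord ((Data.ofJ (W0 A) (resW0 A) M').xt (resW0_eq_zero_of_not_isUnit A) hM') ≤ 0)
    (hQ' : Q'.ord ((Data.ofJ (W0 A) (resW0 A) M').xt (resW0_eq_zero_of_not_isUnit A) hM') ≤ 0)
    (hne : Q ≠ Q') :
    ∃ y : Ow (W0 A) (resW0 A) M' hM',
      (y : ↥(laurentBaseChange ↥(K0 A) (modularFunctionFieldFull M'))) ∈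
        Binf (Data.ofJ (W0 A) (resW0 A) M') hM' ∧
      0 < Q.ord (redF (W0 A) (resW0 A) M' (resW0_eq_zero_of_not_isUnit A) hM' y) ∧
      Q'.ord (redF (W0 A) (resW0 A) M' (resW0_eq_zero_of_not_isUnit A) hM' y) = 0 := by
  have := Fermat.Agent.Lib.FF.CharP.isAlgClosed_residueField A
  by_cases h2 : q = 2
  · obtain ⟨m, hm, hM⟩ := exists_eq_mul_of_dvd (hq2 h2)
    have h3 : q ≠ 3 := by omega
    exact Fermat.Agent.CAR.Inst.LiftRel.lift_sep_inf_ofJ_of_haupt3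
      (resW0_eq_zero_of_not_isUnit A) (resW0_surjective hq hA) M' m hM' hM
      (three_ne_zero_of_ne hq hA h3)
      (Fermat.Agent.CAR.LiftK0.Closed.T3_ofHaupt3_K0 hq hA hM hM' (three_ne_zero_of_ne hq hA h3))
      (Fermat.Agent.CAR.LiftK0.Closed.T3'_ofHaupt3_K0 hq hA hM hM' (three_ne_zero_of_ne hq hA h3))
      hQ hQ' hne
  · by_cases h3 : q = 3
    · obtain ⟨m, hm, hM⟩ := exists_eq_mul_of_dvd (hq3 h3)
      exact Fermat.Agent.CAR.Inst.LiftRel.lift_sep_inf_ofJ_of_haupt2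
        (resW0_eq_zero_of_not_isUnit A) (resW0_surjective hq hA) M' m hM' hM
        (two_ne_zero_of_ne hq hA h2)
        (Fermat.Agent.CAR.LiftK0.Closed.T3_ofHaupt2_K0 hq hA hM hM' (two_ne_zero_of_ne hq hA h2))
        (Fermat.Agent.CAR.LiftK0.Closed.T3'_ofHaupt2_K0 hq hA hM hM' (two_ne_zero_of_ne hq hA h2))
        hQ hQ' hne
    · exact lift_sep_inf (Data.ofJ (W0 A) (resW0 A) M') (resW0_eq_zero_of_not_isUnit A)
        (resW0_surjective hq hA) hM'
        (Fermat.Agent.CAR.LiftK0.Closed.T3'_ofJ_K0 hq hA M' hM'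
          (natCast_1728_ne_zero hq hA h2 h3)) hQ hQ' hne

include hq hA in
/-- **`LiftInf.CuspLift` for `x = J(q^{M'})` over `(K0, W0, resW0)`, every `q`.** -/
theorem cuspLift_ofJ_all (hq2 : q = 2 → 3 ∣ M') (hq3 : q = 3 → 2 ∣ M') :
    Fermat.Agent.CAR.Local.Inst.LiftInf.CuspLift (Data.ofJ (W0 A) (resW0 A) M')
      (resW0_eq_zero_of_not_isUnit A) hM' :=
  fun Q hQ _ hc => liftFracInf_ofJ_all hq hA hq2 hq3 Q hQ.le hc

end Fermat.Agent.CAR.Inst.LiftJ23Inst
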