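/-
CAR / Inst (G7): the units block of the finite-chart contract, at the inertia field.

`K0 = inertiaField A`, `F3 = FK K0 (M' q²)`, the three components `OInf3 hB`, `OMid …`,
`OZero3 hB w` (`hB = K0.badSetup_W0 hq hA M' hqM`) with their `κ`-valued reductions `redInf3 hB`,
`MidKappa.redMidK … hκ`, `redZero3 hB w`.

* `UnitsFields` : the fourteen fields `e_ne prod Db_ne u_* u₁_* v₁_* cert red_h` of
  `CAR.Local.Inst.Contract`, for three components given separately (abstract record);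
* `Db hq hA M' hqM : κ` : the constant `Δ̄^(1-q)` (`coe_Db : (Db : k((q))) = u1 k q`);
* `unitsFields` : the record for ANY ring `B` with an injective `algebraMap B F3` landing in the
  three components and elements `qB dB uB u₁B v₁B hB : B` mapping to `q`, `dMid`, `y₂/y₁`, `y₁`,
  `q¹²/y₂`, `dMid^(12(q-1))·y₁/y₂` (`y₁, y₂` with `q`-expansions `u1`, `u2`), with
  `G = Deriv.GJ k M'`, `N = 12`, `e = q - 1`.

Sources: helper83's `MidUnits` (middle column, certificate), `UnitsZero` (columns at `∞`, `0`),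
helper46's `MidKappa` (`redMidK`).
-/
import Mathlib
import Fermat.Agent.CAR.V3.UnitsZero
import Fermat.Agent.CAR.V3.MidUnits
import Fermat.Agent.CAR.V3.MidKappa
import Fermat.Agent.CAR.K0.Setup

set_option autoImplicit false

noncomputable section

namespace Fermat.Agent.CAR.Inst.UnitsCols

open ModularCurve HahnSeries Fermat.Agent.S24 Fermat.Agent.Lib.Red Fermat.Agent.CAR.K0
  Fermat.Agent.CAR.V3 Fermat.Agent.CAR.V3.MidRing Fermat.Agent.BAD.TwoVal
  Fermat.Agent.CAR.Local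

/-! ### The abstract record -/

/-- The units block (G7) of `CAR.Local.Inst.Contract`, for three components `O0` (`= O_∞`),
`O1` (`= O_mid`), `O2` (`= O_0`) given separately. -/
structure UnitsFields {B F κ : Type*} [CommRing B] [Field F] [Algebra B F] [Field κ]
    (O0 O1 O2 : ValuationSubring F) (r0 : O0 →+* κ) (r1 : O1 →+* κ) (r2 : O2 →+* κ)
    (h0 : ∀ b : B, algebraMap B F b ∈ O0) (h1 : ∀ b : B, algebraMap B F b ∈ O1)
    (h2 : ∀ b : B, algebraMap B F b ∈ O2)
    (qB dB uB u₁B v₁B hB : B) (Db G : κ) (N e : ℕ) : Prop where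
  e_ne : e ≠ 0
  prod : uB * u₁B * v₁B = qB ^ N
  Db_ne : Db ≠ 0
  u_inf : redOn O0 r0 h0 uB = Db ^ e
  u_mid : redOn O1 r1 h1 uB = 0
  u_zero : redOn O2 r2 h2 uB = redOn O2 r2 h2 v₁B ^ e
  u₁_inf : redOn O0 r0 h0 u₁B = Db
  u₁_mid : redOn O1 r1 h1 u₁B = Db
  u₁_zero : redOn O2 r2 h2 u₁B = 0
  v₁_inf : redOn O0 r0 h0 v₁B = 0
  v₁_mid : redOn O1 r1 h1 v₁B = Db
  v₁_zero : redOn O2 r2 h2 v₁B ≠ 0
  cert : hB * uB = dB ^ (12 * e)
  red_h : redOn O1 r1 h1 hB = G ^ e

/-! ### The constant `Db = Δ̄^(1-q)` -/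

section DbGen

variable {L : Type*} [Field L] [Algebra ℚ L] {A : ValuationSubring L} {k : Type} [Field k]
  {π : A →+* k} {M' q : ℕ} [NeZero M'] [NeZero q]

/-- `Δ̄^(1-q)` as an element of `κ`: the reduction at `∞` of `u₁ = Δ(q)/Δ(q^q)`. -/
def DbGen (h : BadSetup A π M' q) : modularFunctionFieldFullC k M' :=
  redInf3 h ⟨⟨Units.u1 L q, UnitsZero.u1_mem_F3 h.hℓ⟩, UnitsZero.u1_mem_OInf3 h rfl⟩

theorem coe_DbGen (h : BadSetup A π M' q) :
    ((DbGen h : modularFunctionFieldFullC k M') : LaurentSeries k) = Units.u1 k q :=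
  UnitsZero.coe_redInf3_u1 h rfl _

theorem DbGen_ne_zero (h : BadSetup A π M' q) : DbGen h ≠ 0 :=
  UnitsZero.redInf3_u1_ne_zero h rfl _

/-- Any element of `κ` with series `u1 k q` is `DbGen h`. -/
theorem eq_DbGen (h : BadSetup A π M' q) {c : modularFunctionFieldFullC k M'}
    (hc : (c : LaurentSeries k) = Units.u1 k q) : c = DbGen h :=
  Subtype.ext (hc.trans (coe_DbGen h).symm)

end DbGen

/-! ### The record at the inertia field -/

section K0

local notation "Qb" => AlgebraicClosure ℚ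

variable {q : ℕ} (hq : q.Prime) {A : ValuationSubring Qb} (hA : A.LiesOverPrime q)
  {ζ : Qb} (hζ : IsPrimitiveRoot ζ q) (M' : ℕ) [NeZero M'] [NeZero q] (hqM : ¬ q ∣ M')

/-- `Db = Δ̄^(1-q) ∈ κ` at the inertia field. -/
def Db : modularFunctionFieldFullC (IsLocalRing.ResidueField A) M' :=
  DbGen (badSetup_W0 hq hA M' hqM)

theorem coe_Db :
    ((Db hq hA M' hqM : modularFunctionFieldFullC (IsLocalRing.ResidueField A) M') :
      LaurentSeries (IsLocalRing.ResidueField A)) = Units.u1 (IsLocalRing.ResidueField A) q :=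
  coe_DbGen _

theorem Db_ne_zero : Db hq hA M' hqM ≠ 0 := DbGen_ne_zero _

variable (hκ : ∀ f : OMid hq A hA hζ M' hqM (IsLocalRing.residue A),
    redMid hq A hA hζ M' hqM (IsLocalRing.residue A) f
      ∈ modularFunctionFieldFullC (IsLocalRing.ResidueField A) M')
  {w : laurentBaseChange (inertiaField A) (modularFunctionFieldFull (M' * q * q))
    ≃ₐ[inertiaField A]
    laurentBaseChange (inertiaField A) (modularFunctionFieldFull (M' * q * q))}
  {B : Type*} [CommRing B] [Algebra B ↥(FK (inertiaField A) (M' * q * q))]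
  {y₁ y₂ : FK (inertiaField A) (M' * q * q)}

/-- The middle column for `redMidK`: `red_mid (y₂/y₁) = 0`. -/
theorem redMidK_u
    (hy₁ : (y₁ : LaurentSeries (inertiaField A)) = Units.u1 (inertiaField A) q)
    (hy₂ : (y₂ : LaurentSeries (inertiaField A)) = Units.u2 (inertiaField A) q)
    (hm : y₂ / y₁ ∈ OMid hq A hA hζ M' hqM (IsLocalRing.residue A)) :
    MidKappa.redMidK hq A hA hζ M' hqM hκ ⟨y₂ / y₁, hm⟩ = 0 := by
  apply Subtype.ext
  rw [MidKappa.coe_redMidK, ZeroMemClass.coe_zero]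
  exact MidUnits.redMid_u hq A hA hζ M' hqM (IsLocalRing.residue A)
    (residue_eq_zero_of_not_isUnit A) hy₁ hy₂ hm

/-- The middle column for `redMidK`: `red_mid y₁ = Db`. -/
theorem redMidK_u1
    (hy₁ : (y₁ : LaurentSeries (inertiaField A)) = Units.u1 (inertiaField A) q)
    (hm : y₁ ∈ OMid hq A hA hζ M' hqM (IsLocalRing.residue A)) :
    MidKappa.redMidK hq A hA hζ M' hqM hκ ⟨y₁, hm⟩ = Db hq hA M' hqM := by
  apply Subtype.ext
  rw [MidKappa.coe_redMidK, coe_Db]
  exact MidUnits.redMid_u1 hq A hA hζ M' hqM (IsLocalRing.residue A) hy₁ hm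

/-- The middle column for `redMidK`: `red_mid (q¹²/y₂) = Db`. -/
theorem redMidK_v1
    (hy₂ : (y₂ : LaurentSeries (inertiaField A)) = Units.u2 (inertiaField A) q)
    (hm : ((q : ℕ) : FK (inertiaField A) (M' * q * q)) ^ 12 / y₂
      ∈ OMid hq A hA hζ M' hqM (IsLocalRing.residue A)) :
    MidKappa.redMidK hq A hA hζ M' hqM hκ ⟨_, hm⟩ = Db hq hA M' hqM := by
  apply Subtype.ext
  rw [MidKappa.coe_redMidK, coe_Db]
  exact MidUnits.redMid_v1 hq A hA hζ M' hqM (IsLocalRing.residue A)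
    (residue_eq_zero_of_not_isUnit A) hy₂ hm

/-- The certificate for `redMidK`: `red_mid (dMid^(12(q-1)) · y₁/y₂) = GJ^(q-1)`. -/
theorem redMidK_h [IsAlgClosed (IsLocalRing.ResidueField A)]
    (hy₁ : (y₁ : LaurentSeries (inertiaField A)) = Units.u1 (inertiaField A) q)
    (hy₂ : (y₂ : LaurentSeries (inertiaField A)) = Units.u2 (inertiaField A) q)
    (hm : dMid A M' q ^ (12 * (q - 1)) * y₁ / y₂
      ∈ OMid hq A hA hζ M' hqM (IsLocalRing.residue A)) :
    MidKappa.redMidK hq A hA hζ M' hqM hκ ⟨_, hm⟩ =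
      Local.Inst.Deriv.GJ (IsLocalRing.ResidueField A) M' ^ (q - 1) := by
  obtain ⟨hm', hr⟩ := MidUnits.cert_mid' hq A hA hζ M' hqM (IsLocalRing.residue A)
    (residue_eq_zero_of_not_isUnit A) hy₁ hy₂
  apply Subtype.ext
  rw [MidKappa.coe_redMidK, SubmonoidClass.coe_pow, Local.Inst.Deriv.coe_GJ]
  exact hr

/-- **The units block of the contract at the inertia field**: all fourteen G7 fields, for any
ring `B` with an injective `algebraMap B F3` whose image lies in the three components, and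
elements `qB dB uB u₁B v₁B hB` of `B` mapping to `q`, `dMid`, `y₂/y₁`, `y₁`, `q¹²/y₂`,
`dMid^(12(q-1))·y₁/y₂`. -/
theorem unitsFields [IsAlgClosed (IsLocalRing.ResidueField A)] (hw : IsAL3 M' q w)
    (hinj : Function.Injective (algebraMap B ↥(FK (inertiaField A) (M' * q * q))))
    (h0 : ∀ b : B, algebraMap B ↥(FK (inertiaField A) (M' * q * q)) b
      ∈ OInf3 (badSetup_W0 hq hA M' hqM))
    (h1 : ∀ b : B, algebraMap B ↥(FK (inertiaField A) (M' * q * q)) b
      ∈ OMid hq A hA hζ M' hqM (IsLocalRing.residue A))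
    (h2 : ∀ b : B, algebraMap B ↥(FK (inertiaField A) (M' * q * q)) b
      ∈ OZero3 (badSetup_W0 hq hA M' hqM) w)
    {qB dB uB u₁B v₁B hB : B}
    (hy₁ : (y₁ : LaurentSeries (inertiaField A)) = Units.u1 (inertiaField A) q)
    (hy₂ : (y₂ : LaurentSeries (inertiaField A)) = Units.u2 (inertiaField A) q)
    (hqB : algebraMap B ↥(FK (inertiaField A) (M' * q * q)) qB
      = ((q : ℕ) : FK (inertiaField A) (M' * q * q)))
    (hdB : algebraMap B ↥(FK (inertiaField A) (M' * q * q)) dB = dMid A M' q)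
    (hu : algebraMap B ↥(FK (inertiaField A) (M' * q * q)) uB = y₂ / y₁)
    (hu₁ : algebraMap B ↥(FK (inertiaField A) (M' * q * q)) u₁B = y₁)
    (hv₁ : algebraMap B ↥(FK (inertiaField A) (M' * q * q)) v₁B
      = ((q : ℕ) : FK (inertiaField A) (M' * q * q)) ^ 12 / y₂)
    (hh : algebraMap B ↥(FK (inertiaField A) (M' * q * q)) hB
      = dMid A M' q ^ (12 * (q - 1)) * y₁ / y₂) :
    UnitsFields (OInf3 (badSetup_W0 hq hA M' hqM))
      (OMid hq A hA hζ M' hqM (IsLocalRing.residue A))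
      (OZero3 (badSetup_W0 hq hA M' hqM) w)
      (redInf3 (badSetup_W0 hq hA M' hqM))
      (MidKappa.redMidK hq A hA hζ M' hqM hκ)
      (redZero3 (badSetup_W0 hq hA M' hqM) w) h0 h1 h2
      qB dB uB u₁B v₁B hB (Db hq hA M' hqM)
      (Local.Inst.Deriv.GJ (IsLocalRing.ResidueField A) M') 12 (q - 1) := by
  have cu : ((algebraMap B ↥(FK (inertiaField A) (M' * q * q)) uB :
      FK (inertiaField A) (M' * q * q)) : LaurentSeries (inertiaField A)) =
      Units.u2 (inertiaField A) q * Units.u1inv (inertiaField A) q := by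
    rw [hu]; exact UnitsZero.coe_u_of_y hy₁ hy₂
  have cu₁ : ((algebraMap B ↥(FK (inertiaField A) (M' * q * q)) u₁B :
      FK (inertiaField A) (M' * q * q)) : LaurentSeries (inertiaField A)) =
      Units.u1 (inertiaField A) q := by
    rw [hu₁]; exact hy₁
  have cv₁ : ((algebraMap B ↥(FK (inertiaField A) (M' * q * q)) v₁B :
      FK (inertiaField A) (M' * q * q)) : LaurentSeries (inertiaField A)) =
      HahnSeries.C (((q : ℕ) : inertiaField A) ^ 12) * Units.u2inv (inertiaField A) q := by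
    rw [hv₁]; exact UnitsZero.coe_v1_of_y hy₂
  have hinf := UnitsZero.redOn_inf_column (badSetup_W0 hq hA M' hqM) h0 cu cu₁ cv₁
  have hzero := UnitsZero.redOn_zero_column (badSetup_W0 hq hA M' hqM) hw h2 cu cu₁ cv₁
  have hDb : redOn (OInf3 (badSetup_W0 hq hA M' hqM)) (redInf3 (badSetup_W0 hq hA M' hqM)) h0 u₁B
      = Db hq hA M' hqM := eq_DbGen _ hinf.2.2.1
  refine
    { e_ne := Nat.sub_ne_zero_of_lt hq.one_lt
      prod := ?_
      Db_ne := Db_ne_zero hq hA M' hqM
      u_inf := by rw [hinf.1, hDb]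
      u_mid := ?_
      u_zero := hzero.1
      u₁_inf := hDb
      u₁_mid := ?_
      u₁_zero := hzero.2.1
      v₁_inf := hinf.2.2.2
      v₁_mid := ?_
      v₁_zero := hzero.2.2
      cert := ?_
      red_h := ?_ }
  · apply hinj
    rw [RingHom.map_mul, RingHom.map_mul, RingHom.map_pow, hu, hu₁, hv₁, hqB]
    exact MidUnits.u_mul_u1_mul_v1 hq A hζ M' hqM hy₁ hy₂
  · rw [redOn_apply, MidKappa.redMidK_congr hq A hA hζ M' hqM hκ hu (h1 uB)
      (hu ▸ h1 uB)]
    exact redMidK_u hq hA hζ M' hqM hκ hy₁ hy₂ _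
  · rw [redOn_apply, MidKappa.redMidK_congr hq A hA hζ M' hqM hκ hu₁ (h1 u₁B)
      (hu₁ ▸ h1 u₁B)]
    exact redMidK_u1 hq hA hζ M' hqM hκ hy₁ _
  · rw [redOn_apply, MidKappa.redMidK_congr hq A hA hζ M' hqM hκ hv₁ (h1 v₁B)
      (hv₁ ▸ h1 v₁B)]
    exact redMidK_v1 hq hA hζ M' hqM hκ hy₂ _
  · apply hinj
    rw [RingHom.map_mul, RingHom.map_pow, hu, hh, hdB]
    exact MidUnits.hMid_mul_u hq A hζ M' hqM hy₁ hy₂
  · rw [redOn_apply, MidKappa.redMidK_congr hq A hA hζ M' hqM hκ hh (h1 hB)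
      (hh ▸ h1 hB)]
    exact redMidK_h hq hA hζ M' hqM hκ hy₁ hy₂ _

end K0

end Fermat.Agent.CAR.Inst.UnitsCols

end
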