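import Mathlib
import Fermat.Agent.CAR.Glob.ChartXB
import Fermat.Agent.CAR.Glob.ChartsFNK
import Fermat.Agent.CAR.V3.MidUnits
import Fermat.Agent.CAR.V3.UnitsZero
import Fermat.Agent.CAR.V3.Count
import Fermat.Agent.CAR.K0

/-!
# CAR (instance, G7): the modular units in the finite chart ring

`K0` the inertia field of `A` (a valuation subring of `ℚ̄` over `q`), `W0 = A ∩ K0`,
`F3 = K0 · F_{M' q²}`, chart function `x = xB = CuspQuot.J0 * CuspQuot.J2`,
`Bfin = Charts.chart W0 x` (the integral closure of `W0[x]` in `F3`).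

For arbitrary `y₁ y₂ : F3` whose `q`-expansions are the modular units `u₁ = Δ(q)/Δ(q^q)`,
`u₂ = Δ(q^q)/Δ(q^{q²})`, put `u₁ := y₁`, `v₁ := q¹²/y₂`, `u := y₂/y₁`,
`h := d^(12 (q-1)) y₁ / y₂` (`d = dMid = J(q^{q²}) - J(q)`).

* (a) integrality: `u₁`, `v₁`, `q¹² u`, `q¹² h`, `d` lie in `Bfin` (integrality web);
* (b) saturation: `u`, `h` lie in `Bfin` (they lie in the three vertical valuation rings, and the
  primes of `Bfin` minimal over `q` are their centres — hypothesis `hmin`);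
* (c) the identities `u * u₁ * v₁ = q ^ 12`, `h * u = d ^ (12 (q - 1))` in the subtype `↥Bfin`
  (the fields `prod`, `cert` of `Local.Inst.Contract`).
-/

set_option autoImplicit false
set_option linter.style.haveILetI false
set_option linter.unusedSectionVars false

namespace Fermat.Agent.CAR.Inst.UnitsFin

open ModularCurve HahnSeries IntermediateField
open Fermat.Agent.S28 Fermat.Agent.Lib.Red Fermat.Agent.ESJ.Cong.LevelGen
open Fermat.Agent.CAR.Glob Fermat.Agent.CAR.Glob.Charts Fermat.Agent.CAR.Glob.ChartX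
open Fermat.Agent.CAR.Glob.ChartXInst Fermat.Agent.CAR.Glob.ChartXB
open Fermat.Agent.CAR.V3 Fermat.Agent.CAR.V3.Units

/-! ### Saturation at a power of `q` -/

section Sat

variable {W K0 F : Type*} [CommRing W] [IsDomain W] [Field K0] [Algebra W K0]
  [IsFractionRing W K0] [Field F] [Algebra K0 F] [Algebra W F] [IsScalarTower W K0 F]
  [IsNoetherianRing W] [IsIntegrallyClosed W]

/-- (Ch-4) SATURATION at `q ^ n`: `y ∈ ⋂ V i`, `q ^ n y ∈ R` imply `y ∈ R`. -/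
theorem mem_chart_of_pow_mul_mem {ι : Type*} (V : ι → ValuationSubring F) {x : F}
    (hx : Transcendental K0 x) (K : IntermediateField K0 F) (hxK : x ∈ K) (hK : K ≤ K0⟮x⟯)
    [FiniteDimensional K F] [Algebra.IsSeparable K F]
    (hRV : ∀ i, ∀ r ∈ chart W x, r ∈ V i) {q : W} (hq : q ≠ 0)
    (hmin : ∀ 𝔮 ∈ (Ideal.span {algebraMap W (chart W x) q}).minimalPrimes,
      ∃ i, 𝔮 = Local.centre (V i) (fun a : chart W x => hRV i a a.2))
    (n : ℕ) {y : F} (hy : ∀ i, y ∈ V i) (hqy : algebraMap W F q ^ n * y ∈ chart W x) :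
    y ∈ chart W x := by
  induction n generalizing y with
  | zero => simpa using hqy
  | succ n ih =>
    have hqV : ∀ i, algebraMap W F q ∈ V i := fun i =>
      hRV i _ (Subalgebra.algebraMap_mem _ q)
    have h1 : algebraMap W F q * y ∈ chart W x := by
      apply ih (fun i => (V i).mul_mem _ _ (hqV i) (hy i))
      rw [← mul_assoc, ← pow_succ]
      exact hqy
    refine mem_chart_of_smul_mem V hx K hxK hK hRV hq hmin hy ?_
    rw [Algebra.smul_def]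
    exact h1

end Sat

/-! ### Integrality of the unit series inside `L · F_N` -/

section Series

variable (L : Type) [Field L] [Algebra ℚ L] (N : ℕ) (R₀ : Type*) [CommRing R₀]
  [Algebra R₀ ↥(laurentBaseChange L (modularFunctionFieldFull N))]

/-- The `R₀`-algebra structure on the Laurent series through `L · F_N`. -/
noncomputable abbrev serAlg : Algebra R₀ (LaurentSeries L) :=
  ((algebraMap ↥(laurentBaseChange L (modularFunctionFieldFull N)) (LaurentSeries L)).comp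
    (algebraMap R₀ ↥(laurentBaseChange L (modularFunctionFieldFull N)))).toAlgebra

variable {L N R₀}

/-- Integrality of an element of `L · F_N` can be read on its `q`-expansion. -/
theorem isIntegral_coe_iff (y : ↥(laurentBaseChange L (modularFunctionFieldFull N))) :
    letI := serAlg L N R₀
    IsIntegral R₀ (y : LaurentSeries L) ↔ IsIntegral R₀ y := by
  letI := serAlg L N R₀
  haveI : IsScalarTower R₀ ↥(laurentBaseChange L (modularFunctionFieldFull N))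
      (LaurentSeries L) := IsScalarTower.of_algebraMap_eq (fun _ => rfl)
  exact isIntegral_algebraMap_iff
    (algebraMap ↥(laurentBaseChange L (modularFunctionFieldFull N)) (LaurentSeries L)).injective

/-- **Integrality package in `L · F_N`.**  If `j0 ∈ L · F_N` with expansion `J(q)` is integral
over `R₀`, so is every element whose expansion is one of `J(q^p)`, `J(q^{p²})`, `u₁`,
`p¹² u₁⁻¹`, `u₂`, `p¹² u₂⁻¹`. -/
theorem isIntegral_of_coe_eq {p : ℕ} [NeZero p] (hp : p.Prime)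
    {j0 : ↥(laurentBaseChange L (modularFunctionFieldFull N))}
    (hj0 : (j0 : LaurentSeries L) = jqModC L) (h : IsIntegral R₀ j0)
    (y : ↥(laurentBaseChange L (modularFunctionFieldFull N)))
    (hy : (y : LaurentSeries L) = jqNModC L p ∨ (y : LaurentSeries L) = jqNModC L (p * p) ∨
      (y : LaurentSeries L) = u1 L p ∨
      (y : LaurentSeries L) = HahnSeries.C ((p : L) ^ 12) * u1inv L p ∨
      (y : LaurentSeries L) = u2 L p ∨
      (y : LaurentSeries L) = HahnSeries.C ((p : L) ^ 12) * u2inv L p) :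
    IsIntegral R₀ y := by
  letI := serAlg L N R₀
  have h' : IsIntegral R₀ (jqModC L) := by
    rw [← hj0]
    exact (isIntegral_coe_iff j0).mpr h
  obtain ⟨h1, h2, h3, h4, h5, h6⟩ := Units.isIntegral_units L hp h'
  rw [← isIntegral_coe_iff]
  rcases hy with hy | hy | hy | hy | hy | hy <;> rw [hy] <;> assumption

end Series

/-! ### The instance over the inertia field -/

noncomputable section K0Inst

open Fermat.Agent.CAR.K0 Fermat.Agent.CAR.V3.MidRing Fermat.Agent.CAR.V3.MidUnits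
open Fermat.Agent.BAD.TwoVal

local notation "Qb" => AlgebraicClosure ℚ

set_option synthInstance.maxHeartbeats 400000
set_option maxHeartbeats 1000000

variable {q : ℕ} [NeZero q] (hq : q.Prime) (A : ValuationSubring Qb) (hA : A.LiesOverPrime q)
  {ζ : Qb} (hζ : IsPrimitiveRoot ζ q) (M' : ℕ) [NeZero M'] (hqM : ¬ q ∣ M')
  [Algebra ↥(W0 A) ↥(laurentBaseChange ↥(K0 A) (modularFunctionFieldFull (M' * q * q)))]
  [IsScalarTower ↥(W0 A) ↥(K0 A)
    ↥(laurentBaseChange ↥(K0 A) (modularFunctionFieldFull (M' * q * q)))]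
  {y₁ y₂ : ↥(laurentBaseChange ↥(K0 A) (modularFunctionFieldFull (M' * q * q)))}
  (hy₁ : (y₁ : LaurentSeries ↥(K0 A)) = u1 ↥(K0 A) q)
  (hy₂ : (y₂ : LaurentSeries ↥(K0 A)) = u2 ↥(K0 A) q)
  {x : ↥(laurentBaseChange ↥(K0 A) (modularFunctionFieldFull (M' * q * q)))}
  (hJ : IsIntegral (Algebra.adjoin ↥(W0 A) {x}) (piStar0 ↥(K0 A) M' q (jLevel ↥(K0 A) M')))

/-! #### (a) integrality -/

omit [NeZero M'] in
include hy₁ in
/-- The `q`-expansion of `q¹²/y₁`. -/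
theorem coe_natCast_pow_div_y1 :
    ((((q : ℕ) : ↥(laurentBaseChange ↥(K0 A) (modularFunctionFieldFull (M' * q * q)))) ^ 12 / y₁ :
      ↥(laurentBaseChange ↥(K0 A) (modularFunctionFieldFull (M' * q * q)))) :
        LaurentSeries ↥(K0 A)) = HahnSeries.C ((q : ↥(K0 A)) ^ 12) * u1inv ↥(K0 A) q := by
  rw [IntermediateField.coe_div, IntermediateField.coe_pow, SubringClass.coe_natCast, hy₁,
    div_eq_mul_inv, ← UnitCert.u1inv_eq_inv, map_pow, map_natCast]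

theorem coe_piStar0_jLevel_eq_jq :
    ((piStar0 ↥(K0 A) M' q (jLevel ↥(K0 A) M') :
      ↥(laurentBaseChange ↥(K0 A) (modularFunctionFieldFull (M' * q * q)))) :
        LaurentSeries ↥(K0 A)) = jqModC ↥(K0 A) := by
  rw [coe_piStar0_jLevel, TD.Jd_one]

include hq hJ in
/-- `J(q^{q²}) ∈ Bfin`. -/
theorem JK_sq_mem_chart_of : JK (inertiaField A) (M' * q * q) (dvSq M' q) ∈ chart ↥(W0 A) x := by
  refine isIntegral_of_coe_eq hq (coe_piStar0_jLevel_eq_jq A M') hJ _ (Or.inr (Or.inl ?_))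
  show TD.Jd (inertiaField A) (q * q) = _
  rw [TD.Jd_eq_jqNModC]

include hJ in
/-- `J(q) ∈ Bfin`. -/
theorem JK_one_mem_chart_of : JK (inertiaField A) (M' * q * q) (dvOne M' q) ∈ chart ↥(W0 A) x := by
  have e : JK (inertiaField A) (M' * q * q) (dvOne M' q) =
      piStar0 ↥(K0 A) M' q (jLevel ↥(K0 A) M') := by
    apply Subtype.ext
    rw [coe_piStar0_jLevel]
    rfl
  rw [e]
  exact hJ

include hq hJ in
/-- `d = J(q^{q²}) - J(q) ∈ Bfin`. -/
theorem dMid_mem_chart_of : dMid A M' q ∈ chart ↥(W0 A) x :=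
  sub_mem (JK_sq_mem_chart_of hq A M' hJ) (JK_one_mem_chart_of A M' hJ)

include hq hJ hy₁ in
/-- `u₁ = y₁ ∈ Bfin`. -/
theorem y1_mem_chart_of : y₁ ∈ chart ↥(W0 A) x :=
  isIntegral_of_coe_eq hq (coe_piStar0_jLevel_eq_jq A M') hJ _ (Or.inr (Or.inr (Or.inl hy₁)))

include hq hJ hy₂ in
/-- `u₂ = y₂ ∈ Bfin`. -/
theorem y2_mem_chart_of : y₂ ∈ chart ↥(W0 A) x :=
  isIntegral_of_coe_eq hq (coe_piStar0_jLevel_eq_jq A M') hJ _
    (Or.inr (Or.inr (Or.inr (Or.inr (Or.inl hy₂)))))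

include hq hJ hy₂ in
/-- `v₁ = q¹²/y₂ ∈ Bfin`. -/
theorem v1_mem_chart_of :
    ((q : ℕ) : ↥(laurentBaseChange ↥(K0 A) (modularFunctionFieldFull (M' * q * q)))) ^ 12 / y₂ ∈
      chart ↥(W0 A) x :=
  isIntegral_of_coe_eq hq (coe_piStar0_jLevel_eq_jq A M') hJ _
    (Or.inr (Or.inr (Or.inr (Or.inr (Or.inr (UnitsZero.coe_v1_of_y hy₂))))))

include hq hJ hy₁ in
/-- `q¹²/y₁ ∈ Bfin`. -/
theorem natCast_pow_div_y1_mem_chart_of :
    ((q : ℕ) : ↥(laurentBaseChange ↥(K0 A) (modularFunctionFieldFull (M' * q * q)))) ^ 12 / y₁ ∈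
      chart ↥(W0 A) x :=
  isIntegral_of_coe_eq hq (coe_piStar0_jLevel_eq_jq A M') hJ _
    (Or.inr (Or.inr (Or.inr (Or.inl (coe_natCast_pow_div_y1 A M' hy₁)))))

include hq hJ hy₁ hy₂ in
/-- `q¹² u ∈ Bfin`, `u = y₂/y₁`. -/
theorem natCast_pow_mul_u_mem_chart_of :
    ((q : ℕ) : ↥(laurentBaseChange ↥(K0 A) (modularFunctionFieldFull (M' * q * q)))) ^ 12 *
      (y₂ / y₁) ∈ chart ↥(W0 A) x := by
  have h := mul_mem (natCast_pow_div_y1_mem_chart_of hq A M' hy₁ hJ)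
    (y2_mem_chart_of hq A M' hy₂ hJ)
  have e : ((q : ℕ) : ↥(laurentBaseChange ↥(K0 A) (modularFunctionFieldFull (M' * q * q)))) ^ 12 *
      (y₂ / y₁) = ((q : ℕ) : ↥(laurentBaseChange ↥(K0 A)
        (modularFunctionFieldFull (M' * q * q)))) ^ 12 / y₁ * y₂ := by ring
  rw [e]
  exact h

include hq hJ hy₁ hy₂ in
/-- `q¹² h ∈ Bfin`, `h = d^(12 (q-1)) y₁ / y₂`. -/
theorem natCast_pow_mul_h_mem_chart_of :
    ((q : ℕ) : ↥(laurentBaseChange ↥(K0 A) (modularFunctionFieldFull (M' * q * q)))) ^ 12 *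
      (dMid A M' q ^ (12 * (q - 1)) * y₁ / y₂) ∈ chart ↥(W0 A) x := by
  have h := mul_mem (mul_mem (pow_mem (dMid_mem_chart_of hq A M' hJ) (12 * (q - 1)))
    (y1_mem_chart_of hq A M' hy₁ hJ)) (v1_mem_chart_of hq A M' hy₂ hJ)
  have e : ((q : ℕ) : ↥(laurentBaseChange ↥(K0 A) (modularFunctionFieldFull (M' * q * q)))) ^ 12 *
      (dMid A M' q ^ (12 * (q - 1)) * y₁ / y₂) = dMid A M' q ^ (12 * (q - 1)) * y₁ *
        (((q : ℕ) : ↥(laurentBaseChange ↥(K0 A)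
          (modularFunctionFieldFull (M' * q * q)))) ^ 12 / y₂) := by ring
  rw [e]
  exact h

/-! #### (b) saturation -/

include hq hA hJ hy₁ hy₂ in
/-- `u = y₂/y₁ ∈ Bfin`, by saturation at `q¹²`. -/
theorem u_mem_chart_of (hx : (x : LaurentSeries ↥(K0 A)).order ≠ 0) {ι : Type*}
    (V : ι → ValuationSubring
      ↥(laurentBaseChange ↥(K0 A) (modularFunctionFieldFull (M' * q * q))))
    (hRV : ∀ i, ∀ r ∈ chart ↥(W0 A) x, r ∈ V i)
    (hmin : ∀ 𝔮 ∈ (Ideal.span {algebraMap ↥(W0 A) (chart ↥(W0 A) x)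
        ((q : ℕ) : ↥(W0 A))}).minimalPrimes,
      ∃ i, 𝔮 = Local.centre (V i) (fun a : chart ↥(W0 A) x => hRV i a a.2))
    (hu : ∀ i, y₂ / y₁ ∈ V i) : y₂ / y₁ ∈ chart ↥(W0 A) x := by
  haveI := isDiscreteValuationRing_W0 hq hA
  haveI := ChartField.finiteDimensional_FNK ↥(K0 A) (M' * q * q) x hx
  haveI := ChartField.isSeparable_FNK ↥(K0 A) (M' * q * q) x hx
  refine mem_chart_of_pow_mul_mem V (ChartField.transcendental_FNK _ _ x hx) (↥(K0 A))⟮x⟯
    (mem_adjoin_simple_self _ x) le_rfl hRV (irreducible_natCast_W0 hq hA).ne_zero hmin 12 hu ?_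
  rw [map_natCast]
  exact natCast_pow_mul_u_mem_chart_of hq A M' hy₁ hy₂ hJ

include hq hA hJ hy₁ hy₂ in
/-- `h = d^(12 (q-1)) y₁ / y₂ ∈ Bfin`, by saturation at `q¹²`. -/
theorem h_mem_chart_of (hx : (x : LaurentSeries ↥(K0 A)).order ≠ 0) {ι : Type*}
    (V : ι → ValuationSubring
      ↥(laurentBaseChange ↥(K0 A) (modularFunctionFieldFull (M' * q * q))))
    (hRV : ∀ i, ∀ r ∈ chart ↥(W0 A) x, r ∈ V i)
    (hmin : ∀ 𝔮 ∈ (Ideal.span {algebraMap ↥(W0 A) (chart ↥(W0 A) x)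
        ((q : ℕ) : ↥(W0 A))}).minimalPrimes,
      ∃ i, 𝔮 = Local.centre (V i) (fun a : chart ↥(W0 A) x => hRV i a a.2))
    (hh : ∀ i, dMid A M' q ^ (12 * (q - 1)) * y₁ / y₂ ∈ V i) :
    dMid A M' q ^ (12 * (q - 1)) * y₁ / y₂ ∈ chart ↥(W0 A) x := by
  haveI := isDiscreteValuationRing_W0 hq hA
  haveI := ChartField.finiteDimensional_FNK ↥(K0 A) (M' * q * q) x hx
  haveI := ChartField.isSeparable_FNK ↥(K0 A) (M' * q * q) x hx
  refine mem_chart_of_pow_mul_mem V (ChartField.transcendental_FNK _ _ x hx) (↥(K0 A))⟮x⟯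
    (mem_adjoin_simple_self _ x) le_rfl hRV (irreducible_natCast_W0 hq hA).ne_zero hmin 12 hh ?_
  rw [map_natCast]
  exact natCast_pow_mul_h_mem_chart_of hq A M' hy₁ hy₂ hJ

/-! #### (c) the identities in the subtype -/

include hq hζ hqM hy₁ hy₂ in
/-- **`Contract.prod`**: `u * u₁ * v₁ = q ^ 12` in `↥Bfin`, for any `qB` with image `q`. -/
theorem prod_subtype (h1 : y₁ ∈ chart ↥(W0 A) x)
    (hv : ((q : ℕ) : ↥(laurentBaseChange ↥(K0 A) (modularFunctionFieldFull (M' * q * q)))) ^ 12 /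
      y₂ ∈ chart ↥(W0 A) x)
    (hu : y₂ / y₁ ∈ chart ↥(W0 A) x) (qB : chart ↥(W0 A) x)
    (hqB : (qB : ↥(laurentBaseChange ↥(K0 A) (modularFunctionFieldFull (M' * q * q)))) =
      ((q : ℕ) : ↥(laurentBaseChange ↥(K0 A) (modularFunctionFieldFull (M' * q * q))))) :
    (⟨y₂ / y₁, hu⟩ : chart ↥(W0 A) x) * ⟨y₁, h1⟩ * ⟨_, hv⟩ = qB ^ 12 := by
  apply Subtype.ext
  show y₂ / y₁ * y₁ * (((q : ℕ) : ↥(laurentBaseChange ↥(K0 A)
    (modularFunctionFieldFull (M' * q * q)))) ^ 12 / y₂) =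
      (qB : ↥(laurentBaseChange ↥(K0 A) (modularFunctionFieldFull (M' * q * q)))) ^ 12
  rw [hqB]
  exact u_mul_u1_mul_v1 hq A hζ M' hqM hy₁ hy₂

include hq hζ hqM hy₁ hy₂ in
/-- **`Contract.cert`**: `h * u = d ^ (12 (q - 1))` in `↥Bfin`, for any `dB` with image
`d = dMid`. -/
theorem cert_subtype (hh : dMid A M' q ^ (12 * (q - 1)) * y₁ / y₂ ∈ chart ↥(W0 A) x)
    (hu : y₂ / y₁ ∈ chart ↥(W0 A) x) (dB : chart ↥(W0 A) x)
    (hdB : (dB : ↥(laurentBaseChange ↥(K0 A) (modularFunctionFieldFull (M' * q * q)))) =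
      dMid A M' q) :
    (⟨_, hh⟩ : chart ↥(W0 A) x) * ⟨y₂ / y₁, hu⟩ = dB ^ (12 * (q - 1)) := by
  apply Subtype.ext
  show dMid A M' q ^ (12 * (q - 1)) * y₁ / y₂ * (y₂ / y₁) =
    (dB : ↥(laurentBaseChange ↥(K0 A) (modularFunctionFieldFull (M' * q * q)))) ^ (12 * (q - 1))
  rw [hdB]
  exact hMid_mul_u hq A hζ M' hqM hy₁ hy₂

/-! #### The chart function `xB` -/

omit [NeZero q] in
/-- The chart function has `q`-order `-(M' + M' q²) ≠ 0`. -/
theorem order_xB_ne_zero [NeZero q] :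
    ((xB ↥(K0 A) M' q : ↥(laurentBaseChange ↥(K0 A) (modularFunctionFieldFull (M' * q * q)))) :
      LaurentSeries ↥(K0 A)).order ≠ 0 := by
  have h1 : M' ≠ 0 := NeZero.ne M'
  have h2 : M' * q * q ≠ 0 :=
    Nat.mul_ne_zero (Nat.mul_ne_zero h1 (NeZero.ne q)) (NeZero.ne q)
  rw [xB_eq]
  show (TD.Jd ↥(K0 A) M' * TD.Jd ↥(K0 A) (M' * q * q)).order ≠ 0
  rw [HahnSeries.order_mul (ValInd.Jd_ne_zero M' h1) (ValInd.Jd_ne_zero _ h2),
    ValInd.order_Jd M' h1, ValInd.order_Jd _ h2]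
  have h3 : (0 : ℤ) < (M' : ℤ) := by exact_mod_cast Nat.pos_of_ne_zero h1
  have h4 : (0 : ℤ) ≤ ((M' * q * q : ℕ) : ℤ) := Int.natCast_nonneg _
  omega

/-- **`hJ` at the chart function**: `π_0^* J` is integral over `W0[xB]`. -/
theorem isIntegral_jLevel_xB :
    IsIntegral (Algebra.adjoin ↥(W0 A) {xB ↥(K0 A) M' q})
      (piStar0 ↥(K0 A) M' q (jLevel ↥(K0 A) M')) := by
  rw [piStar0_jLevel_eq]
  exact (isIntegral_xB_iff 1 (one_dvd _) _).mpr (self_mem_chart _)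

/-- Every `J(q^c)`, `c ∣ M' q²`, lies in `Bfin`. -/
theorem jd_mem_chart_xB (c : ℕ) (hc : c ∣ M' * q * q) :
    jd ↥(K0 A) (M' * q * q) c hc ∈ chart ↥(W0 A) (xB ↥(K0 A) M' q) :=
  (isIntegral_xB_iff c hc _).mpr (self_mem_chart _)

/-! #### The three vertical valuation rings -/

variable {w : laurentBaseChange ↥(K0 A) (modularFunctionFieldFull (M' * q * q)) ≃ₐ[↥(K0 A)]
    laurentBaseChange ↥(K0 A) (modularFunctionFieldFull (M' * q * q))}

include hy₁ hy₂ in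
/-- `u = y₂/y₁` lies in the three vertical rings. -/
theorem u_mem_three (hw : IsAL3 M' q w) :
    ∀ i : Fin 3, y₂ / y₁ ∈ (![OInf3 (badSetup_W0 hq hA M' hqM),
      OMid hq A hA hζ M' hqM (IsLocalRing.residue A),
      OZero3 (badSetup_W0 hq hA M' hqM) w] : Fin 3 → ValuationSubring
        ↥(laurentBaseChange ↥(K0 A) (modularFunctionFieldFull (M' * q * q)))) i := by
  intro i
  fin_cases i
  · exact UnitsZero.u_mem_OInf3 (badSetup_W0 hq hA M' hqM) (UnitsZero.coe_u_of_y hy₁ hy₂)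
  · exact u_mem_OMid hq A hA hζ M' hqM _ (residue_eq_zero_of_not_isUnit A) hy₁ hy₂
  · exact UnitsZero.u_mem_OZero3_of_y (badSetup_W0 hq hA M' hqM) hw hy₁ hy₂

include hy₁ hy₂ in
/-- `u = y₂/y₁` is a unit of `O_∞`. -/
theorem inv_u_mem_OInf3 : (y₂ / y₁)⁻¹ ∈ OInf3 (badSetup_W0 hq hA M' hqM) := by
  obtain ⟨c, hc, -, ⟨hm, hr⟩, -, -⟩ :=
    UnitsZero.redTo_inf_column_of_y (badSetup_W0 hq hA M' hqM) hy₁ hy₂
  exact inv_mem_OInf3 _ _ hm (by rw [hr]; exact pow_ne_zero _ hc)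

include hy₁ hy₂ in
/-- `u = y₂/y₁` is a unit of `O_0`. -/
theorem inv_u_mem_OZero3 (hw : IsAL3 M' q w) :
    (y₂ / y₁)⁻¹ ∈ OZero3 (badSetup_W0 hq hA M' hqM) w := by
  obtain ⟨c, hc, -, ⟨hm, hr⟩, -, -⟩ :=
    UnitsZero.redTo_zero_column_of_y (badSetup_W0 hq hA M' hqM) hw hy₁ hy₂
  exact inv_mem_OZero3 _ _ hm (by rw [hr]; exact pow_ne_zero _ hc)

/-- `d ∈ O_0`. -/
theorem dMid_mem_OZero3 (hw : IsAL3 M' q w) :
    dMid A M' q ∈ OZero3 (badSetup_W0 hq hA M' hqM) w := by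
  rw [mem_OZero3_iff]
  have e : w (dMid A M' q) = -dMid A M' q := by
    rw [Count.dMid_eq, map_sub, hw.pi2, hw.pi0, neg_sub]
  rw [e]
  exact (OInf3 _).neg_mem _ (dMid_mem_OInf3 A M' _)

omit [NeZero M'] [Algebra ↥(W0 A) ↥(laurentBaseChange ↥(K0 A) (modularFunctionFieldFull (M' * q * q)))]
  [IsScalarTower ↥(W0 A) ↥(K0 A)
    ↥(laurentBaseChange ↥(K0 A) (modularFunctionFieldFull (M' * q * q)))] in
theorem h_eq (d : ↥(laurentBaseChange ↥(K0 A) (modularFunctionFieldFull (M' * q * q))))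
    (n : ℕ) : d ^ n * y₁ / y₂ = d ^ n * (y₂ / y₁)⁻¹ := by
  rw [inv_div, mul_div_assoc]

include hy₁ hy₂ in
/-- `h = d^(12 (q-1)) y₁ / y₂` lies in the three vertical rings. -/
theorem h_mem_three (hw : IsAL3 M' q w) :
    ∀ i : Fin 3, dMid A M' q ^ (12 * (q - 1)) * y₁ / y₂ ∈
      (![OInf3 (badSetup_W0 hq hA M' hqM), OMid hq A hA hζ M' hqM (IsLocalRing.residue A),
        OZero3 (badSetup_W0 hq hA M' hqM) w] : Fin 3 → ValuationSubring
          ↥(laurentBaseChange ↥(K0 A) (modularFunctionFieldFull (M' * q * q)))) i := by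
  intro i
  fin_cases i
  · show dMid A M' q ^ (12 * (q - 1)) * y₁ / y₂ ∈ OInf3 (badSetup_W0 hq hA M' hqM)
    rw [h_eq]
    exact (OInf3 _).mul_mem _ _ (pow_mem (dMid_mem_OInf3 A M' _) _)
      (inv_u_mem_OInf3 hq A hA M' hqM hy₁ hy₂)
  · exact (cert_mid' hq A hA hζ M' hqM _ (residue_eq_zero_of_not_isUnit A) hy₁ hy₂).1
  · show dMid A M' q ^ (12 * (q - 1)) * y₁ / y₂ ∈ OZero3 (badSetup_W0 hq hA M' hqM) w
    rw [h_eq]
    exact (OZero3 _ w).mul_mem _ _ (pow_mem (dMid_mem_OZero3 hq A hA M' hqM hw) _)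
      (inv_u_mem_OZero3 hq A hA M' hqM hy₁ hy₂ hw)

/-! #### The G7 package at the CAR objects -/

include hy₁ hy₂ in
/-- **G7.**  `u₁ = y₁`, `v₁ = q¹²/y₂`, `u = y₂/y₁`, `h = d^(12 (q-1)) y₁/y₂` and `d = dMid` lie in
`Bfin = chart W0 xB`, given `hRV`, `hmin` in the binder shape of the chart theorem for the three
vertical rings. -/
theorem units_mem_chart_xB (hw : IsAL3 M' q w)
    (hRV : ∀ i, ∀ r ∈ chart ↥(W0 A) (xB ↥(K0 A) M' q),
      r ∈ (![OInf3 (badSetup_W0 hq hA M' hqM), OMid hq A hA hζ M' hqM (IsLocalRing.residue A),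
        OZero3 (badSetup_W0 hq hA M' hqM) w] : Fin 3 → ValuationSubring
          ↥(laurentBaseChange ↥(K0 A) (modularFunctionFieldFull (M' * q * q)))) i)
    (hmin : ∀ 𝔮 ∈ (Ideal.span {algebraMap ↥(W0 A) (chart ↥(W0 A) (xB ↥(K0 A) M' q))
        ((q : ℕ) : ↥(W0 A))}).minimalPrimes,
      ∃ i, 𝔮 = Local.centre ((![OInf3 (badSetup_W0 hq hA M' hqM),
        OMid hq A hA hζ M' hqM (IsLocalRing.residue A),
        OZero3 (badSetup_W0 hq hA M' hqM) w] : Fin 3 → ValuationSubring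
          ↥(laurentBaseChange ↥(K0 A) (modularFunctionFieldFull (M' * q * q)))) i)
        (fun a : chart ↥(W0 A) (xB ↥(K0 A) M' q) => hRV i a a.2)) :
    y₁ ∈ chart ↥(W0 A) (xB ↥(K0 A) M' q) ∧
    ((q : ℕ) : ↥(laurentBaseChange ↥(K0 A) (modularFunctionFieldFull (M' * q * q)))) ^ 12 / y₂ ∈
      chart ↥(W0 A) (xB ↥(K0 A) M' q) ∧
    y₂ / y₁ ∈ chart ↥(W0 A) (xB ↥(K0 A) M' q) ∧
    dMid A M' q ^ (12 * (q - 1)) * y₁ / y₂ ∈ chart ↥(W0 A) (xB ↥(K0 A) M' q) ∧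
    dMid A M' q ∈ chart ↥(W0 A) (xB ↥(K0 A) M' q) := by
  have hJ := isIntegral_jLevel_xB (q := q) A M'
  have hx := order_xB_ne_zero (q := q) A M'
  exact ⟨y1_mem_chart_of hq A M' hy₁ hJ, v1_mem_chart_of hq A M' hy₂ hJ,
    u_mem_chart_of hq A hA M' hy₁ hy₂ hJ hx _ hRV hmin
      (u_mem_three hq A hA hζ M' hqM hy₁ hy₂ hw),
    h_mem_chart_of hq A hA M' hy₁ hy₂ hJ hx _ hRV hmin
      (h_mem_three hq A hA hζ M' hqM hy₁ hy₂ hw),
    dMid_mem_chart_of hq A M' hJ⟩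

end K0Inst

end Fermat.Agent.CAR.Inst.UnitsFin
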