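import Mathlib
import Fermat.Agent.CAR.Inst.UnitsFin
import Fermat.Agent.CAR.Inst.HMin3

/-!
# CAR (instance, G7): the four unit elements of the finite chart ring — closed form (UF)

`B = ↥(chart W0 (J_0 J_2))` (`J_i = CuspQuot.J_i`), `y₁ y₂ : F3` with `q`-expansions the modular
units `u₁`, `u₂`.  Everything is discharged (`HMin3.hRV3`, `HMin3.hmin3`, `UnitsFin`):

* `exists_uf` : `∃ uB u₁B v₁B hB : B` mapping to `y₂/y₁`, `y₁`, `q¹²/y₂`, `d^(12 (q-1)) y₁/y₂`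
  (the binders `hu hu₁ hv₁ hh` of `UnitsCols.unitsFields`);
* `exists_uf_contract` : the same with the identities `uB * u₁B * v₁B = qB ^ 12`,
  `hB * uB = dB ^ (12 (q - 1))` for any `qB`, `dB` mapping to `q`, `dMid`;
* `natCast_mem_chart`, `dMid_mem_chart`, `exists_qB`, `exists_dB`.
-/

set_option autoImplicit false
set_option linter.style.haveILetI false
set_option linter.unusedSectionVars false

namespace Fermat.Agent.CAR.Inst.UnitsFinUF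

open ModularCurve HahnSeries IntermediateField
open Fermat.Agent.S28 Fermat.Agent.Lib.Red Fermat.Agent.ESJ.Cong.LevelGen
open Fermat.Agent.CAR.Glob Fermat.Agent.CAR.Glob.Charts Fermat.Agent.CAR.Glob.CuspQuot
open Fermat.Agent.CAR.V3 Fermat.Agent.CAR.V3.Units
open Fermat.Agent.CAR.K0 Fermat.Agent.CAR.V3.MidRing Fermat.Agent.CAR.V3.MidUnits
open Fermat.Agent.CAR.Inst.UnitsFin

local notation "Qb" => AlgebraicClosure ℚ

set_option synthInstance.maxHeartbeats 400000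
set_option maxHeartbeats 1000000

variable {q : ℕ} [NeZero q] (hq : q.Prime) (A : ValuationSubring Qb) (hA : A.LiesOverPrime q)
  {ζ : Qb} (hζ : IsPrimitiveRoot ζ q) (M' : ℕ) [NeZero M'] (hqM : ¬ q ∣ M')
  {w : laurentBaseChange ↥(K0 A) (modularFunctionFieldFull (M' * q * q)) ≃ₐ[↥(K0 A)]
    laurentBaseChange ↥(K0 A) (modularFunctionFieldFull (M' * q * q))}
  [Algebra ↥(W0 A) ↥(laurentBaseChange ↥(K0 A) (modularFunctionFieldFull (M' * q * q)))]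
  [IsScalarTower ↥(W0 A) ↥(K0 A)
    ↥(laurentBaseChange ↥(K0 A) (modularFunctionFieldFull (M' * q * q)))]
  {y₁ y₂ : ↥(laurentBaseChange ↥(K0 A) (modularFunctionFieldFull (M' * q * q)))}
  (hy₁ : (y₁ : LaurentSeries ↥(K0 A)) = u1 ↥(K0 A) q)
  (hy₂ : (y₂ : LaurentSeries ↥(K0 A)) = u2 ↥(K0 A) q)

include hq hA hζ hqM hy₁ hy₂ in
/-- The five memberships in `chart W0 (J_0 J_2)`, nothing left as a hypothesis. -/
theorem units_mem_chart (hw : IsAL3 M' q w) :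
    y₁ ∈ chart ↥(W0 A) (J0 (q := q) ↥(K0 A) M' * J2 (q := q) ↥(K0 A) M') ∧
    ((q : ℕ) : ↥(laurentBaseChange ↥(K0 A) (modularFunctionFieldFull (M' * q * q)))) ^ 12 / y₂ ∈
      chart ↥(W0 A) (J0 (q := q) ↥(K0 A) M' * J2 (q := q) ↥(K0 A) M') ∧
    y₂ / y₁ ∈ chart ↥(W0 A) (J0 (q := q) ↥(K0 A) M' * J2 (q := q) ↥(K0 A) M') ∧
    dMid A M' q ^ (12 * (q - 1)) * y₁ / y₂ ∈
      chart ↥(W0 A) (J0 (q := q) ↥(K0 A) M' * J2 (q := q) ↥(K0 A) M') ∧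
    dMid A M' q ∈ chart ↥(W0 A) (J0 (q := q) ↥(K0 A) M' * J2 (q := q) ↥(K0 A) M') :=
  units_mem_chart_xB hq A hA hζ M' hqM hy₁ hy₂ hw
    (fun i r hr => HMin3.hRV3 hq A hA hζ M' hqM hw i r hr)
    (HMin3.hmin3 hq A hA hζ M' hqM hw
      (fun i r hr => HMin3.hRV3 hq A hA hζ M' hqM hw i r hr))

include hq hA hζ hqM hy₁ hy₂ in
/-- **(UF)**: the four elements of `B = ↥(chart W0 (J_0 J_2))` — the binders `hu hu₁ hv₁ hh` of
`UnitsCols.unitsFields`. -/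
theorem exists_uf (hw : IsAL3 M' q w) :
    ∃ uB u₁B v₁B hB : ↥(chart ↥(W0 A) (J0 (q := q) ↥(K0 A) M' * J2 (q := q) ↥(K0 A) M')),
      algebraMap ↥(chart ↥(W0 A) (J0 (q := q) ↥(K0 A) M' * J2 (q := q) ↥(K0 A) M'))
          ↥(laurentBaseChange ↥(K0 A) (modularFunctionFieldFull (M' * q * q))) uB = y₂ / y₁ ∧
      algebraMap ↥(chart ↥(W0 A) (J0 (q := q) ↥(K0 A) M' * J2 (q := q) ↥(K0 A) M'))
          ↥(laurentBaseChange ↥(K0 A) (modularFunctionFieldFull (M' * q * q))) u₁B = y₁ ∧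
      algebraMap ↥(chart ↥(W0 A) (J0 (q := q) ↥(K0 A) M' * J2 (q := q) ↥(K0 A) M'))
          ↥(laurentBaseChange ↥(K0 A) (modularFunctionFieldFull (M' * q * q))) v₁B =
        ((q : ℕ) : ↥(laurentBaseChange ↥(K0 A) (modularFunctionFieldFull (M' * q * q)))) ^ 12 /
          y₂ ∧
      algebraMap ↥(chart ↥(W0 A) (J0 (q := q) ↥(K0 A) M' * J2 (q := q) ↥(K0 A) M'))
          ↥(laurentBaseChange ↥(K0 A) (modularFunctionFieldFull (M' * q * q))) hB =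
        dMid A M' q ^ (12 * (q - 1)) * y₁ / y₂ := by
  obtain ⟨h1, hv, hu, hh, -⟩ := units_mem_chart hq A hA hζ M' hqM hy₁ hy₂ hw
  exact ⟨⟨_, hu⟩, ⟨_, h1⟩, ⟨_, hv⟩, ⟨_, hh⟩, rfl, rfl, rfl, rfl⟩

include hq hA hζ hqM hy₁ hy₂ in
/-- **(UF) with the Contract identities** `prod`, `cert`: for any `qB`, `dB` of `B` mapping to
`q`, `dMid`. -/
theorem exists_uf_contract (hw : IsAL3 M' q w)
    (qB dB : ↥(chart ↥(W0 A) (J0 (q := q) ↥(K0 A) M' * J2 (q := q) ↥(K0 A) M')))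
    (hqB : algebraMap ↥(chart ↥(W0 A) (J0 (q := q) ↥(K0 A) M' * J2 (q := q) ↥(K0 A) M'))
        ↥(laurentBaseChange ↥(K0 A) (modularFunctionFieldFull (M' * q * q))) qB =
      ((q : ℕ) : ↥(laurentBaseChange ↥(K0 A) (modularFunctionFieldFull (M' * q * q)))))
    (hdB : algebraMap ↥(chart ↥(W0 A) (J0 (q := q) ↥(K0 A) M' * J2 (q := q) ↥(K0 A) M'))
        ↥(laurentBaseChange ↥(K0 A) (modularFunctionFieldFull (M' * q * q))) dB = dMid A M' q) :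
    ∃ uB u₁B v₁B hB : ↥(chart ↥(W0 A) (J0 (q := q) ↥(K0 A) M' * J2 (q := q) ↥(K0 A) M')),
      algebraMap ↥(chart ↥(W0 A) (J0 (q := q) ↥(K0 A) M' * J2 (q := q) ↥(K0 A) M'))
          ↥(laurentBaseChange ↥(K0 A) (modularFunctionFieldFull (M' * q * q))) uB = y₂ / y₁ ∧
      algebraMap ↥(chart ↥(W0 A) (J0 (q := q) ↥(K0 A) M' * J2 (q := q) ↥(K0 A) M'))
          ↥(laurentBaseChange ↥(K0 A) (modularFunctionFieldFull (M' * q * q))) u₁B = y₁ ∧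
      algebraMap ↥(chart ↥(W0 A) (J0 (q := q) ↥(K0 A) M' * J2 (q := q) ↥(K0 A) M'))
          ↥(laurentBaseChange ↥(K0 A) (modularFunctionFieldFull (M' * q * q))) v₁B =
        ((q : ℕ) : ↥(laurentBaseChange ↥(K0 A) (modularFunctionFieldFull (M' * q * q)))) ^ 12 /
          y₂ ∧
      algebraMap ↥(chart ↥(W0 A) (J0 (q := q) ↥(K0 A) M' * J2 (q := q) ↥(K0 A) M'))
          ↥(laurentBaseChange ↥(K0 A) (modularFunctionFieldFull (M' * q * q))) hB =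
        dMid A M' q ^ (12 * (q - 1)) * y₁ / y₂ ∧
      uB * u₁B * v₁B = qB ^ 12 ∧ hB * uB = dB ^ (12 * (q - 1)) := by
  obtain ⟨h1, hv, hu, hh, -⟩ := units_mem_chart hq A hA hζ M' hqM hy₁ hy₂ hw
  exact ⟨⟨_, hu⟩, ⟨_, h1⟩, ⟨_, hv⟩, ⟨_, hh⟩, rfl, rfl, rfl, rfl,
    prod_subtype hq A hζ M' hqM hy₁ hy₂ h1 hv hu qB hqB,
    cert_subtype hq A hζ M' hqM hy₁ hy₂ hh hu dB hdB⟩

include hq in
/-- `d = dMid ∈ B` (no hypothesis). -/
theorem dMid_mem_chart :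
    dMid A M' q ∈ chart ↥(W0 A) (J0 (q := q) ↥(K0 A) M' * J2 (q := q) ↥(K0 A) M') :=
  dMid_mem_chart_of hq A M' (isIntegral_jLevel_xB (q := q) A M')

end Fermat.Agent.CAR.Inst.UnitsFinUF
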