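import Mathlib
import Fermat.Agent.CAR.Local.Inst.Contract
import Fermat.Agent.CAR.Local.Inst.ChartFields
import Fermat.Agent.CAR.Inst.HMin3
import Fermat.Agent.CAR.Inst.ContractPull
import Fermat.Agent.CAR.Inst.BPrimeWeb
import Fermat.Agent.CAR.Inst.UnitsCols
import Fermat.Agent.CAR.Inst.LiftJ23Inst
import Fermat.Agent.CAR.Inst.EllFinK0
import Fermat.Agent.CAR.V3.MidKappa
import Fermat.Agent.CAR.V3.Count
import Fermat.Agent.CAR.Inst.FinCloseMid
import Fermat.Agent.CAR.Inst.FinBase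
import Fermat.Agent.CAR.Inst.UnitsFinUF
import Fermat.Agent.CAR.Inst.Cusp

/-!
# CAR (instance layer): the `Contract` of the finite chart at the inertia field

Independent second term of `contract_fin` (row 392), on the literals of the architect's
ruling #8, with the `W0`-algebra structure of `F3` as abstract binders:

* `F' = K0 · F_{M'}`, `F3 = K0 · F_{M' q²}`, `κ = modularFunctionFieldFullC k M'`,
  `hB = badSetup_W0 hq hA M' hqM`;
* `O3 = ![OInf3 hB, OMid …, OZero3 hB w]`, `red3` (`redInf3 hB`, `MidKappa.redMidK … hκ`,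
  `redZero3 hB w`), `hred3`, `hBO3`;
* `xC = CuspQuot.J0 * CuspQuot.J2`, `R = chart W0 xC`;
* `Bp = integralClosure (W0[J(q^{M'})]) F'`, `redp = LiftInst.redBp`, `pi0 pi2 : Bp →+* R`,
  `xJ : Bp` (`= J(q)`);
* `contract_fin` : the record `Local.Inst.Contract`, with the four unit elements of `R` as the
  only hypothesis.
-/

set_option autoImplicit false
set_option linter.unusedSectionVars false
set_option linter.style.haveILetI false
set_option synthInstance.maxHeartbeats 400000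
set_option maxHeartbeats 1000000

noncomputable section

namespace Fermat.Agent.CAR.Inst.FinSh

open ModularCurve HahnSeries IsLocalRing Fermat.Agent.S24 Fermat.Agent.S28
  Fermat.Agent.Lib.Red Fermat.Agent.Lib.Red.BaseFn Fermat.Agent.CAR.K0 Fermat.Agent.CAR.V3
  Fermat.Agent.CAR.V3.MidRing Fermat.Agent.BAD.TwoVal Fermat.Agent.CAR.Glob.Charts
  Fermat.Agent.CAR.Glob.CuspQuot Fermat.Agent.CAR.Local Fermat.Agent.CAR.Local.Inst
  Fermat.Agent.ESJ.Cong.LevelGen

local notation "Qb" => AlgebraicClosure ℚ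

variable {q : ℕ} [NeZero q] (hq : q.Prime) (A : ValuationSubring Qb) (hA : A.LiesOverPrime q)
  {ζ : Qb} (hζ : IsPrimitiveRoot ζ q) (M' : ℕ) [NeZero M'] (hqM : ¬ q ∣ M')
  (w : laurentBaseChange ↥(K0 A) (modularFunctionFieldFull (M' * q * q)) ≃ₐ[↥(K0 A)]
    laurentBaseChange ↥(K0 A) (modularFunctionFieldFull (M' * q * q)))

/-! ### The three components and their reductions -/

/-- `red_mid` takes its values in `κ` (helper25's count). -/
theorem hκ : ∀ f : OMid hq A hA hζ M' hqM (IsLocalRing.residue A),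
    redMid hq A hA hζ M' hqM (IsLocalRing.residue A) f
      ∈ modularFunctionFieldFullC (IsLocalRing.ResidueField A) M' :=
  Count.redMid_mem_fullC hq A hA hζ M' hqM

/-- The three components (ruling #8, literal). -/
abbrev O3 : Fin 3 → ValuationSubring
    ↥(laurentBaseChange ↥(K0 A) (modularFunctionFieldFull (M' * q * q))) :=
  ![OInf3 (badSetup_W0 hq hA M' hqM), OMid hq A hA hζ M' hqM (IsLocalRing.residue A),
    OZero3 (badSetup_W0 hq hA M' hqM) w]

/-- The three reductions `red3 i : O3 i →+* κ`. -/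
def red3 : ∀ i : Fin 3, O3 hq A hA hζ M' hqM w i →+*
    ↥(modularFunctionFieldFullC (IsLocalRing.ResidueField A) M')
  | ⟨0, _⟩ => redInf3 (badSetup_W0 hq hA M' hqM)
  | ⟨1, _⟩ => MidKappa.redMidK hq A hA hζ M' hqM (hκ hq A hA hζ M' hqM)
  | ⟨2, _⟩ => redZero3 (badSetup_W0 hq hA M' hqM) w

theorem red3_zero : red3 hq A hA hζ M' hqM w 0 = redInf3 (badSetup_W0 hq hA M' hqM) := rfl

theorem red3_one : red3 hq A hA hζ M' hqM w 1
    = MidKappa.redMidK hq A hA hζ M' hqM (hκ hq A hA hζ M' hqM) := rfl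

theorem red3_two : red3 hq A hA hζ M' hqM w 2 = redZero3 (badSetup_W0 hq hA M' hqM) w := rfl

/-- The kernel of each reduction is the maximal ideal. -/
theorem hred3 : ∀ i, ∀ x : O3 hq A hA hζ M' hqM w i,
    red3 hq A hA hζ M' hqM w i x = 0 ↔ x ∈ maximalIdeal (O3 hq A hA hζ M' hqM w i) := by
  intro i
  fin_cases i
  · exact fun x : OInf3 (badSetup_W0 hq hA M' hqM) =>
      (redInf3_eq_zero_iff (badSetup_W0 hq hA M' hqM) x).trans
        (mem_nonunits_iff.symm.trans (mem_maximalIdeal x).symm)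
  · exact MidKappa.redMidK_eq_zero_iff_mem_maximalIdeal hq A hA hζ M' hqM (hκ hq A hA hζ M' hqM)
  · exact fun x : OZero3 (badSetup_W0 hq hA M' hqM) w =>
      (redZero3_eq_zero_iff (badSetup_W0 hq hA M' hqM) x).trans
        (mem_nonunits_iff.symm.trans (mem_maximalIdeal x).symm)

theorem red3_zero_apply (f : OInf3 (badSetup_W0 hq hA M' hqM)) :
    red3 hq A hA hζ M' hqM w 0 f = redInf3 (badSetup_W0 hq hA M' hqM) f := rfl

theorem red3_one_coe (f : OMid hq A hA hζ M' hqM (IsLocalRing.residue A)) :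
    ((red3 hq A hA hζ M' hqM w 1 f :
      ↥(modularFunctionFieldFullC (IsLocalRing.ResidueField A) M')) :
      LaurentSeries (IsLocalRing.ResidueField A))
      = redMid hq A hA hζ M' hqM (IsLocalRing.residue A) f := rfl

theorem red3_two_apply (f : OZero3 (badSetup_W0 hq hA M' hqM) w) :
    red3 hq A hA hζ M' hqM w 2 f = redZero3 (badSetup_W0 hq hA M' hqM) w f := rfl

/-! ### The chart ring -/

/-- The chart function `x = J_0 J_2` (ruling #6, convention B). -/
abbrev xC : ↥(laurentBaseChange ↥(K0 A) (modularFunctionFieldFull (M' * q * q))) :=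
  J0 (q := q) ↥(K0 A) M' * J2 (q := q) ↥(K0 A) M'

variable [Algebra ↥(W0 A) ↥(laurentBaseChange ↥(K0 A) (modularFunctionFieldFull (M' * q * q)))]
  [IsScalarTower ↥(W0 A) ↥(K0 A)
    ↥(laurentBaseChange ↥(K0 A) (modularFunctionFieldFull (M' * q * q)))]

/-- The finite chart ring `R = chart W0 (J_0 J_2)`. -/
abbrev R : Subalgebra ↥(W0 A)
    ↥(laurentBaseChange ↥(K0 A) (modularFunctionFieldFull (M' * q * q))) :=
  chart ↥(W0 A) (xC A M' (q := q))

variable {w}

/-- `R ⊆ O_i`. -/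
theorem hBO3 (hw : IsAL3 M' q w) : ∀ i, ∀ b : R A M' (q := q),
    algebraMap ↥(R A M' (q := q))
      ↥(laurentBaseChange ↥(K0 A) (modularFunctionFieldFull (M' * q * q))) b
      ∈ O3 hq A hA hζ M' hqM w i :=
  fun i b => HMin3.hRV3 hq A hA hζ M' hqM hw i b b.2


/-! ### Level `M'`: the ring `B'`, its reduction, the pull-backs -/

include hq hA hqM in
/-- `(M' : k) ≠ 0`. -/
theorem hMk : (M' : IsLocalRing.ResidueField A) ≠ 0 := (badSetup_W0 hq hA M' hqM).hMk

/-- `B' = integralClosure (W0[J(q^{M'})]) F'` (ruling #6, R2). -/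
abbrev Bp : Type := ↥(integralClosure ↥((Data.ofJ (W0 A) (resW0 A) M').AX)
    ↥(laurentBaseChange ↥(K0 A) (modularFunctionFieldFull M')))

/-- `B' ⊆ Ow`. -/
theorem Bp_le_Ow (hM' : (M' : IsLocalRing.ResidueField A) ≠ 0) (y : Bp A M') :
    (y : ↥(laurentBaseChange ↥(K0 A) (modularFunctionFieldFull M')))
      ∈ Ow (W0 A) (resW0 A) M' hM' :=
  (Data.ofJ (W0 A) (resW0 A) M').mem_Ow_of_isIntegral_AX hM' y.2

/-- The reduction of `B'` (the canonical `LiftInst.redBp`). -/
def redp (hM' : (M' : IsLocalRing.ResidueField A) ≠ 0) :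
    Bp A M' →+* ↥(modularFunctionFieldFullC (IsLocalRing.ResidueField A) M') :=
  LiftInst.redBp (Data.ofJ (W0 A) (resW0 A) M') (resW0_eq_zero_of_not_isUnit A) hM'

theorem redp_apply (hM' : (M' : IsLocalRing.ResidueField A) ≠ 0) (y : Bp A M') :
    redp A M' hM' y = redF (W0 A) (resW0 A) M' (resW0_eq_zero_of_not_isUnit A) hM'
      ⟨y, Bp_le_Ow A M' hM' y⟩ := rfl

/-- `π_0^* : B' → R`. -/
def pi0 : Bp A M' →+* ↥(R A M' (q := q)) :=
  RingHom.codRestrict
    (((piStar0 ↥(K0 A) M' q : _ →ₐ[↥(K0 A)] _) : _ →+* _).comp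
      (SubringClass.subtype (integralClosure ↥((Data.ofJ (W0 A) (resW0 A) M').AX)
        ↥(laurentBaseChange ↥(K0 A) (modularFunctionFieldFull M')))))
    (R A M' (q := q))
    (fun y => BPrimeWeb.piStar0_mem_chart ↥(K0 A) M' q (W0 A) (resW0 A) hq y.2)

/-- `π_2^* : B' → R`. -/
def pi2 : Bp A M' →+* ↥(R A M' (q := q)) :=
  RingHom.codRestrict
    (((piStar2 ↥(K0 A) M' q : _ →ₐ[↥(K0 A)] _) : _ →+* _).comp
      (SubringClass.subtype (integralClosure ↥((Data.ofJ (W0 A) (resW0 A) M').AX)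
        ↥(laurentBaseChange ↥(K0 A) (modularFunctionFieldFull M')))))
    (R A M' (q := q))
    (fun y => BPrimeWeb.piStar2_mem_chart ↥(K0 A) M' q (W0 A) (resW0 A) hq y.2)

theorem coe_pi0 (y : Bp A M') :
    ((pi0 hq A M' y : ↥(R A M' (q := q))) :
      ↥(laurentBaseChange ↥(K0 A) (modularFunctionFieldFull (M' * q * q))))
      = piStar0 ↥(K0 A) M' q (y : ↥(laurentBaseChange ↥(K0 A) (modularFunctionFieldFull M'))) :=
  rfl

theorem coe_pi2 (y : Bp A M') :
    ((pi2 hq A M' y : ↥(R A M' (q := q))) :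
      ↥(laurentBaseChange ↥(K0 A) (modularFunctionFieldFull (M' * q * q))))
      = piStar2 ↥(K0 A) M' q (y : ↥(laurentBaseChange ↥(K0 A) (modularFunctionFieldFull M'))) :=
  rfl

/-- `x' = J(q) ∈ B'`. -/
def xJ : Bp A M' :=
  ⟨jLevel ↥(K0 A) M', BPrimeWeb.isIntegral_AX_jLevel (W0 A) (resW0 A) M'⟩

theorem coe_xJ : ((xJ A M' : Bp A M') :
    ↥(laurentBaseChange ↥(K0 A) (modularFunctionFieldFull M'))) = jLevel ↥(K0 A) M' := rfl

theorem algebraMap_pi0 (y : Bp A M') :
    algebraMap ↥(R A M' (q := q))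
      ↥(laurentBaseChange ↥(K0 A) (modularFunctionFieldFull (M' * q * q))) (pi0 hq A M' y)
      = piStar0 ↥(K0 A) M' q (y : ↥(laurentBaseChange ↥(K0 A) (modularFunctionFieldFull M'))) :=
  rfl

theorem algebraMap_pi2 (y : Bp A M') :
    algebraMap ↥(R A M' (q := q))
      ↥(laurentBaseChange ↥(K0 A) (modularFunctionFieldFull (M' * q * q))) (pi2 hq A M' y)
      = piStar2 ↥(K0 A) M' q (y : ↥(laurentBaseChange ↥(K0 A) (modularFunctionFieldFull M'))) :=
  rfl

/-- `xL = J(q^{M'}) ∈ B'`. -/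
def xLp : Bp A M' :=
  ⟨xL ↥(K0 A) M', BPrimeWeb.isIntegral_AX_xL (W0 A) (resW0 A) M'⟩

/-- The image of `q` in `R`. -/
abbrev qR : ↥(R A M' (q := q)) :=
  algebraMap ↥(W0 A) ↥(R A M' (q := q)) ((q : ℕ) : ↥(W0 A))

theorem coe_qR :
    algebraMap ↥(R A M' (q := q))
      ↥(laurentBaseChange ↥(K0 A) (modularFunctionFieldFull (M' * q * q))) (qR A M' (q := q))
      = ((q : ℕ) : ↥(laurentBaseChange ↥(K0 A) (modularFunctionFieldFull (M' * q * q)))) := by
  rw [← IsScalarTower.algebraMap_apply, map_natCast]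

/-! ### The fields -/

include hq hA in
/-- `R` has fraction field `F3`. -/
theorem isFractionRing_R :
    IsFractionRing ↥(R A M' (q := q))
      ↥(laurentBaseChange ↥(K0 A) (modularFunctionFieldFull (M' * q * q))) := by
  have := isDiscreteValuationRing_W0 hq hA
  exact (Cusp.chart_instances ↥(K0 A) (M' * q * q) (W := ↥(W0 A)) (xC A M' (q := q))
    (UnitsFin.order_xB_ne_zero A M')).1

/-- `red' x_L = x̄`. -/
theorem redp_xLp (hM' : (M' : IsLocalRing.ResidueField A) ≠ 0) :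
    redp A M' hM' (xLp A M') = xk (IsLocalRing.ResidueField A) M' :=
  redF_xL (A := W0 A) (π := resW0 A) (resW0_eq_zero_of_not_isUnit A) hM'

/-- **`fin`**: the reductions of `R` are regular at every finite place. -/
theorem fin3 (hw : IsAL3 M' q w) (i : Fin 3)
    (Vs : ValuationSubring ↥(modularFunctionFieldFullC (IsLocalRing.ResidueField A) M'))
    (hVs : IsFinPlace (redp A M' (hMk hq A hA M' hqM)) Vs) (b : ↥(R A M' (q := q))) :
    redOn (O3 hq A hA hζ M' hqM w i) (red3 hq A hA hζ M' hqM w i)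
      (hBO3 hq A hA hζ M' hqM hw i) b ∈ Vs := by
  have hk := EllFinK0.hk_K0 hq hA M' (hMk hq A hA M' hqM) (redp A M' (hMk hq A hA M' hqM))
    (redp_apply A M' (hMk hq A hA M' hqM)) Vs hVs
  have hxk : xk (IsLocalRing.ResidueField A) M' ∈ Vs := by
    rw [← redp_xLp A M' (hMk hq A hA M' hqM)]
    exact hVs.2 _
  fin_cases i
  · exact FinBase.fin_inf (badSetup_W0 hq hA M' hqM) (hBO3 hq A hA hζ M' hqM hw 0) Vs hk hxk b
  · exact FinBase.fin_mid hq A hA hζ M' hqM (hMk hq A hA M' hqM)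
      (MidKappa.redMidK hq A hA hζ M' hqM (hκ hq A hA hζ M' hqM)) (fun _ => rfl)
      (hBO3 hq A hA hζ M' hqM hw 1) Vs hk hxk b
  · exact FinBase.fin_zero (badSetup_W0 hq hA M' hqM) hw (hBO3 hq A hA hζ M' hqM hw 2) Vs hk
      hxk b

/-- `π_2^* x' - π_0^* x' = d`. -/
theorem coe_dR :
    algebraMap ↥(R A M' (q := q))
      ↥(laurentBaseChange ↥(K0 A) (modularFunctionFieldFull (M' * q * q)))
      (pi2 hq A M' (xJ A M') - pi0 hq A M' (xJ A M')) = dMid A M' q := by
  rw [map_sub, algebraMap_pi2, algebraMap_pi0, coe_xJ]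
  exact dPull_jLevel A M'

/-- **The contract of the finite chart at the inertia field**, given the four unit elements of
`R` (`UnitsFinUF.exists_uf`). -/
theorem contract_fin [IsAlgClosed (IsLocalRing.ResidueField A)] (hw : IsAL3 M' q w)
    (hq2 : q = 2 → 3 ∣ M') (hq3 : q = 3 → 2 ∣ M')
    [IsFractionRing ↥(R A M' (q := q))
      ↥(laurentBaseChange ↥(K0 A) (modularFunctionFieldFull (M' * q * q)))]
    {y₁ y₂ : ↥(laurentBaseChange ↥(K0 A) (modularFunctionFieldFull (M' * q * q)))}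
    (hy₁ : (y₁ : LaurentSeries ↥(K0 A)) = Units.u1 ↥(K0 A) q)
    (hy₂ : (y₂ : LaurentSeries ↥(K0 A)) = Units.u2 ↥(K0 A) q)
    {uB u₁B v₁B hB : ↥(R A M' (q := q))}
    (hu : algebraMap ↥(R A M' (q := q))
      ↥(laurentBaseChange ↥(K0 A) (modularFunctionFieldFull (M' * q * q))) uB = y₂ / y₁)
    (hu₁ : algebraMap ↥(R A M' (q := q))
      ↥(laurentBaseChange ↥(K0 A) (modularFunctionFieldFull (M' * q * q))) u₁B = y₁)
    (hv₁ : algebraMap ↥(R A M' (q := q))
      ↥(laurentBaseChange ↥(K0 A) (modularFunctionFieldFull (M' * q * q))) v₁B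
      = ((q : ℕ) : ↥(laurentBaseChange ↥(K0 A) (modularFunctionFieldFull (M' * q * q)))) ^ 12
        / y₂)
    (hh : algebraMap ↥(R A M' (q := q))
      ↥(laurentBaseChange ↥(K0 A) (modularFunctionFieldFull (M' * q * q))) hB
      = dMid A M' q ^ (12 * (q - 1)) * y₁ / y₂) :
    Contract (O3 hq A hA hζ M' hqM w) (red3 hq A hA hζ M' hqM w) (hred3 hq A hA hζ M' hqM w)
      (hBO3 hq A hA hζ M' hqM hw) (redp A M' (hMk hq A hA M' hqM)) (pi0 hq A M') (pi2 hq A M')
      (Deriv.dJ (IsLocalRing.ResidueField A) M') (qR A M' (q := q)) (xJ A M') uB u₁B v₁B hB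
      (UnitsCols.Db hq hA M' hqM) (Deriv.GJ (IsLocalRing.ResidueField A) M') 12 (q - 1) := by
  have hinj : Function.Injective (algebraMap ↥(R A M' (q := q))
      ↥(laurentBaseChange ↥(K0 A) (modularFunctionFieldFull (M' * q * q)))) :=
    Subtype.val_injective
  have U := UnitsCols.unitsFields hq hA hζ M' hqM (hκ hq A hA hζ M' hqM) hw hinj
    (hBO3 hq A hA hζ M' hqM hw 0) (hBO3 hq A hA hζ M' hqM hw 1) (hBO3 hq A hA hζ M' hqM hw 2)
    hy₁ hy₂ (coe_qR A M') (coe_dR hq A M') hu hu₁ hv₁ hh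
  have hι : ∀ y : Bp A M', (y : ↥(laurentBaseChange ↥(K0 A) (modularFunctionFieldFull M')))
      ∈ Ow (W0 A) (resW0 A) M' (badSetup_W0 hq hA M' hqM).hMk :=
    Bp_le_Ow A M' (hMk hq A hA M' hqM)
  exact
    { q_ne := FinClose.q_ne hq A hζ M' hqM (coe_qR A M')
      hmin := HMin3.hmin3 hq A hA hζ M' hqM hw
        (fun i r hr => HMin3.hRV3 hq A hA hζ M' hqM hw i r hr)
      not_max := HMin3.not_max3 hq A hA hζ M' hqM hw (hBO3 hq A hA hζ M' hqM hw)
      q_mem := FinClose.q_mem hq A hA hζ M' hqM (coe_qR A M')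
      unif_inf := FinClose.unif_inf hq A hA M' hqM (coe_qR A M')
      unif_zero := FinClose.unif_zero hq A hA M' hqM (coe_qR A M')
      inf_π₀ := FinClose.inf_π₀ hq A hA hζ M' hqM (red3 hq A hA hζ M' hqM w)
        (red3_zero_apply hq A hA hζ M' hqM w)
        (hBO3 hq A hA hζ M' hqM hw) _ hι (redp A M' (hMk hq A hA M' hqM))
        (redp_apply A M' (hMk hq A hA M' hqM)) (pi0 hq A M') (algebraMap_pi0 hq A M')
      mid_π₀ := FinClose.mid_π₀ hq A hA hζ M' hqM (red3 hq A hA hζ M' hqM w)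
        (red3_one_coe hq A hA hζ M' hqM w)
        (hBO3 hq A hA hζ M' hqM hw) _ hι (redp A M' (hMk hq A hA M' hqM))
        (redp_apply A M' (hMk hq A hA M' hqM)) (pi0 hq A M') (algebraMap_pi0 hq A M')
      mid_π₂ := FinClose.mid_π₂ hq A hA hζ M' hqM (red3 hq A hA hζ M' hqM w)
        (red3_one_coe hq A hA hζ M' hqM w)
        (hBO3 hq A hA hζ M' hqM hw) _ hι (redp A M' (hMk hq A hA M' hqM))
        (redp_apply A M' (hMk hq A hA M' hqM)) (pi2 hq A M') (algebraMap_pi2 hq A M')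
      zero_π₂ := FinClose.zero_π₂ hq A hA hζ M' hqM (red3 hq A hA hζ M' hqM w)
        (red3_two_apply hq A hA hζ M' hqM w)
        (hBO3 hq A hA hζ M' hqM hw) _ hι (redp A M' (hMk hq A hA M' hqM))
        (redp_apply A M' (hMk hq A hA M' hqM)) (pi2 hq A M') (algebraMap_pi2 hq A M') hw
      fin := fin3 hq A hA hζ M' hqM hw
      lift := LiftJ23Inst.contract_lift_redBp_all hq hA hq2 hq3
      res := LiftInst.contract_res_redBp hq hA
      deriv := FinClose.deriv A M'
      deriv_x := FinClose.deriv_x hq A hA M' hqM _ hι (redp A M' (hMk hq A hA M' hqM))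
        (redp_apply A M' (hMk hq A hA M' hqM)) (coe_xJ A M')
      d_mem := FinClose.d_mem hq A hA hζ M' hqM _ (pi0 hq A M') (pi2 hq A M')
        (algebraMap_pi0 hq A M') (algebraMap_pi2 hq A M') (coe_xJ A M')
      unif_mid := FinClose.unif_mid hq A hA hζ M' hqM _ (pi0 hq A M') (pi2 hq A M')
        (algebraMap_pi0 hq A M') (algebraMap_pi2 hq A M') (coe_xJ A M')
      cd := FinClose.cd hq A hA hζ M' hqM (red3 hq A hA hζ M' hqM w)
        (red3_one_coe hq A hA hζ M' hqM w) _ hι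
        (redp A M' (hMk hq A hA M' hqM)) (redp_apply A M' (hMk hq A hA M' hqM)) (pi0 hq A M')
        (pi2 hq A M') (algebraMap_pi0 hq A M') (algebraMap_pi2 hq A M') (coe_xJ A M')
        (hκ hq A hA hζ M' hqM)
      e_ne := U.e_ne
      prod := U.prod
      Db_ne := U.Db_ne
      u_inf := U.u_inf
      u_mid := U.u_mid
      u_zero := U.u_zero
      u₁_inf := U.u₁_inf
      u₁_mid := U.u₁_mid
      u₁_zero := U.u₁_zero
      v₁_inf := U.v₁_inf
      v₁_mid := U.v₁_mid
      v₁_zero := U.v₁_zero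
      cert := U.cert
      red_h := U.red_h }

/-- **The contract of the finite chart at the inertia field, closed form**: the only remaining
binders are the Atkin–Lehner datum `hw`, the level conditions for `q = 2, 3` and the instances. -/
theorem exists_contract_fin [IsAlgClosed (IsLocalRing.ResidueField A)] (hw : IsAL3 M' q w)
    (hq2 : q = 2 → 3 ∣ M') (hq3 : q = 3 → 2 ∣ M')
    [IsFractionRing ↥(R A M' (q := q))
      ↥(laurentBaseChange ↥(K0 A) (modularFunctionFieldFull (M' * q * q)))] :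
    ∃ uB u₁B v₁B hB : ↥(R A M' (q := q)),
      Contract (O3 hq A hA hζ M' hqM w) (red3 hq A hA hζ M' hqM w) (hred3 hq A hA hζ M' hqM w)
        (hBO3 hq A hA hζ M' hqM hw) (redp A M' (hMk hq A hA M' hqM)) (pi0 hq A M')
        (pi2 hq A M') (Deriv.dJ (IsLocalRing.ResidueField A) M') (qR A M' (q := q)) (xJ A M')
        uB u₁B v₁B hB (UnitsCols.Db hq hA M' hqM)
        (Deriv.GJ (IsLocalRing.ResidueField A) M') 12 (q - 1) := by
  obtain ⟨y₁, hy₁⟩ := MidUnits.exists_y1 hq A M'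
  obtain ⟨y₂, hy₂⟩ := MidUnits.exists_y2 hq A M'
  obtain ⟨uB, u₁B, v₁B, hB, hu, hu₁, hv₁, hh⟩ :=
    UnitsFinUF.exists_uf hq A hA hζ M' hqM hy₁ hy₂ hw
  exact ⟨uB, u₁B, v₁B, hB, contract_fin hq A hA hζ M' hqM hw hq2 hq3 hy₁ hy₂ hu hu₁ hv₁ hh⟩

end Fermat.Agent.CAR.Inst.FinSh

end
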