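/-
CAR row 396, LEVEL-N block (second seat, helper44): the chart-side binders of
`Glue.NodeTriple.triple_ratio_pow_of_red` / `Inst.NodeContract.nodeRel_of_contract` /
`Inst.TripleV3.triple_ratio_pow_K0`, in literal shape, for a GENERIC base field `L ⊇ ℚ`
(instance: `L = K0 A`, `W = ↥(W0 A)`):

  `FN = L·F_{M' q}`, `F = L·F_{M' q²}`, `Φα = alphaStar L M' q`, `Φβ = betaStar L M' q`,
  `x  = CuspQuot.J0 L M' * CuspQuot.J2 L M'`   (series `J(q^{M'}) · J(q^{M' q²})`, ruling #6 R1),
  `xN = LevelNB.xN L M' q`                      (series `J(q^{M'})` at level `M' q`).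

* `xN`, `coe_xN`, `xN_eq_jd`, `alphaStar_xN : Φα xN = CuspQuot.J0`, `betaStar_xN : Φβ xN = CuspQuot.J1`;
* `hΦα`, `hΦβ` : `Φ (algebraMap W FN w) = algebraMap W F w` for every `W` with a tower `W → L → ·`;
* `h1α`, `h2α`, `h1β`, `h2β` : `Φ xN ∈ chart W x`, `x` integral over `W[Φ xN]` (any `W`);
* `isFractionRing_chart_xN`, `isIntegrallyClosed_chart_xN`, `isFractionRing_chart_x`,
  `isIntegrallyClosed_chart_x` (+ generic `isFractionRing_chart_FNK`, `isIntegrallyClosed_chart_FNK`
  for every function of nonzero `q`-order) : the three instance binders;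
* `alpha_mem_chart`, `beta_mem_chart` : `α_{M'}^*`, `β_{M'}^*` map `B'` (integral closure of
  `A[xL]`) into `chart A xN`; `p0`, `p1 : B' →+* chart A xN` for any `ι : B' →+* L·F_{M'}` with
  integral image, and the four factorisations `hα₀ hα₁ hβ₁ hβ₂` of `nodeRel_of_contract` for any
  `π₀ π₁ π₂ : B' →+* chart A x` with `(π_i y : F) = π_i^* (ι y)`.
-/
import Mathlib
import Fermat.Agent.CAR.Inst.BPrimeWeb
import Fermat.Agent.CAR.Glob.ChartsFNK
import Fermat.Agent.CAR.V3.RestrictNF
import Fermat.Agent.CAR.Glue.NodeInst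

set_option autoImplicit false
set_option linter.unusedSectionVars false
set_option linter.style.haveILetI false

namespace Fermat.Agent.CAR.Inst.LevelNB

open ModularCurve HahnSeries IntermediateField Fermat.Agent.S28 Fermat.Agent.Lib.Red
open Fermat.Agent.CAR.V3 Fermat.Agent.CAR.Glob Fermat.Agent.CAR.Glob.Charts
open Fermat.Agent.CAR.Glob.ChartX Fermat.Agent.CAR.V3.RestrictNF
open Fermat.Agent.ESJ.Cong.LevelGen Fermat.Agent.CAR.Glue

noncomputable section

/-! ### The level-`M' q` chart function and its two pull-backs -/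

section Gen

variable (L : Type) [Field L] [Algebra ℚ L] (M' q : ℕ) [NeZero M'] [NeZero q]

/-- `xN = α_{M'}^* (xL) = J(q^{M'})` as a function of level `M' q`. -/
def xN : ↥(laurentBaseChange L (modularFunctionFieldFull (M' * q))) :=
  heckeAlphaBar L M' q (xL L M')

theorem coe_xN :
    ((xN L M' q : ↥(laurentBaseChange L (modularFunctionFieldFull (M' * q)))) : LaurentSeries L)
      = TD.Jd L M' := by
  unfold xN
  rw [coe_heckeAlphaBar, coe_xL]

theorem xN_eq_jd : xN L M' q = ChartXInst.jd L (M' * q) M' ⟨q, rfl⟩ :=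
  Subtype.ext (coe_xN L M' q)

/-- `Φα xN = J_0` (convention (B)). -/
theorem alphaStar_xN : alphaStar L M' q (xN L M' q) = CuspQuot.J0 (q := q) L M' := rfl

/-- `Φβ xN = J_1` (convention (B)). -/
theorem betaStar_xN : betaStar L M' q (xN L M' q) = CuspQuot.J1 (q := q) L M' :=
  (piStar1_apply' M' q (xL L M')).symm

theorem order_xN :
    ((xN L M' q : ↥(laurentBaseChange L (modularFunctionFieldFull (M' * q)))) :
      LaurentSeries L).order ≠ 0 := by
  rw [coe_xN, Fermat.Agent.S28.ValInd.order_Jd M' (NeZero.ne M')]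
  exact neg_ne_zero.mpr (Int.natCast_ne_zero.mpr (NeZero.ne M'))

theorem order_chartX :
    ((CuspQuot.J0 (q := q) L M' * CuspQuot.J2 L M' :
      ↥(laurentBaseChange L (modularFunctionFieldFull (M' * q * q)))) : LaurentSeries L).order
      ≠ 0 := by
  have hM : M' ≠ 0 := NeZero.ne M'
  have hMqq : M' * q * q ≠ 0 := Nat.mul_ne_zero (Nat.mul_ne_zero hM (NeZero.ne q)) (NeZero.ne q)
  have e : ((CuspQuot.J0 (q := q) L M' * CuspQuot.J2 L M' :
      ↥(laurentBaseChange L (modularFunctionFieldFull (M' * q * q)))) : LaurentSeries L)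
      = TD.Jd L M' * TD.Jd L (M' * q * q) := by
    rw [← CuspQuot.coe_J0 (q := q) L M', ← CuspQuot.coe_J2 (q := q) L M']
    rfl
  rw [e, HahnSeries.order_mul (Fermat.Agent.S28.ValInd.Jd_ne_zero M' hM)
    (Fermat.Agent.S28.ValInd.Jd_ne_zero (M' * q * q) hMqq),
    Fermat.Agent.S28.ValInd.order_Jd M' hM, Fermat.Agent.S28.ValInd.order_Jd (M' * q * q) hMqq]
  have h1 : (0 : ℤ) < (M' : ℤ) := by exact_mod_cast Nat.pos_of_ne_zero hM
  have h2 : (0 : ℤ) < ((M' * q * q : ℕ) : ℤ) := by exact_mod_cast Nat.pos_of_ne_zero hMqq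
  omega

/-! ### `hΦα`, `hΦβ` -/

section Tower

variable {W : Type*} [CommRing W] [Algebra W L]
  [Algebra W ↥(laurentBaseChange L (modularFunctionFieldFull (M' * q)))]
  [IsScalarTower W L ↥(laurentBaseChange L (modularFunctionFieldFull (M' * q)))]
  [Algebra W ↥(laurentBaseChange L (modularFunctionFieldFull (M' * q * q)))]
  [IsScalarTower W L ↥(laurentBaseChange L (modularFunctionFieldFull (M' * q * q)))]

/-- **`hΦα`**: `α^*` is the identity on the constants `W`. -/
theorem hΦα : ∀ w : W,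
    alphaStar L M' q
      (algebraMap W ↥(laurentBaseChange L (modularFunctionFieldFull (M' * q))) w)
      = algebraMap W ↥(laurentBaseChange L (modularFunctionFieldFull (M' * q * q))) w := by
  intro w
  rw [IsScalarTower.algebraMap_apply W L ↥(laurentBaseChange L (modularFunctionFieldFull (M' * q))),
    IsScalarTower.algebraMap_apply W L
      ↥(laurentBaseChange L (modularFunctionFieldFull (M' * q * q)))]
  exact (heckeAlphaBar L (M' * q) q).commutes _

/-- **`hΦβ`**: `β^*` is the identity on the constants `W`. -/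
theorem hΦβ : ∀ w : W,
    betaStar L M' q
      (algebraMap W ↥(laurentBaseChange L (modularFunctionFieldFull (M' * q))) w)
      = algebraMap W ↥(laurentBaseChange L (modularFunctionFieldFull (M' * q * q))) w := by
  intro w
  rw [IsScalarTower.algebraMap_apply W L ↥(laurentBaseChange L (modularFunctionFieldFull (M' * q))),
    IsScalarTower.algebraMap_apply W L
      ↥(laurentBaseChange L (modularFunctionFieldFull (M' * q * q)))]
  exact (heckeBetaBar L (M' * q) q).commutes _

end Tower

/-! ### `h1α h2α h1β h2β` -/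

section H12

variable {W : Type*} [CommRing W]
  [Algebra W ↥(laurentBaseChange L (modularFunctionFieldFull (M' * q * q)))]

/-- **`h1α`**: `Φα xN = J_0` lies in the finite chart ring `chart W (J_0 J_2)`. -/
theorem h1α (hq : q.Prime) :
    alphaStar L M' q (xN L M' q) ∈
      chart W (CuspQuot.J0 (q := q) L M' * CuspQuot.J2 L M') := by
  rw [alphaStar_xN]
  exact BPrimeWeb.J0_mem_chart L M' q hq

/-- **`h1β`**: `Φβ xN = J_1` lies in the finite chart ring `chart W (J_0 J_2)`. -/
theorem h1β (hq : q.Prime) :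
    betaStar L M' q (xN L M' q) ∈
      chart W (CuspQuot.J0 (q := q) L M' * CuspQuot.J2 L M') := by
  rw [betaStar_xN]
  exact BPrimeWeb.J1_mem_chart L M' q hq

/-- **`h2α`**: `x = J_0 J_2` is integral over `W[Φα xN] = W[J_0]`. -/
theorem h2α :
    IsIntegral (Algebra.adjoin W {alphaStar L M' q (xN L M' q)})
      (CuspQuot.J0 (q := q) L M' * CuspQuot.J2 L M') := by
  rw [alphaStar_xN, isIntegral_adjoin_singleton_iff]
  exact fun V _ hV =>
    BPrimeWeb.mul_mem_of_coe_of_mem L M' q (NeZero.ne M') (CuspQuot.coe_J0 L M') V hV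

/-- **`h2β`**: `x = J_0 J_2` is integral over `W[Φβ xN] = W[J_1]`. -/
theorem h2β :
    IsIntegral (Algebra.adjoin W {betaStar L M' q (xN L M' q)})
      (CuspQuot.J0 (q := q) L M' * CuspQuot.J2 L M') := by
  rw [betaStar_xN, isIntegral_adjoin_singleton_iff]
  exact fun V _ hV =>
    BPrimeWeb.mul_mem_of_coe_of_mem L M' q (Nat.mul_ne_zero (NeZero.ne M') (NeZero.ne q))
      (CuspQuot.coe_J1 L M') V hV

end H12

/-! ### The chart instances -/

section Instances

variable {W : Type*} [CommRing W] [IsDomain W] [Algebra W L] [IsFractionRing W L]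

/-- `L·F_N` is the fraction field of the chart ring of every function of nonzero `q`-order. -/
theorem isFractionRing_chart_FNK (N : ℕ) [NeZero N]
    [Algebra W ↥(laurentBaseChange L (modularFunctionFieldFull N))]
    [IsScalarTower W L ↥(laurentBaseChange L (modularFunctionFieldFull N))]
    (x : ↥(laurentBaseChange L (modularFunctionFieldFull N)))
    (hx : (x : LaurentSeries L).order ≠ 0) :
    IsFractionRing (chart W x) ↥(laurentBaseChange L (modularFunctionFieldFull N)) := by
  have := ChartField.finiteDimensional_FNK L N x hx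
  exact chart_isFractionRing (W := W) L⟮x⟯ (mem_adjoin_simple_self L x) le_rfl

/-- The chart ring of every function of nonzero `q`-order is integrally closed. -/
theorem isIntegrallyClosed_chart_FNK (N : ℕ) [NeZero N]
    [Algebra W ↥(laurentBaseChange L (modularFunctionFieldFull N))]
    [IsScalarTower W L ↥(laurentBaseChange L (modularFunctionFieldFull N))]
    (x : ↥(laurentBaseChange L (modularFunctionFieldFull N)))
    (hx : (x : LaurentSeries L).order ≠ 0) :
    IsIntegrallyClosed (chart W x) := by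
  have := ChartField.finiteDimensional_FNK L N x hx
  exact chart_isIntegrallyClosed (W := W) L⟮x⟯ (mem_adjoin_simple_self L x) le_rfl

variable [Algebra W ↥(laurentBaseChange L (modularFunctionFieldFull (M' * q)))]
  [IsScalarTower W L ↥(laurentBaseChange L (modularFunctionFieldFull (M' * q)))]
  [Algebra W ↥(laurentBaseChange L (modularFunctionFieldFull (M' * q * q)))]
  [IsScalarTower W L ↥(laurentBaseChange L (modularFunctionFieldFull (M' * q * q)))]

/-- **`[IsFractionRing (chart W xN) FN]`**. -/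
theorem isFractionRing_chart_xN :
    IsFractionRing (chart W (xN L M' q))
      ↥(laurentBaseChange L (modularFunctionFieldFull (M' * q))) :=
  isFractionRing_chart_FNK L (M' * q) (xN L M' q) (order_xN L M' q)

/-- **`[IsIntegrallyClosed (chart W xN)]`**. -/
theorem isIntegrallyClosed_chart_xN : IsIntegrallyClosed (chart W (xN L M' q)) :=
  isIntegrallyClosed_chart_FNK L (M' * q) (xN L M' q) (order_xN L M' q)

/-- **`[IsFractionRing (chart W x) F]`**, `x = J_0 J_2`. -/
theorem isFractionRing_chart_x :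
    IsFractionRing (chart W (CuspQuot.J0 (q := q) L M' * CuspQuot.J2 L M'))
      ↥(laurentBaseChange L (modularFunctionFieldFull (M' * q * q))) :=
  isFractionRing_chart_FNK L (M' * q * q) _ (order_chartX L M' q)

/-- `chart W x` is integrally closed, `x = J_0 J_2`. -/
theorem isIntegrallyClosed_chart_x :
    IsIntegrallyClosed (chart W (CuspQuot.J0 (q := q) L M' * CuspQuot.J2 L M')) :=
  isIntegrallyClosed_chart_FNK L (M' * q * q) _ (order_chartX L M' q)

end Instances

end Gen

/-! ### `p₀ p₁ : B' → chart A xN` and the four factorisations -/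

section P

variable {L : Type} [Field L] [Algebra ℚ L] (A : ValuationSubring L) {k : Type} [Field k]
  (π : A →+* k) (M' q : ℕ) [NeZero M'] [NeZero q]
  [Algebra ↥A ↥(laurentBaseChange L (modularFunctionFieldFull (M' * q)))]
  [IsScalarTower ↥A L ↥(laurentBaseChange L (modularFunctionFieldFull (M' * q)))]

/-- `α_{M'}^*` maps `B'` (the integral closure of `A[xL]`) into `chart A xN`. -/
theorem alpha_mem_chart {y : ↥(laurentBaseChange L (modularFunctionFieldFull M'))}
    (hy : IsIntegral ↥((BaseFn.Data.ofJ A π M').AX) y) :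
    heckeAlphaBar L M' q y ∈ chart ↥A (xN L M' q) := by
  refine BPrimeWeb.map_mem_chart_of_isIntegral_AX (BaseFn.Data.ofJ A π M')
    (heckeAlphaBar L M' q) ?_ hy
  intro V _ hx
  rw [BaseFn.Data.ofJ_x]
  exact hx

/-- `β_{M'}^*` maps `B'` into `chart A xN`. -/
theorem beta_mem_chart {y : ↥(laurentBaseChange L (modularFunctionFieldFull M'))}
    (hy : IsIntegral ↥((BaseFn.Data.ofJ A π M').AX) y) :
    heckeBetaBar L M' q y ∈ chart ↥A (xN L M' q) := by
  refine BPrimeWeb.map_mem_chart_of_isIntegral_AX (BaseFn.Data.ofJ A π M')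
    (heckeBetaBar L M' q) ?_ hy
  intro V _ hx
  rw [BaseFn.Data.ofJ_x]
  refine BPrimeWeb.mem_of_coe_of_mem (NeZero.ne M')
    (Nat.mul_ne_zero (NeZero.ne q) (NeZero.ne M')) (coe_xN L M' q) ?_ V hx
  rw [coe_heckeBetaBar, coe_xL, TD.qExpand_Jd L q M' (NeZero.ne M')]

variable {B' : Type*} [CommRing B']
  (ι : B' →+* ↥(laurentBaseChange L (modularFunctionFieldFull M')))
  (hι : ∀ y : B', IsIntegral ↥((BaseFn.Data.ofJ A π M').AX) (ι y))

/-- `p₀ : B' → chart A xN`, `y(z) ↦ y(z)`. -/
def p0 : B' →+* chart ↥A (xN L M' q) :=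
  ((heckeAlphaBar L M' q).toRingHom.comp ι).codRestrict (chart ↥A (xN L M' q))
    (fun y => alpha_mem_chart A π M' q (hι y))

/-- `p₁ : B' → chart A xN`, `y(z) ↦ y(q z)`. -/
def p1 : B' →+* chart ↥A (xN L M' q) :=
  ((heckeBetaBar L M' q).toRingHom.comp ι).codRestrict (chart ↥A (xN L M' q))
    (fun y => beta_mem_chart A π M' q (hι y))

theorem coe_p0 (y : B') :
    ((p0 A π M' q ι hι y : chart ↥A (xN L M' q)) :
      ↥(laurentBaseChange L (modularFunctionFieldFull (M' * q)))) = heckeAlphaBar L M' q (ι y) :=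
  rfl

theorem coe_p1 (y : B') :
    ((p1 A π M' q ι hι y : chart ↥A (xN L M' q)) :
      ↥(laurentBaseChange L (modularFunctionFieldFull (M' * q)))) = heckeBetaBar L M' q (ι y) :=
  rfl

variable [Algebra ↥A ↥(laurentBaseChange L (modularFunctionFieldFull (M' * q * q)))]
  [IsScalarTower ↥A L ↥(laurentBaseChange L (modularFunctionFieldFull (M' * q * q)))]
  (hq : q.Prime)

/-- **`hα₀`**: `α^* ∘ p₀ = π₀`. -/
theorem hα₀ (π₀ : B' →+* chart ↥A (CuspQuot.J0 (q := q) L M' * CuspQuot.J2 L M'))
    (hπ₀ : ∀ y : B', ((π₀ y : chart ↥A (CuspQuot.J0 (q := q) L M' * CuspQuot.J2 L M')) :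
      ↥(laurentBaseChange L (modularFunctionFieldFull (M' * q * q)))) = piStar0 L M' q (ι y)) :
    ∀ y : B', NodeInst.chartMap (alphaStar L M' q) (hΦα L M' q) (h1α L M' q hq)
      (p0 A π M' q ι hι y) = π₀ y := by
  intro y
  apply Subtype.ext
  rw [NodeInst.coe_chartMap, hπ₀, coe_p0]
  rfl

/-- **`hα₁`**: `α^* ∘ p₁ = π₁`. -/
theorem hα₁ (π₁ : B' →+* chart ↥A (CuspQuot.J0 (q := q) L M' * CuspQuot.J2 L M'))
    (hπ₁ : ∀ y : B', ((π₁ y : chart ↥A (CuspQuot.J0 (q := q) L M' * CuspQuot.J2 L M')) :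
      ↥(laurentBaseChange L (modularFunctionFieldFull (M' * q * q)))) = piStar1 L M' q (ι y)) :
    ∀ y : B', NodeInst.chartMap (alphaStar L M' q) (hΦα L M' q) (h1α L M' q hq)
      (p1 A π M' q ι hι y) = π₁ y := by
  intro y
  apply Subtype.ext
  rw [NodeInst.coe_chartMap, hπ₁, coe_p1]
  rfl

/-- **`hβ₁`**: `β^* ∘ p₀ = π₁`. -/
theorem hβ₁ (π₁ : B' →+* chart ↥A (CuspQuot.J0 (q := q) L M' * CuspQuot.J2 L M'))
    (hπ₁ : ∀ y : B', ((π₁ y : chart ↥A (CuspQuot.J0 (q := q) L M' * CuspQuot.J2 L M')) :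
      ↥(laurentBaseChange L (modularFunctionFieldFull (M' * q * q)))) = piStar1 L M' q (ι y)) :
    ∀ y : B', NodeInst.chartMap (betaStar L M' q) (hΦβ L M' q) (h1β L M' q hq)
      (p0 A π M' q ι hι y) = π₁ y := by
  intro y
  apply Subtype.ext
  rw [NodeInst.coe_chartMap, hπ₁, coe_p0, piStar1_apply']
  rfl

/-- **`hβ₂`**: `β^* ∘ p₁ = π₂`. -/
theorem hβ₂ (π₂ : B' →+* chart ↥A (CuspQuot.J0 (q := q) L M' * CuspQuot.J2 L M'))
    (hπ₂ : ∀ y : B', ((π₂ y : chart ↥A (CuspQuot.J0 (q := q) L M' * CuspQuot.J2 L M')) :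
      ↥(laurentBaseChange L (modularFunctionFieldFull (M' * q * q)))) = piStar2 L M' q (ι y)) :
    ∀ y : B', NodeInst.chartMap (betaStar L M' q) (hΦβ L M' q) (h1β L M' q hq)
      (p1 A π M' q ι hι y) = π₂ y := by
  intro y
  apply Subtype.ext
  rw [NodeInst.coe_chartMap, hπ₂, coe_p1]
  rfl

end P

end

end Fermat.Agent.CAR.Inst.LevelNB
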