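import Mathlib
import Fermat.Agent.CAR.Local.Inst.ContractUniq
import Fermat.Agent.CAR.Inst.ContractPull
import Fermat.Agent.CAR.V3.MidKappa
import Fermat.Agent.CAR.V3.MidRestrict

/-!
# CAR (instance): the record `ContractUniq` over `K0`

Base `(L, A, π) = (K0, W0, resW0)` for a valuation subring `A` of `ℚ̄` over the prime `q`,
`hB = K0.badSetup_W0 hq hA M' hqM`, the three components
`O = ![OInf3 hB, OMid …, OZero3 hB w]` of level `M' q²` (the literal of the architect's
ruling #8) with residue maps `redInf3 hB`, `redMidK … hκ`, `redZero3 hB w`.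

`contractUniq_K0` is object-agnostic in the chart ring `B`, in `B'` and in `red`: it asks only
that `red i` agrees pointwise with the three concrete residue maps, that `red'` is `redF ∘ ι`
for a map `ι : B' → Ow`, and that `π₁` is `piStar1 ∘ ι` inside the function field.  Its
conclusion is the record `Local.Inst.ContractUniq` with twist `ψ = FrobAut.vHom k q M'` and
`n = q`.
-/

set_option autoImplicit false
set_option linter.unusedSectionVars false
set_option linter.style.haveILetI false

noncomputable section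

namespace Fermat.Agent.CAR.Inst.UniqK0

open ModularCurve HahnSeries Fermat.Agent.S24 Fermat.Agent.S28 Fermat.Agent.S28.Chain
  Fermat.Agent.Lib.Red Fermat.Agent.CAR.K0 Fermat.Agent.CAR.V3.GaussDVR
  Fermat.Agent.CAR.V3.MidRing Fermat.Agent.BAD.TwoVal Fermat.Agent.ESJ.Cong.LevelGen
  Fermat.Agent.CAR.Formal Fermat.Agent.CAR.V3 Fermat.Agent.CAR.V3.Restrict
  Fermat.Agent.CAR.Local Fermat.Agent.CAR.Local.Inst Fermat.Agent.CAR.V3.MidRestrict

local notation "Qb" => AlgebraicClosure ℚ

variable {q : ℕ} (hq : q.Prime) (A : ValuationSubring Qb) (hA : A.LiesOverPrime q)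
  {ζ : Qb} (hζ : IsPrimitiveRoot ζ q) (M' : ℕ) [NeZero M'] [NeZero q] (hqM : ¬ q ∣ M')

variable (hκ : ∀ f : OMid hq A hA hζ M' hqM (IsLocalRing.residue A),
    redMid hq A hA hζ M' hqM (IsLocalRing.residue A) f
      ∈ modularFunctionFieldFullC (IsLocalRing.ResidueField A) M')

/-- **The record `ContractUniq` over `K0`** (twist `ψ = FrobAut.vHom k q M'`, `n = q`), for any
chart ring `B`, any `B'` with a map `ι` to `Ow`, and any family `red` agreeing pointwise with the
three concrete residue maps. -/
theorem contractUniq_K0 [Fact q.Prime] [CharP (IsLocalRing.ResidueField A) q]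
    [PerfectRing (IsLocalRing.ResidueField A) q]
    (w : ALAut (inertiaField A) (M' * q) q) (hw : IsAL3 M' q w)
    {B B' : Type*} [CommRing B] [CommRing B'] [Algebra B (FK (inertiaField A) (M' * q * q))]
    (red : ∀ i : Fin 3,
      ↥((![OInf3 (badSetup_W0 hq hA M' hqM),
          OMid hq A hA hζ M' hqM (IsLocalRing.residue A),
          OZero3 (badSetup_W0 hq hA M' hqM) w] :
          Fin 3 → ValuationSubring (FK (inertiaField A) (M' * q * q))) i) →+*
        modularFunctionFieldFullC (IsLocalRing.ResidueField A) M')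
    (hred0 : ∀ f : OInf3 (badSetup_W0 hq hA M' hqM),
      red 0 f = redInf3 (badSetup_W0 hq hA M' hqM) f)
    (hred1 : ∀ f : OMid hq A hA hζ M' hqM (IsLocalRing.residue A),
      red 1 f = MidKappa.redMidK hq A hA hζ M' hqM hκ f)
    (hred2 : ∀ f : OZero3 (badSetup_W0 hq hA M' hqM) w,
      red 2 f = redZero3 (badSetup_W0 hq hA M' hqM) w f)
    (hBO : ∀ i : Fin 3, ∀ b : B, algebraMap B (FK (inertiaField A) (M' * q * q)) b ∈
      (![OInf3 (badSetup_W0 hq hA M' hqM),
          OMid hq A hA hζ M' hqM (IsLocalRing.residue A),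
          OZero3 (badSetup_W0 hq hA M' hqM) w] :
          Fin 3 → ValuationSubring (FK (inertiaField A) (M' * q * q))) i)
    (red' : B' →+* modularFunctionFieldFullC (IsLocalRing.ResidueField A) M')
    (ι : B' → Ow (W0 A) (resW0 A) M' (badSetup_W0 hq hA M' hqM).hMk)
    (hred' : ∀ y : B', red' y =
      redF (W0 A) (resW0 A) M' (badSetup_W0 hq hA M' hqM).hπ (badSetup_W0 hq hA M' hqM).hMk (ι y))
    (π₁ : B' →+* B)
    (hπ₁ : ∀ y : B', algebraMap B (FK (inertiaField A) (M' * q * q)) (π₁ y) =
      piStar1 (inertiaField A) M' q (ι y : FK (inertiaField A) M')) :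
    ContractUniq
      (![OInf3 (badSetup_W0 hq hA M' hqM),
          OMid hq A hA hζ M' hqM (IsLocalRing.residue A),
          OZero3 (badSetup_W0 hq hA M' hqM) w] :
          Fin 3 → ValuationSubring (FK (inertiaField A) (M' * q * q)))
      red hBO red' π₁
      (Fermat.Agent.ESJ.Cong.FrobAut.vHom (IsLocalRing.ResidueField A) q M') q where
  n_ne := hq.ne_zero
  frob := Fermat.Agent.CAR.Inst.Pull.frob
  inf_π₁ := by
    intro y
    obtain ⟨hy', e⟩ := Fermat.Agent.CAR.Inst.Pull.inf_pi1 (badSetup_W0 hq hA M' hqM)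
      (ι y : FK (inertiaField A) M') (ι y).2
    rw [redOn_apply, hred', ← e]
    have h0 := hBO 0 (π₁ y)
    refine (hred0 ⟨_, h0⟩).trans ?_
    congr 1
    exact Subtype.ext (hπ₁ y)
  mid_π₁ := by
    intro y
    have h1 := hBO 1 (π₁ y)
    have h1' : piStar1 (inertiaField A) M' q (ι y : FK (inertiaField A) M') ∈
        OMid hq A hA hζ M' hqM (IsLocalRing.residue A) := by
      rw [← hπ₁ y]
      exact h1
    rw [redOn_apply, hred',
      ← MidKappa.redMidK_piStar1 hq A hA hζ M' hqM hκ (badSetup_W0 hq hA M' hqM).hMk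
        (ι y : FK (inertiaField A) M') (ι y).2 h1']
    refine (hred1 ⟨_, h1⟩).trans ?_
    congr 1
    exact Subtype.ext (hπ₁ y)
  zero_π₁ := by
    intro y
    obtain ⟨hy', e⟩ := Fermat.Agent.CAR.Inst.Pull.zero_pi1 (badSetup_W0 hq hA M' hqM) hw
      (ι y : FK (inertiaField A) M') (ι y).2
    rw [redOn_apply, hred', ← e]
    have h2 := hBO 2 (π₁ y)
    refine (hred2 ⟨_, h2⟩).trans ?_
    congr 1
    exact Subtype.ext (hπ₁ y)

/-- **The record `ContractUniq` over `K0`, closed form**: only `hq`, `hA` (the instances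
`Fact q.Prime`, `CharP k q`, `PerfectRing k q` are produced inside), the twist is existential. -/
theorem exists_contractUniq_K0
    (w : ALAut (inertiaField A) (M' * q) q) (hw : IsAL3 M' q w)
    {B B' : Type*} [CommRing B] [CommRing B'] [Algebra B (FK (inertiaField A) (M' * q * q))]
    (red : ∀ i : Fin 3,
      ↥((![OInf3 (badSetup_W0 hq hA M' hqM),
          OMid hq A hA hζ M' hqM (IsLocalRing.residue A),
          OZero3 (badSetup_W0 hq hA M' hqM) w] :
          Fin 3 → ValuationSubring (FK (inertiaField A) (M' * q * q))) i) →+*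
        modularFunctionFieldFullC (IsLocalRing.ResidueField A) M')
    (hred0 : ∀ f : OInf3 (badSetup_W0 hq hA M' hqM),
      red 0 f = redInf3 (badSetup_W0 hq hA M' hqM) f)
    (hred1 : ∀ f : OMid hq A hA hζ M' hqM (IsLocalRing.residue A),
      red 1 f = MidKappa.redMidK hq A hA hζ M' hqM hκ f)
    (hred2 : ∀ f : OZero3 (badSetup_W0 hq hA M' hqM) w,
      red 2 f = redZero3 (badSetup_W0 hq hA M' hqM) w f)
    (hBO : ∀ i : Fin 3, ∀ b : B, algebraMap B (FK (inertiaField A) (M' * q * q)) b ∈
      (![OInf3 (badSetup_W0 hq hA M' hqM),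
          OMid hq A hA hζ M' hqM (IsLocalRing.residue A),
          OZero3 (badSetup_W0 hq hA M' hqM) w] :
          Fin 3 → ValuationSubring (FK (inertiaField A) (M' * q * q))) i)
    (red' : B' →+* modularFunctionFieldFullC (IsLocalRing.ResidueField A) M')
    (ι : B' → Ow (W0 A) (resW0 A) M' (badSetup_W0 hq hA M' hqM).hMk)
    (hred' : ∀ y : B', red' y =
      redF (W0 A) (resW0 A) M' (badSetup_W0 hq hA M' hqM).hπ (badSetup_W0 hq hA M' hqM).hMk (ι y))
    (π₁ : B' →+* B)
    (hπ₁ : ∀ y : B', algebraMap B (FK (inertiaField A) (M' * q * q)) (π₁ y) =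
      piStar1 (inertiaField A) M' q (ι y : FK (inertiaField A) M')) :
    ∃ ψ : modularFunctionFieldFullC (IsLocalRing.ResidueField A) M' →+*
        modularFunctionFieldFullC (IsLocalRing.ResidueField A) M',
      ContractUniq
        (![OInf3 (badSetup_W0 hq hA M' hqM),
            OMid hq A hA hζ M' hqM (IsLocalRing.residue A),
            OZero3 (badSetup_W0 hq hA M' hqM) w] :
            Fin 3 → ValuationSubring (FK (inertiaField A) (M' * q * q)))
        red hBO red' π₁ ψ q := by
  haveI : Fact q.Prime := ⟨hq⟩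
  haveI : CharP (IsLocalRing.ResidueField A) q := (badSetup_W0 hq hA M' hqM).charP
  haveI : IsAlgClosed (IsLocalRing.ResidueField A) :=
    Fermat.Agent.Lib.FF.CharP.isAlgClosed_residueField A
  haveI : PerfectRing (IsLocalRing.ResidueField A) q := inferInstance
  exact ⟨_, contractUniq_K0 hq A hA hζ M' hqM hκ w hw red hred0 hred1 hred2 hBO red' ι hred' π₁
    hπ₁⟩

end Fermat.Agent.CAR.Inst.UniqK0

end
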