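/-
CAR (helper75): **the node relation `Core.NodeRel` at the triple points of a contract** — the
literal hypothesis `hnode` of helper71's `Core.pointPkg_of_contract`, on top of helper64's
`Glue/NodeTriple.lean` (`node_relation_chart`, one side at a time) and `Glue/NodeData.lean`
(the contract block: rationality, (UNIQ), point identities).

`Core.NodeRel` asks, for every factorisation `f = u * h ^ m` at the triple point (`f` a principal
unit on the three components), for `W`-constants `a, b, c` with `h⁻¹ ≡ a, b, c` on the three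
branches such that, SEPARATELY for the two degeneracy maps,
* `N_α f = c₀ g ^ m`, `g ≡ wA` at `PA`, `g ≡ wC` at `PC`  ⟹  `res (wA a b^(q-1)) = res (wC c^q)`;
* `N_β f = c₀ g ^ m`, `g ≡ wA` at `PA`, `g ≡ wC` at `PC`  ⟹  `res (wA a^q) = res (wC b^(q-1) c)`.

* `nodeRel_of_data` : from `D : NF.Data Φα Φβ q PA PC (O 0) (O 1) (O 2) ϖN ϖ d` (`q = n + 1`), the
  chart block, a `k`-rational closed point `P` of `chart W x` with (UNIQ) along `Φα`, `Φβ`, residue
  maps with the four untwisted compatibilities, ONE place `Vs` with the three composites centred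
  at `P` and (LIFT) on the three branches.  The values of `h` are those of
  `FactorVal.exists_hasVal_of_factor_branch`.
* `nodeRel_of_contract` : the same at `P = Meet.pt H 1 Vs hVs` for a contract `H` (hypotheses of
  `NodeData.triple_ratio_pow_of_contract`).
* `hnode_of_contract` : the binder `hnode` of `Core.pointPkg_of_contract`.
-/
import Mathlib
import Fermat.Agent.CAR.Core.PointsInst
import Fermat.Agent.CAR.Glue.NodeData
import Fermat.Agent.CAR.Glue.FactorVal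

set_option autoImplicit false
set_option linter.style.haveILetI false

namespace Fermat.Agent.CAR.Inst.NodeContract

open IsLocalRing Fermat.Agent.CAR.Local Fermat.Agent.CAR.Formal Module
open Fermat.Agent.CAR.Glob.Charts Fermat.Agent.CAR.Glue

/-! ### Two identities in a field -/

section Algebra

variable {k : Type*} [Field k]

theorem rel_alpha (n : ℕ) {a b c γ₁ γ₂ : k} (ha : a ≠ 0) (hb : b ≠ 0) (hc : c ≠ 0)
    (h : γ₁ * c ^ (n + 1) = γ₂ * (a * b ^ n)) :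
    γ₁ * a⁻¹ * b⁻¹ ^ n = γ₂ * c⁻¹ ^ (n + 1) := by
  rw [inv_pow, inv_pow]
  have hbn : b ^ n ≠ 0 := pow_ne_zero _ hb
  have hcn : c ^ (n + 1) ≠ 0 := pow_ne_zero _ hc
  field_simp
  linear_combination h

theorem rel_beta (n : ℕ) {a b c γA γC : k} (ha : a ≠ 0) (hb : b ≠ 0) (hc : c ≠ 0)
    (h : γC * a ^ (n + 1) = γA * (c * b ^ n)) :
    γA * a⁻¹ ^ (n + 1) = γC * b⁻¹ ^ n * c⁻¹ := by
  rw [inv_pow, inv_pow]
  have hbn : b ^ n ≠ 0 := pow_ne_zero _ hb
  have han : a ^ (n + 1) ≠ 0 := pow_ne_zero _ ha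
  field_simp
  linear_combination -h

end Algebra

/-! ### Values of lower-level functions, constants at the node -/

section Aux

variable {W k FN F : Type*} [CommRing W] [Field k] {res : W →+* k} [Field FN] [Field F]
  [Algebra W FN] [Algebra W F]

/-- If `g ≡ w` at the lower branch `PN = O ∩ FN`, then `Φ g` has the value `res w` at every
composite ring of the upper branch `O`. -/
theorem hasVal_map_of_sub_mem (Φ : FN →+* F)
    (hΦ : ∀ w : W, Φ (algebraMap W FN w) = algebraMap W F w) {PN : ValuationSubring FN}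
    {O : ValuationSubring F} (hO : O.comap Φ = PN) {κ : Type*} [Field κ] (ρ : O →+* κ)
    (hρ : ∀ y : O, ρ y = 0 ↔ y ∈ maximalIdeal O) (Vs : ValuationSubring κ) {g : FN} {w : W}
    (hg : g - algebraMap W FN w ∈ PN.nonunits) :
    NodeUnits.HasVal res (compositeSubring O ρ hρ Vs) (Φ g) (res w) := by
  refine ⟨w, rfl, nonunits_le_nonunits_compositeSubring O ρ hρ Vs _ ?_⟩
  rw [← hΦ w, ← map_sub, ← mem_nonunits_comap_iff, hO]
  exact hg

variable {xN : FN} [IsFractionRing (chart W xN) FN]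

/-- a constant lies in every local ring of the chart -/
theorem const_mem_pointRing (Q : Ideal (chart W xN)) [Q.IsPrime] (c : W) :
    algebraMap W FN c ∈ pointRing FN Q :=
  (pointRing FN Q).algebraMap_mem (algebraMap W (chart W xN) c)

/-- the inverse of a unit constant lies in every local ring of the chart -/
theorem const_inv_mem_pointRing (Q : Ideal (chart W xN)) [Q.IsPrime] {c : W} (hc : IsUnit c) :
    (algebraMap W FN c)⁻¹ ∈ pointRing FN Q := by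
  obtain ⟨c', rfl⟩ := hc
  have e : (algebraMap W FN (c' : W))⁻¹ = algebraMap W FN ((c'⁻¹ : Wˣ) : W) :=
    inv_eq_of_mul_eq_one_right (by rw [← map_mul, Units.mul_inv, map_one])
  rw [e]
  exact const_mem_pointRing Q _

end Aux

/-! ### The node relation from the records -/

section Data

variable {W k FN F : Type*} [CommRing W] [Field k] {res : W →+* k} [Field FN] [Field F]
  [CharZero FN] [Algebra W FN] [Algebra W F] (Φα Φβ : FN →+* F)
  (hΦα : ∀ w : W, Φα (algebraMap W FN w) = algebraMap W F w)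
  (hΦβ : ∀ w : W, Φβ (algebraMap W FN w) = algebraMap W F w) {xN : FN} {x : F}
  [IsFractionRing (chart W xN) FN] [IsFractionRing (chart W x) F]
  [IsIntegrallyClosed (chart W xN)]

/-- **The node relation at a triple point, from the record `NF.Data`.** -/
theorem nodeRel_of_data (hres : Function.Surjective res) {q n : ℕ} (hqn : q = n + 1)
    {PA PC : ValuationSubring FN} {O : Fin 3 → ValuationSubring F} {ϖN : FN} {ϖ d : F}
    (D : NF.Data Φα Φβ q PA PC (O 0) (O 1) (O 2) ϖN ϖ d)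
    -- the charts
    (h1α : Φα xN ∈ chart W x) (h2α : IsIntegral (Algebra.adjoin W {Φα xN}) x)
    (h1β : Φβ xN ∈ chart W x) (h2β : IsIntegral (Algebra.adjoin W {Φβ xN}) x)
    -- the point
    (P : Ideal (chart W x)) [P.IsMaximal] (hP : NodeUnits.IsRatPoint res P)
    (huniqα : ∀ P' : Ideal (chart W x), P'.IsMaximal →
      P'.comap (NodeInst.chartMap Φα hΦα h1α) = P.comap (NodeInst.chartMap Φα hΦα h1α) → P' = P)
    (huniqβ : ∀ P' : Ideal (chart W x), P'.IsMaximal →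
      P'.comap (NodeInst.chartMap Φβ hΦβ h1β) = P.comap (NodeInst.chartMap Φβ hΦβ h1β) → P' = P)
    -- residue maps
    {κ : Type*} [Field κ] (red : ∀ i, O i →+* κ)
    (hred : ∀ i, ∀ y : O i, red i y = 0 ↔ y ∈ maximalIdeal (O i))
    (rA : PA →+* κ) (hrA : ∀ y : PA, rA y = 0 ↔ y ∈ maximalIdeal PA)
    (rC : PC →+* κ) (hrC : ∀ y : PC, rC y = 0 ↔ y ∈ maximalIdeal PC)
    (hcαa : ∀ (y : FN) (hy : y ∈ PA) (hy' : Φα y ∈ O 0), red 0 ⟨Φα y, hy'⟩ = rA ⟨y, hy⟩)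
    (hcαb : ∀ (y : FN) (hy : y ∈ PA) (hy' : Φα y ∈ O 1), red 1 ⟨Φα y, hy'⟩ = rA ⟨y, hy⟩)
    (hcβc : ∀ (y : FN) (hy : y ∈ PC) (hy' : Φβ y ∈ O 2), red 2 ⟨Φβ y, hy'⟩ = rC ⟨y, hy⟩)
    (hcβb : ∀ (y : FN) (hy : y ∈ PC) (hy' : Φβ y ∈ O 1), red 1 ⟨Φβ y, hy'⟩ = rC ⟨y, hy⟩)
    -- the triple point `(O 0, s) = (O 1, s) = (O 2, s)`
    (Vs : ValuationSubring κ)
    (hA : ∀ i, ∀ a : chart W x,
      algebraMap (chart W x) F a ∈ compositeSubring (O i) (red i) (hred i) Vs)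
    (hPi : ∀ i, pointIdeal (O i) (red i) (hred i) Vs (hA i) = P)
    (hlift : ∀ i, ∀ z ∈ Vs, ∃ a b : chart W x,
      redOn (O i) (red i) (fun a => (hA i a).1) b ∉ Vs.nonunits ∧
        redOn (O i) (red i) (fun a => (hA i a).1) a =
          z * redOn (O i) (red i) (fun a => (hA i a).1) b)
    (m : ℕ) (hm : m ≠ 0) :
    Core.NodeRel res m q Φα Φβ PA PC O (fun i => compositeSubring (O i) (red i) (hred i) Vs)
      (pointRing F P).toSubring := by
  intro f u h hf hu hu' hfuh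
  have hu1 : u ∈ pointRing F P := hu
  have hu1' : u⁻¹ ∈ pointRing F P := hu'
  obtain ⟨hh0, -, -⟩ := FactorVal.unit_branch_of_factor (O 0) (red 0) (hred 0) Vs (hA 0) P
    (hPi 0) m hm f u h hu1 hu1' hfuh (hf 0)
  have hf0 : f ≠ 0 := by
    rintro rfl
    have h1 : (1 : F) ∈ (O 0).nonunits := by
      have e : (1 : F) = -((0 : F) - 1) := by ring
      rw [e]
      exact NodeUnits.neg_mem_nonunits (hf 0)
    rw [ValuationSubring.mem_nonunits_iff, map_one] at h1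
    exact lt_irrefl _ h1
  -- the values of `h` on the three branches
  obtain ⟨a', ha0, ha⟩ := FactorVal.exists_hasVal_of_factor_branch (O 0) (red 0) (hred 0)
    (fun a => (hA 0 a).1) Vs (hA 0) P (hPi 0) res (hlift 0) hP hres m hm f u h hu1 hu1' hfuh
    (hf 0)
  obtain ⟨b', hb0, hb⟩ := FactorVal.exists_hasVal_of_factor_branch (O 1) (red 1) (hred 1)
    (fun a => (hA 1 a).1) Vs (hA 1) P (hPi 1) res (hlift 1) hP hres m hm f u h hu1 hu1' hfuh
    (hf 1)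
  obtain ⟨c', hc0, hc⟩ := FactorVal.exists_hasVal_of_factor_branch (O 2) (red 2) (hred 2)
    (fun a => (hA 2 a).1) Vs (hA 2) P (hPi 2) res (hlift 2) hP hres m hm f u h hu1 hu1' hfuh
    (hf 2)
  have hov : ∀ i, NodeUnits.IsOver res (compositeSubring (O i) (red i) (hred i) Vs) :=
    fun i => NodeUnits.isOver_of_centre hP _ (hA i) (hPi i)
  obtain ⟨wa, hwa, hha⟩ := ha.inv (hov 0) hres ha0
  obtain ⟨wb, hwb, hhb⟩ := hb.inv (hov 1) hres hb0
  obtain ⟨wc, hwc, hhc⟩ := hc.inv (hov 2) hres hc0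
  have hnq : ((n : ℕ) : ℤ) = (q : ℤ) - 1 := by
    rw [hqn]
    push_cast
    ring
  refine ⟨wa, wb, wc, hha, hhb, hhc, ?_, ?_⟩
  · -- along `Φα` : pair `(inf, mid)`, single `zero`
    intro g c₀ wA wC hc₀ hN hgA hgC
    have hg0 : g ≠ 0 := by
      rintro rfl
      rw [zero_pow hm, mul_zero] at hN
      exact NF.normOf_ne_zero Φα D.finα hf0 hN
    have hc₀0 : algebraMap W FN c₀ ≠ 0 := (hc₀.map (algebraMap W FN)).ne_zero
    have hαe₁ : D.ha.ord (Φα ϖN) = 1 := by rw [D.αϖ]; exact D.ha.ord_self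
    have hαe₂ : D.hb.ord (Φα ϖN) = n := by rw [D.αϖ, D.ordb, hnq]
    have hα12 : (compositeSubring (O 1) (red 1) (hred 1) Vs).comap Φα =
        (compositeSubring (O 0) (red 0) (hred 0) Vs).comap Φα := by
      rw [NodeInst.compositeSubring_comap Φα (O 1) (red 1) (hred 1) PA rA hrA (RingHom.id κ) D.αb
        hcαb Vs, NodeInst.compositeSubring_comap Φα (O 0) (red 0) (hred 0) PA rA hrA
        (RingHom.id κ) D.αa hcαa Vs]
    have hfrac := NodeUniq.hfrac_of_lift (O 2) (red 2) (hred 2) (fun a => (hA 2 a).1) Vs (hA 2)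
      (hlift 2)
    rw [hPi 2] at hfrac
    obtain ⟨hrel, -, -⟩ := NodeTriple.node_relation_chart Φα hΦα hres h1α h2α D.finα (n + 1)
      (by rw [D.degα, hqn]) P hP huniqα D.hA D.ha D.hb D.ne_ab D.αa D.αb D.allαA 1 n hαe₁ hαe₂
      (Nat.add_comm 1 n) D.αc D.allαC
      (compositeSubring (O 0) (red 0) (hred 0) Vs) (compositeSubring (O 1) (red 1) (hred 1) Vs)
      (compositeSubring (O 2) (red 2) (hred 2) Vs)
      (nonunits_le_nonunits_compositeSubring (O 0) (red 0) (hred 0) Vs)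
      (nonunits_le_nonunits_compositeSubring (O 1) (red 1) (hred 1) Vs)
      (nonunits_le_nonunits_compositeSubring (O 2) (red 2) (hred 2) Vs) (hA 0) (hA 2) (hPi 0)
      (hPi 2) hα12 hfrac hm hu1 hu1' hfuh hh0 (const_mem_pointRing _ c₀)
      (const_inv_mem_pointRing _ hc₀) hc₀0 hg0 hN ha hb hc ha0 hb0 hc0
      (hasVal_map_of_sub_mem Φα hΦα D.αa (red 0) (hred 0) Vs hgA)
      (hasVal_map_of_sub_mem Φα hΦα D.αc (red 2) (hred 2) Vs hgC)
    rw [pow_one] at hrel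
    rw [map_mul, map_mul, map_pow, map_mul, map_pow, hwa, hwb, hwc, hqn, Nat.add_sub_cancel]
    exact rel_alpha n ha0 hb0 hc0 hrel
  · -- along `Φβ` : pair `(zero, mid)`, single `inf`
    intro g c₀ wA wC hc₀ hN hgA hgC
    have hg0 : g ≠ 0 := by
      rintro rfl
      rw [zero_pow hm, mul_zero] at hN
      exact NF.normOf_ne_zero Φβ D.finβ hf0 hN
    have hc₀0 : algebraMap W FN c₀ ≠ 0 := (hc₀.map (algebraMap W FN)).ne_zero
    have hβe₁ : D.hc.ord (Φβ ϖN) = 1 := by rw [D.βϖ]; exact D.hc.ord_self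
    have hβe₂ : D.hb.ord (Φβ ϖN) = n := by rw [D.βϖ, D.ordb, hnq]
    have hβ12 : (compositeSubring (O 1) (red 1) (hred 1) Vs).comap Φβ =
        (compositeSubring (O 2) (red 2) (hred 2) Vs).comap Φβ := by
      rw [NodeInst.compositeSubring_comap Φβ (O 1) (red 1) (hred 1) PC rC hrC (RingHom.id κ) D.βb
        hcβb Vs, NodeInst.compositeSubring_comap Φβ (O 2) (red 2) (hred 2) PC rC hrC
        (RingHom.id κ) D.βc hcβc Vs]
    have hfrac := NodeUniq.hfrac_of_lift (O 0) (red 0) (hred 0) (fun a => (hA 0 a).1) Vs (hA 0)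
      (hlift 0)
    rw [hPi 0] at hfrac
    obtain ⟨hrel, -, -⟩ := NodeTriple.node_relation_chart Φβ hΦβ hres h1β h2β D.finβ (n + 1)
      (by rw [D.degβ, hqn]) P hP huniqβ D.hC D.hc D.hb D.ne_bc.symm D.βc D.βb
      (fun w' hw' => (D.allβC w' hw').symm) 1 n hβe₁ hβe₂ (Nat.add_comm 1 n) D.βa D.allβA
      (compositeSubring (O 2) (red 2) (hred 2) Vs) (compositeSubring (O 1) (red 1) (hred 1) Vs)
      (compositeSubring (O 0) (red 0) (hred 0) Vs)
      (nonunits_le_nonunits_compositeSubring (O 2) (red 2) (hred 2) Vs)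
      (nonunits_le_nonunits_compositeSubring (O 1) (red 1) (hred 1) Vs)
      (nonunits_le_nonunits_compositeSubring (O 0) (red 0) (hred 0) Vs) (hA 2) (hA 0) (hPi 2)
      (hPi 0) hβ12 hfrac hm hu1 hu1' hfuh hh0 (const_mem_pointRing _ c₀)
      (const_inv_mem_pointRing _ hc₀) hc₀0 hg0 hN hc hb ha hc0 hb0 ha0
      (hasVal_map_of_sub_mem Φβ hΦβ D.βc (red 2) (hred 2) Vs hgC)
      (hasVal_map_of_sub_mem Φβ hΦβ D.βa (red 0) (hred 0) Vs hgA)
    rw [pow_one] at hrel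
    rw [map_mul, map_pow, map_mul, map_mul, map_pow, hwa, hwb, hwc, hqn, Nat.add_sub_cancel]
    exact rel_beta n ha0 hb0 hc0 hrel

end Data

/-! ### The triple points of a contract -/

section Contract

open Fermat.Agent.CAR.Local.Inst

variable {W k FN F : Type*} [CommRing W] [Field k] {res : W →+* k} [Field FN] [Field F]
  [CharZero FN] [Algebra W FN] [Algebra W F] (Φα Φβ : FN →+* F)
  (hΦα : ∀ w : W, Φα (algebraMap W FN w) = algebraMap W F w)
  (hΦβ : ∀ w : W, Φβ (algebraMap W FN w) = algebraMap W F w) {xN : FN} {x : F}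
  [IsFractionRing (chart W xN) FN] [IsFractionRing (chart W x) F]
  [IsIntegrallyClosed (chart W xN)] [IsNoetherianRing (chart W x)]
  {κ B' : Type*} [Field κ] [CommRing B'] [Algebra k κ]
  {O : Fin 3 → ValuationSubring F} {red : ∀ i, O i →+* κ}
  {hred : ∀ i, ∀ y : O i, red i y = 0 ↔ y ∈ maximalIdeal (O i)}
  {hBO : ∀ i, ∀ b : chart W x, algebraMap (chart W x) F b ∈ O i}
  {red' : B' →+* κ} {π₀ π₂ : B' →+* chart W x} {Dκ : κ → κ}
  {qW : W} {x' : B'} {u₀ u₁ v₁ h₀ : chart W x} {Db G : κ} {N e : ℕ}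

/-- **The node relation at the triple point `Meet.pt H 1 Vs hVs` of a contract** (`Vs` a finite
place with `Db ∈ Vs.nonunits`, residue field `k`): hypotheses of
`NodeData.triple_ratio_pow_of_contract`. -/
theorem nodeRel_of_contract (hres : Function.Surjective res) {q n : ℕ} (hqn : q = n + 1)
    (H : Contract O red hred hBO red' π₀ π₂ Dκ (algebraMap W (chart W x) qW) x' u₀ u₁ v₁ h₀ Db G
      N e)
    {PA PC : ValuationSubring FN} {ϖN : FN} {ϖ d : F}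
    (D : NF.Data Φα Φβ q PA PC (O 0) (O 1) (O 2) ϖN ϖ d)
    -- the charts
    (h1α : Φα xN ∈ chart W x) (h2α : IsIntegral (Algebra.adjoin W {Φα xN}) x)
    (h1β : Φβ xN ∈ chart W x) (h2β : IsIntegral (Algebra.adjoin W {Φβ xN}) x)
    -- residue maps of the lower level
    (rA : PA →+* κ) (hrA : ∀ y : PA, rA y = 0 ↔ y ∈ maximalIdeal PA)
    (rC : PC →+* κ) (hrC : ∀ y : PC, rC y = 0 ↔ y ∈ maximalIdeal PC)
    (hcαa : ∀ (y : FN) (hy : y ∈ PA) (hy' : Φα y ∈ O 0), red 0 ⟨Φα y, hy'⟩ = rA ⟨y, hy⟩)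
    (hcαb : ∀ (y : FN) (hy : y ∈ PA) (hy' : Φα y ∈ O 1), red 1 ⟨Φα y, hy'⟩ = rA ⟨y, hy⟩)
    (hcβc : ∀ (y : FN) (hy : y ∈ PC) (hy' : Φβ y ∈ O 2), red 2 ⟨Φβ y, hy'⟩ = rC ⟨y, hy⟩)
    (hcβb : ∀ (y : FN) (hy : y ∈ PC) (hy' : Φβ y ∈ O 1), red 1 ⟨Φβ y, hy'⟩ = rC ⟨y, hy⟩)
    -- the constants
    (i₀ : Fin 3)
    (hconst : ∀ w : W, redOn (O i₀) (red i₀) (hBO i₀) (algebraMap W (chart W x) w)
      = algebraMap k κ (res w))
    -- (UNIQ)
    (π₁ : B' →+* chart W x) (ψ : κ →+* κ) {nψ : ℕ} (hnψ : nψ ≠ 0)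
    (hψ : ∀ z : κ, ∃ z' : κ, ψ z' = z ^ nψ)
    (zero_π₁ : ∀ y : B', redOn (O 2) (red 2) (hBO 2) (π₁ y) = ψ (red' y))
    (inf_π₁ : ∀ y : B', redOn (O 0) (red 0) (hBO 0) (π₁ y) = ψ (red' y))
    (p₀ p₁ : B' →+* chart W xN)
    (hα₀ : ∀ y, NodeInst.chartMap Φα hΦα h1α (p₀ y) = π₀ y)
    (hα₁ : ∀ y, NodeInst.chartMap Φα hΦα h1α (p₁ y) = π₁ y)
    (hβ₁ : ∀ y, NodeInst.chartMap Φβ hΦβ h1β (p₀ y) = π₁ y)
    (hβ₂ : ∀ y, NodeInst.chartMap Φβ hΦβ h1β (p₁ y) = π₂ y)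
    -- the supersingular place
    (Vs : ValuationSubring κ) (hVs : IsFinPlace red' Vs) (hDb : Db ∈ Vs.nonunits)
    (hk : ∀ v ∈ Vs, ∃ c : k, v - algebraMap k κ c ∈ Vs.nonunits)
    (m : ℕ) (hm : m ≠ 0) :
    Core.NodeRel res m q Φα Φβ PA PC O (fun i => compositeSubring (O i) (red i) (hred i) Vs)
      (pointRing F (Meet.pt H 1 Vs hVs)).toSubring :=
  nodeRel_of_data Φα Φβ hΦα hΦβ hres hqn D h1α h2α h1β h2β (Meet.pt H 1 Vs hVs)
    (NodeData.isRatPoint_pt hres H i₀ hconst Vs hVs hDb hk 1)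
    (Meet.huniq_alpha_pt H π₁ ψ hnψ hψ zero_π₁ (NodeInst.chartMap Φα hΦα h1α)
      (algebraMap W (chart W xN) qW) (NodeInst.chartMap_algebraMap Φα hΦα h1α qW) p₀ p₁ hα₀ hα₁
      Vs hVs hDb 1)
    (Meet.huniq_beta_pt H π₁ ψ hnψ hψ inf_π₁ (NodeInst.chartMap Φβ hΦβ h1β)
      (algebraMap W (chart W xN) qW) (NodeInst.chartMap_algebraMap Φβ hΦβ h1β qW) p₀ p₁ hβ₁ hβ₂
      Vs hVs hDb 1)
    red hred rA hrA rC hrC hcαa hcαb hcβc hcβb Vs
    (fun i => Meet.hA_of_isFinPlace H i Vs hVs) (fun i => Meet.pt_eq_pt H Vs hVs hDb i 1)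
    (fun i => H.toV3Base.lift i Vs hVs.1 (H.fin i Vs hVs)) m hm

/-- **The binder `hnode` of `Core.pointPkg_of_contract`**: the node relation at every
supersingular place, when every finite place has residue field `k` (`hk`). -/
theorem hnode_of_contract (hres : Function.Surjective res) {q n : ℕ} (hqn : q = n + 1)
    (H : Contract O red hred hBO red' π₀ π₂ Dκ (algebraMap W (chart W x) qW) x' u₀ u₁ v₁ h₀ Db G
      N e)
    {PA PC : ValuationSubring FN} {ϖN : FN} {ϖ d : F}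
    (D : NF.Data Φα Φβ q PA PC (O 0) (O 1) (O 2) ϖN ϖ d)
    (h1α : Φα xN ∈ chart W x) (h2α : IsIntegral (Algebra.adjoin W {Φα xN}) x)
    (h1β : Φβ xN ∈ chart W x) (h2β : IsIntegral (Algebra.adjoin W {Φβ xN}) x)
    (rA : PA →+* κ) (hrA : ∀ y : PA, rA y = 0 ↔ y ∈ maximalIdeal PA)
    (rC : PC →+* κ) (hrC : ∀ y : PC, rC y = 0 ↔ y ∈ maximalIdeal PC)
    (hcαa : ∀ (y : FN) (hy : y ∈ PA) (hy' : Φα y ∈ O 0), red 0 ⟨Φα y, hy'⟩ = rA ⟨y, hy⟩)
    (hcαb : ∀ (y : FN) (hy : y ∈ PA) (hy' : Φα y ∈ O 1), red 1 ⟨Φα y, hy'⟩ = rA ⟨y, hy⟩)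
    (hcβc : ∀ (y : FN) (hy : y ∈ PC) (hy' : Φβ y ∈ O 2), red 2 ⟨Φβ y, hy'⟩ = rC ⟨y, hy⟩)
    (hcβb : ∀ (y : FN) (hy : y ∈ PC) (hy' : Φβ y ∈ O 1), red 1 ⟨Φβ y, hy'⟩ = rC ⟨y, hy⟩)
    (i₀ : Fin 3)
    (hconst : ∀ w : W, redOn (O i₀) (red i₀) (hBO i₀) (algebraMap W (chart W x) w)
      = algebraMap k κ (res w))
    (π₁ : B' →+* chart W x) (ψ : κ →+* κ) {nψ : ℕ} (hnψ : nψ ≠ 0)
    (hψ : ∀ z : κ, ∃ z' : κ, ψ z' = z ^ nψ)
    (zero_π₁ : ∀ y : B', redOn (O 2) (red 2) (hBO 2) (π₁ y) = ψ (red' y))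
    (inf_π₁ : ∀ y : B', redOn (O 0) (red 0) (hBO 0) (π₁ y) = ψ (red' y))
    (p₀ p₁ : B' →+* chart W xN)
    (hα₀ : ∀ y, NodeInst.chartMap Φα hΦα h1α (p₀ y) = π₀ y)
    (hα₁ : ∀ y, NodeInst.chartMap Φα hΦα h1α (p₁ y) = π₁ y)
    (hβ₁ : ∀ y, NodeInst.chartMap Φβ hΦβ h1β (p₀ y) = π₁ y)
    (hβ₂ : ∀ y, NodeInst.chartMap Φβ hΦβ h1β (p₁ y) = π₂ y)
    (hk : ∀ Vs : ValuationSubring κ, IsFinPlace red' Vs →
      ∀ v ∈ Vs, ∃ c : k, v - algebraMap k κ c ∈ Vs.nonunits)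
    (m : ℕ) (hm : m ≠ 0) :
    ∀ (Vs : ValuationSubring κ) (hVs : IsFinPlace red' Vs), Db ∈ Vs.nonunits →
      Core.NodeRel res m q Φα Φβ PA PC O (fun i => compositeSubring (O i) (red i) (hred i) Vs)
        (pointRing F (Meet.pt H 1 Vs hVs)).toSubring :=
  fun Vs hVs hDb => nodeRel_of_contract Φα Φβ hΦα hΦβ hres hqn H D h1α h2α h1β h2β rA hrA rC hrC
    hcαa hcαb hcβc hcβb i₀ hconst π₁ ψ hnψ hψ zero_π₁ inf_π₁ p₀ p₁ hα₀ hα₁ hβ₁ hβ₂ Vs hVs hDb
    (hk Vs hVs) m hm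

end Contract

end Fermat.Agent.CAR.Inst.NodeContract
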