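import Mathlib
import Fermat.Agent.CAR.Glue.NodeTriple
import Fermat.Agent.CAR.V3.MidOrd
import Fermat.Agent.CAR.V3.RestrictZero
import Fermat.Agent.CAR.V3.MidDiff

/-!
# CAR (instance): the valuation block of `NodeTriple.triple_ratio_pow_of_red` over `K0`

Base `(L, A, π) = (K0, W0, resW0)` for a valuation subring `A` of `ℚ̄` over the prime `q`,
`hB = K0.badSetup_W0 hq hA M' hqM`, `FN = K0 · F_{M' q}`, `F = K0 · F_{M' q²}`,
`Φα = alphaStar K0 M' q`, `Φβ = betaStar K0 M' q`, lower branches `vinf = OInf hB`,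
`vzero = OZero hB W` (uniformiser `q`), upper branches `winf = OInf3 hB`, `wmid = OMid …`,
`wzero = OZero3 hB w` (uniformisers `q`, `dMid`, `q`), residue maps `ρinf = redInf3 hB`,
`ρzero = redZero3 hB w`, `rinf = redInf hB`, `rzero = redZero hB W` and any `κ`-valued
`ρmid` whose series is `redMid`.

Every hypothesis of the VALUATION block of `Glue.NodeTriple.triple_ratio_pow_of_red` is proved
here as a named theorem in the literal binder shape (`hvinf … hcβmid`, and the degree lines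
`hfinα hdα hfinβ hdβ`); the four "exactly these valuations above" lines are derived from the four
`all`-clauses of `Formal.NF.Data` (shape of `MidOrd.dataK0_of_all`).  `triple_ratio_pow_K0` is
`triple_ratio_pow_of_red` with the whole block discharged.
-/

set_option autoImplicit false
set_option linter.unusedSectionVars false
set_option linter.style.haveILetI false

noncomputable section

namespace Fermat.Agent.CAR.Inst.TripleV3

open ModularCurve HahnSeries Fermat.Agent.S24 Fermat.Agent.S28 Fermat.Agent.S28.Chain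
  Fermat.Agent.Lib.Red Fermat.Agent.CAR.K0 Fermat.Agent.CAR.V3.GaussDVR
  Fermat.Agent.CAR.V3.MidRing Fermat.Agent.BAD.TwoVal Fermat.Agent.ESJ.Cong.LevelGen
  Fermat.Agent.CAR.V3.RestrictNF Fermat.Agent.CAR.Formal Fermat.Agent.CAR.V3.MidRestrict
  Fermat.Agent.CAR.V3 Fermat.Agent.CAR.V3.Restrict

local notation "Qb" => AlgebraicClosure ℚ

section Lines

variable {q : ℕ} (hq : q.Prime) (A : ValuationSubring Qb) (hA : A.LiesOverPrime q)
  {ζ : Qb} (hζ : IsPrimitiveRoot ζ q) (M' : ℕ) [NeZero M'] [NeZero q] (hqM : ¬ q ∣ M')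

/-! ### Uniformisers -/

/-- `hvinf`: `O_∞` (level `M' q`) is discrete with uniformiser `q`. -/
theorem hvinf : IsUnif (OInf (badSetup_W0 hq hA M' hqM))
    ((q : ℕ) : FK (inertiaField A) (M' * q)) :=
  RestrictNF.hA (badSetup_W0 hq hA M' hqM) (isUnif_W0 hq hA)

/-- `hvzero`: `O_0` (level `M' q`) is discrete with uniformiser `q`. -/
theorem hvzero (W : ALAut (inertiaField A) M' q) :
    IsUnif (OZero (badSetup_W0 hq hA M' hqM) W) ((q : ℕ) : FK (inertiaField A) (M' * q)) :=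
  RestrictNF.hC (badSetup_W0 hq hA M' hqM) W (isUnif_W0 hq hA)

/-- `hinf`: `O_∞³` is discrete with uniformiser `q`. -/
theorem hinf : IsUnif (OInf3 (badSetup_W0 hq hA M' hqM))
    ((q : ℕ) : FK (inertiaField A) (M' * q * q)) :=
  RestrictNF.ha (badSetup_W0 hq hA M' hqM) (isUnif_W0 hq hA)

/-- `hmid`: `O_mid` is discrete with uniformiser `dMid`. -/
theorem hmid : IsUnif (OMid hq A hA hζ M' hqM (IsLocalRing.residue A)) (dMid A M' q) :=
  MidOrd.isUnif_dMid_residue hq A hA hζ M' hqM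

/-- `hzero`: `O_0³` is discrete with uniformiser `q`. -/
theorem hzero (w : ALAut (inertiaField A) (M' * q) q) :
    IsUnif (OZero3 (badSetup_W0 hq hA M' hqM) w)
      ((q : ℕ) : FK (inertiaField A) (M' * q * q)) :=
  RestrictZero.isUnif_OZero3_natCast (badSetup_W0 hq hA M' hqM) w q (isUnif_W0 hq hA)


/-! ### The three upper branches are distinct -/

/-- The Atkin–Lehner involution `w` of level `M' q²` maps `dMid = J_2 - J_0` to `-dMid`. -/
theorem w_dMid {w : ALAut (inertiaField A) (M' * q) q} (hw : IsAL3 M' q w) :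
    w (dMid A M' q) = -dMid A M' q := by
  rw [← dPull_jLevel]
  unfold dPull
  rw [map_sub, hw.pi2, hw.pi0, neg_sub]

/-- `hne₁`: `O_∞³ ≠ O_mid`. -/
theorem hne₁ : OInf3 (badSetup_W0 hq hA M' hqM)
    ≠ OMid hq A hA hζ M' hqM (IsLocalRing.residue A) := by
  intro h
  have h1 : (dMid A M' q)⁻¹ ∈ OInf3 (badSetup_W0 hq hA M' hqM) :=
    inv_dMid_mem_OInf3 A M' (badSetup_W0 hq hA M' hqM)
  rw [h] at h1
  exact (hmid hq A hA hζ M' hqM).inv_notMem h1

/-- `hne₂`: `O_0³ ≠ O_mid`. -/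
theorem hne₂ {w : ALAut (inertiaField A) (M' * q) q} (hw : IsAL3 M' q w) :
    OZero3 (badSetup_W0 hq hA M' hqM) w
      ≠ OMid hq A hA hζ M' hqM (IsLocalRing.residue A) := by
  intro h
  have h1 : (dMid A M' q)⁻¹ ∈ OZero3 (badSetup_W0 hq hA M' hqM) w := by
    rw [mem_OZero3_iff, map_inv₀, w_dMid A M' hw, inv_neg]
    exact neg_mem (inv_dMid_mem_OInf3 A M' (badSetup_W0 hq hA M' hqM))
  rw [h] at h1
  exact (hmid hq A hA hζ M' hqM).inv_notMem h1

/-! ### Restrictions along `α^*` and `β^*` -/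

/-- `hαinf`. -/
theorem hαinf : (OInf3 (badSetup_W0 hq hA M' hqM)).comap (alphaStar (inertiaField A) M' q)
    = OInf (badSetup_W0 hq hA M' hqM) :=
  RestrictNF.αa (badSetup_W0 hq hA M' hqM)

/-- `hαmid`. -/
theorem hαmid : (OMid hq A hA hζ M' hqM (IsLocalRing.residue A)).comap
    (alphaStar (inertiaField A) M' q) = OInf (badSetup_W0 hq hA M' hqM) :=
  OMid_comap_alpha hq A hA hζ M' hqM (badSetup_W0 hq hA M' hqM)

/-- `hβinf`. -/
theorem hβinf : (OInf3 (badSetup_W0 hq hA M' hqM)).comap (betaStar (inertiaField A) M' q)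
    = OInf (badSetup_W0 hq hA M' hqM) :=
  RestrictNF.βa (badSetup_W0 hq hA M' hqM)

variable {W : ALAut (inertiaField A) M' q} {w : ALAut (inertiaField A) (M' * q) q}

/-- `hαzero`. -/
theorem hαzero (hW : IsAL M' q W) (hw : IsAL3 M' q w) :
    (OZero3 (badSetup_W0 hq hA M' hqM) w).comap (alphaStar (inertiaField A) M' q)
      = OZero (badSetup_W0 hq hA M' hqM) W :=
  RestrictZero.comap_alpha_OZero3 (badSetup_W0 hq hA M' hqM) hW hw

/-- `hβzero`. -/
theorem hβzero (hW : IsAL M' q W) (hw : IsAL3 M' q w) :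
    (OZero3 (badSetup_W0 hq hA M' hqM) w).comap (betaStar (inertiaField A) M' q)
      = OZero (badSetup_W0 hq hA M' hqM) W :=
  RestrictZero.comap_beta_OZero3 (badSetup_W0 hq hA M' hqM) hW hw

/-- `hβmid`. -/
theorem hβmid (hW : IsAL M' q W) :
    (OMid hq A hA hζ M' hqM (IsLocalRing.residue A)).comap (betaStar (inertiaField A) M' q)
      = OZero (badSetup_W0 hq hA M' hqM) W :=
  OMid_comap_beta hq A hA hζ M' hqM (badSetup_W0 hq hA M' hqM) hW

/-! ### Ramification indices -/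

/-- `hαe₁`: `ord_∞³ (α^* q) = 1`. -/
theorem hαe₁ : (hinf hq A hA M' hqM).ord
    (alphaStar (inertiaField A) M' q ((q : ℕ) : FK (inertiaField A) (M' * q))) = 1 := by
  rw [RestrictNF.αϖ]
  exact IsUnif.ord_self _

/-- `hαe₂`: `ord_mid (α^* q) = q - 1`. -/
theorem hαe₂ (n : ℕ) (hn : q = n + 1) : (hmid hq A hA hζ M' hqM).ord
    (alphaStar (inertiaField A) M' q ((q : ℕ) : FK (inertiaField A) (M' * q))) = n := by
  rw [RestrictNF.αϖ, MidOrd.ord_natCast hq A hA hζ M' hqM (IsLocalRing.residue A)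
    (residue_eq_zero_of_not_isUnit A)]
  have : (q : ℤ) = n + 1 := by exact_mod_cast hn
  omega

/-- `hβe₁`: `ord_0³ (β^* q) = 1`. -/
theorem hβe₁ (w : ALAut (inertiaField A) (M' * q) q) : (hzero hq A hA M' hqM w).ord
    (betaStar (inertiaField A) M' q ((q : ℕ) : FK (inertiaField A) (M' * q))) = 1 := by
  rw [RestrictNF.βϖ]
  exact IsUnif.ord_self _

/-- `hβe₂`: `ord_mid (β^* q) = q - 1`. -/
theorem hβe₂ (n : ℕ) (hn : q = n + 1) : (hmid hq A hA hζ M' hqM).ord
    (betaStar (inertiaField A) M' q ((q : ℕ) : FK (inertiaField A) (M' * q))) = n := by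
  rw [RestrictNF.βϖ, MidOrd.ord_natCast hq A hA hζ M' hqM (IsLocalRing.residue A)
    (residue_eq_zero_of_not_isUnit A)]
  have : (q : ℤ) = n + 1 := by exact_mod_cast hn
  omega


/-! ### Residue maps: kernels -/

/-- `hρinf`: the kernel of `ρ_∞ = redInf3` is the maximal ideal. -/
theorem hρinf (y : OInf3 (badSetup_W0 hq hA M' hqM)) :
    redInf3 (badSetup_W0 hq hA M' hqM) y = 0
      ↔ y ∈ IsLocalRing.maximalIdeal (OInf3 (badSetup_W0 hq hA M' hqM)) := by
  rw [redInf3_eq_zero_iff, IsLocalRing.mem_maximalIdeal, mem_nonunits_iff]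

/-- `hρzero`: the kernel of `ρ_0 = redZero3` is the maximal ideal. -/
theorem hρzero (w : ALAut (inertiaField A) (M' * q) q)
    (y : OZero3 (badSetup_W0 hq hA M' hqM) w) :
    redZero3 (badSetup_W0 hq hA M' hqM) w y = 0
      ↔ y ∈ IsLocalRing.maximalIdeal (OZero3 (badSetup_W0 hq hA M' hqM) w) := by
  rw [redZero3_eq_zero_iff, IsLocalRing.mem_maximalIdeal, mem_nonunits_iff]

/-- `hrinf`: the kernel of `r_∞ = redInf` is the maximal ideal. -/
theorem hrinf (y : OInf (badSetup_W0 hq hA M' hqM)) :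
    redInf (badSetup_W0 hq hA M' hqM) y = 0
      ↔ y ∈ IsLocalRing.maximalIdeal (OInf (badSetup_W0 hq hA M' hqM)) := by
  rw [redInf_eq_zero_iff, IsLocalRing.mem_maximalIdeal, mem_nonunits_iff]

/-- `hrzero`: the kernel of `r_0 = redZero` is the maximal ideal. -/
theorem hrzero (W : ALAut (inertiaField A) M' q)
    (y : OZero (badSetup_W0 hq hA M' hqM) W) :
    redZero (badSetup_W0 hq hA M' hqM) W y = 0
      ↔ y ∈ IsLocalRing.maximalIdeal (OZero (badSetup_W0 hq hA M' hqM) W) := by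
  rw [redZero_eq_zero_iff, IsLocalRing.mem_maximalIdeal, mem_nonunits_iff]

/-- The `κ`-valued co-restriction of `red_mid`, given that `red_mid` takes its values in `κ`. -/
def rhoMid (hκ : ∀ f : OMid hq A hA hζ M' hqM (IsLocalRing.residue A),
      redMid hq A hA hζ M' hqM (IsLocalRing.residue A) f
        ∈ modularFunctionFieldFullC (IsLocalRing.ResidueField A) M') :
    OMid hq A hA hζ M' hqM (IsLocalRing.residue A) →+*
      ↥(modularFunctionFieldFullC (IsLocalRing.ResidueField A) M') :=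
  (redMid hq A hA hζ M' hqM (IsLocalRing.residue A)).codRestrict
    (modularFunctionFieldFullC (IsLocalRing.ResidueField A) M') hκ

theorem coe_rhoMid (hκ : ∀ f : OMid hq A hA hζ M' hqM (IsLocalRing.residue A),
      redMid hq A hA hζ M' hqM (IsLocalRing.residue A) f
        ∈ modularFunctionFieldFullC (IsLocalRing.ResidueField A) M')
    (f : OMid hq A hA hζ M' hqM (IsLocalRing.residue A)) :
    ((rhoMid hq A hA hζ M' hqM hκ f :
        modularFunctionFieldFullC (IsLocalRing.ResidueField A) M') :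
      LaurentSeries (IsLocalRing.ResidueField A))
      = redMid hq A hA hζ M' hqM (IsLocalRing.residue A) f := rfl

section Mid

variable (ρmid : OMid hq A hA hζ M' hqM (IsLocalRing.residue A) →+*
    ↥(modularFunctionFieldFullC (IsLocalRing.ResidueField A) M'))
  (hρ : ∀ f : OMid hq A hA hζ M' hqM (IsLocalRing.residue A),
    ((ρmid f : modularFunctionFieldFullC (IsLocalRing.ResidueField A) M') :
      LaurentSeries (IsLocalRing.ResidueField A))
      = redMid hq A hA hζ M' hqM (IsLocalRing.residue A) f)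

include hρ

/-- `hρmid`: the kernel of any `κ`-valued form `ρ_mid` of `red_mid` is the maximal ideal. -/
theorem hρmid (y : OMid hq A hA hζ M' hqM (IsLocalRing.residue A)) :
    ρmid y = 0
      ↔ y ∈ IsLocalRing.maximalIdeal (OMid hq A hA hζ M' hqM (IsLocalRing.residue A)) := by
  rw [IsLocalRing.mem_maximalIdeal, mem_nonunits_iff,
    ← redMid_eq_zero_iff hq A hA hζ M' hqM (IsLocalRing.residue A) y, ← hρ y]
  exact ⟨fun h => by rw [h]; rfl, fun h => Subtype.ext h⟩

/-- `hcαmid`: `ρ_mid ∘ α^* = r_∞`. -/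
theorem hcαmid (y : FK (inertiaField A) (M' * q))
    (hy : y ∈ OInf (badSetup_W0 hq hA M' hqM))
    (hy' : alphaStar (inertiaField A) M' q y
      ∈ OMid hq A hA hζ M' hqM (IsLocalRing.residue A)) :
    ρmid ⟨alphaStar (inertiaField A) M' q y, hy'⟩
      = redInf (badSetup_W0 hq hA M' hqM) ⟨y, hy⟩ :=
  Subtype.ext ((hρ _).trans
    (redMid_alpha hq A hA hζ M' hqM (badSetup_W0 hq hA M' hqM) y hy hy'))

/-- `hcβmid`: `ρ_mid ∘ β^* = r_0`. -/
theorem hcβmid (hW : IsAL M' q W) (y : FK (inertiaField A) (M' * q))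
    (hy : y ∈ OZero (badSetup_W0 hq hA M' hqM) W)
    (hy' : betaStar (inertiaField A) M' q y
      ∈ OMid hq A hA hζ M' hqM (IsLocalRing.residue A)) :
    ρmid ⟨betaStar (inertiaField A) M' q y, hy'⟩
      = redZero (badSetup_W0 hq hA M' hqM) W ⟨y, hy⟩ :=
  Subtype.ext ((hρ _).trans
    (redMid_beta hq A hA hζ M' hqM (badSetup_W0 hq hA M' hqM) hW y hy hy'))

end Mid

/-! ### Residue maps: the untwisted compatibilities on the `∞` and `0` branches -/

/-- `hcαinf`: `ρ_∞ ∘ α^* = r_∞`. -/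
theorem hcαinf (y : FK (inertiaField A) (M' * q))
    (hy : y ∈ OInf (badSetup_W0 hq hA M' hqM))
    (hy' : alphaStar (inertiaField A) M' q y ∈ OInf3 (badSetup_W0 hq hA M' hqM)) :
    redInf3 (badSetup_W0 hq hA M' hqM) ⟨alphaStar (inertiaField A) M' q y, hy'⟩
      = redInf (badSetup_W0 hq hA M' hqM) ⟨y, hy⟩ :=
  redInf3_heckeAlphaBar (badSetup_W0 hq hA M' hqM) y hy hy'

/-- `hcβzero`: `ρ_0 ∘ β^* = r_0`. -/
theorem hcβzero (hW : IsAL M' q W) (hw : IsAL3 M' q w) (y : FK (inertiaField A) (M' * q))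
    (hy : y ∈ OZero (badSetup_W0 hq hA M' hqM) W)
    (hy' : betaStar (inertiaField A) M' q y ∈ OZero3 (badSetup_W0 hq hA M' hqM) w) :
    redZero3 (badSetup_W0 hq hA M' hqM) w ⟨betaStar (inertiaField A) M' q y, hy'⟩
      = redZero (badSetup_W0 hq hA M' hqM) W ⟨y, hy⟩ :=
  RestrictZero.redZero3_heckeBetaBar (badSetup_W0 hq hA M' hqM) hW hw y hy hy'

end Lines

/-! ### Degrees (generic constant field) -/

section Deg

variable {L : Type} [Field L] [Algebra ℚ L] {M' q : ℕ} [NeZero M'] [NeZero q]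

/-- `hfinα`. -/
theorem hfinα (hq : q.Prime) :
    letI : Algebra ↥(laurentBaseChange L (modularFunctionFieldFull (M' * q)))
        ↥(laurentBaseChange L (modularFunctionFieldFull (M' * q * q))) :=
      (alphaStar L M' q).toAlgebra
    Module.Finite ↥(laurentBaseChange L (modularFunctionFieldFull (M' * q)))
      ↥(laurentBaseChange L (modularFunctionFieldFull (M' * q * q))) :=
  RestrictNF.finα hq

/-- `hfinβ`. -/
theorem hfinβ (hq : q.Prime) :
    letI : Algebra ↥(laurentBaseChange L (modularFunctionFieldFull (M' * q)))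
        ↥(laurentBaseChange L (modularFunctionFieldFull (M' * q * q))) :=
      (betaStar L M' q).toAlgebra
    Module.Finite ↥(laurentBaseChange L (modularFunctionFieldFull (M' * q)))
      ↥(laurentBaseChange L (modularFunctionFieldFull (M' * q * q))) :=
  RestrictNF.finβ hq

/-- `hdα`: `[F : α^* FN] = q = n + 1`. -/
theorem hdα (hq : q.Prime) (n : ℕ) (hn : q = n + 1) :
    (letI : Algebra ↥(laurentBaseChange L (modularFunctionFieldFull (M' * q)))
        ↥(laurentBaseChange L (modularFunctionFieldFull (M' * q * q))) :=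
      (alphaStar L M' q).toAlgebra
    Module.finrank ↥(laurentBaseChange L (modularFunctionFieldFull (M' * q)))
      ↥(laurentBaseChange L (modularFunctionFieldFull (M' * q * q)))) = n + 1 :=
  (RestrictNF.degα hq).trans hn

/-- `hdβ`: `[F : β^* FN] = q = n + 1`. -/
theorem hdβ (hq : q.Prime) (n : ℕ) (hn : q = n + 1) :
    (letI : Algebra ↥(laurentBaseChange L (modularFunctionFieldFull (M' * q)))
        ↥(laurentBaseChange L (modularFunctionFieldFull (M' * q * q))) :=
      (betaStar L M' q).toAlgebra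
    Module.finrank ↥(laurentBaseChange L (modularFunctionFieldFull (M' * q)))
      ↥(laurentBaseChange L (modularFunctionFieldFull (M' * q * q)))) = n + 1 :=
  (RestrictNF.degβ hq).trans hn

end Deg

/-! ### The four "exactly these valuations above" lines -/

section All

variable {q : ℕ} (hq : q.Prime) (A : ValuationSubring Qb) (hA : A.LiesOverPrime q)
  {ζ : Qb} (hζ : IsPrimitiveRoot ζ q) (M' : ℕ) [NeZero M'] [NeZero q] (hqM : ¬ q ∣ M')
  {W : ALAut (inertiaField A) M' q} {w : ALAut (inertiaField A) (M' * q) q}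

/-- `hαall₀` from the clause `allαC` of `NF.Data`. -/
theorem hαall₀
    (allαC : ∀ v : ValuationSubring ↥(FK (inertiaField A) (M' * q * q)),
      v.comap (alphaStar (inertiaField A) M' q) = OZero (badSetup_W0 hq hA M' hqM) W → v = OZ3 (badSetup_W0 hq hA M' hqM) w) :
    ∀ w' : ValuationSubring ↥(FK (inertiaField A) (M' * q * q)),
      w'.comap (alphaStar (inertiaField A) M' q) = OZero (badSetup_W0 hq hA M' hqM) W → w' = OZero3 (badSetup_W0 hq hA M' hqM) w :=
  allαC

/-- `hβall` from the clause `allβC` of `NF.Data` (disjunction swapped). -/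
theorem hβall
    (allβC : ∀ v : ValuationSubring ↥(FK (inertiaField A) (M' * q * q)),
      v.comap (betaStar (inertiaField A) M' q) = OZero (badSetup_W0 hq hA M' hqM) W →
        v = (OMid hq A hA hζ M' hqM (IsLocalRing.residue A)) ∨ v = OZ3 (badSetup_W0 hq hA M' hqM) w) :
    ∀ w' : ValuationSubring ↥(FK (inertiaField A) (M' * q * q)),
      w'.comap (betaStar (inertiaField A) M' q) = OZero (badSetup_W0 hq hA M' hqM) W →
        w' = OZero3 (badSetup_W0 hq hA M' hqM) w ∨ w' = (OMid hq A hA hζ M' hqM (IsLocalRing.residue A)) :=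
  fun w' hw' => (allβC w' hw').symm

end All

/-! ### The packaged statement -/

section Packaged

open Fermat.Agent.CAR.Glob.Charts Fermat.Agent.CAR.Local Fermat.Agent.CAR.Glue

variable {q : ℕ} (hq : q.Prime) (A : ValuationSubring Qb) (hA : A.LiesOverPrime q)
  {ζ : Qb} (hζ : IsPrimitiveRoot ζ q) (M' : ℕ) [NeZero M'] [NeZero q] (hqM : ¬ q ∣ M')

set_option maxHeartbeats 4000000 in
/-- **CAR-14 at a triple point over `K0`**: `NodeTriple.triple_ratio_pow_of_red` at the raw CAR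
objects, with the whole valuation block (uniformisers, restrictions, ramification indices,
degrees, residue maps and their compatibilities) discharged.  Remaining hypotheses: the chart
block (`xN`, `x`, the `W0`-algebra structures, `h1`, `h2`), the point block (`P`, `huniq`, `Vs`,
`hA`, `hP`, `hlift`), the four `all`-clauses of `NF.Data`, a `κ`-valued form `ρmid` of `red_mid`,
and the functions with their values. -/
theorem triple_ratio_pow_K0
    [Algebra ↥(W0 A) ↥(FK (inertiaField A) (M' * q))] [Algebra ↥(W0 A) ↥(FK (inertiaField A) (M' * q * q))]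
    (hΦα : ∀ c : ↥(W0 A), (alphaStar (inertiaField A) M' q) (algebraMap ↥(W0 A) ↥(FK (inertiaField A) (M' * q)) c) = algebraMap ↥(W0 A) ↥(FK (inertiaField A) (M' * q * q)) c)
    (hΦβ : ∀ c : ↥(W0 A), (betaStar (inertiaField A) M' q) (algebraMap ↥(W0 A) ↥(FK (inertiaField A) (M' * q)) c) = algebraMap ↥(W0 A) ↥(FK (inertiaField A) (M' * q * q)) c)
    {xN : ↥(FK (inertiaField A) (M' * q))} {x : ↥(FK (inertiaField A) (M' * q * q))}
    [IsFractionRing (chart ↥(W0 A) xN) ↥(FK (inertiaField A) (M' * q))] [IsFractionRing (chart ↥(W0 A) x) ↥(FK (inertiaField A) (M' * q * q))]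
    [IsIntegrallyClosed (chart ↥(W0 A) xN)]
    {W : ALAut (inertiaField A) M' q} {w : ALAut (inertiaField A) (M' * q) q}
    (hW : IsAL M' q W) (hw : IsAL3 M' q w)
    (ρmid : (OMid hq A hA hζ M' hqM (IsLocalRing.residue A)) →+* ↥(modularFunctionFieldFullC (IsLocalRing.ResidueField A) M'))
    (hρ : ∀ f : (OMid hq A hA hζ M' hqM (IsLocalRing.residue A)),
      ((ρmid f : modularFunctionFieldFullC (IsLocalRing.ResidueField A) M') :
        LaurentSeries (IsLocalRing.ResidueField A))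
        = redMid hq A hA hζ M' hqM (IsLocalRing.residue A) f)
    (allαA : ∀ v : ValuationSubring ↥(FK (inertiaField A) (M' * q * q)),
      v.comap (alphaStar (inertiaField A) M' q) = OInf (badSetup_W0 hq hA M' hqM) → v = OInf3 (badSetup_W0 hq hA M' hqM) ∨ v = (OMid hq A hA hζ M' hqM (IsLocalRing.residue A)))
    (allαC : ∀ v : ValuationSubring ↥(FK (inertiaField A) (M' * q * q)),
      v.comap (alphaStar (inertiaField A) M' q) = OZero (badSetup_W0 hq hA M' hqM) W → v = OZ3 (badSetup_W0 hq hA M' hqM) w)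
    (allβA : ∀ v : ValuationSubring ↥(FK (inertiaField A) (M' * q * q)),
      v.comap (betaStar (inertiaField A) M' q) = OInf (badSetup_W0 hq hA M' hqM) → v = OInf3 (badSetup_W0 hq hA M' hqM))
    (allβC : ∀ v : ValuationSubring ↥(FK (inertiaField A) (M' * q * q)),
      v.comap (betaStar (inertiaField A) M' q) = OZero (badSetup_W0 hq hA M' hqM) W → v = (OMid hq A hA hζ M' hqM (IsLocalRing.residue A)) ∨ v = OZ3 (badSetup_W0 hq hA M' hqM) w)
    (n : ℕ) (hn : q = n + 1)
    -- the chart block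
    (h1α : (alphaStar (inertiaField A) M' q) xN ∈ chart ↥(W0 A) x)
    (h2α : IsIntegral (Algebra.adjoin ↥(W0 A) {(alphaStar (inertiaField A) M' q) xN}) x)
    (h1β : (betaStar (inertiaField A) M' q) xN ∈ chart ↥(W0 A) x)
    (h2β : IsIntegral (Algebra.adjoin ↥(W0 A) {(betaStar (inertiaField A) M' q) xN}) x)
    -- the point
    (P : Ideal (chart ↥(W0 A) x)) [P.IsMaximal] (hP : NodeUnits.IsRatPoint (resW0 A) P)
    (huniqα : ∀ P' : Ideal (chart ↥(W0 A) x), P'.IsMaximal →
      P'.comap (NodeInst.chartMap (alphaStar (inertiaField A) M' q) hΦα h1α) = P.comap (NodeInst.chartMap (alphaStar (inertiaField A) M' q) hΦα h1α) →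
        P' = P)
    (huniqβ : ∀ P' : Ideal (chart ↥(W0 A) x), P'.IsMaximal →
      P'.comap (NodeInst.chartMap (betaStar (inertiaField A) M' q) hΦβ h1β) = P.comap (NodeInst.chartMap (betaStar (inertiaField A) M' q) hΦβ h1β) →
        P' = P)
    -- the triple point `(inf, s) = (mid, s) = (zero, s)`
    (Vs : ValuationSubring ↥(modularFunctionFieldFullC (IsLocalRing.ResidueField A) M'))
    (hAinf : ∀ a : chart ↥(W0 A) x, algebraMap (chart ↥(W0 A) x) ↥(FK (inertiaField A) (M' * q * q)) a ∈ (compositeSubring (OInf3 (badSetup_W0 hq hA M' hqM)) (redInf3 (badSetup_W0 hq hA M' hqM)) (hρinf hq A hA M' hqM) Vs))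
    (hAzero : ∀ a : chart ↥(W0 A) x, algebraMap (chart ↥(W0 A) x) ↥(FK (inertiaField A) (M' * q * q)) a ∈ (compositeSubring (OZero3 (badSetup_W0 hq hA M' hqM) w) (redZero3 (badSetup_W0 hq hA M' hqM) w) (hρzero hq A hA M' hqM w) Vs))
    (hPinf : pointIdeal (OInf3 (badSetup_W0 hq hA M' hqM)) (redInf3 (badSetup_W0 hq hA M' hqM)) (hρinf hq A hA M' hqM) Vs hAinf = P)
    (hPzero : pointIdeal (OZero3 (badSetup_W0 hq hA M' hqM) w) (redZero3 (badSetup_W0 hq hA M' hqM) w) (hρzero hq A hA M' hqM w) Vs hAzero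
      = P)
    (hliftinf : ∀ z ∈ Vs, ∃ a b : chart ↥(W0 A) x,
      redOn (OInf3 (badSetup_W0 hq hA M' hqM)) (redInf3 (badSetup_W0 hq hA M' hqM)) (fun a => (hAinf a).1) b ∉ Vs.nonunits ∧
        redOn (OInf3 (badSetup_W0 hq hA M' hqM)) (redInf3 (badSetup_W0 hq hA M' hqM)) (fun a => (hAinf a).1) a
          = z * redOn (OInf3 (badSetup_W0 hq hA M' hqM)) (redInf3 (badSetup_W0 hq hA M' hqM)) (fun a => (hAinf a).1) b)
    (hliftzero : ∀ z ∈ Vs, ∃ a b : chart ↥(W0 A) x,
      redOn (OZero3 (badSetup_W0 hq hA M' hqM) w) (redZero3 (badSetup_W0 hq hA M' hqM) w) (fun a => (hAzero a).1) b ∉ Vs.nonunits ∧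
        redOn (OZero3 (badSetup_W0 hq hA M' hqM) w) (redZero3 (badSetup_W0 hq hA M' hqM) w) (fun a => (hAzero a).1) a
          = z * redOn (OZero3 (badSetup_W0 hq hA M' hqM) w) (redZero3 (badSetup_W0 hq hA M' hqM) w) (fun a => (hAzero a).1) b)
    -- the functions
    {m : ℕ} (hm : m ≠ 0) {f u h : ↥(FK (inertiaField A) (M' * q * q))}
    (hu : u ∈ pointRing ↥(FK (inertiaField A) (M' * q * q)) P) (hu' : u⁻¹ ∈ pointRing ↥(FK (inertiaField A) (M' * q * q)) P)
    (hf : f = u * h ^ m) (hh : h ≠ 0) {gα cα gβ cβ : ↥(FK (inertiaField A) (M' * q))}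
    (hcα : cα ∈ pointRing ↥(FK (inertiaField A) (M' * q)) (P.comap (NodeInst.chartMap (alphaStar (inertiaField A) M' q) hΦα h1α)))
    (hcα' : cα⁻¹ ∈ pointRing ↥(FK (inertiaField A) (M' * q)) (P.comap (NodeInst.chartMap (alphaStar (inertiaField A) M' q) hΦα h1α)))
    (hcα0 : cα ≠ 0) (hgα : gα ≠ 0)
    (hNα : (letI : Algebra ↥(FK (inertiaField A) (M' * q)) ↥(FK (inertiaField A) (M' * q * q)) := (alphaStar (inertiaField A) M' q).toAlgebra
      Algebra.norm ↥(FK (inertiaField A) (M' * q)) f) = cα * gα ^ m)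
    (hcβ : cβ ∈ pointRing ↥(FK (inertiaField A) (M' * q)) (P.comap (NodeInst.chartMap (betaStar (inertiaField A) M' q) hΦβ h1β)))
    (hcβ' : cβ⁻¹ ∈ pointRing ↥(FK (inertiaField A) (M' * q)) (P.comap (NodeInst.chartMap (betaStar (inertiaField A) M' q) hΦβ h1β)))
    (hcβ0 : cβ ≠ 0) (hgβ : gβ ≠ 0)
    (hNβ : (letI : Algebra ↥(FK (inertiaField A) (M' * q)) ↥(FK (inertiaField A) (M' * q * q)) := (betaStar (inertiaField A) M' q).toAlgebra
      Algebra.norm ↥(FK (inertiaField A) (M' * q)) f) = cβ * gβ ^ m)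
    {a b c γα₁ γα₂ γβ₁ γβ₂ : IsLocalRing.ResidueField A}
    (ha : NodeUnits.HasVal (resW0 A) (compositeSubring (OInf3 (badSetup_W0 hq hA M' hqM)) (redInf3 (badSetup_W0 hq hA M' hqM)) (hρinf hq A hA M' hqM) Vs) h a)
    (hb : NodeUnits.HasVal (resW0 A) (compositeSubring (OMid hq A hA hζ M' hqM (IsLocalRing.residue A)) ρmid (hρmid hq A hA hζ M' hqM ρmid hρ) Vs) h b)
    (hc : NodeUnits.HasVal (resW0 A) (compositeSubring (OZero3 (badSetup_W0 hq hA M' hqM) w) (redZero3 (badSetup_W0 hq hA M' hqM) w) (hρzero hq A hA M' hqM w) Vs) h c)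
    (ha0 : a ≠ 0) (hb0 : b ≠ 0) (hc0 : c ≠ 0)
    (hγα₁ : NodeUnits.HasVal (resW0 A) (compositeSubring (OInf3 (badSetup_W0 hq hA M' hqM)) (redInf3 (badSetup_W0 hq hA M' hqM)) (hρinf hq A hA M' hqM) Vs) ((alphaStar (inertiaField A) M' q) gα) γα₁)
    (hγα₂ : NodeUnits.HasVal (resW0 A) (compositeSubring (OZero3 (badSetup_W0 hq hA M' hqM) w) (redZero3 (badSetup_W0 hq hA M' hqM) w) (hρzero hq A hA M' hqM w) Vs) ((alphaStar (inertiaField A) M' q) gα) γα₂)
    (hγβ₁ : NodeUnits.HasVal (resW0 A) (compositeSubring (OInf3 (badSetup_W0 hq hA M' hqM)) (redInf3 (badSetup_W0 hq hA M' hqM)) (hρinf hq A hA M' hqM) Vs) ((betaStar (inertiaField A) M' q) gβ) γβ₁)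
    (hγβ₂ : NodeUnits.HasVal (resW0 A) (compositeSubring (OZero3 (badSetup_W0 hq hA M' hqM) w) (redZero3 (badSetup_W0 hq hA M' hqM) w) (hρzero hq A hA M' hqM w) Vs) ((betaStar (inertiaField A) M' q) gβ) γβ₂) :
    (a ^ (n + 2) = (γα₁ / γα₂) * (γβ₁ / γβ₂) * c ^ (n + 2) ∧
      (γβ₁ / γβ₂) * b ^ (n * (n + 2)) = (γα₁ / γα₂) ^ (n + 1) * c ^ (n * (n + 2))) ∧
      γα₁ ≠ 0 ∧ γα₂ ≠ 0 ∧ γβ₁ ≠ 0 ∧ γβ₂ ≠ 0 := by
  haveI : CharZero ↥(FK (inertiaField A) (M' * q)) := RestrictNF.charZero_FN (L := (inertiaField A)) (M' * q)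
  exact NodeTriple.triple_ratio_pow_of_red (alphaStar (inertiaField A) M' q) (betaStar (inertiaField A) M' q) hΦα hΦβ
    (resW0_surjective hq hA) n h1α h2α (hfinα hq) (hdα hq n hn) h1β h2β (hfinβ hq)
    (hdβ hq n hn) P hP huniqα huniqβ
    (hvinf hq A hA M' hqM) (hvzero hq A hA M' hqM W) (hinf hq A hA M' hqM)
    (hmid hq A hA hζ M' hqM) (hzero hq A hA M' hqM w)
    (hne₁ hq A hA hζ M' hqM) (hne₂ hq A hA hζ M' hqM hw)
    (hαinf hq A hA M' hqM) (hαmid hq A hA hζ M' hqM) (hαzero hq A hA M' hqM hW hw)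
    allαA (hαall₀ hq A hA M' hqM allαC)
    (hαe₁ hq A hA M' hqM) (hαe₂ hq A hA hζ M' hqM n hn)
    (hβzero hq A hA M' hqM hW hw) (hβmid hq A hA hζ M' hqM hW) (hβinf hq A hA M' hqM)
    (hβall hq A hA hζ M' hqM allβC) allβA
    (hβe₁ hq A hA M' hqM w) (hβe₂ hq A hA hζ M' hqM n hn)
    (redInf3 (badSetup_W0 hq hA M' hqM)) (hρinf hq A hA M' hqM) ρmid (hρmid hq A hA hζ M' hqM ρmid hρ)
    (redZero3 (badSetup_W0 hq hA M' hqM) w) (hρzero hq A hA M' hqM w)
    (redInf (badSetup_W0 hq hA M' hqM)) (hrinf hq A hA M' hqM) (redZero (badSetup_W0 hq hA M' hqM) W) (hrzero hq A hA M' hqM W)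
    (hcαinf hq A hA M' hqM) (hcαmid hq A hA hζ M' hqM ρmid hρ)
    (hcβzero hq A hA M' hqM hW hw) (hcβmid hq A hA hζ M' hqM ρmid hρ hW)
    Vs hAinf hAzero hPinf hPzero hliftinf hliftzero hm hu hu' hf hh hcα hcα' hcα0 hgα hNα
    hcβ hcβ' hcβ0 hgβ hNβ ha hb hc ha0 hb0 hc0 hγα₁ hγα₂ hγβ₁ hγβ₂

end Packaged

end Fermat.Agent.CAR.Inst.TripleV3

end
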