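import Mathlib
import Fermat.Agent.CAR.Inst.NodeContract
import Fermat.Agent.CAR.Inst.TripleV3
import Fermat.Agent.CAR.V3.MidAll
import Fermat.Agent.CAR.Local.Inst.ContractUniq
import Fermat.Agent.CAR.Local.Inst.LiftInst
import Fermat.Agent.CAR.Local.Inst.ChartFields
import Fermat.Agent.CAR.Inst.ContractUniqK0

/-!
# CAR (instance): the node relation at the triple points, over `K0`

`hnode_K0` is helper75's `NodeContract.hnode_of_contract` at the base
`(K0, W0, resW0) = (inertiaField A, W0 A, resW0 A)`, `FN = K0 · F_{M' q}`, `F = K0 · F_{M' q²}`,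
`Φα = alphaStar K0 M' q`, `Φβ = betaStar K0 M' q`, `PA = OInf hB`, `PC = OZero hB W`
(`hB = K0.badSetup_W0 hq hA M' hqM`), `κ = modularFunctionFieldFullC k M'`
(`k = ResidueField A`), with every input that is a theorem on the raw objects discharged:

* `D := MidAll.nfDataK0` (the record `NF.Data` over `K0`);
* `rA := redInf hB`, `rC := redZero hB W` with their kernels and the four untwisted
  compatibilities (`TripleV3.hcαinf hcαmid hcβzero hcβmid`);
* `hres := resW0_surjective`, `q = (q - 1) + 1`;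
* `hconst` on the `∞`-branch (`redInf3_algebraMap`) and `hk` (the residue field of every finite
  place is `k`: `ChartFields.exists_sub_algebraMap_mem_nonunits`).

The three components `O : Fin 3 → ValuationSubring F` with their residue maps `red` are abstract,
tied to the raw objects `OInf3 hB`, `OMid …`, `OZero3 hB w` and `redInf3 hB`, `redMid …`,
`redZero3 hB w` by six bridges which are `rfl` / `fun _ _ _ => rfl` (`MidKappa.coe_redMidK` for
the middle one) on `![OInf3 hB, OMid …, OZero3 hB w]`.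

What remains as hypotheses: the contract `H`, the record `ContractUniq` (middle pull-back and
Frobenius twist), the chart block of level `M' q` (`hΦα hΦβ h1α h2α h1β h2β`, the chart
instances, `p₀ p₁` with `hα₀ hα₁ hβ₁ hβ₂`).  The conclusion is literally the binder `hnode` of
`Core.pointPkg_of_contract`.
-/

set_option autoImplicit false
set_option linter.unusedSectionVars false
set_option linter.style.haveILetI false

noncomputable section

namespace Fermat.Agent.CAR.Inst.NodeFinK0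

open ModularCurve HahnSeries Fermat.Agent.S24 Fermat.Agent.S28 Fermat.Agent.S28.Chain
  Fermat.Agent.Lib.Red Fermat.Agent.CAR.K0 Fermat.Agent.CAR.V3.GaussDVR
  Fermat.Agent.CAR.V3.MidRing Fermat.Agent.BAD.TwoVal Fermat.Agent.ESJ.Cong.LevelGen
  Fermat.Agent.CAR.V3.RestrictNF Fermat.Agent.CAR.Formal Fermat.Agent.CAR.V3.MidRestrict
  Fermat.Agent.CAR.V3 Fermat.Agent.CAR.V3.Restrict
  Fermat.Agent.CAR.Glob.Charts Fermat.Agent.CAR.Local Fermat.Agent.CAR.Glue
  Fermat.Agent.CAR.Local.Inst IntermediateField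

local notation "Qb" => AlgebraicClosure ℚ

variable {q : ℕ} (hq : q.Prime) (A : ValuationSubring Qb) (hA : A.LiesOverPrime q)
  {ζ : Qb} (hζ : IsPrimitiveRoot ζ q) (M' : ℕ) [NeZero M'] [NeZero q] (hqM : ¬ q ∣ M')

/-! ### Constants -/

section Const

variable [Algebra ↥(W0 A) ↥(FK (inertiaField A) (M' * q * q))]
  {x : ↥(FK (inertiaField A) (M' * q * q))}
  {B' : Type*} [CommRing B']
  {O : Fin 3 → ValuationSubring ↥(FK (inertiaField A) (M' * q * q))}
  {red : ∀ i, O i →+* ↥(modularFunctionFieldFullC (IsLocalRing.ResidueField A) M')}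
  {hBO : ∀ i, ∀ b : chart ↥(W0 A) x,
    algebraMap (chart ↥(W0 A) x) ↥(FK (inertiaField A) (M' * q * q)) b ∈ O i}

set_option synthInstance.maxHeartbeats 400000 in
set_option maxHeartbeats 1000000 in
/-- **`hconst`** on the `∞`-branch: a constant of `W0` reduces to its residue. -/
theorem hconst_inf
    (hWF : ∀ c : ↥(W0 A), algebraMap ↥(W0 A) ↥(FK (inertiaField A) (M' * q * q)) c
      = algebraMap ↥(inertiaField A) ↥(FK (inertiaField A) (M' * q * q)) (c : inertiaField A))
    (hr0 : ∀ (y : ↥(FK (inertiaField A) (M' * q * q))) (hy : y ∈ O 0)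
      (hy' : y ∈ OInf3 (badSetup_W0 hq hA M' hqM)),
      red 0 ⟨y, hy⟩ = redInf3 (badSetup_W0 hq hA M' hqM) ⟨y, hy'⟩)
    (c : ↥(W0 A)) :
    redOn (O 0) (red 0) (hBO 0) (algebraMap ↥(W0 A) (chart ↥(W0 A) x) c)
      = algebraMap (IsLocalRing.ResidueField A)
          ↥(modularFunctionFieldFullC (IsLocalRing.ResidueField A) M') (resW0 A c) := by
  have hm : algebraMap ↥(inertiaField A) ↥(FK (inertiaField A) (M' * q * q)) (c : inertiaField A)
      ∈ OInf3 (badSetup_W0 hq hA M' hqM) :=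
    (algebraMap_mem_OInf3_iff (badSetup_W0 hq hA M' hqM) _).2 c.2
  have key : ∀ (y : ↥(FK (inertiaField A) (M' * q * q))) (hy : y ∈ O 0),
      y = algebraMap ↥(inertiaField A) ↥(FK (inertiaField A) (M' * q * q)) (c : inertiaField A) →
      red 0 ⟨y, hy⟩ = algebraMap (IsLocalRing.ResidueField A)
          ↥(modularFunctionFieldFullC (IsLocalRing.ResidueField A) M') (resW0 A c) := by
    rintro y hy rfl
    rw [hr0 _ hy hm]
    exact redInf3_algebraMap (badSetup_W0 hq hA M' hqM) c hm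
  rw [redOn_apply]
  exact key _ _ (hWF c)

end Const

/-! ### The residue field of a finite place is `k` -/

section Res

variable {B' : Type*} [CommRing B']
  {red' : B' →+* ↥(modularFunctionFieldFullC (IsLocalRing.ResidueField A) M')}

set_option synthInstance.maxHeartbeats 400000 in
set_option maxHeartbeats 1000000 in
include hq hA hqM in
/-- **`hk`**: if the constants are regular at the finite places, the residue field of every
finite place is `k` (`k` is algebraically closed and `κ` is a function field in one variable). -/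
theorem hk_K0
    (hkc : ∀ Vs : ValuationSubring ↥(modularFunctionFieldFullC (IsLocalRing.ResidueField A) M'),
      IsFinPlace red' Vs → ∀ c : IsLocalRing.ResidueField A,
        algebraMap (IsLocalRing.ResidueField A)
          ↥(modularFunctionFieldFullC (IsLocalRing.ResidueField A) M') c ∈ Vs) :
    ∀ Vs : ValuationSubring ↥(modularFunctionFieldFullC (IsLocalRing.ResidueField A) M'),
      IsFinPlace red' Vs → ∀ v ∈ Vs, ∃ c : IsLocalRing.ResidueField A,
        v - algebraMap (IsLocalRing.ResidueField A)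
          ↥(modularFunctionFieldFullC (IsLocalRing.ResidueField A) M') c ∈ Vs.nonunits := by
  intro Vs hVs v hv
  haveI := Fermat.Agent.Lib.FF.CharP.isAlgClosed_residueField A
  have hMk : (M' : IsLocalRing.ResidueField A) ≠ 0 := (badSetup_W0 hq hA M' hqM).hMk
  haveI : FiniteDimensional
      ↥((IsLocalRing.ResidueField A)⟮(BaseFn.Data.ofJ (W0 A) (resW0 A) M').xt
        (resW0_eq_zero_of_not_isUnit A) hMk⟯)
      ↥(modularFunctionFieldFullC (IsLocalRing.ResidueField A) M') :=
    (BaseFn.Data.ofJ (W0 A) (resW0 A) M').finite_k (resW0_eq_zero_of_not_isUnit A)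
      (resW0_surjective hq hA) hMk
  haveI : Algebra.IsAlgebraic
      ↥(Algebra.adjoin (IsLocalRing.ResidueField A)
        {(BaseFn.Data.ofJ (W0 A) (resW0 A) M').xt (resW0_eq_zero_of_not_isUnit A) hMk})
      ↥(modularFunctionFieldFullC (IsLocalRing.ResidueField A) M') :=
    ChartFields.isAlgebraic_adjoin_of_intermediateField _
  exact ChartFields.exists_sub_algebraMap_mem_nonunits Vs (hkc Vs hVs) hVs.1
    ((BaseFn.Data.ofJ (W0 A) (resW0 A) M').xt (resW0_eq_zero_of_not_isUnit A) hMk) hv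

end Res

/-! ### The node relation -/

section Node

variable [Algebra ↥(W0 A) ↥(FK (inertiaField A) (M' * q))]
  [Algebra ↥(W0 A) ↥(FK (inertiaField A) (M' * q * q))]
  {xN : ↥(FK (inertiaField A) (M' * q))} {x : ↥(FK (inertiaField A) (M' * q * q))}
  [IsFractionRing (chart ↥(W0 A) xN) ↥(FK (inertiaField A) (M' * q))]
  [IsFractionRing (chart ↥(W0 A) x) ↥(FK (inertiaField A) (M' * q * q))]
  [IsIntegrallyClosed (chart ↥(W0 A) xN)] [IsNoetherianRing (chart ↥(W0 A) x)]
  {B' : Type*} [CommRing B']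
  {W : ALAut (inertiaField A) M' q} {w : ALAut (inertiaField A) (M' * q) q}
  {O : Fin 3 → ValuationSubring ↥(FK (inertiaField A) (M' * q * q))}
  {red : ∀ i, O i →+* ↥(modularFunctionFieldFullC (IsLocalRing.ResidueField A) M')}
  {hred : ∀ i, ∀ y : O i, red i y = 0 ↔ y ∈ IsLocalRing.maximalIdeal (O i)}
  {hBO : ∀ i, ∀ b : chart ↥(W0 A) x,
    algebraMap (chart ↥(W0 A) x) ↥(FK (inertiaField A) (M' * q * q)) b ∈ O i}
  {red' : B' →+* ↥(modularFunctionFieldFullC (IsLocalRing.ResidueField A) M')}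
  {π₀ π₂ : B' →+* chart ↥(W0 A) x}
  {Dκ : ↥(modularFunctionFieldFullC (IsLocalRing.ResidueField A) M') →
    ↥(modularFunctionFieldFullC (IsLocalRing.ResidueField A) M')}
  {qW : ↥(W0 A)} {x' : B'} {u₀ u₁ v₁ h₀ : chart ↥(W0 A) x}
  {Db G : ↥(modularFunctionFieldFullC (IsLocalRing.ResidueField A) M')} {N e : ℕ}

set_option synthInstance.maxHeartbeats 400000 in
set_option maxHeartbeats 4000000 in
/-- **The node relation at the triple points of the finite chart, over `K0`**: the binder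
`hnode` of `Core.pointPkg_of_contract` at `(K0, W0, resW0)`, from the contract `H`, the record
`ContractUniq` and the chart block of level `M' q`. -/
theorem hnode_K0
    (hΦα : ∀ c : ↥(W0 A), (alphaStar (inertiaField A) M' q)
      (algebraMap ↥(W0 A) ↥(FK (inertiaField A) (M' * q)) c)
        = algebraMap ↥(W0 A) ↥(FK (inertiaField A) (M' * q * q)) c)
    (hΦβ : ∀ c : ↥(W0 A), (betaStar (inertiaField A) M' q)
      (algebraMap ↥(W0 A) ↥(FK (inertiaField A) (M' * q)) c)
        = algebraMap ↥(W0 A) ↥(FK (inertiaField A) (M' * q * q)) c)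
    (hWF : ∀ c : ↥(W0 A), algebraMap ↥(W0 A) ↥(FK (inertiaField A) (M' * q * q)) c
      = algebraMap ↥(inertiaField A) ↥(FK (inertiaField A) (M' * q * q)) (c : inertiaField A))
    (hW : IsAL M' q W) (hw : IsAL3 M' q w)
    -- the bridges to the raw objects
    (hO0 : O 0 = OInf3 (badSetup_W0 hq hA M' hqM))
    (hO1 : O 1 = OMid hq A hA hζ M' hqM (IsLocalRing.residue A))
    (hO2 : O 2 = OZero3 (badSetup_W0 hq hA M' hqM) w)
    (hr0 : ∀ (y : ↥(FK (inertiaField A) (M' * q * q))) (hy : y ∈ O 0)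
      (hy' : y ∈ OInf3 (badSetup_W0 hq hA M' hqM)),
      red 0 ⟨y, hy⟩ = redInf3 (badSetup_W0 hq hA M' hqM) ⟨y, hy'⟩)
    (hr1 : ∀ (y : ↥(FK (inertiaField A) (M' * q * q))) (hy : y ∈ O 1)
      (hy' : y ∈ OMid hq A hA hζ M' hqM (IsLocalRing.residue A)),
      ((red 1 ⟨y, hy⟩ : modularFunctionFieldFullC (IsLocalRing.ResidueField A) M') :
        LaurentSeries (IsLocalRing.ResidueField A))
        = redMid hq A hA hζ M' hqM (IsLocalRing.residue A) ⟨y, hy'⟩)
    (hr2 : ∀ (y : ↥(FK (inertiaField A) (M' * q * q))) (hy : y ∈ O 2)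
      (hy' : y ∈ OZero3 (badSetup_W0 hq hA M' hqM) w),
      red 2 ⟨y, hy⟩ = redZero3 (badSetup_W0 hq hA M' hqM) w ⟨y, hy'⟩)
    -- the contract
    (H : Contract O red hred hBO red' π₀ π₂ Dκ (algebraMap ↥(W0 A) (chart ↥(W0 A) x) qW) x' u₀ u₁
      v₁ h₀ Db G N e)
    -- the charts
    (h1α : (alphaStar (inertiaField A) M' q) xN ∈ chart ↥(W0 A) x)
    (h2α : IsIntegral (Algebra.adjoin ↥(W0 A) {(alphaStar (inertiaField A) M' q) xN}) x)
    (h1β : (betaStar (inertiaField A) M' q) xN ∈ chart ↥(W0 A) x)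
    (h2β : IsIntegral (Algebra.adjoin ↥(W0 A) {(betaStar (inertiaField A) M' q) xN}) x)
    -- (UNIQ)
    (π₁ : B' →+* chart ↥(W0 A) x)
    (ψ : ↥(modularFunctionFieldFullC (IsLocalRing.ResidueField A) M') →+*
      ↥(modularFunctionFieldFullC (IsLocalRing.ResidueField A) M')) {nψ : ℕ}
    (U : ContractUniq O red hBO red' π₁ ψ nψ)
    (p₀ p₁ : B' →+* chart ↥(W0 A) xN)
    (hα₀ : ∀ y, NodeInst.chartMap (alphaStar (inertiaField A) M' q) hΦα h1α (p₀ y) = π₀ y)
    (hα₁ : ∀ y, NodeInst.chartMap (alphaStar (inertiaField A) M' q) hΦα h1α (p₁ y) = π₁ y)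
    (hβ₁ : ∀ y, NodeInst.chartMap (betaStar (inertiaField A) M' q) hΦβ h1β (p₀ y) = π₁ y)
    (hβ₂ : ∀ y, NodeInst.chartMap (betaStar (inertiaField A) M' q) hΦβ h1β (p₁ y) = π₂ y)
    (m : ℕ) (hm : m ≠ 0) :
    ∀ (Vs : ValuationSubring ↥(modularFunctionFieldFullC (IsLocalRing.ResidueField A) M'))
      (hVs : IsFinPlace red' Vs), Db ∈ Vs.nonunits →
      Core.NodeRel (resW0 A) m q (alphaStar (inertiaField A) M' q)
        (betaStar (inertiaField A) M' q) (OInf (badSetup_W0 hq hA M' hqM))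
        (OZero (badSetup_W0 hq hA M' hqM) W) O
        (fun i => compositeSubring (O i) (red i) (hred i) Vs)
        (pointRing ↥(FK (inertiaField A) (M' * q * q)) (Meet.pt H 1 Vs hVs)).toSubring := by
  haveI : CharZero ↥(FK (inertiaField A) (M' * q)) :=
    RestrictNF.charZero_FN (L := (inertiaField A)) (M' * q)
  have hqn : q = (q - 1) + 1 := (Nat.sub_add_cancel hq.one_le).symm
  have D : NF.Data (alphaStar (inertiaField A) M' q) (betaStar (inertiaField A) M' q) q
      (OInf (badSetup_W0 hq hA M' hqM)) (OZero (badSetup_W0 hq hA M' hqM) W)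
      (O 0) (O 1) (O 2) ((q : ℕ) : FK (inertiaField A) (M' * q))
      ((q : ℕ) : FK (inertiaField A) (M' * q * q)) (dMid A M' q) := by
    rw [hO0, hO1, hO2]
    exact MidAll.nfDataK0 hq A hA hζ M' hqM hW hw
  have hconst := hconst_inf hq A hA M' hqM (x := x) (hBO := hBO) hWF hr0
  have hkc : ∀ Vs : ValuationSubring ↥(modularFunctionFieldFullC (IsLocalRing.ResidueField A) M'),
      IsFinPlace red' Vs → ∀ c : IsLocalRing.ResidueField A,
        algebraMap (IsLocalRing.ResidueField A)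
          ↥(modularFunctionFieldFullC (IsLocalRing.ResidueField A) M') c ∈ Vs := by
    intro Vs hVs c
    obtain ⟨c', rfl⟩ := resW0_surjective hq hA c
    rw [← hconst c']
    exact H.fin 0 Vs hVs _
  exact NodeContract.hnode_of_contract (alphaStar (inertiaField A) M' q)
    (betaStar (inertiaField A) M' q) hΦα hΦβ (resW0_surjective hq hA) hqn H D h1α h2α h1β h2β
    (redInf (badSetup_W0 hq hA M' hqM)) (TripleV3.hrinf hq A hA M' hqM)
    (redZero (badSetup_W0 hq hA M' hqM) W) (TripleV3.hrzero hq A hA M' hqM W)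
    (fun y hy hy' => (hr0 _ hy' (by rw [← hO0]; exact hy')).trans
      (TripleV3.hcαinf hq A hA M' hqM y hy _))
    (fun y hy hy' => Subtype.ext ((hr1 _ hy' (by rw [← hO1]; exact hy')).trans
      (redMid_alpha hq A hA hζ M' hqM (badSetup_W0 hq hA M' hqM) y hy _)))
    (fun y hy hy' => (hr2 _ hy' (by rw [← hO2]; exact hy')).trans
      (TripleV3.hcβzero hq A hA M' hqM hW hw y hy _))
    (fun y hy hy' => Subtype.ext ((hr1 _ hy' (by rw [← hO1]; exact hy')).trans
      (redMid_beta hq A hA hζ M' hqM (badSetup_W0 hq hA M' hqM) hW y hy _)))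
    0 hconst π₁ ψ U.n_ne U.frob U.zero_π₁ U.inf_π₁ p₀ p₁ hα₀ hα₁ hβ₁ hβ₂
    (hk_K0 hq A hA M' hqM hkc) m hm

end Node

/-! ### The same with the scalar towers `W0 → K0 → F` as instances -/

section Tower

set_option synthInstance.maxHeartbeats 400000 in
set_option maxHeartbeats 1000000 in
/-- `hWF`: the constants of `W0` in `F` are those of `K0`. -/
theorem hWF_K0 [Algebra ↥(W0 A) ↥(FK (inertiaField A) (M' * q * q))]
    [IsScalarTower ↥(W0 A) ↥(inertiaField A) ↥(FK (inertiaField A) (M' * q * q))]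
    (c : ↥(W0 A)) :
    algebraMap ↥(W0 A) ↥(FK (inertiaField A) (M' * q * q)) c
      = algebraMap ↥(inertiaField A) ↥(FK (inertiaField A) (M' * q * q)) (c : inertiaField A) :=
  IsScalarTower.algebraMap_apply ↥(W0 A) ↥(inertiaField A) ↥(FK (inertiaField A) (M' * q * q)) c

set_option synthInstance.maxHeartbeats 400000 in
set_option maxHeartbeats 1000000 in
/-- `hΦα`: `α^*` fixes the constants of `W0`. -/
theorem hΦα_K0 [Algebra ↥(W0 A) ↥(FK (inertiaField A) (M' * q))]
    [Algebra ↥(W0 A) ↥(FK (inertiaField A) (M' * q * q))]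
    [IsScalarTower ↥(W0 A) ↥(inertiaField A) ↥(FK (inertiaField A) (M' * q))]
    [IsScalarTower ↥(W0 A) ↥(inertiaField A) ↥(FK (inertiaField A) (M' * q * q))]
    (c : ↥(W0 A)) :
    (alphaStar (inertiaField A) M' q) (algebraMap ↥(W0 A) ↥(FK (inertiaField A) (M' * q)) c)
      = algebraMap ↥(W0 A) ↥(FK (inertiaField A) (M' * q * q)) c := by
  rw [IsScalarTower.algebraMap_apply ↥(W0 A) ↥(inertiaField A) ↥(FK (inertiaField A) (M' * q)),
    IsScalarTower.algebraMap_apply ↥(W0 A) ↥(inertiaField A)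
      ↥(FK (inertiaField A) (M' * q * q))]
  exact (heckeAlphaBar (inertiaField A) (M' * q) q).commutes _

set_option synthInstance.maxHeartbeats 400000 in
set_option maxHeartbeats 1000000 in
/-- `hΦβ`: `β^*` fixes the constants of `W0`. -/
theorem hΦβ_K0 [Algebra ↥(W0 A) ↥(FK (inertiaField A) (M' * q))]
    [Algebra ↥(W0 A) ↥(FK (inertiaField A) (M' * q * q))]
    [IsScalarTower ↥(W0 A) ↥(inertiaField A) ↥(FK (inertiaField A) (M' * q))]
    [IsScalarTower ↥(W0 A) ↥(inertiaField A) ↥(FK (inertiaField A) (M' * q * q))]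
    (c : ↥(W0 A)) :
    (betaStar (inertiaField A) M' q) (algebraMap ↥(W0 A) ↥(FK (inertiaField A) (M' * q)) c)
      = algebraMap ↥(W0 A) ↥(FK (inertiaField A) (M' * q * q)) c := by
  rw [IsScalarTower.algebraMap_apply ↥(W0 A) ↥(inertiaField A) ↥(FK (inertiaField A) (M' * q)),
    IsScalarTower.algebraMap_apply ↥(W0 A) ↥(inertiaField A)
      ↥(FK (inertiaField A) (M' * q * q))]
  exact (heckeBetaBar (inertiaField A) (M' * q) q).commutes _

end Tower

/-! ### The literal components `![OInf3 hB, OMid …, OZero3 hB w]` -/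

section Literal

/-- The three components of level `M' q²` (the literal of the contract instance). -/
abbrev O3 (w : ALAut (inertiaField A) (M' * q) q) :
    Fin 3 → ValuationSubring ↥(FK (inertiaField A) (M' * q * q)) :=
  ![OInf3 (badSetup_W0 hq hA M' hqM), OMid hq A hA hζ M' hqM (IsLocalRing.residue A),
    OZero3 (badSetup_W0 hq hA M' hqM) w]

set_option synthInstance.maxHeartbeats 400000 in
set_option maxHeartbeats 4000000 in
/-- **The node relation at the triple points of the finite chart, over `K0`, on the literal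
components** `![OInf3 hB, OMid …, OZero3 hB w]` with any family `red` agreeing with
`redInf3 hB`, `redMidK … hκ`, `redZero3 hB w`: the record `ContractUniq` is produced inside
(`UniqK0.exists_contractUniq_K0`) from `ι : B' → Ow`, `red' = redF ∘ ι`, `π₁ = π_1^* ∘ ι`. -/
theorem hnode_K0_lit
    [Algebra ↥(W0 A) ↥(FK (inertiaField A) (M' * q))]
    [Algebra ↥(W0 A) ↥(FK (inertiaField A) (M' * q * q))]
    [IsScalarTower ↥(W0 A) ↥(inertiaField A) ↥(FK (inertiaField A) (M' * q))]
    [IsScalarTower ↥(W0 A) ↥(inertiaField A) ↥(FK (inertiaField A) (M' * q * q))]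
    {xN : ↥(FK (inertiaField A) (M' * q))} {x : ↥(FK (inertiaField A) (M' * q * q))}
    [IsFractionRing (chart ↥(W0 A) xN) ↥(FK (inertiaField A) (M' * q))]
    [IsFractionRing (chart ↥(W0 A) x) ↥(FK (inertiaField A) (M' * q * q))]
    [IsIntegrallyClosed (chart ↥(W0 A) xN)] [IsNoetherianRing (chart ↥(W0 A) x)]
    {B' : Type*} [CommRing B']
    {W : ALAut (inertiaField A) M' q} {w : ALAut (inertiaField A) (M' * q) q}
    (hW : IsAL M' q W) (hw : IsAL3 M' q w)
    (hκ : ∀ f : OMid hq A hA hζ M' hqM (IsLocalRing.residue A),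
      redMid hq A hA hζ M' hqM (IsLocalRing.residue A) f
        ∈ modularFunctionFieldFullC (IsLocalRing.ResidueField A) M')
    {red : ∀ i : Fin 3, ↥(O3 hq A hA hζ M' hqM w i) →+*
      ↥(modularFunctionFieldFullC (IsLocalRing.ResidueField A) M')}
    {hred : ∀ i, ∀ y : ↥(O3 hq A hA hζ M' hqM w i),
      red i y = 0 ↔ y ∈ IsLocalRing.maximalIdeal ↥(O3 hq A hA hζ M' hqM w i)}
    {hBO : ∀ i, ∀ b : chart ↥(W0 A) x,
      algebraMap (chart ↥(W0 A) x) ↥(FK (inertiaField A) (M' * q * q)) b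
        ∈ O3 hq A hA hζ M' hqM w i}
    {red' : B' →+* ↥(modularFunctionFieldFullC (IsLocalRing.ResidueField A) M')}
    {π₀ π₂ : B' →+* chart ↥(W0 A) x}
    {Dκ : ↥(modularFunctionFieldFullC (IsLocalRing.ResidueField A) M') →
      ↥(modularFunctionFieldFullC (IsLocalRing.ResidueField A) M')}
    {qW : ↥(W0 A)} {x' : B'} {u₀ u₁ v₁ h₀ : chart ↥(W0 A) x}
    {Db G : ↥(modularFunctionFieldFullC (IsLocalRing.ResidueField A) M')} {N e : ℕ}
    (hred0 : ∀ f : OInf3 (badSetup_W0 hq hA M' hqM),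
      red 0 f = redInf3 (badSetup_W0 hq hA M' hqM) f)
    (hred1 : ∀ f : OMid hq A hA hζ M' hqM (IsLocalRing.residue A),
      red 1 f = MidKappa.redMidK hq A hA hζ M' hqM hκ f)
    (hred2 : ∀ f : OZero3 (badSetup_W0 hq hA M' hqM) w,
      red 2 f = redZero3 (badSetup_W0 hq hA M' hqM) w f)
    (H : Contract (O3 hq A hA hζ M' hqM w) red hred hBO red' π₀ π₂ Dκ
      (algebraMap ↥(W0 A) (chart ↥(W0 A) x) qW) x' u₀ u₁ v₁ h₀ Db G N e)
    -- the charts
    (h1α : (alphaStar (inertiaField A) M' q) xN ∈ chart ↥(W0 A) x)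
    (h2α : IsIntegral (Algebra.adjoin ↥(W0 A) {(alphaStar (inertiaField A) M' q) xN}) x)
    (h1β : (betaStar (inertiaField A) M' q) xN ∈ chart ↥(W0 A) x)
    (h2β : IsIntegral (Algebra.adjoin ↥(W0 A) {(betaStar (inertiaField A) M' q) xN}) x)
    -- (UNIQ)
    (ι : B' → Ow (W0 A) (resW0 A) M' (badSetup_W0 hq hA M' hqM).hMk)
    (hred' : ∀ y : B', red' y =
      redF (W0 A) (resW0 A) M' (badSetup_W0 hq hA M' hqM).hπ (badSetup_W0 hq hA M' hqM).hMk (ι y))
    (π₁ : B' →+* chart ↥(W0 A) x)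
    (hπ₁ : ∀ y : B', algebraMap (chart ↥(W0 A) x) ↥(FK (inertiaField A) (M' * q * q)) (π₁ y) =
      piStar1 (inertiaField A) M' q (ι y : FK (inertiaField A) M'))
    (p₀ p₁ : B' →+* chart ↥(W0 A) xN)
    (hα₀ : ∀ y, NodeInst.chartMap (alphaStar (inertiaField A) M' q) (hΦα_K0 A M') h1α (p₀ y)
      = π₀ y)
    (hα₁ : ∀ y, NodeInst.chartMap (alphaStar (inertiaField A) M' q) (hΦα_K0 A M') h1α (p₁ y)
      = π₁ y)
    (hβ₁ : ∀ y, NodeInst.chartMap (betaStar (inertiaField A) M' q) (hΦβ_K0 A M') h1β (p₀ y)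
      = π₁ y)
    (hβ₂ : ∀ y, NodeInst.chartMap (betaStar (inertiaField A) M' q) (hΦβ_K0 A M') h1β (p₁ y)
      = π₂ y)
    (m : ℕ) (hm : m ≠ 0) :
    ∀ (Vs : ValuationSubring ↥(modularFunctionFieldFullC (IsLocalRing.ResidueField A) M'))
      (hVs : IsFinPlace red' Vs), Db ∈ Vs.nonunits →
      Core.NodeRel (resW0 A) m q (alphaStar (inertiaField A) M' q)
        (betaStar (inertiaField A) M' q) (OInf (badSetup_W0 hq hA M' hqM))
        (OZero (badSetup_W0 hq hA M' hqM) W) (O3 hq A hA hζ M' hqM w)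
        (fun i => compositeSubring (O3 hq A hA hζ M' hqM w i) (red i) (hred i) Vs)
        (pointRing ↥(FK (inertiaField A) (M' * q * q)) (Meet.pt H 1 Vs hVs)).toSubring := by
  obtain ⟨ψ, U⟩ := UniqK0.exists_contractUniq_K0 hq A hA hζ M' hqM hκ w hw red hred0 hred1 hred2
    hBO red' ι hred' π₁ hπ₁
  exact hnode_K0 hq A hA hζ M' hqM (hΦα_K0 A M') (hΦβ_K0 A M') (hWF_K0 A M') hW hw rfl rfl rfl
    (fun y _ hy' => hred0 ⟨y, hy'⟩)
    (fun y _ hy' => congrArg Subtype.val (hred1 ⟨y, hy'⟩))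
    (fun y _ hy' => hred2 ⟨y, hy'⟩)
    H h1α h2α h1β h2β π₁ ψ U p₀ p₁ hα₀ hα₁ hβ₁ hβ₂ m hm

end Literal

end Fermat.Agent.CAR.Inst.NodeFinK0

end
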