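import Mathlib
import Fermat.Agent.CAR.Inst.ContractUniqK0
import Fermat.Agent.CAR.Inst.BPrimeWeb

/-!
# CAR (instance): the pull-backs `π₀, π₁, π₂ : B' → Bfin` on the literal objects, and the closed
(UNIQ) block

Objects of the architect's rulings #6 / #8, for a base `(L, A, π)` (instance: `(K0, W0, resW0)`):

* `B' = integralClosure (A[J]) F'`, `F' = L · F_{M'}` (`(BaseFn.Data.ofJ A π M').AX = A[J]`);
* `Bfin = chart A (J_0 J_2)` inside `F₃ = L · F_{M' q²}`, for an abstract `A`-algebra structure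
  on `F₃` compatible with the `L`-structure.

`pi0`, `pi1`, `pi2 : B' →+* Bfin` are the restrictions of `π_0^*`, `π_1^*`, `π_2^*` (coercions are
`rfl`), `incl : B' → Ow` is the inclusion into the Gauss ring, and `exists_contractUniq_fin` is
the record `Local.Inst.ContractUniq` over `K0` for `π₁ := pi1` and any `red'` equal to
`redF ∘ incl`, on the components `O = ![OInf3 hB, OMid …, OZero3 hB w]`.
-/

set_option autoImplicit false
set_option linter.unusedSectionVars false
set_option linter.style.haveILetI false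
set_option synthInstance.maxHeartbeats 400000

noncomputable section

namespace Fermat.Agent.CAR.Inst.Pi1Fin

open ModularCurve HahnSeries Fermat.Agent.S24 Fermat.Agent.S28 Fermat.Agent.S28.Chain
  Fermat.Agent.Lib.Red Fermat.Agent.CAR.K0 Fermat.Agent.CAR.V3.GaussDVR
  Fermat.Agent.CAR.V3.MidRing Fermat.Agent.BAD.TwoVal Fermat.Agent.ESJ.Cong.LevelGen
  Fermat.Agent.CAR.Formal Fermat.Agent.CAR.V3 Fermat.Agent.CAR.V3.Restrict
  Fermat.Agent.CAR.Local Fermat.Agent.CAR.Local.Inst Fermat.Agent.CAR.V3.MidRestrict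
  Fermat.Agent.CAR.Glob

local notation "Qb" => AlgebraicClosure ℚ

section Maps

variable (L : Type) [Field L] [Algebra ℚ L] (M' q : ℕ) [NeZero M'] [NeZero q]
  (A : ValuationSubring L) {k : Type} [Field k] (π : A →+* k)
  [Algebra ↥A ↥(laurentBaseChange L (modularFunctionFieldFull (M' * q * q)))]
  [IsScalarTower ↥A L ↥(laurentBaseChange L (modularFunctionFieldFull (M' * q * q)))]

/-- **`π₀ : B' → Bfin`**, the restriction of `π_0^*`. -/
def pi0 (hq : q.Prime) :
    ↥(integralClosure ↥((BaseFn.Data.ofJ A π M').AX)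
        ↥(laurentBaseChange L (modularFunctionFieldFull M'))) →+*
      ↥(Charts.chart ↥A (CuspQuot.J0 (q := q) L M' * CuspQuot.J2 L M')) :=
  RingHom.codRestrict
    (((piStar0 L M' q : ↥(laurentBaseChange L (modularFunctionFieldFull M')) →+*
        ↥(laurentBaseChange L (modularFunctionFieldFull (M' * q * q))))).comp
      (integralClosure ↥((BaseFn.Data.ofJ A π M').AX)
        ↥(laurentBaseChange L (modularFunctionFieldFull M'))).toSubring.subtype)
    (Charts.chart ↥A (CuspQuot.J0 (q := q) L M' * CuspQuot.J2 L M'))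
    (fun y => BPrimeWeb.piStar0_mem_chart L M' q A π hq y.2)

/-- **`π₁ : B' → Bfin`**, the restriction of `π_1^*`. -/
def pi1 (hq : q.Prime) :
    ↥(integralClosure ↥((BaseFn.Data.ofJ A π M').AX)
        ↥(laurentBaseChange L (modularFunctionFieldFull M'))) →+*
      ↥(Charts.chart ↥A (CuspQuot.J0 (q := q) L M' * CuspQuot.J2 L M')) :=
  RingHom.codRestrict
    (((piStar1 L M' q : ↥(laurentBaseChange L (modularFunctionFieldFull M')) →+*
        ↥(laurentBaseChange L (modularFunctionFieldFull (M' * q * q))))).comp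
      (integralClosure ↥((BaseFn.Data.ofJ A π M').AX)
        ↥(laurentBaseChange L (modularFunctionFieldFull M'))).toSubring.subtype)
    (Charts.chart ↥A (CuspQuot.J0 (q := q) L M' * CuspQuot.J2 L M'))
    (fun y => BPrimeWeb.piStar1_mem_chart L M' q A π hq y.2)

/-- **`π₂ : B' → Bfin`**, the restriction of `π_2^*`. -/
def pi2 (hq : q.Prime) :
    ↥(integralClosure ↥((BaseFn.Data.ofJ A π M').AX)
        ↥(laurentBaseChange L (modularFunctionFieldFull M'))) →+*
      ↥(Charts.chart ↥A (CuspQuot.J0 (q := q) L M' * CuspQuot.J2 L M')) :=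
  RingHom.codRestrict
    (((piStar2 L M' q : ↥(laurentBaseChange L (modularFunctionFieldFull M')) →+*
        ↥(laurentBaseChange L (modularFunctionFieldFull (M' * q * q))))).comp
      (integralClosure ↥((BaseFn.Data.ofJ A π M').AX)
        ↥(laurentBaseChange L (modularFunctionFieldFull M'))).toSubring.subtype)
    (Charts.chart ↥A (CuspQuot.J0 (q := q) L M' * CuspQuot.J2 L M'))
    (fun y => BPrimeWeb.piStar2_mem_chart L M' q A π hq y.2)

theorem coe_pi0 (hq : q.Prime)
    (y : ↥(integralClosure ↥((BaseFn.Data.ofJ A π M').AX)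
      ↥(laurentBaseChange L (modularFunctionFieldFull M')))) :
    ((pi0 L M' q A π hq y : ↥(Charts.chart ↥A (CuspQuot.J0 (q := q) L M' * CuspQuot.J2 L M'))) :
        ↥(laurentBaseChange L (modularFunctionFieldFull (M' * q * q)))) =
      piStar0 L M' q (y : ↥(laurentBaseChange L (modularFunctionFieldFull M'))) := rfl

theorem coe_pi1 (hq : q.Prime)
    (y : ↥(integralClosure ↥((BaseFn.Data.ofJ A π M').AX)
      ↥(laurentBaseChange L (modularFunctionFieldFull M')))) :
    ((pi1 L M' q A π hq y : ↥(Charts.chart ↥A (CuspQuot.J0 (q := q) L M' * CuspQuot.J2 L M'))) :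
        ↥(laurentBaseChange L (modularFunctionFieldFull (M' * q * q)))) =
      piStar1 L M' q (y : ↥(laurentBaseChange L (modularFunctionFieldFull M'))) := rfl

theorem coe_pi2 (hq : q.Prime)
    (y : ↥(integralClosure ↥((BaseFn.Data.ofJ A π M').AX)
      ↥(laurentBaseChange L (modularFunctionFieldFull M')))) :
    ((pi2 L M' q A π hq y : ↥(Charts.chart ↥A (CuspQuot.J0 (q := q) L M' * CuspQuot.J2 L M'))) :
        ↥(laurentBaseChange L (modularFunctionFieldFull (M' * q * q)))) =
      piStar2 L M' q (y : ↥(laurentBaseChange L (modularFunctionFieldFull M'))) := rfl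

theorem algebraMap_pi0 (hq : q.Prime)
    (y : ↥(integralClosure ↥((BaseFn.Data.ofJ A π M').AX)
      ↥(laurentBaseChange L (modularFunctionFieldFull M')))) :
    algebraMap ↥(Charts.chart ↥A (CuspQuot.J0 (q := q) L M' * CuspQuot.J2 L M'))
        ↥(laurentBaseChange L (modularFunctionFieldFull (M' * q * q))) (pi0 L M' q A π hq y) =
      piStar0 L M' q (y : ↥(laurentBaseChange L (modularFunctionFieldFull M'))) := rfl

theorem algebraMap_pi1 (hq : q.Prime)
    (y : ↥(integralClosure ↥((BaseFn.Data.ofJ A π M').AX)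
      ↥(laurentBaseChange L (modularFunctionFieldFull M')))) :
    algebraMap ↥(Charts.chart ↥A (CuspQuot.J0 (q := q) L M' * CuspQuot.J2 L M'))
        ↥(laurentBaseChange L (modularFunctionFieldFull (M' * q * q))) (pi1 L M' q A π hq y) =
      piStar1 L M' q (y : ↥(laurentBaseChange L (modularFunctionFieldFull M'))) := rfl

theorem algebraMap_pi2 (hq : q.Prime)
    (y : ↥(integralClosure ↥((BaseFn.Data.ofJ A π M').AX)
      ↥(laurentBaseChange L (modularFunctionFieldFull M')))) :
    algebraMap ↥(Charts.chart ↥A (CuspQuot.J0 (q := q) L M' * CuspQuot.J2 L M'))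
        ↥(laurentBaseChange L (modularFunctionFieldFull (M' * q * q))) (pi2 L M' q A π hq y) =
      piStar2 L M' q (y : ↥(laurentBaseChange L (modularFunctionFieldFull M'))) := rfl

end Maps

section Incl

variable {L : Type*} [Field L] [Algebra ℚ L] {A : ValuationSubring L} {k : Type} [Field k]
  {π : A →+* k} {N : ℕ} [NeZero N] (B : BaseFn.Data A π N)

/-- The inclusion `B' → Ow` (integral over `A[x]` ⟹ Gauss-integral). -/
def incl (hNk : (N : k) ≠ 0)
    (y : ↥(integralClosure ↥(B.AX) ↥(laurentBaseChange L (modularFunctionFieldFull N)))) :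
    Ow A π N hNk :=
  ⟨(y : ↥(laurentBaseChange L (modularFunctionFieldFull N))),
    B.mem_Ow_of_isIntegral_AX hNk y.2⟩

theorem coe_incl (hNk : (N : k) ≠ 0)
    (y : ↥(integralClosure ↥(B.AX) ↥(laurentBaseChange L (modularFunctionFieldFull N)))) :
    ((incl B hNk y : Ow A π N hNk) : ↥(laurentBaseChange L (modularFunctionFieldFull N))) = y :=
  rfl

end Incl

/-! ### The closed (UNIQ) block over `K0` -/

section K0

variable {q : ℕ} (hq : q.Prime) (A : ValuationSubring Qb) (hA : A.LiesOverPrime q)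
  {ζ : Qb} (hζ : IsPrimitiveRoot ζ q) (M' : ℕ) [NeZero M'] [NeZero q] (hqM : ¬ q ∣ M')
  (hκ : ∀ f : OMid hq A hA hζ M' hqM (IsLocalRing.residue A),
    redMid hq A hA hζ M' hqM (IsLocalRing.residue A) f
      ∈ modularFunctionFieldFullC (IsLocalRing.ResidueField A) M')
  [Algebra ↥(W0 A) ↥(FK (inertiaField A) (M' * q * q))]
  [IsScalarTower ↥(W0 A) ↥(K0 A) ↥(FK (inertiaField A) (M' * q * q))]

set_option maxHeartbeats 1000000 in
/-- **The record `ContractUniq` on the literal objects**: `B = chart W0 (J_0 J_2)`,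
`B' = integralClosure (W0[J]) F'`, `π₁ = pi1`, any `red'` equal to `redF ∘ incl`, any family
`red` agreeing pointwise with `redInf3 hB`, `redMidK … hκ`, `redZero3 hB w`; `n = q`, the twist
`ψ` is existential (it is `FrobAut.vHom k q M'`). -/
theorem exists_contractUniq_fin
    (w : ALAut (inertiaField A) (M' * q) q) (hw : IsAL3 M' q w)
    (red : ∀ i : Fin 3,
      ↥((![OInf3 (badSetup_W0 hq hA M' hqM),
          OMid hq A hA hζ M' hqM (IsLocalRing.residue A),
          OZero3 (badSetup_W0 hq hA M' hqM) w] :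
          Fin 3 → ValuationSubring (FK (inertiaField A) (M' * q * q))) i) →+*
        modularFunctionFieldFullC (IsLocalRing.ResidueField A) M')
    (hred0 : ∀ f : OInf3 (badSetup_W0 hq hA M' hqM),
      red 0 f = redInf3 (badSetup_W0 hq hA M' hqM) f)
    (hred1 : ∀ f : OMid hq A hA hζ M' hqM (IsLocalRing.residue A),
      red 1 f = MidKappa.redMidK hq A hA hζ M' hqM hκ f)
    (hred2 : ∀ f : OZero3 (badSetup_W0 hq hA M' hqM) w,
      red 2 f = redZero3 (badSetup_W0 hq hA M' hqM) w f)
    (hBO : ∀ i : Fin 3, ∀ b : ↥(Charts.chart ↥(W0 A)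
        (CuspQuot.J0 (q := q) ↥(K0 A) M' * CuspQuot.J2 ↥(K0 A) M')),
      algebraMap ↥(Charts.chart ↥(W0 A)
        (CuspQuot.J0 (q := q) ↥(K0 A) M' * CuspQuot.J2 ↥(K0 A) M'))
        (FK (inertiaField A) (M' * q * q)) b ∈
      (![OInf3 (badSetup_W0 hq hA M' hqM),
          OMid hq A hA hζ M' hqM (IsLocalRing.residue A),
          OZero3 (badSetup_W0 hq hA M' hqM) w] :
          Fin 3 → ValuationSubring (FK (inertiaField A) (M' * q * q))) i)
    (red' : ↥(integralClosure ↥((BaseFn.Data.ofJ (W0 A) (resW0 A) M').AX)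
        ↥(FK (inertiaField A) M')) →+*
      modularFunctionFieldFullC (IsLocalRing.ResidueField A) M')
    (hred' : ∀ y, red' y =
      redF (W0 A) (resW0 A) M' (badSetup_W0 hq hA M' hqM).hπ (badSetup_W0 hq hA M' hqM).hMk
        (incl (BaseFn.Data.ofJ (W0 A) (resW0 A) M') (badSetup_W0 hq hA M' hqM).hMk y)) :
    ∃ ψ : modularFunctionFieldFullC (IsLocalRing.ResidueField A) M' →+*
        modularFunctionFieldFullC (IsLocalRing.ResidueField A) M',
      ContractUniq
        (![OInf3 (badSetup_W0 hq hA M' hqM),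
            OMid hq A hA hζ M' hqM (IsLocalRing.residue A),
            OZero3 (badSetup_W0 hq hA M' hqM) w] :
            Fin 3 → ValuationSubring (FK (inertiaField A) (M' * q * q)))
        red hBO red' (pi1 ↥(K0 A) M' q (W0 A) (resW0 A) hq) ψ q :=
  Fermat.Agent.CAR.Inst.UniqK0.exists_contractUniq_K0 hq A hA hζ M' hqM hκ w hw red hred0 hred1
    hred2 hBO red' (incl (BaseFn.Data.ofJ (W0 A) (resW0 A) M') (badSetup_W0 hq hA M' hqM).hMk)
    hred' (pi1 ↥(K0 A) M' q (W0 A) (resW0 A) hq) (fun _ => rfl)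

end K0

end Fermat.Agent.CAR.Inst.Pi1Fin

end
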