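import Mathlib
import Fermat.Agent.CAR.Lift
import Fermat.Agent.Lib.Red.HauptData

/-!
# CAR / B2 (helper29): the Hauptmodul relations for the chart change `y ⇝ J` (`q ∈ {2, 3}`)

`BJ := BaseFn.Data.ofJ A π M` (base function `J_M = J(q^M)`), `By := ofHaupt2 A π M m hM h2`
(`M = m * 2`, `y = y₂(q^m)`) resp. `ofHaupt3 A π M m hM h3` (`M = m * 3`, `y = t₃(q^m)`).

* `P2 A = (X + 256)³`, `P3 A = (X + 27)(X + 243)³ : Polynomial ↥A` — monic, of degree `3`, `4`,
  constant coefficient a unit of `A` when `2 ≠ 0` (resp. `3 ≠ 0`) in `k`;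
* `hrel2 : BJ.x * By.x ^ 2 = aeval By.x ((P2 A).map A.subtype)`,
  `hrel3 : BJ.x * By.x ^ 3 = aeval By.x ((P3 A).map A.subtype)` (polynomial form), and the
  factored forms `hrel2'`, `hrel3'`;
* generic algebra (any `R`-algebra `F` that is a field, `J` integral over `R`):
  `isIntegral_of_rel2`, `isIntegral_inv_of_rel2`, `isIntegral_of_rel3`, `isIntegral_inv_of_rel3`
  — `y` and `y⁻¹` are integral over `R` as soon as `J y² = (y + 256)³` (resp.
  `J y³ = (y + 27)(y + 243)³`) and `256³` (resp. `27 · 243³`) is invertible in `R`;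
* instances: `isIntegral_haupt2_x`, `isIntegral_haupt2_x_inv`, `isIntegral_haupt3_x`,
  `isIntegral_haupt3_x_inv` : the trunk Hauptmodul and its inverse lie in
  `B' = integralClosure (A[J_M]) F'`.
-/

set_option autoImplicit false
set_option linter.unusedSectionVars false

noncomputable section

namespace Fermat.Agent.CAR.Inst.LiftJ23

open HahnSeries ModularCurve AlgebraicCurve Fermat.Agent.S28 IntermediateField
  Fermat.Agent.Lib.FF Fermat.Agent.Lib.Red Fermat.Agent.Lib.Red.BaseFn Fermat.Agent.S24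

/-! ### Generic algebra: integrality of `y`, `y⁻¹` from the relation -/

section Algebra

variable {R F : Type*} [CommRing R] [Field F] [Algebra R F]

/-- Level 2: `J y² = (y + 256)³` and `J` integral ⟹ `y` integral. -/
theorem isIntegral_of_rel2 {J y : F} (hJ : IsIntegral R J)
    (hrel : J * y ^ 2 = (y + 256) ^ 3) : IsIntegral R y := by
  let S := integralClosure R F
  let J' : S := ⟨J, hJ⟩
  have h1 : IsIntegral S y := by
    refine ⟨(Polynomial.X + Polynomial.C 256) ^ 3 - Polynomial.C J' * Polynomial.X ^ 2, ?_, ?_⟩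
    · refine Polynomial.Monic.sub_of_left ((Polynomial.monic_X_add_C _).pow 3) ?_
      have hd : ((Polynomial.X + Polynomial.C (256 : S)) ^ 3).degree = 3 := by
        rw [Polynomial.degree_pow, Polynomial.degree_X_add_C]
        rfl
      rw [hd]
      refine lt_of_le_of_lt (Polynomial.degree_C_mul_X_pow_le 2 J') ?_
      exact_mod_cast (by norm_num : (2 : ℕ) < 3)
    · rw [Polynomial.eval₂_sub, Polynomial.eval₂_pow, Polynomial.eval₂_add, Polynomial.eval₂_X,
        Polynomial.eval₂_C, Polynomial.eval₂_mul, Polynomial.eval₂_C, Polynomial.eval₂_pow,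
        Polynomial.eval₂_X, map_ofNat]
      show (y + 256) ^ 3 - J * y ^ 2 = 0
      rw [hrel, sub_self]
  exact isIntegral_trans (R := R) (A := ↥S) y h1

/-- Level 2: `J y² = (y + 256)³`, `J` integral and `256³` invertible in `R` ⟹ `y⁻¹` integral. -/
theorem isIntegral_inv_of_rel2 {J y : F} (hJ : IsIntegral R J)
    (hrel : J * y ^ 2 = (y + 256) ^ 3) (c : R) (hc : algebraMap R F c * 256 ^ 3 = 1) :
    IsIntegral R y⁻¹ := by
  have hy := isIntegral_of_rel2 hJ hrel
  have h256 : (256 : F) ^ 3 ≠ 0 := by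
    intro h0
    rw [h0, mul_zero] at hc
    exact zero_ne_one hc
  have hy0 : y ≠ 0 := by
    rintro rfl
    apply h256
    have := hrel
    simp only [ne_eq, OfNat.ofNat_ne_zero, not_false_eq_true, zero_pow, mul_zero, zero_add]
      at this
    exact this.symm
  have e : y⁻¹ = -(algebraMap R F c * (y ^ 2 + (768 - J) * y + 196608)) := by
    have h1 : y * (y ^ 2 + (768 - J) * y + 196608) = -(256 ^ 3) := by
      linear_combination -hrel
    rw [eq_neg_iff_add_eq_zero]
    have h2 : y * (y⁻¹ + algebraMap R F c * (y ^ 2 + (768 - J) * y + 196608)) = 0 := by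
      rw [mul_add, mul_inv_cancel₀ hy0, mul_left_comm, h1]
      linear_combination -hc
    rcases mul_eq_zero.1 h2 with h | h
    · exact absurd h hy0
    · exact h
  rw [e]
  refine IsIntegral.neg (IsIntegral.mul isIntegral_algebraMap ?_)
  have hn : ∀ n : ℕ, IsIntegral R (n : F) := fun n => by
    rw [← map_natCast (algebraMap R F)]
    exact isIntegral_algebraMap
  refine IsIntegral.add (IsIntegral.add (hy.pow 2) (IsIntegral.mul (IsIntegral.sub ?_ hJ) hy)) ?_
  · exact_mod_cast hn 768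
  · exact_mod_cast hn 196608

/-- Level 3: `J y³ = (y + 27)(y + 243)³` and `J` integral ⟹ `y` integral. -/
theorem isIntegral_of_rel3 {J y : F} (hJ : IsIntegral R J)
    (hrel : J * y ^ 3 = (y + 27) * (y + 243) ^ 3) : IsIntegral R y := by
  let S := integralClosure R F
  let J' : S := ⟨J, hJ⟩
  have h1 : IsIntegral S y := by
    refine ⟨(Polynomial.X + Polynomial.C 27) * (Polynomial.X + Polynomial.C 243) ^ 3 -
      Polynomial.C J' * Polynomial.X ^ 3, ?_, ?_⟩
    · refine Polynomial.Monic.sub_of_left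
        ((Polynomial.monic_X_add_C _).mul ((Polynomial.monic_X_add_C _).pow 3)) ?_
      have hd : ((Polynomial.X + Polynomial.C (27 : S)) *
          (Polynomial.X + Polynomial.C (243 : S)) ^ 3).degree = 4 := by
        rw [Polynomial.degree_mul, Polynomial.degree_pow, Polynomial.degree_X_add_C,
          Polynomial.degree_X_add_C]
        rfl
      rw [hd]
      refine lt_of_le_of_lt (Polynomial.degree_C_mul_X_pow_le 3 J') ?_
      exact_mod_cast (by norm_num : (3 : ℕ) < 4)
    · rw [Polynomial.eval₂_sub, Polynomial.eval₂_mul, Polynomial.eval₂_pow, Polynomial.eval₂_add,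
        Polynomial.eval₂_add, Polynomial.eval₂_X, Polynomial.eval₂_C, Polynomial.eval₂_C,
        Polynomial.eval₂_mul, Polynomial.eval₂_C, Polynomial.eval₂_pow, Polynomial.eval₂_X,
        map_ofNat, map_ofNat]
      show (y + 27) * (y + 243) ^ 3 - J * y ^ 3 = 0
      rw [hrel, sub_self]
  exact isIntegral_trans (R := R) (A := ↥S) y h1

/-- Level 3: `J y³ = (y + 27)(y + 243)³`, `J` integral and `27 · 243³` invertible in `R` ⟹
`y⁻¹` integral. -/
theorem isIntegral_inv_of_rel3 {J y : F} (hJ : IsIntegral R J)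
    (hrel : J * y ^ 3 = (y + 27) * (y + 243) ^ 3) (c : R)
    (hc : algebraMap R F c * (27 * 243 ^ 3) = 1) : IsIntegral R y⁻¹ := by
  have hy := isIntegral_of_rel3 hJ hrel
  have hne : (27 : F) * 243 ^ 3 ≠ 0 := by
    intro h0
    rw [h0, mul_zero] at hc
    exact zero_ne_one hc
  have hy0 : y ≠ 0 := by
    rintro rfl
    apply hne
    have := hrel
    simp only [ne_eq, OfNat.ofNat_ne_zero, not_false_eq_true, zero_pow, mul_zero, zero_add]
      at this
    exact this.symm
  have e : y⁻¹ =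
      -(algebraMap R F c * (y ^ 3 + (756 - J) * y ^ 2 + 196830 * y + 19131876)) := by
    have h1 : y * (y ^ 3 + (756 - J) * y ^ 2 + 196830 * y + 19131876) = -(27 * 243 ^ 3) := by
      linear_combination -hrel
    rw [eq_neg_iff_add_eq_zero]
    have h2 : y * (y⁻¹ +
        algebraMap R F c * (y ^ 3 + (756 - J) * y ^ 2 + 196830 * y + 19131876)) = 0 := by
      rw [mul_add, mul_inv_cancel₀ hy0, mul_left_comm, h1]
      linear_combination -hc
    rcases mul_eq_zero.1 h2 with h | h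
    · exact absurd h hy0
    · exact h
  rw [e]
  refine IsIntegral.neg (IsIntegral.mul isIntegral_algebraMap ?_)
  have hn : ∀ n : ℕ, IsIntegral R (n : F) := fun n => by
    rw [← map_natCast (algebraMap R F)]
    exact isIntegral_algebraMap
  refine IsIntegral.add (IsIntegral.add (IsIntegral.add (hy.pow 3)
    (IsIntegral.mul (IsIntegral.sub ?_ hJ) (hy.pow 2))) (IsIntegral.mul ?_ hy)) ?_
  · exact_mod_cast hn 756
  · exact_mod_cast hn 196830
  · exact_mod_cast hn 19131876

end Algebra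

/-! ### The polynomials and the relations for the trunk Hauptmoduln -/

variable {L : Type*} [Field L] [Algebra ℚ L] (A : ValuationSubring L) {k : Type} [Field k]
  (π : A →+* k)

/-- `P₂ = (X + 256)³`. -/
def P2 : Polynomial ↥A := (Polynomial.X + Polynomial.C 256) ^ 3

/-- `P₃ = (X + 27)(X + 243)³`. -/
def P3 : Polynomial ↥A := (Polynomial.X + Polynomial.C 27) * (Polynomial.X + Polynomial.C 243) ^ 3

theorem P2_monic : (P2 A).Monic := (Polynomial.monic_X_add_C _).pow 3

theorem P3_monic : (P3 A).Monic :=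
  (Polynomial.monic_X_add_C _).mul ((Polynomial.monic_X_add_C _).pow 3)

theorem P2_natDegree : (P2 A).natDegree = 3 := by
  rw [P2, (Polynomial.monic_X_add_C (256 : ↥A)).natDegree_pow, Polynomial.natDegree_X_add_C]

theorem P3_natDegree : (P3 A).natDegree = 4 := by
  rw [P3, (Polynomial.monic_X_add_C (27 : ↥A)).natDegree_mul
    ((Polynomial.monic_X_add_C (243 : ↥A)).pow 3),
    (Polynomial.monic_X_add_C (243 : ↥A)).natDegree_pow, Polynomial.natDegree_X_add_C,
    Polynomial.natDegree_X_add_C]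

theorem P2_coeff_zero : (P2 A).coeff 0 = 256 ^ 3 := by
  rw [P2, Polynomial.coeff_zero_eq_eval_zero]
  simp

theorem P3_coeff_zero : (P3 A).coeff 0 = 27 * 243 ^ 3 := by
  rw [P3, Polynomial.coeff_zero_eq_eval_zero]
  simp

variable {A π}

theorem isUnit_of_pi_ne_zero (hπ : ∀ a : A, ¬ IsUnit a → π a = 0) {a : A} (ha : π a ≠ 0) :
    IsUnit a := by
  by_contra h
  exact ha (hπ a h)

theorem pi_256_pow_ne_zero (h2 : (2 : k) ≠ 0) : π ((256 : A) ^ 3) ≠ 0 := by
  rw [map_pow, map_ofNat]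
  have : (256 : k) = 2 ^ 8 := by norm_num
  rw [this]
  exact pow_ne_zero _ (pow_ne_zero _ h2)

theorem pi_27_mul_ne_zero (h3 : (3 : k) ≠ 0) : π ((27 : A) * 243 ^ 3) ≠ 0 := by
  rw [map_mul, map_pow, map_ofNat, map_ofNat]
  have h27 : (27 : k) = 3 ^ 3 := by norm_num
  have h243 : (243 : k) = 3 ^ 5 := by norm_num
  rw [h27, h243]
  exact mul_ne_zero (pow_ne_zero _ h3) (pow_ne_zero _ (pow_ne_zero _ h3))

theorem isUnit_P2_coeff_zero (hπ : ∀ a : A, ¬ IsUnit a → π a = 0) (h2 : (2 : k) ≠ 0) :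
    IsUnit ((P2 A).coeff 0) := by
  rw [P2_coeff_zero]
  exact isUnit_of_pi_ne_zero hπ (pi_256_pow_ne_zero h2)

theorem isUnit_P3_coeff_zero (hπ : ∀ a : A, ¬ IsUnit a → π a = 0) (h3 : (3 : k) ≠ 0) :
    IsUnit ((P3 A).coeff 0) := by
  rw [P3_coeff_zero]
  exact isUnit_of_pi_ne_zero hπ (pi_27_mul_ne_zero h3)

/-- **`hrel`, level 2** (factored form): `J_M · y² = (y + 256)³`. -/
theorem hrel2' (M m : ℕ) [NeZero M] [NeZero m] (hM : M = m * 2) (h2 : (2 : k) ≠ 0) :
    (Data.ofJ A π M).x * (ofHaupt2 A π M m hM h2).x ^ 2 =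
      ((ofHaupt2 A π M m hM h2).x + 256) ^ 3 := by
  rw [Data.ofJ_x, ofHaupt2_rel M m hM h2]

/-- **`hrel`, level 3** (factored form): `J_M · y³ = (y + 27)(y + 243)³`. -/
theorem hrel3' (M m : ℕ) [NeZero M] [NeZero m] (hM : M = m * 3) (h3 : (3 : k) ≠ 0) :
    (Data.ofJ A π M).x * (ofHaupt3 A π M m hM h3).x ^ 3 =
      ((ofHaupt3 A π M m hM h3).x + 27) * ((ofHaupt3 A π M m hM h3).x + 243) ^ 3 := by
  rw [Data.ofJ_x, ofHaupt3_rel M m hM h3]

/-- **`hrel`, level 2** (polynomial form): `J_M · y² = P₂(y)`. -/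
theorem hrel2 (M m : ℕ) [NeZero M] [NeZero m] (hM : M = m * 2) (h2 : (2 : k) ≠ 0) :
    (Data.ofJ A π M).x * (ofHaupt2 A π M m hM h2).x ^ 2 =
      Polynomial.aeval (ofHaupt2 A π M m hM h2).x ((P2 A).map A.subtype) := by
  rw [hrel2' M m hM h2, P2, Polynomial.map_pow, Polynomial.map_add,
    Polynomial.map_X, Polynomial.map_C, map_pow, Polynomial.aeval_add, Polynomial.aeval_X,
    Polynomial.aeval_C, map_ofNat, map_ofNat]

/-- **`hrel`, level 3** (polynomial form): `J_M · y³ = P₃(y)`. -/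
theorem hrel3 (M m : ℕ) [NeZero M] [NeZero m] (hM : M = m * 3) (h3 : (3 : k) ≠ 0) :
    (Data.ofJ A π M).x * (ofHaupt3 A π M m hM h3).x ^ 3 =
      Polynomial.aeval (ofHaupt3 A π M m hM h3).x ((P3 A).map A.subtype) := by
  rw [hrel3' M m hM h3, P3, Polynomial.map_mul, Polynomial.map_pow,
    Polynomial.map_add, Polynomial.map_add, Polynomial.map_X, Polynomial.map_C, Polynomial.map_C,
    Polynomial.aeval_mul, map_pow, Polynomial.aeval_add, Polynomial.aeval_add,
    Polynomial.aeval_X, Polynomial.aeval_C, Polynomial.aeval_C, map_ofNat, map_ofNat, map_ofNat,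
    map_ofNat]

/-! ### (a): the trunk Hauptmodul is a unit of `B' = integralClosure (A[J_M]) F'` -/

/-- A constant of `A`, as an element of `A[x]`. -/
def constAX {N : ℕ} [NeZero N] (B : BaseFn.Data A π N) (a : A) : ↥(B.AX) :=
  ⟨algebraMap L ↥(laurentBaseChange L (modularFunctionFieldFull N)) (a : L),
    ⟨Polynomial.C a, by
      show Polynomial.aeval B.x ((Polynomial.C a).map A.subtype) = _
      rw [Polynomial.map_C, Polynomial.aeval_C]
      rfl⟩⟩

theorem exists_constAX_inv {N : ℕ} [NeZero N] (B : BaseFn.Data A π N)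
    (hπ : ∀ a : A, ¬ IsUnit a → π a = 0) {a : A} (ha : π a ≠ 0) :
    ∃ c : ↥(B.AX), algebraMap ↥(B.AX) ↥(laurentBaseChange L (modularFunctionFieldFull N)) c *
      algebraMap L ↥(laurentBaseChange L (modularFunctionFieldFull N)) (a : L) = 1 := by
  obtain ⟨u, hu⟩ := isUnit_of_pi_ne_zero hπ ha
  refine ⟨constAX B ((u⁻¹ : Aˣ) : A), ?_⟩
  show algebraMap L ↥(laurentBaseChange L (modularFunctionFieldFull N)) (((u⁻¹ : Aˣ) : A) : L) *
    algebraMap L ↥(laurentBaseChange L (modularFunctionFieldFull N)) (a : L) = 1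
  rw [← map_mul, ← hu]
  have : ((((u⁻¹ : Aˣ) : A) : L)) * ((u : A) : L) = 1 := by
    have h := congrArg (Subtype.val) (u.inv_mul)
    exact h
  rw [this, map_one]

theorem isIntegral_ofJ_x {N : ℕ} [NeZero N] :
    IsIntegral ↥((Data.ofJ A π N).AX) (Data.ofJ A π N).x :=
  isIntegral_algebraMap (R := ↥((Data.ofJ A π N).AX))
    (A := ↥(laurentBaseChange L (modularFunctionFieldFull N)))
    (x := ⟨(Data.ofJ A π N).x, (Data.ofJ A π N).x_mem_AX⟩)

/-- **(a), level 2**: `y` is integral over `A[J_M]`. -/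
theorem isIntegral_haupt2_x (M m : ℕ) [NeZero M] [NeZero m] (hM : M = m * 2) (h2 : (2 : k) ≠ 0) :
    IsIntegral ↥((Data.ofJ A π M).AX) (ofHaupt2 A π M m hM h2).x :=
  isIntegral_of_rel2 isIntegral_ofJ_x (hrel2' M m hM h2)

/-- **(a), level 2**: `y⁻¹` is integral over `A[J_M]`. -/
theorem isIntegral_haupt2_x_inv (M m : ℕ) [NeZero M] [NeZero m] (hM : M = m * 2)
    (hπ : ∀ a : A, ¬ IsUnit a → π a = 0) (h2 : (2 : k) ≠ 0) :
    IsIntegral ↥((Data.ofJ A π M).AX) ((ofHaupt2 A π M m hM h2).x)⁻¹ := by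
  obtain ⟨c, hc⟩ := exists_constAX_inv (Data.ofJ A π M) hπ (pi_256_pow_ne_zero (π := π) h2)
  refine isIntegral_inv_of_rel2 isIntegral_ofJ_x (hrel2' M m hM h2) c ?_
  have e : (((256 : A) ^ 3 : A) : L) = 256 ^ 3 := by
    push_cast
    rfl
  rw [e, map_pow, map_ofNat] at hc
  exact hc

/-- **(a), level 3**: `y` is integral over `A[J_M]`. -/
theorem isIntegral_haupt3_x (M m : ℕ) [NeZero M] [NeZero m] (hM : M = m * 3) (h3 : (3 : k) ≠ 0) :
    IsIntegral ↥((Data.ofJ A π M).AX) (ofHaupt3 A π M m hM h3).x :=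
  isIntegral_of_rel3 isIntegral_ofJ_x (hrel3' M m hM h3)

/-- **(a), level 3**: `y⁻¹` is integral over `A[J_M]`. -/
theorem isIntegral_haupt3_x_inv (M m : ℕ) [NeZero M] [NeZero m] (hM : M = m * 3)
    (hπ : ∀ a : A, ¬ IsUnit a → π a = 0) (h3 : (3 : k) ≠ 0) :
    IsIntegral ↥((Data.ofJ A π M).AX) ((ofHaupt3 A π M m hM h3).x)⁻¹ := by
  obtain ⟨c, hc⟩ := exists_constAX_inv (Data.ofJ A π M) hπ (pi_27_mul_ne_zero (π := π) h3)
  refine isIntegral_inv_of_rel3 isIntegral_ofJ_x (hrel3' M m hM h3) c ?_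
  have e : (((27 : A) * 243 ^ 3 : A) : L) = 27 * 243 ^ 3 := by
    push_cast
    rfl
  rw [e, map_mul, map_pow, map_ofNat, map_ofNat] at hc
  exact hc

end Fermat.Agent.CAR.Inst.LiftJ23
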