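import Mathlib
import Fermat.Agent.CAR.Inst.EllFinK0
import Fermat.Agent.CAR.Ell.Haupt23
import Fermat.Agent.CAR.Inst.BPrimeWeb
import Fermat.Agent.CAR.Inst.LiftJ23

/-!
# CAR, wall (ELL): `hell` at the `K0`-level objects, closed for every residue characteristic

For the canonical `B' = integralClosure (W0[J(q^{M'})]) (K0·F_{M'})` (ruling #6, R2) and any
`red' : B' →+* κ` which is `redF` on `B'`:

* `haupt2_of_u1`, `haupt3_of_hA3` : `EllFin.Haupt2` / `EllFin.Haupt3` for ANY `B'`, `red'` with an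
  element reducing to `ū₁`, resp. `hA3` (helper91's `Haupt23.hell_inputs_haupt2/3`, bundled);
* `haupt2_K0` : `EllFin.Haupt2 A M' red'` for `q ≠ 2`, `2 ∣ M'` (`yh = Δ(q)/Δ(q²)`, helper91's
  `Haupt23` + helper26's `BPrimeWeb.isIntegral_AX_jLevel`);
* `haupt3_K0` : `EllFin.Haupt3 A M' red'` for `q ≠ 3`, `3 ∣ M'` (`yh = hA3`);
* `hell_K0_closed` : the hypothesis `hell` of `Core.pointPkg_of_contract` for ANY contract on the
  canonical `B'` with `D = d/dJ̄`, `G = J̄⁸ (J̄ - 1728)⁶`, `x' = J(q)`, under the level hypotheses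
  of `Final.Core 12 11` (`q ∤ M'`, a prime `r ≡ 11 (mod 12)` dividing `M'`, `q = 2 → 3 ∣ M'`,
  `q = 3 → 2 ∣ M'`): no further hypothesis.
-/

set_option autoImplicit false
set_option linter.unusedSectionVars false
set_option synthInstance.maxHeartbeats 400000
set_option maxHeartbeats 1000000

namespace Fermat.Agent.CAR.Inst.EllFinClosed

open AlgebraicCurve ModularCurve HahnSeries IsLocalRing
open Fermat.Agent.S28 Fermat.Agent.Lib.Red Fermat.Agent.Lib.Red.BaseFn Fermat.Agent.CAR.K0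
  Fermat.Agent.CAR.Local.Inst Fermat.Agent.CAR.Local.Inst.LiftInst Fermat.Agent.Lib.FF.ModL
  Fermat.Agent.ESJ.Cong.LevelGen Fermat.Agent.CAR.Ell Fermat.Agent.CAR.V3.Units
  Fermat.Agent.CAR.Ell.HauptRelA3

local notation "Qb" => AlgebraicClosure ℚ

section Gen

variable (A : ValuationSubring Qb) (M : ℕ) [NeZero M] {B'' : Type*} [CommRing B'']

/-- `EllFin.Haupt2` for ANY `red''` with an element reducing to `ū₁ = Δ(q)/Δ(q²)`
(helper91's `Haupt23.hell_inputs_haupt2`, bundled). -/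
theorem haupt2_of_u1 {ℓ : ℕ} (hℓ : ℓ.Prime) (hℓM : ¬ ℓ ∣ M) (hℓ2 : ℓ ≠ 2) (h2M : 2 ∣ M)
    {r : ℕ} (hr : r.Prime) (hr4 : r % 4 = 3) (hrM : r ∣ M) (hA : A.LiesOverPrime ℓ)
    (red'' : B'' →+* ↥(modularFunctionFieldFullC (ResidueField A) M)) (yh yi : B'')
    (hyy : red'' yh * red'' yi = 1)
    (hyh : ((red'' yh : ↥(modularFunctionFieldFullC (ResidueField A) M)) :
      LaurentSeries (ResidueField A)) = u1 (ResidueField A) 2) :
    EllFin.Haupt2 A M red'' := by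
  have hgood : 5 ≤ ℓ ∨ (ℓ = 3 ∧ 2 ∣ M) ∨ (ℓ = 2 ∧ 3 ∣ M) := by
    by_cases h3 : ℓ = 3
    · exact Or.inr (Or.inl ⟨h3, h2M⟩)
    · left
      have h2 := hℓ.two_le
      by_contra hlt
      have h4 : ℓ = 4 := by omega
      rw [h4] at hℓ
      exact absurd hℓ (by decide)
  obtain ⟨h1, h2⟩ := Haupt23.hell_inputs_haupt2 A M ℓ hℓ hℓM hgood hℓ2 h2M r hr hr4 hrM hA red''
    yh yi hyy hyh
  exact ⟨yh, yi, hyy, h1, h2⟩

/-- `EllFin.Haupt3` for ANY `red''` with an element reducing to `hA3` over `k`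
(helper91's `Haupt23.hell_inputs_haupt3`, bundled). -/
theorem haupt3_of_hA3 {ℓ : ℕ} (hℓ : ℓ.Prime) (hℓM : ¬ ℓ ∣ M) (hℓ3 : ℓ ≠ 3) (h3M : 3 ∣ M)
    {r : ℕ} (hr : r.Prime) (hr3 : r % 3 = 2) (hrM : r ∣ M) (hA : A.LiesOverPrime ℓ)
    (red'' : B'' →+* ↥(modularFunctionFieldFullC (ResidueField A) M)) (yh yi : B'')
    (hyy : red'' yh * red'' yi = 1)
    (hyh : ((red'' yh : ↥(modularFunctionFieldFullC (ResidueField A) M)) :
      LaurentSeries (ResidueField A)) = hA3 (ResidueField A)) :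
    EllFin.Haupt3 A M red'' := by
  have hgood : 5 ≤ ℓ ∨ (ℓ = 3 ∧ 2 ∣ M) ∨ (ℓ = 2 ∧ 3 ∣ M) := by
    by_cases h2 : ℓ = 2
    · exact Or.inr (Or.inr ⟨h2, h3M⟩)
    · left
      have h2' := hℓ.two_le
      by_contra hlt
      have h4 : ℓ = 4 := by omega
      rw [h4] at hℓ
      exact absurd hℓ (by decide)
  obtain ⟨h1, h2⟩ := Haupt23.hell_inputs_haupt3 A M ℓ hℓ hℓM hgood hℓ3 h3M r hr hr3 hrM hA red''
    yh yi hyy hyh
  exact ⟨yh, yi, hyy, h1, h2⟩

end Gen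

variable {A : ValuationSubring Qb} {q : ℕ} (hq : q.Prime) (hA : A.LiesOverPrime q)
  (M' : ℕ) [NeZero M'] (hM' : (M' : ResidueField A) ≠ 0)
  (red' : ↥(integralClosure ↥((Data.ofJ (W0 A) (resW0 A) M').AX)
      ↥(laurentBaseChange ↥(K0 A) (modularFunctionFieldFull M'))) →+*
    ↥(modularFunctionFieldFullC (ResidueField A) M'))
  (hred' : ∀ b : ↥(integralClosure ↥((Data.ofJ (W0 A) (resW0 A) M').AX)
      ↥(laurentBaseChange ↥(K0 A) (modularFunctionFieldFull M'))),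
    red' b = redF (W0 A) (resW0 A) M' (resW0_eq_zero_of_not_isUnit A) hM'
      ⟨b, (Data.ofJ (W0 A) (resW0 A) M').mem_Ow_of_isIntegral_AX hM' b.2⟩)

/-- The `q`-expansion of `jLevel` is `J(q)`. -/
theorem coe_jLevel_eq (L : Type*) [Field L] [Algebra ℚ L] (N : ℕ) [NeZero N] :
    ((jLevel L N : ↥(laurentBaseChange L (modularFunctionFieldFull N))) : LaurentSeries L) =
      jqModC L := by
  rw [coe_jLevel, TD.Jd_one]

include hq hA in
/-- A natural number prime to `q` is invertible in `W0[x]`, as an element of `K0·F_{M'}`. -/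
theorem exists_constAX_mul_natCast {n : ℕ} (hn : ¬ q ∣ n) :
    ∃ c : ↥((Data.ofJ (W0 A) (resW0 A) M').AX),
      algebraMap ↥((Data.ofJ (W0 A) (resW0 A) M').AX)
        ↥(laurentBaseChange ↥(K0 A) (modularFunctionFieldFull M')) c * (n : ℕ) = 1 := by
  have hk : resW0 A ((n : ℕ) : ↥(W0 A)) ≠ 0 := by
    rw [map_natCast]
    exact Fermat.Agent.ESJ.natCast_residue_ne_zero' A hq hA n hn
  obtain ⟨c, hc⟩ := LiftJ23.exists_constAX_inv (Data.ofJ (W0 A) (resW0 A) M')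
    (resW0_eq_zero_of_not_isUnit A) hk
  refine ⟨c, ?_⟩
  have e : ((((n : ℕ) : ↥(W0 A)) : ↥(K0 A))) = ((n : ℕ) : ↥(K0 A)) := by
    push_cast
    rfl
  rw [e, map_natCast] at hc
  exact hc

include hq hA hred' in
/-- **(K), level `2`**: the Hauptmodul hypothesis of `EllFin.hell_fin` for `q = 3` (any `q ≠ 2`
with `2 ∣ M'`) at the canonical `B'`: `yh = Δ(q)/Δ(q²)`, `yi = Δ(q²)/Δ(q)`. -/
theorem haupt2_K0 (hqM : ¬ q ∣ M') (hq2 : q ≠ 2) (h2M : 2 ∣ M')
    {r : ℕ} (hr : r.Prime) (hr4 : r % 4 = 3) (hrM : r ∣ M') :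
    EllFin.Haupt2 A M' red' := by
  have hmem := Haupt23.u1_mem_F ↥(K0 A) (M := M') h2M
  have hmem' := Haupt23.u1inv_mem_F ↥(K0 A) (M := M') h2M
  have hJi := BPrimeWeb.isIntegral_AX_jLevel (W0 A) (resW0 A) M'
  have hJ := coe_jLevel_eq ↥(K0 A) M'
  obtain ⟨c, hc⟩ := exists_constAX_mul_natCast hq hA M' (n := 2) (fun hd =>
    hq2 ((Nat.prime_dvd_prime_iff_eq hq Nat.prime_two).1 hd))
  rw [Nat.cast_ofNat] at hc
  have hi1 := Haupt23.isIntegral_u1_F hmem hJ hJi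
  have hi2 := Haupt23.isIntegral_u1inv_F hmem hmem' hJ hJi hc
  have hyy : red' ⟨_, hi1⟩ * red' ⟨_, hi2⟩ = 1 := by
    rw [← map_mul]
    exact (congrArg red' (Subtype.ext (Haupt23.u1_mul_u1inv_F hmem hmem'))).trans (map_one red')
  have hyh : ((red' ⟨_, hi1⟩ :
      ↥(modularFunctionFieldFullC (ResidueField A) M')) : LaurentSeries (ResidueField A)) =
        u1 (ResidueField A) 2 := by
    rw [hred']
    exact Haupt23.coe_redF_u1 (resW0_eq_zero_of_not_isUnit A) hM' hmem _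
  exact haupt2_of_u1 A M' hq hqM hq2 h2M hr hr4 hrM hA red' _ _ hyy hyh

include hq hA hred' in
/-- **(K), level `3`**: the Hauptmodul hypothesis of `EllFin.hell_fin` for `q = 2` (any `q ≠ 3`
with `3 ∣ M'`) at the canonical `B'`: `yh = hA3`, `yi = hA3⁻¹`. -/
theorem haupt3_K0 (hqM : ¬ q ∣ M') (hq3 : q ≠ 3) (h3M : 3 ∣ M')
    {r : ℕ} (hr : r.Prime) (hr3 : r % 3 = 2) (hrM : r ∣ M') :
    EllFin.Haupt3 A M' red' := by
  have hmem := Haupt23.hA3_mem_F ↥(K0 A) (M := M') h3M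
  have hmem' := Haupt23.hA3inv_mem_F ↥(K0 A) (M := M') h3M
  have hJi := BPrimeWeb.isIntegral_AX_jLevel (W0 A) (resW0 A) M'
  have hJ := coe_jLevel_eq ↥(K0 A) M'
  obtain ⟨c, hc⟩ := exists_constAX_mul_natCast hq hA M' (n := 3) (fun hd =>
    hq3 ((Nat.prime_dvd_prime_iff_eq hq Nat.prime_three).1 hd))
  rw [Nat.cast_ofNat] at hc
  have hi1 := Haupt23.isIntegral_hA3_F hmem hJ hJi
  have hi2 := Haupt23.isIntegral_hA3inv_F hmem hmem' hJ hJi hc
  have hyy : red' ⟨_, hi1⟩ * red' ⟨_, hi2⟩ = 1 := by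
    rw [← map_mul]
    exact (congrArg red' (Subtype.ext (Haupt23.hA3_mul_hA3inv_F hmem hmem'))).trans
      (map_one red')
  have hyh : ((red' ⟨_, hi1⟩ :
      ↥(modularFunctionFieldFullC (ResidueField A) M')) : LaurentSeries (ResidueField A)) =
        hA3 (ResidueField A) := by
    rw [hred']
    exact Haupt23.coe_redF_hA3 (resW0_eq_zero_of_not_isUnit A) hM' hmem _
  exact haupt3_of_hA3 A M' hq hqM hq3 h3M hr hr3 hrM hA red' _ _ hyy hyh

include hq hA hred' in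
/-- **`hell` at the `K0`-level objects, every residue characteristic, no hypothesis left**: for
any contract on the canonical `B'` written with `D = d/dJ̄`, `G = J̄⁸ (J̄ - 1728)⁶`, `x' = J(q)`,
under the level hypotheses of `Final.Core 12 11`. -/
theorem hell_K0_closed [IsAlgClosed (ResidueField A)] (hqM : ¬ q ∣ M')
    (hr : ∃ r : ℕ, r.Prime ∧ r ≡ 11 [MOD 12] ∧ r ∣ M')
    (h2 : q = 2 → 3 ∣ M') (h3 : q = 3 → 2 ∣ M')
    {B F : Type*} [CommRing B] [IsDomain B] [Field F] [Algebra B F] [IsFractionRing B F]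
    [IsNoetherianRing B] [IsIntegrallyClosed B]
    {O : Fin 3 → ValuationSubring F}
    {red : ∀ i, O i →+* ↥(modularFunctionFieldFullC (ResidueField A) M')}
    {hred : ∀ i, ∀ x : O i, red i x = 0 ↔ x ∈ maximalIdeal (O i)}
    {hBO : ∀ i, ∀ b : B, algebraMap B F b ∈ O i}
    {π₀ π₂ : ↥(integralClosure ↥((Data.ofJ (W0 A) (resW0 A) M').AX)
      ↥(laurentBaseChange ↥(K0 A) (modularFunctionFieldFull M'))) →+* B}
    {q₀ : B} {x' : ↥(integralClosure ↥((Data.ofJ (W0 A) (resW0 A) M').AX)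
      ↥(laurentBaseChange ↥(K0 A) (modularFunctionFieldFull M')))}
    {u u₁ v₁ h : B} {Db : ↥(modularFunctionFieldFullC (ResidueField A) M')} {N e : ℕ}
    (hx : (x' : ↥(laurentBaseChange ↥(K0 A) (modularFunctionFieldFull M'))) =
      jLevel ↥(K0 A) M')
    (H : Contract O red hred hBO red' π₀ π₂ (Deriv.dJ (ResidueField A) M') q₀ x' u u₁ v₁ h Db
      (Deriv.GJ (ResidueField A) M') N e) :
    ∀ Vs : ValuationSubring ↥(modularFunctionFieldFullC (ResidueField A) M'),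
      IsFinPlace red' Vs → ∃ y, Deriv.dJ (ResidueField A) M' (red' y) ≠ 0 ∧
        Deriv.dJ (ResidueField A) M' (red' y) ^ 12 * Deriv.GJ (ResidueField A) M' ∉
          Vs.nonunits := by
  obtain ⟨r, hrp, hr12, hrM⟩ := hr
  obtain ⟨hr4, hr3⟩ := mod_of_modEq_eleven hr12
  refine EllFinK0.hell_K0 hq hA M' hM' red' hred' hqM ⟨r, hrp, hr12, hrM⟩ hx H ?_ ?_
  · intro hq3
    exact haupt2_K0 hq hA M' hM' red' hred' hqM (by omega) (h3 hq3) hrp hr4 hrM
  · intro hq2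
    exact haupt3_K0 hq hA M' hM' red' hred' hqM (by omega) (h2 hq2) hrp hr3 hrM

end Fermat.Agent.CAR.Inst.EllFinClosed
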