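import Mathlib
import Fermat.Agent.CAR.Inst.NodeFinK0
import Fermat.Agent.CAR.Inst.LevelNB
import Fermat.Agent.CAR.Inst.Pi1Fin
import Fermat.Agent.CAR.Inst.EllFinClosed
import Fermat.Agent.CAR.Core.HptRK0
import Fermat.Agent.CAR.Core.Plug

/-!
# CAR (instance): the node relation and the finite point packages over `K0`, closed form

Objects of the final term (`Core/Plug.lean`): `O = Core.O3 hq A hA hζ M' hqM w`
(`= ![OInf3 hB, OMid …, OZero3 hB w]`), chart function `x = Core.xB A M' q = J_0 J_2`,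
`B = chart W0 x`, the canonical `B' = integralClosure (W0[J(q^{M'})]) (K0 · F_{M'})`.

* `hnode_K0_closed` : `NodeFinK0.hnode_K0_lit` with the whole level-`M' q` chart block
  discharged by `LevelNB` (`xN`, `h1α h2α h1β h2β`, the chart instances, `p0 p1` and the four
  factorisations) and the middle pull-back `π₁ := Pi1Fin.pi1`.  What remains: the contract `H`
  and the coordinates of its objects (`hred0 hred1 hred2`, `hred'`, `hπ₀`, `hπ₂`).
* `hptR_K0_of_contract` : the LITERAL binder `hptR` of `Core.newInertiaK0At_of_pointPkgs`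
  from a contract written with `D = d/dJ̄`, `G = J̄⁸ (J̄ - 1728)⁶`, `x' = J(q)`,
  `q₀ = algebraMap W0 B q`: `HptRK0.hptR_of_contract` with `hell := EllFinClosed.hell_K0_closed`
  and `hnode := hnode_K0_closed`.
-/

set_option autoImplicit false
set_option linter.unusedSectionVars false
set_option linter.style.haveILetI false

noncomputable section

namespace Fermat.Agent.CAR.Inst.NodeFinK0C

open ModularCurve HahnSeries Fermat.Agent.S24 Fermat.Agent.S28 Fermat.Agent.S28.Chain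
  Fermat.Agent.Lib.Red Fermat.Agent.CAR.K0 Fermat.Agent.CAR.V3.GaussDVR
  Fermat.Agent.CAR.V3.MidRing Fermat.Agent.BAD.TwoVal Fermat.Agent.ESJ.Cong.LevelGen
  Fermat.Agent.CAR.V3.RestrictNF Fermat.Agent.CAR.Formal Fermat.Agent.CAR.V3.MidRestrict
  Fermat.Agent.CAR.V3 Fermat.Agent.CAR.V3.Restrict
  Fermat.Agent.CAR.Glob.Charts Fermat.Agent.CAR.Local Fermat.Agent.CAR.Glue
  Fermat.Agent.CAR.Local.Inst Fermat.Agent.CAR.Glob

local notation "Qb" => AlgebraicClosure ℚ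

variable {q : ℕ} (hq : q.Prime) (A : ValuationSubring Qb) (hA : A.LiesOverPrime q)
  {ζ : Qb} (hζ : IsPrimitiveRoot ζ q) (M' : ℕ) [NeZero M'] [NeZero q] (hqM : ¬ q ∣ M')

set_option synthInstance.maxHeartbeats 400000 in
set_option maxHeartbeats 4000000 in
/-- **The node relation at the triple points of the finite chart over `K0`, closed form**: for
any contract `H` on `Core.O3`, `chart W0 (J_0 J_2)` and the canonical `B'`, with any family `red`
agreeing with `redInf3 hB`, `redMidK … hκ`, `redZero3 hB w`, `red' = redF` on `B'`, and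
`π₀ = π_0^*`, `π₂ = π_2^*` on `B'`. -/
theorem hnode_K0_closed
    [Algebra ↥(W0 A) ↥(FK (inertiaField A) (M' * q))]
    [Algebra ↥(W0 A) ↥(FK (inertiaField A) (M' * q * q))]
    [IsScalarTower ↥(W0 A) ↥(inertiaField A) ↥(FK (inertiaField A) (M' * q))]
    [IsScalarTower ↥(W0 A) ↥(inertiaField A) ↥(FK (inertiaField A) (M' * q * q))]
    [IsFractionRing (chart ↥(W0 A) (Core.xB A M' q)) ↥(FK (inertiaField A) (M' * q * q))]
    {W : ALAut (inertiaField A) M' q} {w : ALAut (inertiaField A) (M' * q) q}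
    (hW : IsAL M' q W) (hw : IsAL3 M' q w)
    (hκ : ∀ f : OMid hq A hA hζ M' hqM (IsLocalRing.residue A),
      redMid hq A hA hζ M' hqM (IsLocalRing.residue A) f
        ∈ modularFunctionFieldFullC (IsLocalRing.ResidueField A) M')
    {red : ∀ i : Fin 3, ↥(Core.O3 hq A hA hζ M' hqM w i) →+*
      ↥(modularFunctionFieldFullC (IsLocalRing.ResidueField A) M')}
    {hred : ∀ i, ∀ y : ↥(Core.O3 hq A hA hζ M' hqM w i),
      red i y = 0 ↔ y ∈ IsLocalRing.maximalIdeal ↥(Core.O3 hq A hA hζ M' hqM w i)}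
    {hBO : ∀ i, ∀ b : chart ↥(W0 A) (Core.xB A M' q),
      algebraMap (chart ↥(W0 A) (Core.xB A M' q)) ↥(FK (inertiaField A) (M' * q * q)) b
        ∈ Core.O3 hq A hA hζ M' hqM w i}
    {red' : ↥(integralClosure ↥((BaseFn.Data.ofJ (W0 A) (resW0 A) M').AX)
        ↥(laurentBaseChange ↥(K0 A) (modularFunctionFieldFull M'))) →+*
      ↥(modularFunctionFieldFullC (IsLocalRing.ResidueField A) M')}
    {π₀ π₂ : ↥(integralClosure ↥((BaseFn.Data.ofJ (W0 A) (resW0 A) M').AX)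
      ↥(laurentBaseChange ↥(K0 A) (modularFunctionFieldFull M'))) →+*
        chart ↥(W0 A) (Core.xB A M' q)}
    {Dκ : ↥(modularFunctionFieldFullC (IsLocalRing.ResidueField A) M') →
      ↥(modularFunctionFieldFullC (IsLocalRing.ResidueField A) M')}
    {qW : ↥(W0 A)}
    {x' : ↥(integralClosure ↥((BaseFn.Data.ofJ (W0 A) (resW0 A) M').AX)
      ↥(laurentBaseChange ↥(K0 A) (modularFunctionFieldFull M')))}
    {u₀ u₁ v₁ h₀ : chart ↥(W0 A) (Core.xB A M' q)}
    {Db G : ↥(modularFunctionFieldFullC (IsLocalRing.ResidueField A) M')} {N e : ℕ}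
    (hred0 : ∀ f : OInf3 (badSetup_W0 hq hA M' hqM),
      red 0 f = redInf3 (badSetup_W0 hq hA M' hqM) f)
    (hred1 : ∀ f : OMid hq A hA hζ M' hqM (IsLocalRing.residue A),
      red 1 f = MidKappa.redMidK hq A hA hζ M' hqM hκ f)
    (hred2 : ∀ f : OZero3 (badSetup_W0 hq hA M' hqM) w,
      red 2 f = redZero3 (badSetup_W0 hq hA M' hqM) w f)
    (hred' : ∀ b : ↥(integralClosure ↥((BaseFn.Data.ofJ (W0 A) (resW0 A) M').AX)
        ↥(laurentBaseChange ↥(K0 A) (modularFunctionFieldFull M'))),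
      red' b = redF (W0 A) (resW0 A) M' (resW0_eq_zero_of_not_isUnit A)
        (badSetup_W0 hq hA M' hqM).hMk
        ⟨b, (BaseFn.Data.ofJ (W0 A) (resW0 A) M').mem_Ow_of_isIntegral_AX
          (badSetup_W0 hq hA M' hqM).hMk b.2⟩)
    (hπ₀ : ∀ y : ↥(integralClosure ↥((BaseFn.Data.ofJ (W0 A) (resW0 A) M').AX)
        ↥(laurentBaseChange ↥(K0 A) (modularFunctionFieldFull M'))),
      ((π₀ y : chart ↥(W0 A) (Core.xB A M' q)) : ↥(FK (inertiaField A) (M' * q * q)))
        = piStar0 ↥(K0 A) M' q (y : ↥(laurentBaseChange ↥(K0 A) (modularFunctionFieldFull M'))))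
    (hπ₂ : ∀ y : ↥(integralClosure ↥((BaseFn.Data.ofJ (W0 A) (resW0 A) M').AX)
        ↥(laurentBaseChange ↥(K0 A) (modularFunctionFieldFull M'))),
      ((π₂ y : chart ↥(W0 A) (Core.xB A M' q)) : ↥(FK (inertiaField A) (M' * q * q)))
        = piStar2 ↥(K0 A) M' q (y : ↥(laurentBaseChange ↥(K0 A) (modularFunctionFieldFull M'))))
    (H : Contract (Core.O3 hq A hA hζ M' hqM w) red hred hBO red' π₀ π₂ Dκ
      (algebraMap ↥(W0 A) (chart ↥(W0 A) (Core.xB A M' q)) qW) x' u₀ u₁ v₁ h₀ Db G N e)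
    (m : ℕ) (hm : m ≠ 0) :
    ∀ (Vs : ValuationSubring ↥(modularFunctionFieldFullC (IsLocalRing.ResidueField A) M'))
      (hVs : IsFinPlace red' Vs), Db ∈ Vs.nonunits →
      Core.NodeRel (resW0 A) m q (alphaStar (inertiaField A) M' q)
        (betaStar (inertiaField A) M' q) (OInf (badSetup_W0 hq hA M' hqM))
        (OZero (badSetup_W0 hq hA M' hqM) W) (Core.O3 hq A hA hζ M' hqM w)
        (fun i => compositeSubring (Core.O3 hq A hA hζ M' hqM w i) (red i) (hred i) Vs)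
        (pointRing ↥(FK (inertiaField A) (M' * q * q)) (Meet.pt H 1 Vs hVs)).toSubring := by
  haveI := isDiscreteValuationRing_W0 hq hA
  haveI : IsFractionRing (chart ↥(W0 A) (LevelNB.xN ↥(K0 A) M' q))
      ↥(FK (inertiaField A) (M' * q)) := LevelNB.isFractionRing_chart_xN ↥(K0 A) M' q
  haveI : IsIntegrallyClosed (chart ↥(W0 A) (LevelNB.xN ↥(K0 A) M' q)) :=
    LevelNB.isIntegrallyClosed_chart_xN ↥(K0 A) M' q
  haveI : IsNoetherianRing (chart ↥(W0 A) (Core.xB A M' q)) :=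
    (Cusp.chart_instances ↥(K0 A) (M' * q * q) (W := ↥(W0 A)) (Core.xB A M' q)
      (LevelNB.order_chartX ↥(K0 A) M' q)).2.1
  exact NodeFinK0.hnode_K0_lit hq A hA hζ M' hqM hW hw hκ hred0 hred1 hred2 H
    (LevelNB.h1α ↥(K0 A) M' q hq) (LevelNB.h2α ↥(K0 A) M' q)
    (LevelNB.h1β ↥(K0 A) M' q hq) (LevelNB.h2β ↥(K0 A) M' q)
    (Pi1Fin.incl (BaseFn.Data.ofJ (W0 A) (resW0 A) M') (badSetup_W0 hq hA M' hqM).hMk) hred'
    (Pi1Fin.pi1 ↥(K0 A) M' q (W0 A) (resW0 A) hq) (fun _ => rfl)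
    (LevelNB.p0 (W0 A) (resW0 A) M' q
      (integralClosure ↥((BaseFn.Data.ofJ (W0 A) (resW0 A) M').AX)
        ↥(laurentBaseChange ↥(K0 A) (modularFunctionFieldFull M'))).toSubring.subtype
      (fun y => y.2))
    (LevelNB.p1 (W0 A) (resW0 A) M' q
      (integralClosure ↥((BaseFn.Data.ofJ (W0 A) (resW0 A) M').AX)
        ↥(laurentBaseChange ↥(K0 A) (modularFunctionFieldFull M'))).toSubring.subtype
      (fun y => y.2))
    (LevelNB.hα₀ (W0 A) (resW0 A) M' q _ (fun y => y.2) hq π₀ hπ₀)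
    (LevelNB.hα₁ (W0 A) (resW0 A) M' q _ (fun y => y.2) hq
      (Pi1Fin.pi1 ↥(K0 A) M' q (W0 A) (resW0 A) hq) (fun _ => rfl))
    (LevelNB.hβ₁ (W0 A) (resW0 A) M' q _ (fun y => y.2) hq
      (Pi1Fin.pi1 ↥(K0 A) M' q (W0 A) (resW0 A) hq) (fun _ => rfl))
    (LevelNB.hβ₂ (W0 A) (resW0 A) M' q _ (fun y => y.2) hq π₂ hπ₂) m hm

set_option synthInstance.maxHeartbeats 400000 in
set_option maxHeartbeats 4000000 in
/-- **The finite point packages over `K0` from the contract**: the literal binder `hptR` of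
`Core.newInertiaK0At_of_pointPkgs` (first conjunct of the argument of `Core.core_of_pointPkgs`)
for any contract on `Core.O3`, `chart W0 (J_0 J_2)` and the canonical `B'`, written with
`D = d/dJ̄`, `G = J̄⁸ (J̄ - 1728)⁶`, `x' = J(q)`, `q₀ = algebraMap W0 B q`, under the level
hypotheses of `Final.Core 12 11` (the instance `IsAlgClosed k` is needed to state `d/dJ̄`: give it
by `haveI := Lib.FF.CharP.isAlgClosed_residueField A`). -/
theorem hptR_K0_of_contract [IsAlgClosed (IsLocalRing.ResidueField A)]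
    (p : ℕ) (hp : p.Prime) (hqp : q ≠ p)
    (hr : ∃ r : ℕ, r.Prime ∧ r ≡ 11 [MOD 12] ∧ r ∣ M')
    (h2 : q = 2 → 3 ∣ M') (h3 : q = 3 → 2 ∣ M')
    [Algebra ↥(W0 A) ↥(FK (inertiaField A) (M' * q))]
    [Algebra ↥(W0 A) ↥(FK (inertiaField A) (M' * q * q))]
    [IsScalarTower ↥(W0 A) ↥(inertiaField A) ↥(FK (inertiaField A) (M' * q))]
    [IsScalarTower ↥(W0 A) ↥(inertiaField A) ↥(FK (inertiaField A) (M' * q * q))]
    [IsFractionRing (chart ↥(W0 A) (Core.xB A M' q)) ↥(FK (inertiaField A) (M' * q * q))]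
    {W : ALAut (inertiaField A) M' q} {w : ALAut (inertiaField A) (M' * q) q}
    (hW : IsAL M' q W) (hw : IsAL3 M' q w)
    (hκ : ∀ f : OMid hq A hA hζ M' hqM (IsLocalRing.residue A),
      redMid hq A hA hζ M' hqM (IsLocalRing.residue A) f
        ∈ modularFunctionFieldFullC (IsLocalRing.ResidueField A) M')
    {red : ∀ i : Fin 3, ↥(Core.O3 hq A hA hζ M' hqM w i) →+*
      ↥(modularFunctionFieldFullC (IsLocalRing.ResidueField A) M')}
    {hred : ∀ i, ∀ y : ↥(Core.O3 hq A hA hζ M' hqM w i),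
      red i y = 0 ↔ y ∈ IsLocalRing.maximalIdeal ↥(Core.O3 hq A hA hζ M' hqM w i)}
    {hBO : ∀ i, ∀ b : chart ↥(W0 A) (Core.xB A M' q),
      algebraMap (chart ↥(W0 A) (Core.xB A M' q)) ↥(FK (inertiaField A) (M' * q * q)) b
        ∈ Core.O3 hq A hA hζ M' hqM w i}
    (red' : ↥(integralClosure ↥((BaseFn.Data.ofJ (W0 A) (resW0 A) M').AX)
        ↥(laurentBaseChange ↥(K0 A) (modularFunctionFieldFull M'))) →+*
      ↥(modularFunctionFieldFullC (IsLocalRing.ResidueField A) M'))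
    {π₀ π₂ : ↥(integralClosure ↥((BaseFn.Data.ofJ (W0 A) (resW0 A) M').AX)
      ↥(laurentBaseChange ↥(K0 A) (modularFunctionFieldFull M'))) →+*
        chart ↥(W0 A) (Core.xB A M' q)}
    {x' : ↥(integralClosure ↥((BaseFn.Data.ofJ (W0 A) (resW0 A) M').AX)
      ↥(laurentBaseChange ↥(K0 A) (modularFunctionFieldFull M')))}
    {u₀ u₁ v₁ h₀ : chart ↥(W0 A) (Core.xB A M' q)}
    {Db : ↥(modularFunctionFieldFullC (IsLocalRing.ResidueField A) M')} {N e : ℕ}
    (hred0 : ∀ f : OInf3 (badSetup_W0 hq hA M' hqM),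
      red 0 f = redInf3 (badSetup_W0 hq hA M' hqM) f)
    (hred1 : ∀ f : OMid hq A hA hζ M' hqM (IsLocalRing.residue A),
      red 1 f = MidKappa.redMidK hq A hA hζ M' hqM hκ f)
    (hred2 : ∀ f : OZero3 (badSetup_W0 hq hA M' hqM) w,
      red 2 f = redZero3 (badSetup_W0 hq hA M' hqM) w f)
    (hred' : ∀ b : ↥(integralClosure ↥((BaseFn.Data.ofJ (W0 A) (resW0 A) M').AX)
        ↥(laurentBaseChange ↥(K0 A) (modularFunctionFieldFull M'))),
      red' b = redF (W0 A) (resW0 A) M' (resW0_eq_zero_of_not_isUnit A)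
        (badSetup_W0 hq hA M' hqM).hMk
        ⟨b, (BaseFn.Data.ofJ (W0 A) (resW0 A) M').mem_Ow_of_isIntegral_AX
          (badSetup_W0 hq hA M' hqM).hMk b.2⟩)
    (hπ₀ : ∀ y : ↥(integralClosure ↥((BaseFn.Data.ofJ (W0 A) (resW0 A) M').AX)
        ↥(laurentBaseChange ↥(K0 A) (modularFunctionFieldFull M'))),
      ((π₀ y : chart ↥(W0 A) (Core.xB A M' q)) : ↥(FK (inertiaField A) (M' * q * q)))
        = piStar0 ↥(K0 A) M' q (y : ↥(laurentBaseChange ↥(K0 A) (modularFunctionFieldFull M'))))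
    (hπ₂ : ∀ y : ↥(integralClosure ↥((BaseFn.Data.ofJ (W0 A) (resW0 A) M').AX)
        ↥(laurentBaseChange ↥(K0 A) (modularFunctionFieldFull M'))),
      ((π₂ y : chart ↥(W0 A) (Core.xB A M' q)) : ↥(FK (inertiaField A) (M' * q * q)))
        = piStar2 ↥(K0 A) M' q (y : ↥(laurentBaseChange ↥(K0 A) (modularFunctionFieldFull M'))))
    (hx' : (x' : ↥(laurentBaseChange ↥(K0 A) (modularFunctionFieldFull M'))) =
      jLevel ↥(K0 A) M')
    (H : Contract (Core.O3 hq A hA hζ M' hqM w) red hred hBO red' π₀ π₂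
      (Deriv.dJ (IsLocalRing.ResidueField A) M')
      (algebraMap ↥(W0 A) (chart ↥(W0 A) (Core.xB A M' q)) ((q : ℕ) : ↥(W0 A))) x' u₀ u₁ v₁ h₀ Db
      (Deriv.GJ (IsLocalRing.ResidueField A) M') N e) :
    ∀ (n : ℕ) (Q : Ideal (chart ↥(W0 A) (Core.xB A M' q))), Q.IsMaximal →
      algebraMap ↥(W0 A) (chart ↥(W0 A) (Core.xB A M' q)) ((q : ℕ) : ↥(W0 A)) ∈ Q →
      Core.PointPkg ↥(K0 A) (resW0 A) (p ^ n) q (alphaStar ↥(K0 A) M' q)
        (betaStar ↥(K0 A) M' q) (OInf (badSetup_W0 hq hA M' hqM))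
        (OZero (badSetup_W0 hq hA M' hqM) W) (Core.O3 hq A hA hζ M' hqM w)
        (Core.LocalPair (Core.O3 hq A hA hζ M' hqM w) (chart ↥(W0 A) (Core.xB A M' q)) Q
          (p ^ n)) := by
  haveI := isDiscreteValuationRing_W0 hq hA
  obtain ⟨-, hNoeth, hIC⟩ := Cusp.chart_instances ↥(K0 A) (M' * q * q) (W := ↥(W0 A))
    (Core.xB A M' q) (LevelNB.order_chartX ↥(K0 A) M' q)
  exact Core.HptRK0.hptR_of_contract hq A hA M' p hp hqp (OInf (badSetup_W0 hq hA M' hqM))
    (OZero (badSetup_W0 hq hA M' hqM) W) (Core.xB A M' q) (LevelNB.order_chartX ↥(K0 A) M' q) H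
    (EllFinClosed.hell_K0_closed hq hA M' (badSetup_W0 hq hA M' hqM).hMk red' hred' hqM hr h2 h3
      hx' H)
    (fun n => hnode_K0_closed hq A hA hζ M' hqM hW hw hκ hred0 hred1 hred2 hred' hπ₀ hπ₂ H
      (p ^ n) (pow_ne_zero n hp.ne_zero))

end Fermat.Agent.CAR.Inst.NodeFinK0C

end
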