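import Mathlib
import Fermat.Agent.CAR.Glob.Charts

/-!
# CAR (instance layer): generic lemmas on the chart rings `chart W x`

`chart W x` (`CAR/Glob/Charts.lean`) is the integral closure of `W[x]` in a field `F`.

* `chart_le_valuationSubring` : a valuation ring containing `W` and `x` contains `chart W x`;
* `mem_chart_of_forall_valuationSubring` : the valuative criterion for membership in `chart W x`;
* `mem_chart_mul_left`, `mem_chart_mul_right` : if `y` is integral over `W[z]` and `z` over `W[y]`
  then `y, z ∈ chart W (y * z)` (ruling #3, D1 (a): `J₀, J₂ ∈ chart W (J₀ J₂)`);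
* `isIntegral_of_map_closure` : integrality pulled back along an injective ring homomorphism
  (from `q`-expansions to the function field);
* `chartMap p h : chart W J →ₐ[W] chart W x` : the map induced on chart rings by a `W`-algebra
  homomorphism `p` with `p J ∈ chart W x` (the pull-backs `π_i^*`), `coe_chartMap`.
-/

set_option autoImplicit false

namespace Fermat.Agent.CAR.Inst.ChartGen

open Fermat.Agent.CAR.Glob.Charts

section Val

variable {W F : Type*} [CommRing W] [Field F] [Algebra W F]

/-- A valuation ring of `F` containing `W` and `x` contains the chart ring `chart W x`. -/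
theorem chart_le_valuationSubring (V : ValuationSubring F) {x : F}
    (hW : ∀ a : W, algebraMap W F a ∈ V) (hx : x ∈ V) {y : F} (hy : y ∈ chart W x) : y ∈ V := by
  have hle : Algebra.adjoin W {x} ≤
      (⟨V.toSubring.toSubsemiring, fun a => hW a⟩ : Subalgebra W F) := by
    refine Algebra.adjoin_le ?_
    rintro z rfl
    exact hx
  obtain ⟨f, hf, hfy⟩ := (mem_chart_iff.1 hy)
  have hint : IsIntegral V y := by
    let φ : Algebra.adjoin W {x} →+* V :=
      RingHom.codRestrict (algebraMap (Algebra.adjoin W {x}) F) V (fun b => hle b.2)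
    refine ⟨f.map φ, hf.map _, ?_⟩
    rw [Polynomial.eval₂_map]
    exact hfy
  have hcl : IsIntegrallyClosedIn V F := inferInstance
  obtain ⟨v, hv⟩ := (IsIntegrallyClosedIn.isIntegral_iff (R := V) (A := F)).1 hint
  rw [← hv]
  exact v.2

/-- `chart W x` is integrally closed in `F` (subring form). -/
theorem isIntegrallyClosedIn_chart (x : F) : IsIntegrallyClosedIn (chart W x).toSubring F := by
  rw [Subring.isIntegrallyClosedIn_iff]
  intro y hy
  exact mem_chart_of_isIntegral (W := W) (x := x) hy

/-- **Valuative criterion**: an element lying in every valuation ring of `F` which contains `W`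
and `x` belongs to `chart W x`. -/
theorem mem_chart_of_forall_valuationSubring {x y : F}
    (h : ∀ V : ValuationSubring F, (∀ a : W, algebraMap W F a ∈ V) → x ∈ V → y ∈ V) :
    y ∈ chart W x := by
  by_contra hy
  have hy' : y ∉ (chart W x).toSubring := hy
  have := isIntegrallyClosedIn_chart (W := W) x
  obtain ⟨V, hV, hyV⟩ := Subring.exists_le_valuationSubring_of_isIntegrallyClosedIn hy'
  exact hyV (h V (fun a => hV ((chart W x).algebraMap_mem a)) (hV (self_mem_chart x)))

/-- If `y` is integral over `W[z]`, then `y ∈ chart W (y * z)`. -/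
theorem mem_chart_mul_left {y z : F} (hy : IsIntegral (Algebra.adjoin W {z}) y) :
    y ∈ chart W (y * z) := by
  refine mem_chart_of_forall_valuationSubring fun V hW hyz => ?_
  by_contra hyV
  have hy0 : y ≠ 0 := fun h0 => hyV (h0 ▸ V.zero_mem)
  have hinv : y⁻¹ ∈ V := (V.mem_or_inv_mem y).resolve_left hyV
  have hz : z ∈ V := by
    have : z = y⁻¹ * (y * z) := by field_simp
    rw [this]
    exact V.mul_mem _ _ hinv hyz
  exact hyV (chart_le_valuationSubring V hW hz (mem_chart_iff.2 hy))

/-- If `z` is integral over `W[y]`, then `z ∈ chart W (y * z)`. -/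
theorem mem_chart_mul_right {y z : F} (hz : IsIntegral (Algebra.adjoin W {y}) z) :
    z ∈ chart W (y * z) := by
  rw [mul_comm]
  exact mem_chart_mul_left hz

/-- An element integral over `W[t]` with `t ∈ chart W x` lies in `chart W x`. -/
theorem mem_chart_of_isIntegral_adjoin {x t y : F} (ht : t ∈ chart W x)
    (hy : IsIntegral (Algebra.adjoin W {t}) y) : y ∈ chart W x := by
  refine mem_chart_of_forall_valuationSubring fun V hW hx => ?_
  exact chart_le_valuationSubring V hW (chart_le_valuationSubring V hW hx ht) (mem_chart_iff.2 hy)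

end Val

section Pull

/-- Integrality pulled back along an injective ring homomorphism `f : F → E`: if `f y` is
integral over `ℤ[f z]`, then `y` is integral over every subalgebra of `F` containing `z`. -/
theorem isIntegral_of_map_closure {W F E : Type*} [CommRing W] [CommRing F] [Algebra W F]
    [CommRing E] (f : F →+* E) (hf : Function.Injective f) {y z : F}
    (h : IsIntegral (Subring.closure ({f z} : Set E)) (f y)) (S : Subalgebra W F) (hz : z ∈ S) :
    IsIntegral S y := by
  obtain ⟨p, hp, hpy⟩ := h
  set φ : S →+* E := f.comp (algebraMap S F) with hφ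
  have hle : Subring.closure ({f z} : Set E) ≤ φ.range := by
    rw [Subring.closure_le]
    rintro t rfl
    exact ⟨⟨z, hz⟩, rfl⟩
  set g : Polynomial E := p.map (Subring.closure ({f z} : Set E)).subtype with hg
  have hgm : g.Monic := hp.map _
  have hg0 : g.eval (f y) = 0 := by
    rw [hg, Polynomial.eval_map]
    exact hpy
  have hlift : g ∈ Polynomial.lifts φ := by
    rw [Polynomial.lifts_iff_coeff_lifts]
    intro n
    rw [hg, Polynomial.coeff_map]
    exact hle (p.coeff n).2
  obtain ⟨r, hr, -, hrm⟩ := Polynomial.lifts_and_natDegree_eq_and_monic hlift hgm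
  refine ⟨r, hrm, hf ?_⟩
  rw [map_zero, Polynomial.hom_eval₂, ← hφ, ← Polynomial.eval_map, hr]
  exact hg0

/-- `isIntegral_of_map_closure` for the subalgebra `W[z]`, with the images named. -/
theorem isIntegral_adjoin_of_map_closure {W F E : Type*} [CommRing W] [CommRing F] [Algebra W F]
    [CommRing E] (f : F →+* E) (hf : Function.Injective f) {y z : F} {a b : E} (ha : f y = a)
    (hb : f z = b) (h : IsIntegral (Subring.closure ({b} : Set E)) a) :
    IsIntegral (Algebra.adjoin W {z}) y := by
  subst ha hb
  exact isIntegral_of_map_closure f hf h _ (Algebra.subset_adjoin (Set.mem_singleton _))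

variable {W F' F : Type*} [CommRing W] [Field F'] [Field F] [Algebra W F'] [Algebra W F]

/-- A `W`-algebra homomorphism `p` with `p J ∈ chart W x` maps `chart W J` into `chart W x`. -/
theorem map_mem_chart (p : F' →ₐ[W] F) {J : F'} {x : F} (h : p J ∈ chart W x) {y : F'}
    (hy : y ∈ chart W J) : p y ∈ chart W x := by
  obtain ⟨f, hf, hfy⟩ := mem_chart_iff.1 hy
  have hmem : ∀ s : Algebra.adjoin W {J}, p (s : F') ∈ chart W x := by
    rintro ⟨s, hs⟩
    have h1 : p s ∈ (Algebra.adjoin W {J}).map p := ⟨s, hs, rfl⟩
    rw [AlgHom.map_adjoin, Set.image_singleton] at h1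
    exact (Algebra.adjoin_le (by rintro t rfl; exact h)) h1
  let ψ : Algebra.adjoin W {J} →+* chart W x :=
    RingHom.codRestrict ((p : F' →+* F).comp (algebraMap (Algebra.adjoin W {J}) F'))
      (chart W x) hmem
  refine mem_chart_of_isIntegral ⟨f.map ψ, hf.map _, ?_⟩
  rw [Polynomial.eval₂_map]
  have h2 : (algebraMap (chart W x) F).comp ψ
      = (p : F' →+* F).comp (algebraMap (Algebra.adjoin W {J}) F') := rfl
  rw [h2]
  have h3 := Polynomial.hom_eval₂ f (algebraMap (Algebra.adjoin W {J}) F') (p : F' →+* F) y
  rw [hfy, map_zero] at h3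
  exact h3.symm

/-- The map induced on chart rings by a `W`-algebra homomorphism `p` with `p J ∈ chart W x`. -/
noncomputable def chartMap (p : F' →ₐ[W] F) {J : F'} {x : F} (h : p J ∈ chart W x) :
    chart W J →ₐ[W] chart W x :=
  (p.comp (chart W J).val).codRestrict (chart W x) (fun y => map_mem_chart p h y.2)

@[simp] theorem coe_chartMap (p : F' →ₐ[W] F) {J : F'} {x : F} (h : p J ∈ chart W x)
    (y : chart W J) : ((chartMap p h y : chart W x) : F) = p (y : F') := rfl

end Pull

end Fermat.Agent.CAR.Inst.ChartGen
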