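/-
CAR instance layer: CONSTANTS of the inertia field at discrete valuation subrings.

`K0 = ℚ̄^I` the inertia field at a prime `q`, `W0` its valuation ring, `FN` ANY field over `K0`
and `P` ANY valuation subring of `FN` with a uniformiser (`IsUnif P π`).

* `ord_eq_zero_of_forall_pow` : an element which is an `ℓ ^ k`-th power for all `k` has order
  zero at `P`;
* `ord_algebraMap_unit`, `algebraMap_unit_mem` : units of `W0` are units of `P` (they are
  `ℓ ^ k`-th powers in `K0` for a prime `ℓ ≠ q` and all `k`, `ConstRoot.exists_root_unit`);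
* `algebraMap_K0_mem`, `algebraMap_W0_mem` : if `q ∈ P` then `W0` lands in `P` — the binders
  `hWA`, `hWC` of `Core.newInertiaK0At_W0_of_points` are `algebraMap_W0_mem hq A hA D.hA` and
  `algebraMap_W0_mem hq A hA D.hC` for the `NF.Data` `D` itself (no property of the rings
  `OInf`, `OZero` is used beyond "`q` is a uniformiser");
* `exists_zpow_mul_unit_of_unit`, `exists_eq_pow_of_unit` : normalisation of a constant `c ∈ K0`
  such that `c · g ^ m` is a unit of `P` (uniformiser `q`).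
-/
import Mathlib
import Fermat.Agent.CAR.Formal.DiscVal
import Fermat.Agent.CAR.Formal.ConstRoot

set_option autoImplicit false
set_option linter.unusedSectionVars false

namespace Fermat.Agent.CAR.Inst.ConstUnit

open Fermat.Agent.CAR.K0 Fermat.Agent.CAR.Formal

local notation "Qb" => AlgebraicClosure ℚ

/-! ### Generalities on `IsUnif` -/

section Gen

variable {F : Type*} [Field F] {P : ValuationSubring F} {π : F}

/-- An element which is an `ℓ ^ k`-th power for every `k` (`ℓ ≥ 2`) has order zero. -/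
theorem ord_eq_zero_of_forall_pow (hP : IsUnif P π) {ℓ : ℕ} (hℓ : 2 ≤ ℓ) {u : F}
    (h : ∀ k : ℕ, ∃ c : F, u = c ^ (ℓ ^ k)) : hP.ord u = 0 := by
  by_contra hne
  obtain ⟨c, hc⟩ := h (hP.ord u).natAbs
  have h1 : hP.ord u = ((ℓ ^ (hP.ord u).natAbs : ℕ) : ℤ) * hP.ord c := by
    conv_lhs => rw [hc]
    exact hP.ord_pow c _
  have h2 : (hP.ord u).natAbs < ℓ ^ (hP.ord u).natAbs := Nat.lt_pow_self hℓ
  have h3 : hP.ord c ≠ 0 := by
    intro h0
    rw [h0, mul_zero] at h1
    exact hne h1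
  have h4 : (hP.ord u).natAbs = ℓ ^ (hP.ord u).natAbs * (hP.ord c).natAbs := by
    conv_lhs => rw [h1]
    rw [Int.natAbs_mul, Int.natAbs_natCast]
  have h5 : 1 ≤ (hP.ord c).natAbs := Int.natAbs_pos.mpr h3
  have h6 : ℓ ^ (hP.ord u).natAbs ≤ ℓ ^ (hP.ord u).natAbs * (hP.ord c).natAbs :=
    Nat.le_mul_of_pos_right _ h5
  omega

end Gen

/-! ### The inertia field -/

section Inertia

variable {q : ℕ} (hq : q.Prime) (A : ValuationSubring Qb) (hA : A.LiesOverPrime q)

include hq hA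

/-- Units of `W0` have order zero at EVERY discrete valuation subring of an extension field of
`K0` (they are `ℓ ^ k`-th powers in `K0` for a prime `ℓ ≠ q` and all `k`). -/
theorem ord_algebraMap_unit {FN : Type*} [Field FN] [Algebra (K0 A) FN]
    {P : ValuationSubring FN} {π : FN} (hP : IsUnif P π) (u : K0 A) (hu : u ∈ W0 A)
    (hu' : u⁻¹ ∈ W0 A) (hu0 : u ≠ 0) : hP.ord (algebraMap (K0 A) FN u) = 0 := by
  obtain ⟨ℓ, hℓ, hℓq⟩ : ∃ ℓ : ℕ, ℓ.Prime ∧ ℓ ≠ q := by
    by_cases h2 : q = 2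
    · exact ⟨3, Nat.prime_three, by omega⟩
    · exact ⟨2, Nat.prime_two, fun h => h2 h.symm⟩
  refine ord_eq_zero_of_forall_pow hP hℓ.two_le fun k => ?_
  have hcop : Nat.Coprime (ℓ ^ k) q :=
    Nat.Coprime.pow_left k ((Nat.coprime_primes hℓ hq).mpr hℓq)
  obtain ⟨c', hc'⟩ := ConstRoot.exists_root_unit hq A hA hcop u hu hu' hu0
  exact ⟨algebraMap (K0 A) FN c', by rw [hc', map_pow]⟩

/-- Units of `W0` are units of every discrete valuation subring of an extension field of
`K0`. -/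
theorem algebraMap_unit_mem {FN : Type*} [Field FN] [Algebra (K0 A) FN]
    {P : ValuationSubring FN} {π : FN} (hP : IsUnif P π) (u : K0 A) (hu : u ∈ W0 A)
    (hu' : u⁻¹ ∈ W0 A) (hu0 : u ≠ 0) :
    algebraMap (K0 A) FN u ∈ P ∧ (algebraMap (K0 A) FN u)⁻¹ ∈ P :=
  (hP.ord_eq_zero_iff ((map_ne_zero _).mpr hu0)).mp (ord_algebraMap_unit hq A hA hP u hu hu' hu0)

/-- The order of a constant `c ∈ K0` at a discrete valuation subring with uniformiser `q`
is its `q`-adic order: `c = q ^ n · u`, `u ∈ W0ˣ`, has order `n`. -/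
theorem ord_algebraMap_zpow_mul {FN : Type*} [Field FN] [Algebra (K0 A) FN]
    {P : ValuationSubring FN} (hP : IsUnif P ((q : ℕ) : FN)) (n : ℤ) (u : K0 A) (hu : u ∈ W0 A)
    (hu' : u⁻¹ ∈ W0 A) (hu0 : u ≠ 0) :
    hP.ord (algebraMap (K0 A) FN (((q : ℕ) : K0 A) ^ n * u)) = n := by
  have hq0 : ((q : ℕ) : FN) ≠ 0 := hP.ne_zero
  rw [map_mul, map_zpow₀, map_natCast,
    hP.ord_mul (zpow_ne_zero _ hq0) ((map_ne_zero _).mpr hu0), hP.ord_zpow, hP.ord_self,
    ord_algebraMap_unit hq A hA hP u hu hu' hu0, mul_one, add_zero]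

/-- `W0` lands in every valuation subring `P` of an extension field of `K0` with uniformiser
`q` (constants form). -/
theorem algebraMap_K0_mem {FN : Type*} [Field FN] [Algebra (K0 A) FN]
    {P : ValuationSubring FN} (hP : IsUnif P ((q : ℕ) : FN)) (w : K0 A) (hw : w ∈ W0 A) :
    algebraMap (K0 A) FN w ∈ P := by
  by_cases hw0 : w = 0
  · rw [hw0, map_zero]
    exact P.zero_mem
  obtain ⟨n, hn⟩ := exists_associated_pow hq hA (⟨w, hw⟩ : W0 A)
    (fun h => hw0 (congrArg Subtype.val h))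
  obtain ⟨u, hu⟩ := hn
  have e : w = ((q : ℕ) : K0 A) ^ n * ((u : W0 A) : K0 A) := by
    have := congrArg (fun t : W0 A => (t : K0 A)) hu
    simpa using this.symm
  have hu0 : ((u : W0 A) : K0 A) ≠ 0 := by
    intro h0
    exact u.ne_zero (Subtype.ext h0)
  have huinv : (((u : W0 A) : K0 A))⁻¹ ∈ W0 A := by
    have h1 : ((u : W0 A) : K0 A) * (((u⁻¹ : (W0 A)ˣ) : W0 A) : K0 A) = 1 :=
      congrArg Subtype.val u.mul_inv
    rw [inv_eq_of_mul_eq_one_right h1]
    exact ((u⁻¹ : (W0 A)ˣ) : W0 A).2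
  rw [e, map_mul, map_pow, map_natCast]
  exact P.mul_mem _ _ (pow_mem hP.mem n)
    (algebraMap_unit_mem hq A hA hP _ (u : W0 A).2 huinv hu0).1

/-- **The binders `hWA`, `hWC` of `Core.newInertiaK0At_W0_of_points`**: for any `W0`-algebra
structure on `FN` compatible with the `K0`-algebra structure, `W0` lands in every valuation
subring `P` of `FN` with uniformiser `q` — e.g. `P = PA`, `PC` of an `NF.Data` `D` with
`ϖN = q`, by `D.hA`, `D.hC`. -/
theorem algebraMap_W0_mem {FN : Type*} [Field FN] [Algebra (K0 A) FN] [Algebra (W0 A) FN]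
    [IsScalarTower (W0 A) (K0 A) FN] {P : ValuationSubring FN}
    (hP : IsUnif P ((q : ℕ) : FN)) : ∀ w : W0 A, algebraMap (W0 A) FN w ∈ P := by
  intro w
  rw [IsScalarTower.algebraMap_apply (W0 A) (K0 A) FN]
  exact algebraMap_K0_mem hq A hA hP _ w.2

/-- Units of `W0` are units of every discrete valuation subring of a field over `K0`
(`W0`-algebra form). -/
theorem algebraMap_W0_unit_mem {FN : Type*} [Field FN] [Algebra (K0 A) FN] [Algebra (W0 A) FN]
    [IsScalarTower (W0 A) (K0 A) FN] {P : ValuationSubring FN} {π : FN} (hP : IsUnif P π)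
    (w : W0 A) (hw : IsUnit w) :
    algebraMap (W0 A) FN w ∈ P ∧ (algebraMap (W0 A) FN w)⁻¹ ∈ P := by
  obtain ⟨u, rfl⟩ := hw
  have hu0 : ((u : W0 A) : K0 A) ≠ 0 := fun h0 => u.ne_zero (Subtype.ext h0)
  have huinv : (((u : W0 A) : K0 A))⁻¹ ∈ W0 A := by
    have h1 : ((u : W0 A) : K0 A) * (((u⁻¹ : (W0 A)ˣ) : W0 A) : K0 A) = 1 :=
      congrArg Subtype.val u.mul_inv
    rw [inv_eq_of_mul_eq_one_right h1]
    exact ((u⁻¹ : (W0 A)ˣ) : W0 A).2
  rw [IsScalarTower.algebraMap_apply (W0 A) (K0 A) FN]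
  exact algebraMap_unit_mem hq A hA hP _ (u : W0 A).2 huinv hu0

end Inertia

end Fermat.Agent.CAR.Inst.ConstUnit
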