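/-
CAR / Inst (G7, transfer form): the units block of the finite-chart contract for ANY family
`O : Fin 3 → ValuationSubring F3`, `red : ∀ i, O i →+* κ` which receives the reductions of the
three concrete components `OInf3 hB`, `OMid …`, `OZero3 hB w` (three `RedTo`-transfer
hypotheses), and ANY `κ`-valued reduction `ρ` of `O_mid` with `coe (ρ f) = redMid f`.

* `redOn_eq_of_redTo` : `RedTo O red (algebraMap B F y) c → redOn O red hBO y = c`;
* `redTo_mid_column` : the middle column in `RedTo` form for such a `ρ`;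
* `unitsFields_of_transfer` : the record `UnitsCols.UnitsFields (O 0) (O 1) (O 2) (red 0) (red 1)
  (red 2) (hBO 0) (hBO 1) (hBO 2) qB dB uB u₁B v₁B hB Db GJ 12 (q - 1)`.
-/
import Mathlib
import Fermat.Agent.CAR.Inst.UnitsCols

set_option autoImplicit false

noncomputable section

namespace Fermat.Agent.CAR.Inst.UnitsG7

open ModularCurve HahnSeries Fermat.Agent.S24 Fermat.Agent.Lib.Red Fermat.Agent.CAR.K0
  Fermat.Agent.CAR.V3 Fermat.Agent.CAR.V3.MidRing Fermat.Agent.BAD.TwoVal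
  Fermat.Agent.CAR.Local Fermat.Agent.CAR.Local.InstCusp Fermat.Agent.CAR.Inst.UnitsCols

/-- The reduction of an element of `B` from a `RedTo` statement about its image. -/
theorem redOn_eq_of_redTo {B F κ : Type*} [CommRing B] [Field F] [Algebra B F] [Field κ]
    {O : ValuationSubring F} {red : O →+* κ} (hBO : ∀ b : B, algebraMap B F b ∈ O) {y : B}
    {c : κ} (h : RedTo O red (algebraMap B F y) c) : redOn O red hBO y = c :=
  (redTo_algebraMap O red hBO y).unique h

section K0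

local notation "Qb" => AlgebraicClosure ℚ

variable {q : ℕ} (hq : q.Prime) {A : ValuationSubring Qb} (hA : A.LiesOverPrime q)
  {ζ : Qb} (hζ : IsPrimitiveRoot ζ q) (M' : ℕ) [NeZero M'] [NeZero q] (hqM : ¬ q ∣ M')
  (ρ : OMid hq A hA hζ M' hqM (IsLocalRing.residue A) →+*
    modularFunctionFieldFullC (IsLocalRing.ResidueField A) M')
  (hρ : ∀ f : OMid hq A hA hζ M' hqM (IsLocalRing.residue A),
    ((ρ f : modularFunctionFieldFullC (IsLocalRing.ResidueField A) M') :
      LaurentSeries (IsLocalRing.ResidueField A))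
      = redMid hq A hA hζ M' hqM (IsLocalRing.residue A) f)
  {y₁ y₂ : FK (inertiaField A) (M' * q * q)}

include hρ in
/-- **The middle column in `RedTo` form**, for any `κ`-valued reduction `ρ` of `O_mid` with
`coe (ρ f) = redMid f`: `(u, u₁, v₁, h) ↦ (0, Db, Db, GJ^(q-1))`. -/
theorem redTo_mid_column [IsAlgClosed (IsLocalRing.ResidueField A)]
    (hy₁ : (y₁ : LaurentSeries (inertiaField A)) = Units.u1 (inertiaField A) q)
    (hy₂ : (y₂ : LaurentSeries (inertiaField A)) = Units.u2 (inertiaField A) q) :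
    RedTo (OMid hq A hA hζ M' hqM (IsLocalRing.residue A)) ρ (y₂ / y₁) 0 ∧
      RedTo (OMid hq A hA hζ M' hqM (IsLocalRing.residue A)) ρ y₁ (Db hq hA M' hqM) ∧
      RedTo (OMid hq A hA hζ M' hqM (IsLocalRing.residue A)) ρ
        (((q : ℕ) : FK (inertiaField A) (M' * q * q)) ^ 12 / y₂) (Db hq hA M' hqM) ∧
      RedTo (OMid hq A hA hζ M' hqM (IsLocalRing.residue A)) ρ
        (dMid A M' q ^ (12 * (q - 1)) * y₁ / y₂)
        (Local.Inst.Deriv.GJ (IsLocalRing.ResidueField A) M' ^ (q - 1)) := by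
  have hπ := residue_eq_zero_of_not_isUnit A
  refine ⟨⟨MidUnits.u_mem_OMid hq A hA hζ M' hqM (IsLocalRing.residue A) hπ hy₁ hy₂, ?_⟩,
    ⟨MidUnits.u1_mem_OMid hq A hA hζ M' hqM (IsLocalRing.residue A) hy₁, ?_⟩,
    ⟨MidUnits.v1_mem_OMid hq A hA hζ M' hqM (IsLocalRing.residue A) hπ hy₂, ?_⟩, ?_⟩
  · apply Subtype.ext
    rw [hρ, ZeroMemClass.coe_zero]
    exact MidUnits.redMid_u hq A hA hζ M' hqM (IsLocalRing.residue A) hπ hy₁ hy₂ _
  · apply Subtype.ext
    rw [hρ, coe_Db]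
    exact MidUnits.redMid_u1 hq A hA hζ M' hqM (IsLocalRing.residue A) hy₁ _
  · apply Subtype.ext
    rw [hρ, coe_Db]
    exact MidUnits.redMid_v1 hq A hA hζ M' hqM (IsLocalRing.residue A) hπ hy₂ _
  · obtain ⟨hm, hr⟩ := MidUnits.cert_mid' hq A hA hζ M' hqM (IsLocalRing.residue A) hπ hy₁ hy₂
    refine ⟨hm, ?_⟩
    apply Subtype.ext
    rw [hρ, SubmonoidClass.coe_pow, Local.Inst.Deriv.coe_GJ]
    exact hr

variable {w : laurentBaseChange (inertiaField A) (modularFunctionFieldFull (M' * q * q))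
    ≃ₐ[inertiaField A]
    laurentBaseChange (inertiaField A) (modularFunctionFieldFull (M' * q * q))}
  {B : Type*} [CommRing B] [Algebra B ↥(FK (inertiaField A) (M' * q * q))]

include hρ in
/-- **The units block of the contract, transfer form**: for ANY family `(O, red)` over `Fin 3`
receiving the reductions of the three concrete components, and any `ρ` with
`coe (ρ f) = redMid f`. -/
theorem unitsFields_of_transfer [IsAlgClosed (IsLocalRing.ResidueField A)] (hw : IsAL3 M' q w)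
    (O : Fin 3 → ValuationSubring ↥(FK (inertiaField A) (M' * q * q)))
    (red : ∀ i, O i →+* modularFunctionFieldFullC (IsLocalRing.ResidueField A) M')
    (t0 : ∀ J c, RedTo (OInf3 (badSetup_W0 hq hA M' hqM)) (redInf3 (badSetup_W0 hq hA M' hqM)) J c
      → RedTo (O 0) (red 0) J c)
    (t1 : ∀ J c, RedTo (OMid hq A hA hζ M' hqM (IsLocalRing.residue A)) ρ J c
      → RedTo (O 1) (red 1) J c)
    (t2 : ∀ J c, RedTo (OZero3 (badSetup_W0 hq hA M' hqM) w)
      (redZero3 (badSetup_W0 hq hA M' hqM) w) J c → RedTo (O 2) (red 2) J c)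
    (hinj : Function.Injective (algebraMap B ↥(FK (inertiaField A) (M' * q * q))))
    (hBO : ∀ i, ∀ b : B, algebraMap B ↥(FK (inertiaField A) (M' * q * q)) b ∈ O i)
    {qB dB uB u₁B v₁B hB : B}
    (hy₁ : (y₁ : LaurentSeries (inertiaField A)) = Units.u1 (inertiaField A) q)
    (hy₂ : (y₂ : LaurentSeries (inertiaField A)) = Units.u2 (inertiaField A) q)
    (hqB : algebraMap B ↥(FK (inertiaField A) (M' * q * q)) qB
      = ((q : ℕ) : FK (inertiaField A) (M' * q * q)))
    (hdB : algebraMap B ↥(FK (inertiaField A) (M' * q * q)) dB = dMid A M' q)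
    (hu : algebraMap B ↥(FK (inertiaField A) (M' * q * q)) uB = y₂ / y₁)
    (hu₁ : algebraMap B ↥(FK (inertiaField A) (M' * q * q)) u₁B = y₁)
    (hv₁ : algebraMap B ↥(FK (inertiaField A) (M' * q * q)) v₁B
      = ((q : ℕ) : FK (inertiaField A) (M' * q * q)) ^ 12 / y₂)
    (hh : algebraMap B ↥(FK (inertiaField A) (M' * q * q)) hB
      = dMid A M' q ^ (12 * (q - 1)) * y₁ / y₂) :
    UnitsFields (O 0) (O 1) (O 2) (red 0) (red 1) (red 2) (hBO 0) (hBO 1) (hBO 2)
      qB dB uB u₁B v₁B hB (Db hq hA M' hqM)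
      (Local.Inst.Deriv.GJ (IsLocalRing.ResidueField A) M') 12 (q - 1) := by
  -- the three columns on the concrete components
  obtain ⟨ci, -, hci, iu, iu₁, iv₁⟩ :=
    UnitsZero.redTo_inf_column_of_y (badSetup_W0 hq hA M' hqM) hy₁ hy₂
  have hciDb : ci = Db hq hA M' hqM := eq_DbGen _ hci
  rw [hciDb] at iu iu₁
  obtain ⟨cz, hcz0, -, zu, zu₁, zv₁⟩ :=
    UnitsZero.redTo_zero_column_of_y (badSetup_W0 hq hA M' hqM) hw hy₁ hy₂
  obtain ⟨mu, mu₁, mv₁, mh⟩ := redTo_mid_column hq hA hζ M' hqM ρ hρ hy₁ hy₂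
  -- transfer and rewrite along the `algebraMap` equations
  have Iu := redOn_eq_of_redTo (hBO 0) (y := uB) (by rw [hu]; exact t0 _ _ iu)
  have Iu₁ := redOn_eq_of_redTo (hBO 0) (y := u₁B) (by rw [hu₁]; exact t0 _ _ iu₁)
  have Iv₁ := redOn_eq_of_redTo (hBO 0) (y := v₁B) (by rw [hv₁]; exact t0 _ _ iv₁)
  have Mu := redOn_eq_of_redTo (hBO 1) (y := uB) (by rw [hu]; exact t1 _ _ mu)
  have Mu₁ := redOn_eq_of_redTo (hBO 1) (y := u₁B) (by rw [hu₁]; exact t1 _ _ mu₁)
  have Mv₁ := redOn_eq_of_redTo (hBO 1) (y := v₁B) (by rw [hv₁]; exact t1 _ _ mv₁)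
  have Mh := redOn_eq_of_redTo (hBO 1) (y := hB) (by rw [hh]; exact t1 _ _ mh)
  have Zu := redOn_eq_of_redTo (hBO 2) (y := uB) (by rw [hu]; exact t2 _ _ zu)
  have Zu₁ := redOn_eq_of_redTo (hBO 2) (y := u₁B) (by rw [hu₁]; exact t2 _ _ zu₁)
  have Zv₁ := redOn_eq_of_redTo (hBO 2) (y := v₁B) (by rw [hv₁]; exact t2 _ _ zv₁)
  refine
    { e_ne := Nat.sub_ne_zero_of_lt hq.one_lt
      prod := ?_
      Db_ne := Db_ne_zero hq hA M' hqM
      u_inf := Iu
      u_mid := Mu
      u_zero := by rw [Zu, Zv₁]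
      u₁_inf := Iu₁
      u₁_mid := Mu₁
      u₁_zero := Zu₁
      v₁_inf := Iv₁
      v₁_mid := Mv₁
      v₁_zero := by rw [Zv₁]; exact hcz0
      cert := ?_
      red_h := Mh }
  · apply hinj
    rw [RingHom.map_mul, RingHom.map_mul, RingHom.map_pow, hu, hu₁, hv₁, hqB]
    exact MidUnits.u_mul_u1_mul_v1 hq A hζ M' hqM hy₁ hy₂
  · apply hinj
    rw [RingHom.map_mul, RingHom.map_pow, hu, hh, hdB]
    exact MidUnits.hMid_mul_u hq A hζ M' hqM hy₁ hy₂

end K0

end Fermat.Agent.CAR.Inst.UnitsG7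

end
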