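import Mathlib
import Fermat.Agent.CAR.Inst.UnitsFinUF
import Fermat.Agent.CAR.Inst.UnitsG7

/-!
# CAR (instance, G7): the units block of the finite-chart contract — closed plug

`B = ↥(chart W0 (J_0 J_2))`.  For any `qB dB : B` mapping to `q`, `dMid`, there are
`uB u₁B v₁B hB : B` such that the record `UnitsCols.UnitsFields` (the fourteen unit fields of
`Local.Inst.Contract`) holds:

* `exists_unitsFields` : for the concrete components `OInf3`, `OMid`, `OZero3` with reductions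
  `redInf3`, `MidKappa.redMidK … hκ`, `redZero3`;
* `exists_unitsFields_of_transfer` : for any `Fin 3` family receiving their reductions.

Both also return `y₁ y₂ : F3` with `q`-expansions `u₁`, `u₂` and the four `algebraMap` equations.
-/

set_option autoImplicit false
set_option linter.style.haveILetI false
set_option linter.unusedSectionVars false

namespace Fermat.Agent.CAR.Inst.UnitsClosed

open ModularCurve HahnSeries
open Fermat.Agent.S28 Fermat.Agent.Lib.Red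
open Fermat.Agent.CAR.Glob Fermat.Agent.CAR.Glob.Charts Fermat.Agent.CAR.Glob.CuspQuot
open Fermat.Agent.CAR.V3 Fermat.Agent.CAR.V3.Units
open Fermat.Agent.CAR.K0 Fermat.Agent.CAR.V3.MidRing Fermat.Agent.CAR.V3.MidUnits
open Fermat.Agent.CAR.Local Fermat.Agent.CAR.Local.InstCusp
open Fermat.Agent.CAR.Inst.UnitsCols

local notation "Qb" => AlgebraicClosure ℚ

set_option synthInstance.maxHeartbeats 400000
set_option maxHeartbeats 1000000

variable {q : ℕ} [NeZero q] (hq : q.Prime) {A : ValuationSubring Qb} (hA : A.LiesOverPrime q)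
  {ζ : Qb} (hζ : IsPrimitiveRoot ζ q) (M' : ℕ) [NeZero M'] (hqM : ¬ q ∣ M')
  {w : laurentBaseChange ↥(K0 A) (modularFunctionFieldFull (M' * q * q)) ≃ₐ[↥(K0 A)]
    laurentBaseChange ↥(K0 A) (modularFunctionFieldFull (M' * q * q))}
  [Algebra ↥(W0 A) ↥(laurentBaseChange ↥(K0 A) (modularFunctionFieldFull (M' * q * q)))]
  [IsScalarTower ↥(W0 A) ↥(K0 A)
    ↥(laurentBaseChange ↥(K0 A) (modularFunctionFieldFull (M' * q * q)))]

omit [NeZero M'] [IsScalarTower ↥(W0 A) ↥(K0 A)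
    ↥(laurentBaseChange ↥(K0 A) (modularFunctionFieldFull (M' * q * q)))] in
/-- The canonical `qB := algebraMap W0 B q` maps to `q`. -/
theorem algebraMap_natCast_chart
    (x : ↥(laurentBaseChange ↥(K0 A) (modularFunctionFieldFull (M' * q * q)))) :
    algebraMap ↥(chart ↥(W0 A) x)
        ↥(laurentBaseChange ↥(K0 A) (modularFunctionFieldFull (M' * q * q)))
        (algebraMap ↥(W0 A) ↥(chart ↥(W0 A) x) ((q : ℕ) : ↥(W0 A))) =
      ((q : ℕ) : ↥(laurentBaseChange ↥(K0 A) (modularFunctionFieldFull (M' * q * q)))) := by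
  rw [map_natCast, map_natCast]

include hζ in
/-- **The units block, closed, concrete components.** -/
theorem exists_unitsFields
    (hκ : ∀ f : OMid hq A hA hζ M' hqM (IsLocalRing.residue A),
      redMid hq A hA hζ M' hqM (IsLocalRing.residue A) f
        ∈ modularFunctionFieldFullC (IsLocalRing.ResidueField A) M')
    [IsAlgClosed (IsLocalRing.ResidueField A)] (hw : IsAL3 M' q w)
    (h0 : ∀ b : ↥(chart ↥(W0 A) (J0 (q := q) ↥(K0 A) M' * J2 (q := q) ↥(K0 A) M')),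
      algebraMap _ ↥(laurentBaseChange ↥(K0 A) (modularFunctionFieldFull (M' * q * q))) b
        ∈ OInf3 (badSetup_W0 hq hA M' hqM))
    (h1 : ∀ b : ↥(chart ↥(W0 A) (J0 (q := q) ↥(K0 A) M' * J2 (q := q) ↥(K0 A) M')),
      algebraMap _ ↥(laurentBaseChange ↥(K0 A) (modularFunctionFieldFull (M' * q * q))) b
        ∈ OMid hq A hA hζ M' hqM (IsLocalRing.residue A))
    (h2 : ∀ b : ↥(chart ↥(W0 A) (J0 (q := q) ↥(K0 A) M' * J2 (q := q) ↥(K0 A) M')),
      algebraMap _ ↥(laurentBaseChange ↥(K0 A) (modularFunctionFieldFull (M' * q * q))) b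
        ∈ OZero3 (badSetup_W0 hq hA M' hqM) w)
    (qB dB : ↥(chart ↥(W0 A) (J0 (q := q) ↥(K0 A) M' * J2 (q := q) ↥(K0 A) M')))
    (hqB : algebraMap _ ↥(laurentBaseChange ↥(K0 A) (modularFunctionFieldFull (M' * q * q))) qB =
      ((q : ℕ) : ↥(laurentBaseChange ↥(K0 A) (modularFunctionFieldFull (M' * q * q)))))
    (hdB : algebraMap _ ↥(laurentBaseChange ↥(K0 A) (modularFunctionFieldFull (M' * q * q))) dB =
      dMid A M' q) :
    ∃ (uB u₁B v₁B hB : ↥(chart ↥(W0 A) (J0 (q := q) ↥(K0 A) M' * J2 (q := q) ↥(K0 A) M')))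
      (y₁ y₂ : ↥(laurentBaseChange ↥(K0 A) (modularFunctionFieldFull (M' * q * q)))),
      (y₁ : LaurentSeries ↥(K0 A)) = u1 ↥(K0 A) q ∧ (y₂ : LaurentSeries ↥(K0 A)) = u2 ↥(K0 A) q ∧
      algebraMap _ ↥(laurentBaseChange ↥(K0 A) (modularFunctionFieldFull (M' * q * q))) uB =
        y₂ / y₁ ∧
      algebraMap _ ↥(laurentBaseChange ↥(K0 A) (modularFunctionFieldFull (M' * q * q))) u₁B =
        y₁ ∧
      algebraMap _ ↥(laurentBaseChange ↥(K0 A) (modularFunctionFieldFull (M' * q * q))) v₁B =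
        ((q : ℕ) : ↥(laurentBaseChange ↥(K0 A) (modularFunctionFieldFull (M' * q * q)))) ^ 12 /
          y₂ ∧
      algebraMap _ ↥(laurentBaseChange ↥(K0 A) (modularFunctionFieldFull (M' * q * q))) hB =
        dMid A M' q ^ (12 * (q - 1)) * y₁ / y₂ ∧
      UnitsFields (OInf3 (badSetup_W0 hq hA M' hqM))
        (OMid hq A hA hζ M' hqM (IsLocalRing.residue A))
        (OZero3 (badSetup_W0 hq hA M' hqM) w)
        (redInf3 (badSetup_W0 hq hA M' hqM))
        (MidKappa.redMidK hq A hA hζ M' hqM hκ)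
        (redZero3 (badSetup_W0 hq hA M' hqM) w) h0 h1 h2
        qB dB uB u₁B v₁B hB (Db hq hA M' hqM)
        (Local.Inst.Deriv.GJ (IsLocalRing.ResidueField A) M') 12 (q - 1) := by
  obtain ⟨y₁, hy₁⟩ := exists_y1 (q := q) hq A M'
  obtain ⟨y₂, hy₂⟩ := exists_y2 (q := q) hq A M'
  obtain ⟨uB, u₁B, v₁B, hB, hu, hu₁, hv₁, hh⟩ :=
    UnitsFinUF.exists_uf hq A hA hζ M' hqM hy₁ hy₂ hw
  exact ⟨uB, u₁B, v₁B, hB, y₁, y₂, hy₁, hy₂, hu, hu₁, hv₁, hh,
    unitsFields hq hA hζ M' hqM hκ hw Subtype.val_injective h0 h1 h2 hy₁ hy₂ hqB hdB hu hu₁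
      hv₁ hh⟩

/-- **The units block, closed, transfer form**: any `Fin 3` family `(O, red)` receiving the
reductions of the three concrete components, any `ρ` with `coe (ρ f) = redMid f`. -/
theorem exists_unitsFields_of_transfer
    (ρ : OMid hq A hA hζ M' hqM (IsLocalRing.residue A) →+*
      modularFunctionFieldFullC (IsLocalRing.ResidueField A) M')
    (hρ : ∀ f : OMid hq A hA hζ M' hqM (IsLocalRing.residue A),
      ((ρ f : modularFunctionFieldFullC (IsLocalRing.ResidueField A) M') :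
        LaurentSeries (IsLocalRing.ResidueField A))
        = redMid hq A hA hζ M' hqM (IsLocalRing.residue A) f)
    [IsAlgClosed (IsLocalRing.ResidueField A)] (hw : IsAL3 M' q w)
    (O : Fin 3 → ValuationSubring
      ↥(laurentBaseChange ↥(K0 A) (modularFunctionFieldFull (M' * q * q))))
    (red : ∀ i, O i →+* modularFunctionFieldFullC (IsLocalRing.ResidueField A) M')
    (t0 : ∀ J c, RedTo (OInf3 (badSetup_W0 hq hA M' hqM)) (redInf3 (badSetup_W0 hq hA M' hqM)) J c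
      → RedTo (O 0) (red 0) J c)
    (t1 : ∀ J c, RedTo (OMid hq A hA hζ M' hqM (IsLocalRing.residue A)) ρ J c
      → RedTo (O 1) (red 1) J c)
    (t2 : ∀ J c, RedTo (OZero3 (badSetup_W0 hq hA M' hqM) w)
      (redZero3 (badSetup_W0 hq hA M' hqM) w) J c → RedTo (O 2) (red 2) J c)
    (hBO : ∀ i, ∀ b : ↥(chart ↥(W0 A) (J0 (q := q) ↥(K0 A) M' * J2 (q := q) ↥(K0 A) M')),
      algebraMap _ ↥(laurentBaseChange ↥(K0 A) (modularFunctionFieldFull (M' * q * q))) b ∈ O i)
    (qB dB : ↥(chart ↥(W0 A) (J0 (q := q) ↥(K0 A) M' * J2 (q := q) ↥(K0 A) M')))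
    (hqB : algebraMap _ ↥(laurentBaseChange ↥(K0 A) (modularFunctionFieldFull (M' * q * q))) qB =
      ((q : ℕ) : ↥(laurentBaseChange ↥(K0 A) (modularFunctionFieldFull (M' * q * q)))))
    (hdB : algebraMap _ ↥(laurentBaseChange ↥(K0 A) (modularFunctionFieldFull (M' * q * q))) dB =
      dMid A M' q) :
    ∃ (uB u₁B v₁B hB : ↥(chart ↥(W0 A) (J0 (q := q) ↥(K0 A) M' * J2 (q := q) ↥(K0 A) M')))
      (y₁ y₂ : ↥(laurentBaseChange ↥(K0 A) (modularFunctionFieldFull (M' * q * q)))),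
      (y₁ : LaurentSeries ↥(K0 A)) = u1 ↥(K0 A) q ∧ (y₂ : LaurentSeries ↥(K0 A)) = u2 ↥(K0 A) q ∧
      algebraMap _ ↥(laurentBaseChange ↥(K0 A) (modularFunctionFieldFull (M' * q * q))) uB =
        y₂ / y₁ ∧
      algebraMap _ ↥(laurentBaseChange ↥(K0 A) (modularFunctionFieldFull (M' * q * q))) u₁B =
        y₁ ∧
      algebraMap _ ↥(laurentBaseChange ↥(K0 A) (modularFunctionFieldFull (M' * q * q))) v₁B =
        ((q : ℕ) : ↥(laurentBaseChange ↥(K0 A) (modularFunctionFieldFull (M' * q * q)))) ^ 12 /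
          y₂ ∧
      algebraMap _ ↥(laurentBaseChange ↥(K0 A) (modularFunctionFieldFull (M' * q * q))) hB =
        dMid A M' q ^ (12 * (q - 1)) * y₁ / y₂ ∧
      UnitsFields (O 0) (O 1) (O 2) (red 0) (red 1) (red 2) (hBO 0) (hBO 1) (hBO 2)
        qB dB uB u₁B v₁B hB (Db hq hA M' hqM)
        (Local.Inst.Deriv.GJ (IsLocalRing.ResidueField A) M') 12 (q - 1) := by
  obtain ⟨y₁, hy₁⟩ := exists_y1 (q := q) hq A M'
  obtain ⟨y₂, hy₂⟩ := exists_y2 (q := q) hq A M'
  obtain ⟨uB, u₁B, v₁B, hB, hu, hu₁, hv₁, hh⟩ :=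
    UnitsFinUF.exists_uf hq A hA hζ M' hqM hy₁ hy₂ hw
  exact ⟨uB, u₁B, v₁B, hB, y₁, y₂, hy₁, hy₂, hu, hu₁, hv₁, hh,
    UnitsG7.unitsFields_of_transfer hq hA hζ M' hqM ρ hρ hw O red t0 t1 t2
      Subtype.val_injective hBO hy₁ hy₂ hqB hdB hu hu₁ hv₁ hh⟩

end Fermat.Agent.CAR.Inst.UnitsClosed
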