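/-
CAR (instance layer): **the record `Contract` of the finite chart at the literal `K0` objects**
(`contract_fin`), as ONE citation-only term, in the exact shape of the hypothesis `hfin` of
`WireB.coreB_of_contract_fin`, and the resulting closed core statement.

Objects (all on main): `O = Core.O3 hq A hA hζ M' hqM w`, `red = Core.HptRpK0B.red3 …`,
`B = chart W0 (J_0 J_2)`, the canonical `B' = integralClosure (W0[J(q^{M'})]) (K0 · F_{M'})`,
`red' = LiftInst.redBp …`, `π₀ π₂ = Pi1Fin.pi0 / pi2`, `x' = WireB.xJB A M'`, `D = Deriv.dJ`,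
`G = Deriv.GJ`, `q₀ = algebraMap W0 B q`, `Db = UnitsCols.Db`, `(N, e) = (12, q - 1)`.

Field groups: `FinClose` (q-, pull-back-, mid- and derivation fields), `FinFields` (`fin`,
`not_max`), `HMin3.hmin3` (`hmin`), `LiftJ23Inst` / `LiftInstClosed` (`lift`, `res`),
`UnitsClosed.exists_unitsFields_of_transfer` (the fourteen unit fields).
-/
import Mathlib
import Fermat.Agent.CAR.WireBClose
import Fermat.Agent.CAR.Inst.FinCloseMid
import Fermat.Agent.CAR.Inst.FinFields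
import Fermat.Agent.CAR.Inst.UnitsClosed
import Fermat.Agent.CAR.Inst.HMin3
import Fermat.Agent.CAR.Inst.LiftJ23Inst
import Fermat.Agent.CAR.Local.Inst.LiftInstClosed

set_option autoImplicit false
set_option linter.unusedSectionVars false
set_option linter.style.haveILetI false
set_option synthInstance.maxHeartbeats 400000
set_option maxHeartbeats 4000000

noncomputable section

namespace Fermat.Agent.CAR.Inst.ContractFinD

open IsLocalRing ModularCurve Fermat.Agent.ESJ.Jac Fermat.Agent.CAR.Formal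
  Fermat.Agent.CAR.Local Fermat.Agent.CAR.Local.Inst Fermat.Agent.CAR.Glob
  Fermat.Agent.CAR.Glob.Charts Fermat.Agent.CAR.K0 Fermat.Agent.CAR.V3
  Fermat.Agent.CAR.V3.MidRing Fermat.Agent.CAR.V3.MidRestrict Fermat.Agent.BAD.TwoVal
  Fermat.Agent.Lib.Red Fermat.Agent.S28 Fermat.Agent.ESJ.Cong.LevelGen

local notation "Qb" => AlgebraicClosure ℚ

variable {q : ℕ} (hq : q.Prime) (A : ValuationSubring Qb) (hA : A.LiesOverPrime q)
  {ζ : Qb} (hζ : IsPrimitiveRoot ζ q) (M' : ℕ) [NeZero M'] [NeZero q] (hqM : ¬ q ∣ M')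
  [Algebra ↥(W0 A) (FNK ↥(K0 A) (M' * q * q))]
  [IsScalarTower ↥(W0 A) ↥(K0 A) (FNK ↥(K0 A) (M' * q * q))]
  [IsAlgClosed (IsLocalRing.ResidueField A)]
  {w : ALAut (inertiaField A) (M' * q) q}

/-- **The record `Contract` of the finite chart at the literal `K0` objects.** -/
theorem contract_fin (h2 : q = 2 → 3 ∣ M') (h3 : q = 3 → 2 ∣ M') (hw : IsAL3 M' q w) :
    ∃ (hred : ∀ i, ∀ y : Core.O3 hq A hA hζ M' hqM w i,
          Core.HptRpK0B.red3 hq A hA hζ M' hqM w i y = 0 ↔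
            y ∈ maximalIdeal (Core.O3 hq A hA hζ M' hqM w i))
        (hBO : ∀ i, ∀ b : chart ↥(W0 A) (Core.xB A M' q),
          algebraMap (chart ↥(W0 A) (Core.xB A M' q)) (FNK ↥(K0 A) (M' * q * q)) b ∈
            Core.O3 hq A hA hζ M' hqM w i)
        (u₀ u₁ v₁ h₀ : chart ↥(W0 A) (Core.xB A M' q))
        (Db : ↥(modularFunctionFieldFullC (IsLocalRing.ResidueField A) M')) (N e : ℕ),
        Contract (Core.O3 hq A hA hζ M' hqM w) (Core.HptRpK0B.red3 hq A hA hζ M' hqM w) hred hBO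
          (LiftInst.redBp (BaseFn.Data.ofJ (W0 A) (resW0 A) M') (resW0_eq_zero_of_not_isUnit A)
            (badSetup_W0 hq hA M' hqM).hMk)
          (Fermat.Agent.CAR.Inst.Pi1Fin.pi0 ↥(K0 A) M' q (W0 A) (resW0 A) hq)
          (Fermat.Agent.CAR.Inst.Pi1Fin.pi2 ↥(K0 A) M' q (W0 A) (resW0 A) hq)
          (Deriv.dJ (IsLocalRing.ResidueField A) M')
          (algebraMap (W0 A) (chart ↥(W0 A) (Core.xB A M' q)) ((q : ℕ) : W0 A))
          (WireB.xJB A M')
          u₀ u₁ v₁ h₀ Db (Deriv.GJ (IsLocalRing.ResidueField A) M') N e := by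
  have hκ := Count.redMid_mem_fullC hq A hA hζ M' hqM
  have hBO : ∀ i, ∀ b : chart ↥(W0 A) (Core.xB A M' q),
      algebraMap (chart ↥(W0 A) (Core.xB A M' q)) (FNK ↥(K0 A) (M' * q * q)) b ∈
        Core.O3 hq A hA hζ M' hqM w i :=
    fun i a => HMin3.hRV3 hq A hA hζ M' hqM hw i a a.2
  have hr0 : ∀ f : OInf3 (badSetup_W0 hq hA M' hqM),
      Core.HptRpK0B.red3 hq A hA hζ M' hqM w 0 f = redInf3 (badSetup_W0 hq hA M' hqM) f :=
    fun _ => rfl
  have hr1 : ∀ f : OMid hq A hA hζ M' hqM (IsLocalRing.residue A),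
      ((Core.HptRpK0B.red3 hq A hA hζ M' hqM w 1 f :
          modularFunctionFieldFullC (IsLocalRing.ResidueField A) M') :
        LaurentSeries (IsLocalRing.ResidueField A))
        = redMid hq A hA hζ M' hqM (IsLocalRing.residue A) f :=
    fun _ => rfl
  have hr2 : ∀ f : OZero3 (badSetup_W0 hq hA M' hqM) w,
      Core.HptRpK0B.red3 hq A hA hζ M' hqM w 2 f = redZero3 (badSetup_W0 hq hA M' hqM) w f :=
    fun _ => rfl
  have hqB : algebraMap (chart ↥(W0 A) (Core.xB A M' q)) (FNK ↥(K0 A) (M' * q * q))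
      (algebraMap (W0 A) (chart ↥(W0 A) (Core.xB A M' q)) ((q : ℕ) : W0 A)) =
        ((q : ℕ) : FNK ↥(K0 A) (M' * q * q)) :=
    UnitsClosed.algebraMap_natCast_chart M' (Core.xB A M' q)
  have hι : ∀ y : WireB.BpB A M',
      (y : ↥(laurentBaseChange ↥(K0 A) (modularFunctionFieldFull M'))) ∈
        Ow (W0 A) (resW0 A) M' (badSetup_W0 hq hA M' hqM).hMk :=
    fun y => (BaseFn.Data.ofJ (W0 A) (resW0 A) M').mem_Ow_of_isIntegral_AX
      (badSetup_W0 hq hA M' hqM).hMk y.2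
  have hred' : ∀ y : WireB.BpB A M',
      LiftInst.redBp (BaseFn.Data.ofJ (W0 A) (resW0 A) M') (resW0_eq_zero_of_not_isUnit A)
          (badSetup_W0 hq hA M' hqM).hMk y =
        redF (W0 A) (resW0 A) M' (resW0_eq_zero_of_not_isUnit A)
          (badSetup_W0 hq hA M' hqM).hMk ⟨y, hι y⟩ :=
    fun _ => rfl
  have hπ₀ : ∀ y : WireB.BpB A M',
      algebraMap (chart ↥(W0 A) (Core.xB A M' q)) (FNK ↥(K0 A) (M' * q * q))
          (Fermat.Agent.CAR.Inst.Pi1Fin.pi0 ↥(K0 A) M' q (W0 A) (resW0 A) hq y) =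
        piStar0 ↥(K0 A) M' q (y : ↥(laurentBaseChange ↥(K0 A) (modularFunctionFieldFull M'))) :=
    fun _ => rfl
  have hπ₂ : ∀ y : WireB.BpB A M',
      algebraMap (chart ↥(W0 A) (Core.xB A M' q)) (FNK ↥(K0 A) (M' * q * q))
          (Fermat.Agent.CAR.Inst.Pi1Fin.pi2 ↥(K0 A) M' q (W0 A) (resW0 A) hq y) =
        piStar2 ↥(K0 A) M' q (y : ↥(laurentBaseChange ↥(K0 A) (modularFunctionFieldFull M'))) :=
    fun _ => rfl
  have hx' : ((WireB.xJB A M' : WireB.BpB A M') :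
      ↥(laurentBaseChange ↥(K0 A) (modularFunctionFieldFull M'))) = jLevel ↥(K0 A) M' := rfl
  have hdB := FinClose.coe_d A M'
    (fun y : WireB.BpB A M' => (y : ↥(laurentBaseChange ↥(K0 A) (modularFunctionFieldFull M'))))
    (Fermat.Agent.CAR.Inst.Pi1Fin.pi0 ↥(K0 A) M' q (W0 A) (resW0 A) hq)
    (Fermat.Agent.CAR.Inst.Pi1Fin.pi2 ↥(K0 A) M' q (W0 A) (resW0 A) hq) hπ₀ hπ₂ hx'
  obtain ⟨uB, u₁B, v₁B, hhB, y₁, y₂, -, -, -, -, -, -, HU⟩ :=
    UnitsClosed.exists_unitsFields_of_transfer hq hA hζ M' hqM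
      (MidKappa.redMidK hq A hA hζ M' hqM hκ) (fun _ => rfl) hw
      (Core.O3 hq A hA hζ M' hqM w) (Core.HptRpK0B.red3 hq A hA hζ M' hqM w)
      (fun _ _ h => h) (fun _ _ h => h) (fun _ _ h => h) hBO
      (algebraMap (W0 A) (chart ↥(W0 A) (Core.xB A M' q)) ((q : ℕ) : W0 A))
      (Fermat.Agent.CAR.Inst.Pi1Fin.pi2 ↥(K0 A) M' q (W0 A) (resW0 A) hq (WireB.xJB A M') -
        Fermat.Agent.CAR.Inst.Pi1Fin.pi0 ↥(K0 A) M' q (W0 A) (resW0 A) hq (WireB.xJB A M'))
      hqB hdB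
  refine ⟨Core.HptRpK0B.hred3 hq A hA hζ M' hqM w, hBO, uB, u₁B, v₁B, hhB,
    UnitsCols.Db hq hA M' hqM, 12, q - 1, ?_⟩
  exact
    { q_ne := FinClose.q_ne hq A hζ M' hqM hqB
      hmin := HMin3.hmin3 hq A hA hζ M' hqM hw
        (fun i r hr => HMin3.hRV3 hq A hA hζ M' hqM hw i r hr)
      not_max := FinFields.not_max3' hq A hA hζ M' hqM hw hBO hκ
      q_mem := FinClose.q_mem hq A hA hζ M' hqM hqB
      unif_inf := FinClose.unif_inf hq A hA M' hqM hqB
      unif_zero := FinClose.unif_zero hq A hA M' hqM hqB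
      inf_π₀ := FinClose.inf_π₀ hq A hA hζ M' hqM (Core.HptRpK0B.red3 hq A hA hζ M' hqM w) hr0
        hBO _ hι _ hred' _ hπ₀
      mid_π₀ := FinClose.mid_π₀ hq A hA hζ M' hqM (Core.HptRpK0B.red3 hq A hA hζ M' hqM w) hr1
        hBO _ hι _ hred' _ hπ₀
      mid_π₂ := FinClose.mid_π₂ hq A hA hζ M' hqM (Core.HptRpK0B.red3 hq A hA hζ M' hqM w) hr1
        hBO _ hι _ hred' _ hπ₂
      zero_π₂ := FinClose.zero_π₂ hq A hA hζ M' hqM (Core.HptRpK0B.red3 hq A hA hζ M' hqM w) hr2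
        hBO _ hι _ hred' _ hπ₂ hw
      fin := FinFields.fin3 hq A hA hζ M' hqM hw (Core.HptRpK0B.red3 hq A hA hζ M' hqM w)
        hr0 hr1 hr2 hBO (LiftInst.redOnto_redBp _ _ _)
      lift := LiftJ23Inst.contract_lift_redBp_all hq hA h2 h3
      res := LiftInst.contract_res_redBp hq hA
      deriv := FinClose.deriv A M'
      deriv_x := FinClose.deriv_x hq A hA M' hqM _ hι _ hred' hx'
      d_mem := FinClose.d_mem hq A hA hζ M' hqM _ _ _ hπ₀ hπ₂ hx'
      unif_mid := FinClose.unif_mid hq A hA hζ M' hqM _ _ _ hπ₀ hπ₂ hx'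
      cd := FinClose.cd hq A hA hζ M' hqM (Core.HptRpK0B.red3 hq A hA hζ M' hqM w) hr1
        _ hι _ hred' _ _ hπ₀ hπ₂ hx' hκ
      e_ne := HU.e_ne
      prod := HU.prod
      Db_ne := HU.Db_ne
      u_inf := HU.u_inf
      u_mid := HU.u_mid
      u_zero := HU.u_zero
      u₁_inf := HU.u₁_inf
      u₁_mid := HU.u₁_mid
      u₁_zero := HU.u₁_zero
      v₁_inf := HU.v₁_inf
      v₁_mid := HU.v₁_mid
      v₁_zero := HU.v₁_zero
      cert := HU.cert
      red_h := HU.red_h }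

/-- **The core statement `Final.Core 12 11`** (route B: `WireB.coreB_of_contract_fin` applied to
the record above). -/
theorem core : Fermat.Agent.CAR.Final.Core 12 11 :=
  WireB.coreB_of_contract_fin (fun hq A hA _ hζ M' _ _ hqM _ h2 h3 _ _ _ _ hw =>
    contract_fin hq A hA hζ M' hqM h2 h3 hw)

end Fermat.Agent.CAR.Inst.ContractFinD

end
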