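import Mathlib
import Fermat.Agent.CAR.V3.MidCuspB
import Fermat.Agent.CAR.V3.CuspUnitM
import Fermat.Agent.CAR.Local.InstCuspOf
import Fermat.Agent.CAR.V3.MidKappa

/-!
# CAR (row 395, cusp chart): the record `V3CuspMid` on the raw objects

`F = K0·F_{M' q²}` (`K0 = inertiaField A`), `κ = modularFunctionFieldFullC k M'`
(`k = ResidueField A`), `O_mid = OMid …`, `J_i = CuspQuot.J_i K0 M' = π_i^* x` (`x = J(q^M')`,
convention (B)), `x̄ = xk k M'`.

For a `κ`-valued residue map `ρ : O_mid →+* κ` with `(ρ f : k((q))) = redMid f`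
(`MidKappa.redMidK`, `MidKappaB.redMidK`):

* `redTo_J0`, `redTo_J1`, `redTo_J2` : `J₀, J₁, J₂` reduce to `x̄, x̄^q, x̄` on `C_mid`
  (the three `mid` inputs of `V3Cusp.of_J`);
* `exists_redTo_cert` : `(J₂ - J₀)^(q-1) / q` reduces to some `c ∈ κ` with series `-(θ x̄)^(q-1)`;
* `redTo_const`, `exists_redOn_eq_algebraMap`, `hk_of_const` : constants;
* `exists_v3CuspMid` : **the record** `V3CuspMid O red hBO qB y₁ y₂ (1 - J₀/J₂) q (q-1) 1 x̄⁻¹ g`
  for every chart ring `B` and every `(O, red, hBO)` whose middle component is `(O_mid, ρ)`;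
* `exists_v3CuspMid_redMidK` : the same for `ρ = MidKappa.redMidK … hκ`.
-/

set_option autoImplicit false
set_option linter.unusedSectionVars false
set_option linter.style.haveILetI false

noncomputable section

namespace Fermat.Agent.CAR.Inst.CuspMidInst

open ModularCurve HahnSeries Fermat.Agent.S24 Fermat.Agent.S28 Fermat.Agent.S28.Chain
  Fermat.Agent.Lib.Red Fermat.Agent.CAR.K0 Fermat.Agent.CAR.V3.GaussDVR
  Fermat.Agent.CAR.Local.ThetaJ Fermat.Agent.CAR.V3.MidRing Fermat.Agent.CAR.Glob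
  Fermat.Agent.CAR.V3 Fermat.Agent.CAR.Local Fermat.Agent.CAR.Local.InstCusp

local notation "Qb" => AlgebraicClosure ℚ

variable {q : ℕ} (hq : q.Prime) (A : ValuationSubring Qb) (hA : A.LiesOverPrime q)
  {ζ : Qb} (hζ : IsPrimitiveRoot ζ q) (M' : ℕ) [NeZero M'] [NeZero q] (hqM : ¬ q ∣ M')
  (hMk : (M' : IsLocalRing.ResidueField A) ≠ 0)
  (ρ : OMid hq A hA hζ M' hqM (IsLocalRing.residue A) →+*
    modularFunctionFieldFullC (IsLocalRing.ResidueField A) M')
  (hρ : ∀ f : OMid hq A hA hζ M' hqM (IsLocalRing.residue A),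
    ((ρ f : modularFunctionFieldFullC (IsLocalRing.ResidueField A) M') :
      LaurentSeries (IsLocalRing.ResidueField A))
      = redMid hq A hA hζ M' hqM (IsLocalRing.residue A) f)

/-! ### Reductions on `C_mid` in `RedTo` form -/

include hMk hρ in
/-- `J₀` reduces to `x̄` on `C_mid`. -/
theorem redTo_J0 :
    RedTo (OMid hq A hA hζ M' hqM (IsLocalRing.residue A)) ρ
      (CuspQuot.J0 (q := q) (inertiaField A) M') (xk (IsLocalRing.ResidueField A) M') := by
  obtain ⟨h, hr⟩ := MidCuspB.mid₀ hq A hA hζ M' hqM hMk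
  refine ⟨h, Subtype.ext ?_⟩
  rw [hρ, hr]
  rfl

include hMk hρ in
/-- `J₂` reduces to `x̄` on `C_mid`. -/
theorem redTo_J2 :
    RedTo (OMid hq A hA hζ M' hqM (IsLocalRing.residue A)) ρ
      (CuspQuot.J2 (q := q) (inertiaField A) M') (xk (IsLocalRing.ResidueField A) M') := by
  obtain ⟨h, hr⟩ := MidCuspB.mid₂ hq A hA hζ M' hqM hMk
  refine ⟨h, Subtype.ext ?_⟩
  rw [hρ, hr]
  rfl

include hMk hρ in
/-- `J₁` reduces to `x̄^q` on `C_mid`. -/
theorem redTo_J1 :
    RedTo (OMid hq A hA hζ M' hqM (IsLocalRing.residue A)) ρ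
      (CuspQuot.J1 (q := q) (inertiaField A) M') (xk (IsLocalRing.ResidueField A) M' ^ q) := by
  obtain ⟨h, hr⟩ := MidCuspB.mid₁ hq A hA hζ M' hqM hMk
  refine ⟨h, Subtype.ext ?_⟩
  rw [hρ, hr]
  rfl

include hMk hρ in
/-- `(J₂ - J₀)^(q-1) / q` reduces on `C_mid` to an element of `κ` with series
`-(θ x̄)^(q-1)`. -/
theorem exists_redTo_cert :
    ∃ c : modularFunctionFieldFullC (IsLocalRing.ResidueField A) M',
      ((c : modularFunctionFieldFullC (IsLocalRing.ResidueField A) M') :
        LaurentSeries (IsLocalRing.ResidueField A))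
        = -(thetaL (IsLocalRing.ResidueField A) (TD.Jd (IsLocalRing.ResidueField A) M'))
            ^ (q - 1) ∧
      RedTo (OMid hq A hA hζ M' hqM (IsLocalRing.residue A)) ρ
        ((CuspQuot.J2 (q := q) (inertiaField A) M'
            - CuspQuot.J0 (q := q) (inertiaField A) M') ^ (q - 1)
          / ((q : ℕ) : FK (inertiaField A) (M' * q * q))) c := by
  obtain ⟨hz, hr⟩ := MidCuspB.hc hq A hA hζ M' hqM hMk
  exact ⟨ρ ⟨_, hz⟩, by rw [hρ, hr], hz, rfl⟩

/-! ### Constants -/

set_option synthInstance.maxHeartbeats 400000 in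
include hρ in
/-- A constant of `W0` reduces to its residue on `C_mid`. -/
theorem redTo_const (w : W0 A) :
    RedTo (OMid hq A hA hζ M' hqM (IsLocalRing.residue A)) ρ
      (CK (inertiaField A) (M' * q * q) (w : inertiaField A))
      (algebraMap (IsLocalRing.ResidueField A)
        (modularFunctionFieldFullC (IsLocalRing.ResidueField A) M') (resW0 A w)) := by
  have hw : (((w : inertiaField A) : Qb)) ∈ A := (inclW0 A w).2
  have hmem : CK (inertiaField A) (M' * q * q) (w : inertiaField A)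
      ∈ OMid hq A hA hζ M' hqM (IsLocalRing.residue A) :=
    (CK_mem_OMid_iff hq A hA hζ M' hqM (IsLocalRing.residue A)
      (residue_eq_zero_of_not_isUnit A) _).mpr hw
  refine ⟨hmem, Subtype.ext ?_⟩
  rw [hρ, redMid_CK hq A hA hζ M' hqM (IsLocalRing.residue A) _ hw hmem,
    Fermat.Agent.Lib.Red.C_eq_algebraMap]
  rfl

section Record

variable {B : Type*} [CommRing B] [Algebra B ↥(FK (inertiaField A) (M' * q * q))]
  {O : Fin 3 → ValuationSubring ↥(FK (inertiaField A) (M' * q * q))}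
  {red : ∀ i, O i →+* modularFunctionFieldFullC (IsLocalRing.ResidueField A) M'}
  {hBO : ∀ i, ∀ b : B, algebraMap B ↥(FK (inertiaField A) (M' * q * q)) b ∈ O i}

set_option synthInstance.maxHeartbeats 400000 in
include hq hρ in
/-- If the constants of `W0` lie in `B`, every constant of `k` is the reduction on `C_mid` of an
element of `B`. -/
theorem exists_redOn_eq_algebraMap
    (htr : ∀ (J : ↥(FK (inertiaField A) (M' * q * q)))
      (c : modularFunctionFieldFullC (IsLocalRing.ResidueField A) M'),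
      RedTo (OMid hq A hA hζ M' hqM (IsLocalRing.residue A)) ρ J c → RedTo (O 1) (red 1) J c)
    (hW : ∀ w : W0 A, ∃ b : B, algebraMap B ↥(FK (inertiaField A) (M' * q * q)) b
      = CK (inertiaField A) (M' * q * q) (w : inertiaField A))
    (a : IsLocalRing.ResidueField A) :
    ∃ b : B, redOn (O 1) (red 1) (hBO 1) b
      = algebraMap (IsLocalRing.ResidueField A)
          (modularFunctionFieldFullC (IsLocalRing.ResidueField A) M') a := by
  obtain ⟨w, rfl⟩ := resW0_surjective hq hA a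
  obtain ⟨b, hb⟩ := hW w
  refine ⟨b, ?_⟩
  have h1 := htr _ _ (redTo_const hq A hA hζ M' hqM ρ hρ w)
  have h2 := redTo_algebraMap (O 1) (red 1) (hBO 1) b
  rw [hb] at h2
  exact h2.unique h1

set_option synthInstance.maxHeartbeats 400000 in
/-- The constants are regular at every place containing the reduction of `B`. -/
theorem hk_of_const
    (hconst : ∀ a : IsLocalRing.ResidueField A, ∃ b : B, redOn (O 1) (red 1) (hBO 1) b
      = algebraMap (IsLocalRing.ResidueField A)
          (modularFunctionFieldFullC (IsLocalRing.ResidueField A) M') a)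
    (Vs : ValuationSubring (modularFunctionFieldFullC (IsLocalRing.ResidueField A) M'))
    (hB : ∀ b : B, redOn (O 1) (red 1) (hBO 1) b ∈ Vs) (a : IsLocalRing.ResidueField A) :
    algebraMap (IsLocalRing.ResidueField A)
      (modularFunctionFieldFullC (IsLocalRing.ResidueField A) M') a ∈ Vs := by
  obtain ⟨b, hb⟩ := hconst a
  rw [← hb]
  exact hB b

set_option synthInstance.maxHeartbeats 400000 in
include hq hA hMk hρ in
/-- **The record `V3CuspMid` on the raw objects** (convention (B): `J_i = π_i^* x`,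
`x = J(q^M')`, `x̄ = xk k M'`, `e = 1 - J₀/J₂`, `(m, n, N) = (q, q - 1, 1)`,
`g = -(θ x̄ / x̄)^(q-1)`). -/
theorem exists_v3CuspMid
    (hred : ∀ i, ∀ x : O i, red i x = 0 ↔ x ∈ IsLocalRing.maximalIdeal (O i))
    (hO : O 1 = OMid hq A hA hζ M' hqM (IsLocalRing.residue A))
    (htr : ∀ (J : ↥(FK (inertiaField A) (M' * q * q)))
      (c : modularFunctionFieldFullC (IsLocalRing.ResidueField A) M'),
      RedTo (OMid hq A hA hζ M' hqM (IsLocalRing.residue A)) ρ J c → RedTo (O 1) (red 1) J c)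
    {qB y₁ y₂ : B}
    (hqB : algebraMap B ↥(FK (inertiaField A) (M' * q * q)) qB
      = ((q : ℕ) : FK (inertiaField A) (M' * q * q)))
    (hy₁ : algebraMap B ↥(FK (inertiaField A) (M' * q * q)) y₁
      * CuspQuot.J0 (q := q) (inertiaField A) M' ^ q = CuspQuot.J1 (q := q) (inertiaField A) M')
    (hy₂ : algebraMap B ↥(FK (inertiaField A) (M' * q * q)) y₂
      * CuspQuot.J2 (q := q) (inertiaField A) M' ^ q = CuspQuot.J1 (q := q) (inertiaField A) M')
    (hk : ∀ Vs : ValuationSubring (modularFunctionFieldFullC (IsLocalRing.ResidueField A) M'),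
      (∀ b : B, redOn (O 1) (red 1) (hBO 1) b ∈ Vs) → ∀ a : IsLocalRing.ResidueField A,
        algebraMap (IsLocalRing.ResidueField A)
          (modularFunctionFieldFullC (IsLocalRing.ResidueField A) M') a ∈ Vs) :
    ∃ g : modularFunctionFieldFullC (IsLocalRing.ResidueField A) M',
      V3CuspMid O red hBO qB y₁ y₂
        (1 - CuspQuot.J0 (q := q) (inertiaField A) M' / CuspQuot.J2 (q := q) (inertiaField A) M')
        q (q - 1) 1 (xk (IsLocalRing.ResidueField A) M')⁻¹ g := by
  haveI : Fact q.Prime := ⟨hq⟩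
  haveI : CharP (IsLocalRing.ResidueField A) q :=
    (CharP.charP_iff_prime_eq_zero hq).mpr
      (natCast_eq_zero_of_liesOver A _ (residue_eq_zero_of_not_isUnit A) hA)
  obtain ⟨c, hcc, hcr⟩ := exists_redTo_cert hq A hA hζ M' hqM hMk ρ hρ
  have hJb : xk (IsLocalRing.ResidueField A) M' ≠ 0 := by
    intro h
    have h1 : TD.Jd (IsLocalRing.ResidueField A) M' = 0 := congrArg Subtype.val h
    exact Fermat.Agent.S28.ValInd.Jd_ne_zero (K := IsLocalRing.ResidueField A) M'
      (NeZero.ne M') h1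
  have hpow : xk (IsLocalRing.ResidueField A) M' ^ (q - 1) ≠ 0 := pow_ne_zero _ hJb
  refine ⟨c / xk (IsLocalRing.ResidueField A) M' ^ (q - 1),
    V3CuspMid.of_J hred hJb hq.ne_zero
      (htr _ _ (redTo_J0 hq A hA hζ M' hqM hMk ρ hρ))
      (htr _ _ (redTo_J2 hq A hA hζ M' hqM hMk ρ hρ)) hy₁ hy₂
      (Nat.sub_ne_zero_of_lt hq.one_lt) ?_ ?_ (c := c) ?_ (div_mul_cancel₀ _ hpow) ?_⟩
  · rw [hO]
    exact MidCuspB.hd hq A hA hζ M' hqM hMk
  · rw [hO]
    exact MidCuspB.hunif hq A hA hζ M' hqM hMk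
  · rw [hqB, pow_one]
    exact htr _ _ hcr
  · intro Vs hB hpole
    exact (CuspUnitM.g_unit_at_cusp_Jd Vs q M'
      (modularFunctionFieldFullC (IsLocalRing.ResidueField A) M').val (hk Vs hB) hMk
      (j := xk (IsLocalRing.ResidueField A) M') rfl hcc (div_mul_cancel₀ _ hpow) hpole).2

end Record

/-! ### The instance for `ρ = MidKappa.redMidK` -/

section RedMidK

variable (hκ : ∀ f : OMid hq A hA hζ M' hqM (IsLocalRing.residue A),
    redMid hq A hA hζ M' hqM (IsLocalRing.residue A) f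
      ∈ modularFunctionFieldFullC (IsLocalRing.ResidueField A) M')
  {B : Type*} [CommRing B] [Algebra B ↥(FK (inertiaField A) (M' * q * q))]
  {O : Fin 3 → ValuationSubring ↥(FK (inertiaField A) (M' * q * q))}
  {red : ∀ i, O i →+* modularFunctionFieldFullC (IsLocalRing.ResidueField A) M'}
  {hBO : ∀ i, ∀ b : B, algebraMap B ↥(FK (inertiaField A) (M' * q * q)) b ∈ O i}

set_option synthInstance.maxHeartbeats 400000 in
include hq hA hMk in
/-- **The record `V3CuspMid`** for the middle component `(O_mid, MidKappa.redMidK … hκ)`, with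
the constants of `W0` in `B`. -/
theorem exists_v3CuspMid_redMidK
    (hred : ∀ i, ∀ x : O i, red i x = 0 ↔ x ∈ IsLocalRing.maximalIdeal (O i))
    (hO : O 1 = OMid hq A hA hζ M' hqM (IsLocalRing.residue A))
    (htr : ∀ (J : ↥(FK (inertiaField A) (M' * q * q)))
      (c : modularFunctionFieldFullC (IsLocalRing.ResidueField A) M'),
      RedTo (OMid hq A hA hζ M' hqM (IsLocalRing.residue A))
        (MidKappa.redMidK hq A hA hζ M' hqM hκ) J c → RedTo (O 1) (red 1) J c)
    {qB y₁ y₂ : B}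
    (hqB : algebraMap B ↥(FK (inertiaField A) (M' * q * q)) qB
      = ((q : ℕ) : FK (inertiaField A) (M' * q * q)))
    (hy₁ : algebraMap B ↥(FK (inertiaField A) (M' * q * q)) y₁
      * CuspQuot.J0 (q := q) (inertiaField A) M' ^ q = CuspQuot.J1 (q := q) (inertiaField A) M')
    (hy₂ : algebraMap B ↥(FK (inertiaField A) (M' * q * q)) y₂
      * CuspQuot.J2 (q := q) (inertiaField A) M' ^ q = CuspQuot.J1 (q := q) (inertiaField A) M')
    (hW : ∀ w : W0 A, ∃ b : B, algebraMap B ↥(FK (inertiaField A) (M' * q * q)) b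
      = CK (inertiaField A) (M' * q * q) (w : inertiaField A)) :
    ∃ g : modularFunctionFieldFullC (IsLocalRing.ResidueField A) M',
      V3CuspMid O red hBO qB y₁ y₂
        (1 - CuspQuot.J0 (q := q) (inertiaField A) M' / CuspQuot.J2 (q := q) (inertiaField A) M')
        q (q - 1) 1 (xk (IsLocalRing.ResidueField A) M')⁻¹ g :=
  exists_v3CuspMid hq A hA hζ M' hqM hMk (MidKappa.redMidK hq A hA hζ M' hqM hκ)
    (fun _ => rfl) hred hO htr hqB hy₁ hy₂
    (hk_of_const A M' (exists_redOn_eq_algebraMap hq A hA hζ M' hqM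
      (MidKappa.redMidK hq A hA hζ M' hqM hκ) (fun _ => rfl) htr hW))

end RedMidK

end Fermat.Agent.CAR.Inst.CuspMidInst

end
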