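import Mathlib
import Fermat.Agent.CAR.Inst.CuspInst
import Fermat.Agent.CAR.Inst.CuspMidInst

/-!
# CAR (instance layer, cusps), convention (B): the records `V3Cusp` / `V3CuspMid` for the chart
at infinity `B_∞ = chart W (J₀ J₂)⁻¹` with `J_i = CuspQuot.J_i = π_i^* x`, `x = xL = J(q^M')`

Twin of `CuspInst.lean` (convention (A): `J_i = π_i^* jLevel`) for the chart function of
ruling #6: `x_B = CuspQuot.J0 * CuspQuot.J2`, local parameter at the cusps `yb = (xk k M')⁻¹`.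

* §1 (any `BadSetup A π M' q`): the reductions of `J₀, J₁, J₂` on `O_∞ = OInf3 h` and
  `O_0 = OZero3 h w` in `RedTo` form: `(x̄, x̄^q, x̄^(q²))` resp. `(x̄^(q²), x̄^q, x̄)`,
  `x̄ = xk k M'`;
* §2 (any `L`, any base ring `W`): the five elements `xinvB, y₁B, y₂B, y₃B, y₀B` of
  `B_∞ = chart W (J₀ J₂)⁻¹` (`CuspQuot.piStar_isIntegral_quot`) with the literal equations of
  `V3Cusp.of_J`;
* §3 the records `v3Cusp`, `exists_v3CuspMid` and `algebraMap_chart_mem` (`hBO`) for every family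
  `(O, red)` whose members are (`O_∞`, `red_∞`), (`O_mid`, `redK`), (`O_0`, `red_0`)
  (bridges in the `(h_i, r_i)` shape of `CuspInst.lean`).
-/

set_option autoImplicit false
set_option linter.unusedSectionVars false
set_option linter.style.haveILetI false

noncomputable section

namespace Fermat.Agent.CAR.Inst.CuspInstB

open IsLocalRing ModularCurve HahnSeries
open Fermat.Agent.Lib.Red Fermat.Agent.S28 Fermat.Agent.BAD.TwoVal
open Fermat.Agent.CAR.K0 Fermat.Agent.CAR.V3 Fermat.Agent.CAR.V3.MidRing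
open Fermat.Agent.CAR.Local Fermat.Agent.CAR.Local.Inst Fermat.Agent.CAR.Local.InstCusp
open Fermat.Agent.CAR.Local.ThetaJ
open Fermat.Agent.CAR.Glob
open Fermat.Agent.CAR.Inst.CuspInst (redTo_transfer mem_of_mem_chart algebraMap_chart_apply)

local notation "Qb" => AlgebraicClosure ℚ

/-! ### §0 The residue function field -/

section Kappa

variable (k : Type) [Field k] (M' : ℕ) [NeZero M']

/-- `x̄ = J̄(q^M')` is nonzero. -/
theorem xk_ne_zero : xk k M' ≠ 0 := by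
  intro h
  have h1 : TD.Jd k M' = 0 := congrArg Subtype.val h
  exact Fermat.Agent.S28.ValInd.Jd_ne_zero (K := k) M' (NeZero.ne M') h1

end Kappa

/-! ### §1 Reductions on `O_∞` and `O_0` -/

section InfZero

variable {L : Type} [Field L] [Algebra ℚ L] {A : ValuationSubring L} {k : Type} [Field k]
  {π : A →+* k} {M' q : ℕ} [NeZero M'] [NeZero q]

/-- The Frobenius twist of `x̄`. -/
theorem qExpand_Jd (h : BadSetup A π M' q) : qExpand k q (TD.Jd k M') = TD.Jd k M' ^ q := by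
  haveI : Fact q.Prime := ⟨h.hℓ⟩
  haveI : CharP k q := h.charP
  exact MidCuspB.qExpand_Jd_charP k q M'

theorem qExpand_qExpand_Jd (h : BadSetup A π M' q) :
    qExpand k q (qExpand k q (TD.Jd k M')) = TD.Jd k M' ^ q ^ 2 := by
  rw [qExpand_Jd h, map_pow, qExpand_Jd h, ← pow_mul, sq]

/-- The reduction of `x = J(q^M')` has expansion `J̄(q^M')`. -/
theorem coe_redF_xL (h : BadSetup A π M' q) :
    ((redF A π M' h.hπ h.hMk ⟨xL L M', xL_mem_Ow h.hMk⟩ : modularFunctionFieldFullC k M') :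
      LaurentSeries k) = TD.Jd k M' := by
  rw [redF_xL h.hπ h.hMk]
  rfl

variable (h : BadSetup A π M' q)

/-- `red_∞ J₀ = x̄`. -/
theorem redTo_inf₀ : RedTo (OInf3 h) (redInf3 h) (CuspQuot.J0 (q := q) L M') (xk k M') := by
  have hx : xL L M' ∈ Ow A π M' h.hMk := xL_mem_Ow h.hMk
  have hx' : piStar0 L M' q (xL L M') ∈ OInf3 h := (piStar0_mem_OInf3_iff h _).mpr hx
  exact ⟨hx', (redInf3_piStar0 h _ hx hx').trans (redF_xL h.hπ h.hMk)⟩

/-- `red_∞ J₁ = x̄^q`. -/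
theorem redTo_inf₁ :
    RedTo (OInf3 h) (redInf3 h) (CuspQuot.J1 (q := q) L M') (xk k M' ^ q) := by
  have hx : xL L M' ∈ Ow A π M' h.hMk := xL_mem_Ow h.hMk
  have hx' : piStar1 L M' q (xL L M') ∈ OInf3 h := (piStar1_mem_OInf3_iff h _).mpr hx
  refine ⟨hx', Subtype.ext ?_⟩
  have e := coe_redInf3_piStar1 h _ hx hx'
  rw [coe_redF_xL h, qExpand_Jd h] at e
  exact e

/-- `red_∞ J₂ = x̄^(q²)`. -/
theorem redTo_inf₂ :
    RedTo (OInf3 h) (redInf3 h) (CuspQuot.J2 (q := q) L M') (xk k M' ^ q ^ 2) := by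
  have hx : xL L M' ∈ Ow A π M' h.hMk := xL_mem_Ow h.hMk
  have hx' : piStar2 L M' q (xL L M') ∈ OInf3 h := (piStar2_mem_OInf3_iff h _).mpr hx
  refine ⟨hx', Subtype.ext ?_⟩
  have e := coe_redInf3_piStar2 h _ hx hx'
  rw [coe_redF_xL h, qExpand_qExpand_Jd h] at e
  exact e

variable {w : laurentBaseChange L (modularFunctionFieldFull (M' * q * q)) ≃ₐ[L]
    laurentBaseChange L (modularFunctionFieldFull (M' * q * q))} (hw : IsAL3 M' q w)

include hw

/-- `red_0 J₀ = x̄^(q²)`. -/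
theorem redTo_zero₀ :
    RedTo (OZero3 h w) (redZero3 h w) (CuspQuot.J0 (q := q) L M') (xk k M' ^ q ^ 2) := by
  have hx : xL L M' ∈ Ow A π M' h.hMk := xL_mem_Ow h.hMk
  have hx' : piStar0 L M' q (xL L M') ∈ OZero3 h w := (piStar0_mem_OZero3_iff h hw _).mpr hx
  refine ⟨hx', Subtype.ext ?_⟩
  have e := coe_redZero3_piStar0 h hw _ hx hx'
  rw [coe_redF_xL h, qExpand_qExpand_Jd h] at e
  exact e

/-- `red_0 J₁ = x̄^q`. -/
theorem redTo_zero₁ :
    RedTo (OZero3 h w) (redZero3 h w) (CuspQuot.J1 (q := q) L M') (xk k M' ^ q) := by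
  have hx : xL L M' ∈ Ow A π M' h.hMk := xL_mem_Ow h.hMk
  have hx' : piStar1 L M' q (xL L M') ∈ OZero3 h w := (piStar1_mem_OZero3_iff h hw _).mpr hx
  refine ⟨hx', Subtype.ext ?_⟩
  have e := coe_redZero3_piStar1 h hw _ hx hx'
  rw [coe_redF_xL h, qExpand_Jd h] at e
  exact e

/-- `red_0 J₂ = x̄`. -/
theorem redTo_zero₂ :
    RedTo (OZero3 h w) (redZero3 h w) (CuspQuot.J2 (q := q) L M') (xk k M') := by
  have hx : xL L M' ∈ Ow A π M' h.hMk := xL_mem_Ow h.hMk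
  have hx' : piStar2 L M' q (xL L M') ∈ OZero3 h w := (piStar2_mem_OZero3_iff h hw _).mpr hx
  exact ⟨hx', (redZero3_piStar2 h hw _ hx hx').trans (redF_xL h.hπ h.hMk)⟩

end InfZero

/-! ### §2 The five elements of the chart ring at infinity -/

section Chart

variable (L : Type) [Field L] [Algebra ℚ L] (M' : ℕ) [NeZero M'] {q : ℕ} [NeZero q]
  (W : Type*) [CommRing W]
  [Algebra W ↥(laurentBaseChange L (modularFunctionFieldFull (M' * q * q)))]

theorem J0_ne_zero : CuspQuot.J0 (q := q) L M' ≠ 0 :=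
  CuspQuot.ne_zero_of_coe _ M' (NeZero.ne M') (CuspQuot.coe_J0 L M')

theorem J1_ne_zero : CuspQuot.J1 (q := q) L M' ≠ 0 :=
  CuspQuot.ne_zero_of_coe _ (M' * q) (Nat.mul_ne_zero (NeZero.ne M') (NeZero.ne q))
    (CuspQuot.coe_J1 L M')

theorem J2_ne_zero : CuspQuot.J2 (q := q) L M' ≠ 0 :=
  CuspQuot.ne_zero_of_coe _ (M' * q * q)
    (Nat.mul_ne_zero (Nat.mul_ne_zero (NeZero.ne M') (NeZero.ne q)) (NeZero.ne q))
    (CuspQuot.coe_J2 L M')

/-- **(Cu-1), corrected, for `J_i = π_i^* x`** (convention (B)): the Kronecker quotients lie in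
the chart ring at infinity `B_∞ = chart W (J₀ J₂)⁻¹`, for every base ring `W`. -/
theorem quot_mem_chart (hq : q.Prime) :
    CuspQuot.J1 (q := q) L M' / CuspQuot.J0 (q := q) L M' ^ q ∈
        Charts.chart W (CuspQuot.J0 (q := q) L M' * CuspQuot.J2 (q := q) L M')⁻¹ ∧
      CuspQuot.J1 (q := q) L M' / CuspQuot.J2 (q := q) L M' ^ q ∈
        Charts.chart W (CuspQuot.J0 (q := q) L M' * CuspQuot.J2 (q := q) L M')⁻¹ ∧
      CuspQuot.J2 (q := q) L M' / CuspQuot.J0 (q := q) L M' ^ q ^ 2 ∈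
        Charts.chart W (CuspQuot.J0 (q := q) L M' * CuspQuot.J2 (q := q) L M')⁻¹ ∧
      CuspQuot.J0 (q := q) L M' / CuspQuot.J2 (q := q) L M' ^ q ^ 2 ∈
        Charts.chart W (CuspQuot.J0 (q := q) L M' * CuspQuot.J2 (q := q) L M')⁻¹ ∧
      (CuspQuot.J0 (q := q) L M')⁻¹ ∈
        Charts.chart W (CuspQuot.J0 (q := q) L M' * CuspQuot.J2 (q := q) L M')⁻¹ ∧
      (CuspQuot.J2 (q := q) L M')⁻¹ ∈
        Charts.chart W (CuspQuot.J0 (q := q) L M' * CuspQuot.J2 (q := q) L M')⁻¹ := by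
  obtain ⟨D⟩ := Fermat.Agent.Lib.Red.modEq_all q hq
  have h := CuspQuot.piStar_isIntegral_quot L M' hq D
    (R := Algebra.adjoin W {(CuspQuot.J0 (q := q) L M' * CuspQuot.J2 (q := q) L M')⁻¹})
    ⟨⟨_, Algebra.self_mem_adjoin_singleton W _⟩, rfl⟩
  exact ⟨h.2.2.1, h.2.2.2.1, h.2.2.2.2.1, h.2.2.2.2.2, h.1, h.2.1⟩

/-- `x⁻¹ = (J₀ J₂)⁻¹` as an element of `B_∞`. -/
def xinvB : ↥(Charts.chart W (CuspQuot.J0 (q := q) L M' * CuspQuot.J2 (q := q) L M')⁻¹) :=
  ⟨(CuspQuot.J0 (q := q) L M' * CuspQuot.J2 (q := q) L M')⁻¹, Charts.self_mem_chart _⟩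

/-- `y₁ = J₁ / J₀^q ∈ B_∞`. -/
def y₁B (hq : q.Prime) :
    ↥(Charts.chart W (CuspQuot.J0 (q := q) L M' * CuspQuot.J2 (q := q) L M')⁻¹) :=
  ⟨_, (quot_mem_chart L M' W hq).1⟩

/-- `y₂ = J₁ / J₂^q ∈ B_∞`. -/
def y₂B (hq : q.Prime) :
    ↥(Charts.chart W (CuspQuot.J0 (q := q) L M' * CuspQuot.J2 (q := q) L M')⁻¹) :=
  ⟨_, (quot_mem_chart L M' W hq).2.1⟩

/-- `y₃ = J₂ / J₀^(q²) ∈ B_∞`. -/
def y₃B (hq : q.Prime) :
    ↥(Charts.chart W (CuspQuot.J0 (q := q) L M' * CuspQuot.J2 (q := q) L M')⁻¹) :=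
  ⟨_, (quot_mem_chart L M' W hq).2.2.1⟩

/-- `y₀ = J₀ / J₂^(q²) ∈ B_∞`. -/
def y₀B (hq : q.Prime) :
    ↥(Charts.chart W (CuspQuot.J0 (q := q) L M' * CuspQuot.J2 (q := q) L M')⁻¹) :=
  ⟨_, (quot_mem_chart L M' W hq).2.2.2.1⟩

theorem xinvB_mul :
    algebraMap _ ↥(laurentBaseChange L (modularFunctionFieldFull (M' * q * q)))
      (xinvB L M' (q := q) W) *
      (CuspQuot.J0 (q := q) L M' * CuspQuot.J2 (q := q) L M') = 1 := by
  rw [algebraMap_chart_apply]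
  exact inv_mul_cancel₀ (mul_ne_zero (J0_ne_zero L M') (J2_ne_zero L M'))

theorem y₁B_mul (hq : q.Prime) :
    algebraMap _ ↥(laurentBaseChange L (modularFunctionFieldFull (M' * q * q)))
      (y₁B L M' W hq) * CuspQuot.J0 (q := q) L M' ^ q = CuspQuot.J1 (q := q) L M' := by
  rw [algebraMap_chart_apply]
  exact div_mul_cancel₀ _ (pow_ne_zero _ (J0_ne_zero L M'))

theorem y₂B_mul (hq : q.Prime) :
    algebraMap _ ↥(laurentBaseChange L (modularFunctionFieldFull (M' * q * q)))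
      (y₂B L M' W hq) * CuspQuot.J2 (q := q) L M' ^ q = CuspQuot.J1 (q := q) L M' := by
  rw [algebraMap_chart_apply]
  exact div_mul_cancel₀ _ (pow_ne_zero _ (J2_ne_zero L M'))

theorem y₃B_mul (hq : q.Prime) :
    algebraMap _ ↥(laurentBaseChange L (modularFunctionFieldFull (M' * q * q)))
      (y₃B L M' W hq) * CuspQuot.J0 (q := q) L M' ^ q ^ 2 = CuspQuot.J2 (q := q) L M' := by
  rw [algebraMap_chart_apply]
  exact div_mul_cancel₀ _ (pow_ne_zero _ (J0_ne_zero L M'))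

theorem y₀B_mul (hq : q.Prime) :
    algebraMap _ ↥(laurentBaseChange L (modularFunctionFieldFull (M' * q * q)))
      (y₀B L M' W hq) * CuspQuot.J2 (q := q) L M' ^ q ^ 2 = CuspQuot.J0 (q := q) L M' := by
  rw [algebraMap_chart_apply]
  exact div_mul_cancel₀ _ (pow_ne_zero _ (J2_ne_zero L M'))

end Chart

/-! ### §3 The records -/

section Records

variable {q : ℕ} (hq : q.Prime) (A : ValuationSubring Qb) (hA : A.LiesOverPrime q)
  {ζ : Qb} (hζ : IsPrimitiveRoot ζ q) (M' : ℕ) [NeZero M'] [NeZero q] (hqM : ¬ q ∣ M')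
  (hB : BadSetup (W0 A) (resW0 A) M' q)
  {w : laurentBaseChange ↥(K0 A) (modularFunctionFieldFull (M' * q * q)) ≃ₐ[↥(K0 A)]
    laurentBaseChange ↥(K0 A) (modularFunctionFieldFull (M' * q * q))} (hw : IsAL3 M' q w)
  (redK : OMid hq A hA hζ M' hqM (IsLocalRing.residue A) →+*
    ↥(modularFunctionFieldFullC (IsLocalRing.ResidueField A) M'))
  (hK : ∀ f : OMid hq A hA hζ M' hqM (IsLocalRing.residue A),
    ((redK f : ↥(modularFunctionFieldFullC (IsLocalRing.ResidueField A) M')) :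
      LaurentSeries (IsLocalRing.ResidueField A)) =
      redMid hq A hA hζ M' hqM (IsLocalRing.residue A) f)
  (W : Type*) [CommRing W]
  [Algebra W ↥(laurentBaseChange ↥(K0 A) (modularFunctionFieldFull (M' * q * q)))]
  (O : Fin 3 →
    ValuationSubring ↥(laurentBaseChange ↥(K0 A) (modularFunctionFieldFull (M' * q * q))))
  (red : ∀ i, O i →+* ↥(modularFunctionFieldFullC (IsLocalRing.ResidueField A) M'))
  (hBO : ∀ i, ∀ b : ↥(Charts.chart W (CuspQuot.J0 (q := q) ↥(K0 A) M' *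
      CuspQuot.J2 (q := q) ↥(K0 A) M')⁻¹),
    algebraMap _ ↥(laurentBaseChange ↥(K0 A) (modularFunctionFieldFull (M' * q * q))) b ∈ O i)
  (h0 : O 0 = OInf3 hB)
  (r0 : ∀ (f : ↥(laurentBaseChange ↥(K0 A) (modularFunctionFieldFull (M' * q * q))))
    (hf : f ∈ O 0) (hf' : f ∈ OInf3 hB), red 0 ⟨f, hf⟩ = redInf3 hB ⟨f, hf'⟩)
  (h1 : O 1 = OMid hq A hA hζ M' hqM (IsLocalRing.residue A))
  (r1 : ∀ (f : ↥(laurentBaseChange ↥(K0 A) (modularFunctionFieldFull (M' * q * q))))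
    (hf : f ∈ O 1) (hf' : f ∈ OMid hq A hA hζ M' hqM (IsLocalRing.residue A)),
    red 1 ⟨f, hf⟩ = redK ⟨f, hf'⟩)
  (h2 : O 2 = OZero3 hB w)
  (r2 : ∀ (f : ↥(laurentBaseChange ↥(K0 A) (modularFunctionFieldFull (M' * q * q))))
    (hf : f ∈ O 2) (hf' : f ∈ OZero3 hB w), red 2 ⟨f, hf⟩ = redZero3 hB w ⟨f, hf'⟩)

include hw hK h0 r0 h1 r1 h2 r2 in
/-- **The cusp record `V3Cusp` for the chart at infinity, convention (B)**:
`B_∞ = chart W (J₀ J₂)⁻¹`, `J_i = CuspQuot.J_i`, for every family `(O, red)` whose members are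
`(O_∞, red_∞)`, `(O_mid, redK)`, `(O_0, red_0)`; the local parameter at the cusps is
`(xk k M')⁻¹ = 1/x̄`. -/
theorem v3Cusp :
    V3Cusp O red hBO (xinvB ↥(K0 A) M' (q := q) W) (y₀B ↥(K0 A) M' W hq) (y₁B ↥(K0 A) M' W hq)
      (y₂B ↥(K0 A) M' W hq) (y₃B ↥(K0 A) M' W hq)
      (xk (IsLocalRing.ResidueField A) M')⁻¹ :=
  V3Cusp.of_J (xk_ne_zero _ M') hq.two_le
    (redTo_transfer h0 r0 (redTo_inf₀ hB)) (redTo_transfer h0 r0 (redTo_inf₁ hB))
    (redTo_transfer h0 r0 (redTo_inf₂ hB))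
    (redTo_transfer h1 r1 (CuspMidInst.redTo_J0 hq A hA hζ M' hqM hB.hMk redK hK))
    (redTo_transfer h1 r1 (CuspMidInst.redTo_J1 hq A hA hζ M' hqM hB.hMk redK hK))
    (redTo_transfer h1 r1 (CuspMidInst.redTo_J2 hq A hA hζ M' hqM hB.hMk redK hK))
    (redTo_transfer h2 r2 (redTo_zero₀ hB hw)) (redTo_transfer h2 r2 (redTo_zero₁ hB hw))
    (redTo_transfer h2 r2 (redTo_zero₂ hB hw))
    (xinvB_mul ↥(K0 A) M' W) (y₁B_mul ↥(K0 A) M' W hq) (y₂B_mul ↥(K0 A) M' W hq)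
    (y₃B_mul ↥(K0 A) M' W hq) (y₀B_mul ↥(K0 A) M' W hq)

include hw hK h0 r0 h1 r1 h2 r2 in
/-- `B_∞ ⊆ O_i` for the three components (`hBO`), as soon as the base ring `W` maps into
them. -/
theorem algebraMap_chart_mem
    (hred : ∀ i, ∀ x : O i, red i x = 0 ↔ x ∈ maximalIdeal (O i))
    (hW : ∀ i, ∀ a : W,
      algebraMap W ↥(laurentBaseChange ↥(K0 A) (modularFunctionFieldFull (M' * q * q))) a ∈ O i) :
    ∀ i, ∀ b : ↥(Charts.chart W (CuspQuot.J0 (q := q) ↥(K0 A) M' *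
      CuspQuot.J2 (q := q) ↥(K0 A) M')⁻¹),
      algebraMap _ ↥(laurentBaseChange ↥(K0 A) (modularFunctionFieldFull (M' * q * q))) b ∈
        O i := by
  have hJb0 := xk_ne_zero (IsLocalRing.ResidueField A) M'
  have hpn : ∀ n : ℕ, xk (IsLocalRing.ResidueField A) M' ^ n ≠ 0 := fun n => pow_ne_zero n hJb0
  intro i b
  refine mem_of_mem_chart (O i) (hW i) ?_ b
  fin_cases i
  · exact (((redTo_transfer h0 r0 (redTo_inf₀ hB)).mul
      (redTo_transfer h0 r0 (redTo_inf₂ hB))).inv (hred 0)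
      (mul_ne_zero hJb0 (hpn _))).mem
  · exact (((redTo_transfer h1 r1 (CuspMidInst.redTo_J0 hq A hA hζ M' hqM hB.hMk redK hK)).mul
      (redTo_transfer h1 r1 (CuspMidInst.redTo_J2 hq A hA hζ M' hqM hB.hMk redK hK))).inv (hred 1)
      (mul_ne_zero hJb0 hJb0)).mem
  · exact (((redTo_transfer h2 r2 (redTo_zero₀ hB hw)).mul
      (redTo_transfer h2 r2 (redTo_zero₂ hB hw))).inv (hred 2)
      (mul_ne_zero (hpn _) hJb0)).mem

set_option synthInstance.maxHeartbeats 400000 in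
include hB hK h1 r1 in
/-- **The record `V3CuspMid` for the chart at infinity, convention (B)**: `e = 1 - J₀/J₂`,
`m = q`, `(n, N) = (q - 1, 1)`, `yb = 1/x̄`; `qB` any element of `B_∞` with image `q`.
`hconst`: the constants of `W0` come from the base ring `W` of the chart. -/
theorem exists_v3CuspMid
    (hred : ∀ i, ∀ x : O i, red i x = 0 ↔ x ∈ maximalIdeal (O i))
    (hconst : ∀ a : W0 A, ∃ b : W,
      algebraMap W ↥(laurentBaseChange ↥(K0 A) (modularFunctionFieldFull (M' * q * q))) b =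
        CK (inertiaField A) (M' * q * q) (a : K0 A))
    {qB : ↥(Charts.chart W (CuspQuot.J0 (q := q) ↥(K0 A) M' *
      CuspQuot.J2 (q := q) ↥(K0 A) M')⁻¹)}
    (hqB : algebraMap _ ↥(laurentBaseChange ↥(K0 A) (modularFunctionFieldFull (M' * q * q))) qB
      = ((q : ℕ) : ↥(laurentBaseChange ↥(K0 A) (modularFunctionFieldFull (M' * q * q))))) :
    ∃ g : ↥(modularFunctionFieldFullC (IsLocalRing.ResidueField A) M'),
      V3CuspMid O red hBO qB (y₁B ↥(K0 A) M' W hq) (y₂B ↥(K0 A) M' W hq)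
        (1 - CuspQuot.J0 (q := q) ↥(K0 A) M' / CuspQuot.J2 (q := q) ↥(K0 A) M')
        q (q - 1) 1 (xk (IsLocalRing.ResidueField A) M')⁻¹ g := by
  have htr : ∀ (J : ↥(laurentBaseChange ↥(K0 A) (modularFunctionFieldFull (M' * q * q))))
      (c : ↥(modularFunctionFieldFullC (IsLocalRing.ResidueField A) M')),
      RedTo (OMid hq A hA hζ M' hqM (IsLocalRing.residue A)) redK J c →
        RedTo (O 1) (red 1) J c := fun _ _ h => redTo_transfer h1 r1 h
  have hWB : ∀ a : W0 A, ∃ b : ↥(Charts.chart W (CuspQuot.J0 (q := q) ↥(K0 A) M' *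
      CuspQuot.J2 (q := q) ↥(K0 A) M')⁻¹),
      algebraMap _ ↥(laurentBaseChange ↥(K0 A) (modularFunctionFieldFull (M' * q * q))) b =
        CK (inertiaField A) (M' * q * q) (a : K0 A) := by
    intro a
    obtain ⟨b, hb⟩ := hconst a
    exact ⟨⟨_, Subalgebra.algebraMap_mem _ b⟩, (algebraMap_chart_apply ↥(K0 A) M' W _).trans hb⟩
  exact CuspMidInst.exists_v3CuspMid hq A hA hζ M' hqM hB.hMk redK hK hred h1 htr
    hqB (y₁B_mul ↥(K0 A) M' W hq) (y₂B_mul ↥(K0 A) M' W hq)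
    (CuspMidInst.hk_of_const A M'
      (CuspMidInst.exists_redOn_eq_algebraMap hq A hA hζ M' hqM redK hK htr hWB))

include hB hK h1 r1 in
/-- The same with `qB = (q : B_∞)` (the literal shape of `CuspInst.exists_v3CuspMid`). -/
theorem exists_v3CuspMid_natCast
    (hred : ∀ i, ∀ x : O i, red i x = 0 ↔ x ∈ maximalIdeal (O i))
    (hconst : ∀ a : W0 A, ∃ b : W,
      algebraMap W ↥(laurentBaseChange ↥(K0 A) (modularFunctionFieldFull (M' * q * q))) b =
        CK (inertiaField A) (M' * q * q) (a : K0 A)) :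
    ∃ g : ↥(modularFunctionFieldFullC (IsLocalRing.ResidueField A) M'),
      V3CuspMid O red hBO
        ((q : ℕ) : ↥(Charts.chart W (CuspQuot.J0 (q := q) ↥(K0 A) M' *
          CuspQuot.J2 (q := q) ↥(K0 A) M')⁻¹))
        (y₁B ↥(K0 A) M' W hq) (y₂B ↥(K0 A) M' W hq)
        (1 - CuspQuot.J0 (q := q) ↥(K0 A) M' / CuspQuot.J2 (q := q) ↥(K0 A) M')
        q (q - 1) 1 (xk (IsLocalRing.ResidueField A) M')⁻¹ g :=
  exists_v3CuspMid hq A hA hζ M' hqM hB redK hK W O red hBO h1 r1 hred hconst (map_natCast _ q)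

end Records

end Fermat.Agent.CAR.Inst.CuspInstB

end
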