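import Mathlib
import Fermat.Agent.CAR.V3.Zero
import Fermat.Agent.CAR.V3.MidPull
import Fermat.Agent.CAR.Glob.CuspQuotInst
import Fermat.Agent.CAR.Glob.Charts
import Fermat.Agent.CAR.K0.Setup
import Fermat.Agent.CAR.Local.Inst.ChartFields
import Fermat.Agent.ESJ.Kronecker
import Fermat.Agent.Lib.Red.Integral

/-!
# CAR (row 392, `contract_fin`): the chart function on the three components; `fin`, `not_max`

Chart function (ruling #6, convention (B)): `x = J_0 J_2 = π_0^*(x_L) · π_2^*(x_L)`,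
`x_L = J(q^{M'})`, in `F3 = L · F_{M' q²}`.

* `Jd_mul_char` : `J(q^{m q}) = J(q^m)^q` in characteristic `q`.
* `xB_mem_OInf3`, `redInf3_xB`  : `x ∈ O_∞`, `red_∞ x = x̄^(q² + 1)`, `x̄ = xk k M'`;
  `xB_mem_OZero3`, `redZero3_xB` : `x ∈ O_0`, `red_0 x = x̄^(q² + 1)`;
  `xB_mem_OMid`, `redMid_xB`     : `x ∈ O_mid`, `red_mid x = x̄²` (base `(K0, W0, resW0)`).
* `redOn_mem_of_chart` (**`fin`**) and `centre_not_isMaximal_of_chart` (**`not_max`**) for the
  chart ring `B = chart W x` of an arbitrary function `x`, in the literal shapes of the fields of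
  `Local.Inst.Contract`; `fin_inf`, `fin_zero`, `fin_mid`, `not_max_inf`, `not_max_zero`,
  `not_max_mid` : the same at the three components.
-/

set_option autoImplicit false
set_option linter.unusedSectionVars false
set_option linter.style.haveILetI false
set_option synthInstance.maxHeartbeats 400000
set_option maxHeartbeats 1000000

namespace Fermat.Agent.CAR.Inst.FinBase

open HahnSeries ModularCurve Polynomial Fermat.Agent.Lib.Red Fermat.Agent.S28
open Fermat.Agent.BAD.TwoVal Fermat.Agent.CAR.V3 Fermat.Agent.CAR.Glob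
open Fermat.Agent.CAR.Local Fermat.Agent.CAR.Local.Inst IsLocalRing

noncomputable section

/-! ### Frobenius on `J(q^m)` -/

/-- `J(q^{m q}) = J(q^m)^q` in characteristic `q`. -/
theorem Jd_mul_char (k : Type*) [CommRing k] (q : ℕ) [Fact q.Prime] [CharP k q] (m : ℕ)
    [NeZero m] : TD.Jd k (m * q) = TD.Jd k m ^ q := by
  have h1 := Fermat.Agent.ESJ.Kronecker.Jd_pow_char k q
  have h2 := congrArg (qExpand k m) h1
  rw [TD.qExpand_Jd k m q (Fact.out : q.Prime).ne_zero, map_pow,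
    TD.qExpand_Jd k m 1 one_ne_zero, mul_one] at h2
  exact h2

/-! ### The chart function on `O_∞` and `O_0` (any base `(L, A, π)`) -/

section InfZero

variable {L : Type} [Field L] [Algebra ℚ L] {A : ValuationSubring L} {k : Type} [Field k]
  {π : A →+* k} {M' q : ℕ} [NeZero M'] [NeZero q]
  {w : laurentBaseChange L (modularFunctionFieldFull (M' * q * q)) ≃ₐ[L]
    laurentBaseChange L (modularFunctionFieldFull (M' * q * q))}

/-- `J̄(q^{M' q²}) = x̄^(q²)` as series. -/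
theorem qExpand_qExpand_xk (h : BadSetup A π M' q) :
    qExpand k q (qExpand k q ((xk k M' : ↥(modularFunctionFieldFullC k M')) : LaurentSeries k))
      = ((xk k M' ^ (q * q) : ↥(modularFunctionFieldFullC k M')) : LaurentSeries k) := by
  haveI : Fact q.Prime := ⟨h.hℓ⟩
  haveI : CharP k q := (CharP.charP_iff_prime_eq_zero h.hℓ).mpr h.hℓk
  haveI : NeZero (M' * q) := ⟨Nat.mul_ne_zero (NeZero.ne M') (NeZero.ne q)⟩
  rw [coe_xk, TD.qExpand_Jd k q M' (NeZero.ne M'),
    TD.qExpand_Jd k q (q * M') (Nat.mul_ne_zero (NeZero.ne q) (NeZero.ne M')),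
    mul_comm q M', mul_comm q (M' * q), Jd_mul_char k q (M' * q), Jd_mul_char k q M', ← pow_mul]
  rfl

theorem J0_mem_OInf3 (h : BadSetup A π M' q) : CuspQuot.J0 (q := q) L M' ∈ OInf3 h :=
  (piStar0_mem_OInf3_iff h _).mpr (xL_mem_Ow h.hMk)

theorem J2_mem_OInf3 (h : BadSetup A π M' q) : CuspQuot.J2 (q := q) L M' ∈ OInf3 h :=
  (piStar2_mem_OInf3_iff h _).mpr (xL_mem_Ow h.hMk)

/-- `red_∞ J_0 = x̄`. -/
theorem redInf3_J0 (h : BadSetup A π M' q) (hm : CuspQuot.J0 (q := q) L M' ∈ OInf3 h) :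
    redInf3 h ⟨CuspQuot.J0 (q := q) L M', hm⟩ = xk k M' :=
  (redInf3_piStar0 h (xL L M') (xL_mem_Ow h.hMk) hm).trans (redF_xL h.hπ h.hMk)

/-- `red_∞ J_2 = x̄^(q²)`. -/
theorem redInf3_J2 (h : BadSetup A π M' q) (hm : CuspQuot.J2 (q := q) L M' ∈ OInf3 h) :
    redInf3 h ⟨CuspQuot.J2 (q := q) L M', hm⟩ = xk k M' ^ (q * q) := by
  apply Subtype.ext
  rw [← qExpand_qExpand_xk h, ← redF_xL (A := A) (π := π) h.hπ h.hMk]
  exact coe_redInf3_piStar2 h (xL L M') (xL_mem_Ow h.hMk) hm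

/-- The chart function lies in `O_∞`. -/
theorem xB_mem_OInf3 (h : BadSetup A π M' q) :
    CuspQuot.J0 (q := q) L M' * CuspQuot.J2 L M' ∈ OInf3 h :=
  (OInf3 h).mul_mem _ _ (J0_mem_OInf3 h) (J2_mem_OInf3 h)

/-- **`red_∞ x = x̄^(q² + 1)`.** -/
theorem redInf3_xB (h : BadSetup A π M' q)
    (hm : CuspQuot.J0 (q := q) L M' * CuspQuot.J2 L M' ∈ OInf3 h) :
    redInf3 h ⟨CuspQuot.J0 (q := q) L M' * CuspQuot.J2 L M', hm⟩ = xk k M' ^ (q * q + 1) := by
  have e : (⟨CuspQuot.J0 (q := q) L M' * CuspQuot.J2 L M', hm⟩ : OInf3 h)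
      = ⟨CuspQuot.J0 (q := q) L M', J0_mem_OInf3 h⟩ * ⟨CuspQuot.J2 (q := q) L M', J2_mem_OInf3 h⟩ :=
    rfl
  rw [e, map_mul, redInf3_J0, redInf3_J2, pow_succ, mul_comm]

theorem J0_mem_OZero3 (h : BadSetup A π M' q) (hw : IsAL3 M' q w) :
    CuspQuot.J0 (q := q) L M' ∈ OZero3 h w :=
  (piStar0_mem_OZero3_iff h hw _).mpr (xL_mem_Ow h.hMk)

theorem J2_mem_OZero3 (h : BadSetup A π M' q) (hw : IsAL3 M' q w) :
    CuspQuot.J2 (q := q) L M' ∈ OZero3 h w :=
  (piStar2_mem_OZero3_iff h hw _).mpr (xL_mem_Ow h.hMk)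

/-- `red_0 J_2 = x̄`. -/
theorem redZero3_J2 (h : BadSetup A π M' q) (hw : IsAL3 M' q w)
    (hm : CuspQuot.J2 (q := q) L M' ∈ OZero3 h w) :
    redZero3 h w ⟨CuspQuot.J2 (q := q) L M', hm⟩ = xk k M' :=
  (redZero3_piStar2 h hw (xL L M') (xL_mem_Ow h.hMk) hm).trans (redF_xL h.hπ h.hMk)

/-- `red_0 J_0 = x̄^(q²)`. -/
theorem redZero3_J0 (h : BadSetup A π M' q) (hw : IsAL3 M' q w)
    (hm : CuspQuot.J0 (q := q) L M' ∈ OZero3 h w) :
    redZero3 h w ⟨CuspQuot.J0 (q := q) L M', hm⟩ = xk k M' ^ (q * q) := by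
  apply Subtype.ext
  rw [← qExpand_qExpand_xk h, ← redF_xL (A := A) (π := π) h.hπ h.hMk]
  exact coe_redZero3_piStar0 h hw (xL L M') (xL_mem_Ow h.hMk) hm

/-- The chart function lies in `O_0`. -/
theorem xB_mem_OZero3 (h : BadSetup A π M' q) (hw : IsAL3 M' q w) :
    CuspQuot.J0 (q := q) L M' * CuspQuot.J2 L M' ∈ OZero3 h w :=
  (OZero3 h w).mul_mem _ _ (J0_mem_OZero3 h hw) (J2_mem_OZero3 h hw)

/-- **`red_0 x = x̄^(q² + 1)`.** -/
theorem redZero3_xB (h : BadSetup A π M' q) (hw : IsAL3 M' q w)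
    (hm : CuspQuot.J0 (q := q) L M' * CuspQuot.J2 L M' ∈ OZero3 h w) :
    redZero3 h w ⟨CuspQuot.J0 (q := q) L M' * CuspQuot.J2 L M', hm⟩ = xk k M' ^ (q * q + 1) := by
  have e : (⟨CuspQuot.J0 (q := q) L M' * CuspQuot.J2 L M', hm⟩ : OZero3 h w)
      = ⟨CuspQuot.J0 (q := q) L M', J0_mem_OZero3 h hw⟩
        * ⟨CuspQuot.J2 (q := q) L M', J2_mem_OZero3 h hw⟩ := rfl
  rw [e, map_mul, redZero3_J0 h hw, redZero3_J2 h hw, pow_succ]

end InfZero

/-! ### The chart function on `O_mid` (base `(K0, W0, resW0)`) -/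

section Mid

open Fermat.Agent.CAR.K0 Fermat.Agent.CAR.V3.MidRing

local notation "Qb" => AlgebraicClosure ℚ

variable {q : ℕ} (hq : q.Prime) (A : ValuationSubring Qb) (hA : A.LiesOverPrime q)
  {ζ : Qb} (hζ : IsPrimitiveRoot ζ q) (M' : ℕ) [NeZero M'] [NeZero q] (hqM : ¬ q ∣ M')
  (hMk : (M' : IsLocalRing.ResidueField A) ≠ 0)

include hMk

theorem J0_mem_OMid :
    CuspQuot.J0 (q := q) ↥(K0 A) M' ∈ OMid hq A hA hζ M' hqM (IsLocalRing.residue A) :=
  piStar0_mem_OMid hq A hA hζ M' hqM hMk (xL ↥(K0 A) M') (xL_mem_Ow hMk)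

theorem J2_mem_OMid :
    CuspQuot.J2 (q := q) ↥(K0 A) M' ∈ OMid hq A hA hζ M' hqM (IsLocalRing.residue A) :=
  piStar2_mem_OMid hq A hA hζ M' hqM hMk (xL ↥(K0 A) M') (xL_mem_Ow hMk)

/-- `red_mid J_0 = x̄`. -/
theorem redMid_J0
    (hm : CuspQuot.J0 (q := q) ↥(K0 A) M' ∈ OMid hq A hA hζ M' hqM (IsLocalRing.residue A)) :
    redMid hq A hA hζ M' hqM (IsLocalRing.residue A) ⟨CuspQuot.J0 (q := q) ↥(K0 A) M', hm⟩
      = ((xk (IsLocalRing.ResidueField A) M' :
          ↥(modularFunctionFieldFullC (IsLocalRing.ResidueField A) M')) :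
          LaurentSeries (IsLocalRing.ResidueField A)) := by
  rw [← redF_xL (A := W0 A) (π := resW0 A) (resW0_eq_zero_of_not_isUnit A) hMk]
  exact redMid_piStar0 hq A hA hζ M' hqM hMk (xL ↥(K0 A) M') (xL_mem_Ow hMk) hm

/-- `red_mid J_2 = x̄`. -/
theorem redMid_J2
    (hm : CuspQuot.J2 (q := q) ↥(K0 A) M' ∈ OMid hq A hA hζ M' hqM (IsLocalRing.residue A)) :
    redMid hq A hA hζ M' hqM (IsLocalRing.residue A) ⟨CuspQuot.J2 (q := q) ↥(K0 A) M', hm⟩
      = ((xk (IsLocalRing.ResidueField A) M' :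
          ↥(modularFunctionFieldFullC (IsLocalRing.ResidueField A) M')) :
          LaurentSeries (IsLocalRing.ResidueField A)) := by
  rw [← redF_xL (A := W0 A) (π := resW0 A) (resW0_eq_zero_of_not_isUnit A) hMk]
  exact redMid_piStar2 hq A hA hζ M' hqM hMk (xL ↥(K0 A) M') (xL_mem_Ow hMk) hm

/-- The chart function lies in `O_mid`. -/
theorem xB_mem_OMid :
    CuspQuot.J0 (q := q) ↥(K0 A) M' * CuspQuot.J2 ↥(K0 A) M'
      ∈ OMid hq A hA hζ M' hqM (IsLocalRing.residue A) :=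
  (OMid hq A hA hζ M' hqM (IsLocalRing.residue A)).mul_mem _ _
    (J0_mem_OMid hq A hA hζ M' hqM hMk) (J2_mem_OMid hq A hA hζ M' hqM hMk)

/-- **`red_mid x = x̄²`** (as a series). -/
theorem redMid_xB
    (hm : CuspQuot.J0 (q := q) ↥(K0 A) M' * CuspQuot.J2 ↥(K0 A) M'
      ∈ OMid hq A hA hζ M' hqM (IsLocalRing.residue A)) :
    redMid hq A hA hζ M' hqM (IsLocalRing.residue A)
        ⟨CuspQuot.J0 (q := q) ↥(K0 A) M' * CuspQuot.J2 ↥(K0 A) M', hm⟩
      = ((xk (IsLocalRing.ResidueField A) M' ^ 2 :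
          ↥(modularFunctionFieldFullC (IsLocalRing.ResidueField A) M')) :
          LaurentSeries (IsLocalRing.ResidueField A)) := by
  have e : (⟨CuspQuot.J0 (q := q) ↥(K0 A) M' * CuspQuot.J2 ↥(K0 A) M', hm⟩ :
      OMid hq A hA hζ M' hqM (IsLocalRing.residue A))
      = ⟨CuspQuot.J0 (q := q) ↥(K0 A) M', J0_mem_OMid hq A hA hζ M' hqM hMk⟩
        * ⟨CuspQuot.J2 (q := q) ↥(K0 A) M', J2_mem_OMid hq A hA hζ M' hqM hMk⟩ := rfl
  rw [e, map_mul, redMid_J0 hq A hA hζ M' hqM hMk, redMid_J2 hq A hA hζ M' hqM hMk, pow_two]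
  rfl

/-- **`red_mid x = x̄²`** for every `κ`-valued form `r` of `redMid` (e.g. `MidKappa.redMidK`). -/
theorem redMidK_xB
    (r : OMid hq A hA hζ M' hqM (IsLocalRing.residue A) →+*
      ↥(modularFunctionFieldFullC (IsLocalRing.ResidueField A) M'))
    (hr : ∀ f, ((r f : ↥(modularFunctionFieldFullC (IsLocalRing.ResidueField A) M')) :
      LaurentSeries (IsLocalRing.ResidueField A))
        = redMid hq A hA hζ M' hqM (IsLocalRing.residue A) f)
    (hm : CuspQuot.J0 (q := q) ↥(K0 A) M' * CuspQuot.J2 ↥(K0 A) M'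
      ∈ OMid hq A hA hζ M' hqM (IsLocalRing.residue A)) :
    r ⟨CuspQuot.J0 (q := q) ↥(K0 A) M' * CuspQuot.J2 ↥(K0 A) M', hm⟩
      = xk (IsLocalRing.ResidueField A) M' ^ 2 :=
  Subtype.ext ((hr _).trans (redMid_xB hq A hA hζ M' hqM hMk hm))

end Mid

/-! ### `fin` and `not_max` for a chart ring -/

section Chart

variable {W F κ : Type*} [CommRing W] [Field F] [Algebra W F] [Field κ]

/-- **(`fin`)** for the chart ring `chart W x`: if `W ⊆ O`, `x ∈ O` and the reductions of `W` and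
of `x` lie in `Vs`, then the reduction of every element of the chart ring lies in `Vs`. -/
theorem redOn_mem_of_chart (O : ValuationSubring F) (red : O →+* κ)
    (hred : ∀ x : O, red x = 0 ↔ x ∈ maximalIdeal O) {x : F}
    (hBO : ∀ b : ↥(Charts.chart W x), algebraMap ↥(Charts.chart W x) F b ∈ O)
    (hW : ∀ w : W, algebraMap W F w ∈ O) (hx : x ∈ O) (Vs : ValuationSubring κ)
    (hWs : ∀ w : W, red ⟨algebraMap W F w, hW w⟩ ∈ Vs) (hxs : red ⟨x, hx⟩ ∈ Vs)
    (b : ↥(Charts.chart W x)) : redOn O red hBO b ∈ Vs := by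
  have h1 := ChartFields.mem_compositeSubring_of_isIntegral_adjoin O red hred Vs hW hx hWs hxs
    (Charts.mem_chart_iff.1 b.2)
  obtain ⟨h2, h3⟩ := (mem_compositeSubring_iff O red hred Vs _).1 h1
  exact h3

/-- **(`not_max`)** for the chart ring `chart W x`: if the reduction of `W` on the component `O`
lies in a field `k ⊆ κ` over which the reduction of `x` is transcendental, the centre of `O` is
not a maximal ideal. -/
theorem centre_not_isMaximal_of_chart {k : Type*} [Field k] [Algebra k κ]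
    (O : ValuationSubring F) (red : O →+* κ)
    (hred : ∀ x : O, red x = 0 ↔ x ∈ maximalIdeal O) {x : F}
    (hBO : ∀ b : ↥(Charts.chart W x), algebraMap ↥(Charts.chart W x) F b ∈ O)
    (hW : ∀ w : W, algebraMap W F w ∈ O) (hx : x ∈ O)
    (hWk : ∀ w : W, ∃ c : k, red ⟨algebraMap W F w, hW w⟩ = algebraMap k κ c)
    (htr : Transcendental k (red ⟨x, hx⟩)) : ¬ (centre O hBO).IsMaximal :=
  ChartFields.centre_not_isMaximal O red hred hBO (x := x)
    (fun b => Charts.mem_chart_iff.1 b.2) ⟨x, Charts.self_mem_chart x⟩ rfl hW hWk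
    (by rw [redOn_apply]; exact htr)

end Chart

/-! ### `fin` and `not_max` on `O_∞` and `O_0` -/

section InfZeroChart

variable {L : Type} [Field L] [Algebra ℚ L] {A : ValuationSubring L} {k : Type} [Field k]
  {π : A →+* k} {M' q : ℕ} [NeZero M'] [NeZero q]
  {w : laurentBaseChange L (modularFunctionFieldFull (M' * q * q)) ≃ₐ[L]
    laurentBaseChange L (modularFunctionFieldFull (M' * q * q))}
  [Algebra ↥A ↥(laurentBaseChange L (modularFunctionFieldFull (M' * q * q)))]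
  [IsScalarTower ↥A L ↥(laurentBaseChange L (modularFunctionFieldFull (M' * q * q)))]

/-- `hred` for `O_∞`. -/
theorem hred_inf (h : BadSetup A π M' q) (f : OInf3 h) :
    redInf3 h f = 0 ↔ f ∈ maximalIdeal (OInf3 h) :=
  (redInf3_eq_zero_iff h f).trans (mem_nonunits_iff.symm.trans (mem_maximalIdeal f).symm)

/-- `hred` for `O_0`. -/
theorem hred_zero (h : BadSetup A π M' q) (f : OZero3 h w) :
    redZero3 h w f = 0 ↔ f ∈ maximalIdeal (OZero3 h w) :=
  (redZero3_eq_zero_iff h f).trans (mem_nonunits_iff.symm.trans (mem_maximalIdeal f).symm)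

theorem algebraMap_mem_OInf3 (h : BadSetup A π M' q) (a : A) :
    algebraMap ↥A ↥(laurentBaseChange L (modularFunctionFieldFull (M' * q * q))) a ∈ OInf3 h := by
  rw [IsScalarTower.algebraMap_apply ↥A L]
  exact (algebraMap_mem_OInf3_iff h _).mpr a.2

theorem redInf3_algebraMap_base (h : BadSetup A π M' q) (a : A)
    (ha : algebraMap ↥A ↥(laurentBaseChange L (modularFunctionFieldFull (M' * q * q))) a
      ∈ OInf3 h) :
    redInf3 h ⟨_, ha⟩ = algebraMap k ↥(modularFunctionFieldFullC k M') (π a) := by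
  rw [redInf3_congr h (IsScalarTower.algebraMap_apply ↥A L _ a) ha
    ((algebraMap_mem_OInf3_iff h _).mpr a.2)]
  exact redInf3_algebraMap h a _

theorem algebraMap_mem_OZero3 (h : BadSetup A π M' q) (a : A) :
    algebraMap ↥A ↥(laurentBaseChange L (modularFunctionFieldFull (M' * q * q))) a
      ∈ OZero3 h w := by
  rw [IsScalarTower.algebraMap_apply ↥A L]
  exact (algebraMap_mem_OZero3_iff h _).mpr a.2

theorem redZero3_algebraMap_base (h : BadSetup A π M' q) (a : A)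
    (ha : algebraMap ↥A ↥(laurentBaseChange L (modularFunctionFieldFull (M' * q * q))) a
      ∈ OZero3 h w) :
    redZero3 h w ⟨_, ha⟩ = algebraMap k ↥(modularFunctionFieldFullC k M') (π a) := by
  have e := IsScalarTower.algebraMap_apply ↥A L
    ↥(laurentBaseChange L (modularFunctionFieldFull (M' * q * q))) a
  have ha' : algebraMap L ↥(laurentBaseChange L (modularFunctionFieldFull (M' * q * q)))
      (a : L) ∈ OZero3 h w := (algebraMap_mem_OZero3_iff h _).mpr a.2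
  have e2 : (⟨_, ha⟩ : OZero3 h w) = ⟨_, ha'⟩ := Subtype.ext e
  rw [e2]
  exact redZero3_algebraMap h a ha'

/-- **`fin` on `O_∞`**: the reduction on `O_∞` of the chart ring lies in every valuation ring of
`κ` containing the constants and `x̄`. -/
theorem fin_inf (h : BadSetup A π M' q)
    (hBO : ∀ b : ↥(Charts.chart ↥A (CuspQuot.J0 (q := q) L M' * CuspQuot.J2 L M')),
      algebraMap _ ↥(laurentBaseChange L (modularFunctionFieldFull (M' * q * q))) b ∈ OInf3 h)
    (Vs : ValuationSubring ↥(modularFunctionFieldFullC k M'))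
    (hk : ∀ c : k, algebraMap k ↥(modularFunctionFieldFullC k M') c ∈ Vs)
    (hxk : xk k M' ∈ Vs)
    (b : ↥(Charts.chart ↥A (CuspQuot.J0 (q := q) L M' * CuspQuot.J2 L M'))) :
    redOn (OInf3 h) (redInf3 h) hBO b ∈ Vs :=
  redOn_mem_of_chart (OInf3 h) (redInf3 h) (hred_inf h) hBO (algebraMap_mem_OInf3 h)
    (xB_mem_OInf3 h) Vs
    (fun a => by rw [redInf3_algebraMap_base]; exact hk _)
    (by rw [redInf3_xB]; exact Vs.pow_mem hxk _) b

/-- **`not_max` on `O_∞`**. -/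
theorem not_max_inf (h : BadSetup A π M' q)
    (hBO : ∀ b : ↥(Charts.chart ↥A (CuspQuot.J0 (q := q) L M' * CuspQuot.J2 L M')),
      algebraMap _ ↥(laurentBaseChange L (modularFunctionFieldFull (M' * q * q))) b ∈ OInf3 h) :
    ¬ (centre (OInf3 h) hBO).IsMaximal :=
  centre_not_isMaximal_of_chart (k := k) (OInf3 h) (redInf3 h) (hred_inf h) hBO
    (algebraMap_mem_OInf3 h) (xB_mem_OInf3 h)
    (fun a => ⟨π a, redInf3_algebraMap_base h a _⟩)
    (by rw [redInf3_xB]; exact (transcendental_xk (k := k) M').pow (Nat.succ_pos _))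

/-- **`fin` on `O_0`**. -/
theorem fin_zero (h : BadSetup A π M' q) (hw : IsAL3 M' q w)
    (hBO : ∀ b : ↥(Charts.chart ↥A (CuspQuot.J0 (q := q) L M' * CuspQuot.J2 L M')),
      algebraMap _ ↥(laurentBaseChange L (modularFunctionFieldFull (M' * q * q))) b
        ∈ OZero3 h w)
    (Vs : ValuationSubring ↥(modularFunctionFieldFullC k M'))
    (hk : ∀ c : k, algebraMap k ↥(modularFunctionFieldFullC k M') c ∈ Vs)
    (hxk : xk k M' ∈ Vs)
    (b : ↥(Charts.chart ↥A (CuspQuot.J0 (q := q) L M' * CuspQuot.J2 L M'))) :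
    redOn (OZero3 h w) (redZero3 h w) hBO b ∈ Vs :=
  redOn_mem_of_chart (OZero3 h w) (redZero3 h w) (hred_zero h) hBO (algebraMap_mem_OZero3 h)
    (xB_mem_OZero3 h hw) Vs
    (fun a => by rw [redZero3_algebraMap_base]; exact hk _)
    (by rw [redZero3_xB h hw]; exact Vs.pow_mem hxk _) b

/-- **`not_max` on `O_0`**. -/
theorem not_max_zero (h : BadSetup A π M' q) (hw : IsAL3 M' q w)
    (hBO : ∀ b : ↥(Charts.chart ↥A (CuspQuot.J0 (q := q) L M' * CuspQuot.J2 L M')),
      algebraMap _ ↥(laurentBaseChange L (modularFunctionFieldFull (M' * q * q))) b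
        ∈ OZero3 h w) :
    ¬ (centre (OZero3 h w) hBO).IsMaximal :=
  centre_not_isMaximal_of_chart (k := k) (OZero3 h w) (redZero3 h w) (hred_zero h) hBO
    (algebraMap_mem_OZero3 h) (xB_mem_OZero3 h hw)
    (fun a => ⟨π a, redZero3_algebraMap_base h a _⟩)
    (by rw [redZero3_xB h hw]; exact (transcendental_xk (k := k) M').pow (Nat.succ_pos _))

end InfZeroChart

/-! ### `fin` and `not_max` on `O_mid` -/

section MidChart

open Fermat.Agent.CAR.K0 Fermat.Agent.CAR.V3.MidRing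

local notation "Qb" => AlgebraicClosure ℚ

variable {q : ℕ} (hq : q.Prime) (A : ValuationSubring Qb) (hA : A.LiesOverPrime q)
  {ζ : Qb} (hζ : IsPrimitiveRoot ζ q) (M' : ℕ) [NeZero M'] [NeZero q] (hqM : ¬ q ∣ M')
  (hMk : (M' : IsLocalRing.ResidueField A) ≠ 0)
  [Algebra ↥(W0 A) ↥(laurentBaseChange ↥(K0 A) (modularFunctionFieldFull (M' * q * q)))]
  [IsScalarTower ↥(W0 A) ↥(K0 A)
    ↥(laurentBaseChange ↥(K0 A) (modularFunctionFieldFull (M' * q * q)))]
  (r : OMid hq A hA hζ M' hqM (IsLocalRing.residue A) →+*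
    ↥(modularFunctionFieldFullC (IsLocalRing.ResidueField A) M'))
  (hr : ∀ f, ((r f : ↥(modularFunctionFieldFullC (IsLocalRing.ResidueField A) M')) :
    LaurentSeries (IsLocalRing.ResidueField A))
      = redMid hq A hA hζ M' hqM (IsLocalRing.residue A) f)

/-- The constant `c ∈ K0` of `F3` is `CK c`. -/
theorem algebraMap_eq_CK (c : ↥(K0 A)) :
    algebraMap ↥(K0 A) ↥(laurentBaseChange ↥(K0 A) (modularFunctionFieldFull (M' * q * q))) c
      = CK (inertiaField A) (M' * q * q) c := by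
  apply Subtype.ext
  rw [coe_CK]
  exact (Fermat.Agent.Lib.Red.C_eq_algebraMap c).symm

theorem algebraMap_mem_OMid (a : W0 A) :
    algebraMap ↥(W0 A) ↥(laurentBaseChange ↥(K0 A) (modularFunctionFieldFull (M' * q * q))) a
      ∈ OMid hq A hA hζ M' hqM (IsLocalRing.residue A) := by
  rw [IsScalarTower.algebraMap_apply ↥(W0 A) ↥(K0 A), algebraMap_eq_CK]
  exact (CK_mem_OMid_iff hq A hA hζ M' hqM (IsLocalRing.residue A)
    (residue_eq_zero_of_not_isUnit A) _).mpr a.2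

/-- The reduction on `O_mid` of a constant of `W0`. -/
theorem redMid_algebraMap_base (a : W0 A)
    (ha : algebraMap ↥(W0 A) ↥(laurentBaseChange ↥(K0 A) (modularFunctionFieldFull (M' * q * q))) a
      ∈ OMid hq A hA hζ M' hqM (IsLocalRing.residue A)) :
    redMid hq A hA hζ M' hqM (IsLocalRing.residue A) ⟨_, ha⟩ = HahnSeries.C (resW0 A a) := by
  have e : algebraMap ↥(W0 A)
      ↥(laurentBaseChange ↥(K0 A) (modularFunctionFieldFull (M' * q * q))) a
      = CK (inertiaField A) (M' * q * q) (a : ↥(K0 A)) := by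
    rw [IsScalarTower.algebraMap_apply ↥(W0 A) ↥(K0 A), algebraMap_eq_CK]
    rfl
  have ha' : CK (inertiaField A) (M' * q * q) (a : ↥(K0 A))
      ∈ OMid hq A hA hζ M' hqM (IsLocalRing.residue A) := e ▸ ha
  have e2 : (⟨_, ha⟩ : OMid hq A hA hζ M' hqM (IsLocalRing.residue A)) = ⟨_, ha'⟩ :=
    Subtype.ext e
  rw [e2, redMid_CK hq A hA hζ M' hqM (IsLocalRing.residue A) (a : ↥(K0 A)) a.2 ha']
  rfl

include hr in
/-- The reduction on `O_mid` of a constant of `W0`, `κ`-valued form. -/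
theorem redMidK_algebraMap_base (a : W0 A)
    (ha : algebraMap ↥(W0 A) ↥(laurentBaseChange ↥(K0 A) (modularFunctionFieldFull (M' * q * q))) a
      ∈ OMid hq A hA hζ M' hqM (IsLocalRing.residue A)) :
    r ⟨_, ha⟩ = algebraMap (IsLocalRing.ResidueField A)
      ↥(modularFunctionFieldFullC (IsLocalRing.ResidueField A) M') (resW0 A a) := by
  apply Subtype.ext
  rw [hr, redMid_algebraMap_base hq A hA hζ M' hqM a ha]
  exact Fermat.Agent.Lib.Red.C_eq_algebraMap (resW0 A a)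

include hr in
/-- `hred` for `O_mid`, for every `κ`-valued form of `redMid`. -/
theorem hred_mid (f : OMid hq A hA hζ M' hqM (IsLocalRing.residue A)) :
    r f = 0 ↔ f ∈ maximalIdeal (OMid hq A hA hζ M' hqM (IsLocalRing.residue A)) := by
  have h1 : r f = 0 ↔ redMid hq A hA hζ M' hqM (IsLocalRing.residue A) f = 0 := by
    rw [← hr f]
    exact ⟨fun h => by rw [h]; rfl, fun h => Subtype.ext h⟩
  exact h1.trans ((redMid_eq_zero_iff hq A hA hζ M' hqM (IsLocalRing.residue A) f).trans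
    (mem_nonunits_iff.symm.trans (mem_maximalIdeal f).symm))

include hMk hr in
/-- **`fin` on `O_mid`**. -/
theorem fin_mid
    (hBO : ∀ b : ↥(Charts.chart ↥(W0 A)
      (CuspQuot.J0 (q := q) ↥(K0 A) M' * CuspQuot.J2 ↥(K0 A) M')),
      algebraMap _ ↥(laurentBaseChange ↥(K0 A) (modularFunctionFieldFull (M' * q * q))) b
        ∈ OMid hq A hA hζ M' hqM (IsLocalRing.residue A))
    (Vs : ValuationSubring ↥(modularFunctionFieldFullC (IsLocalRing.ResidueField A) M'))
    (hk : ∀ c : IsLocalRing.ResidueField A,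
      algebraMap (IsLocalRing.ResidueField A)
        ↥(modularFunctionFieldFullC (IsLocalRing.ResidueField A) M') c ∈ Vs)
    (hxk : xk (IsLocalRing.ResidueField A) M' ∈ Vs)
    (b : ↥(Charts.chart ↥(W0 A) (CuspQuot.J0 (q := q) ↥(K0 A) M' * CuspQuot.J2 ↥(K0 A) M'))) :
    redOn (OMid hq A hA hζ M' hqM (IsLocalRing.residue A)) r hBO b ∈ Vs :=
  redOn_mem_of_chart (OMid hq A hA hζ M' hqM (IsLocalRing.residue A)) r
    (hred_mid hq A hA hζ M' hqM r hr) hBO (algebraMap_mem_OMid hq A hA hζ M' hqM)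
    (xB_mem_OMid hq A hA hζ M' hqM hMk) Vs
    (fun a => by rw [redMidK_algebraMap_base hq A hA hζ M' hqM r hr]; exact hk _)
    (by rw [redMidK_xB hq A hA hζ M' hqM hMk r hr]; exact Vs.pow_mem hxk _) b

include hMk hr in
/-- **`not_max` on `O_mid`**. -/
theorem not_max_mid
    (hBO : ∀ b : ↥(Charts.chart ↥(W0 A)
      (CuspQuot.J0 (q := q) ↥(K0 A) M' * CuspQuot.J2 ↥(K0 A) M')),
      algebraMap _ ↥(laurentBaseChange ↥(K0 A) (modularFunctionFieldFull (M' * q * q))) b
        ∈ OMid hq A hA hζ M' hqM (IsLocalRing.residue A)) :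
    ¬ (centre (OMid hq A hA hζ M' hqM (IsLocalRing.residue A)) hBO).IsMaximal :=
  centre_not_isMaximal_of_chart (k := IsLocalRing.ResidueField A)
    (OMid hq A hA hζ M' hqM (IsLocalRing.residue A)) r
    (hred_mid hq A hA hζ M' hqM r hr) hBO (algebraMap_mem_OMid hq A hA hζ M' hqM)
    (xB_mem_OMid hq A hA hζ M' hqM hMk)
    (fun a => ⟨resW0 A a, redMidK_algebraMap_base hq A hA hζ M' hqM r hr a _⟩)
    (by rw [redMidK_xB hq A hA hζ M' hqM hMk r hr]
        exact (transcendental_xk (k := IsLocalRing.ResidueField A) M').pow (Nat.succ_pos _))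

end MidChart

end

end Fermat.Agent.CAR.Inst.FinBase
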