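import Mathlib
import Fermat.Agent.CAR.Inst.FinBase
import Fermat.Agent.CAR.Local.Inst.LiftInst

/-!
# CAR (row 392, `contract_fin`): the fields `hred`, `fin`, `not_max` over the literal triple

Base `(K0, W0, resW0)`, `hB = K0.badSetup_W0 hq hA M' hqM`,
`O = ![OInf3 hB, OMid hq A hA hζ M' hqM (residue A), OZero3 hB w]`, chart ring
`B = chart W0 (J_0 J_2)`, any family `red : ∀ i, O i →+* κ` agreeing pointwise with
`redInf3 hB`, `redMid` (as a series), `redZero3 hB w` (the transfer form used by
`Inst/ContractUniqK0`), any `hBO`: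

* `hred3`     : `∀ i x, red i x = 0 ↔ x ∈ maximalIdeal (O i)` (the argument `hred` of `Contract`);
* `fin3_of`   : the field `fin`, from "the constants and `x̄` lie in every finite place";
* `fin3`      : the field `fin` for any `red'` with `LiftInst.RedOnto (ofJ …) red'`
  (`B' = integralClosure (W0[x_L])`, `red' = redF ∘ incl`: `LiftInst.redOnto_of_apply`);
* `not_max3'` : the field `not_max` (no use of the exactly-three count).
-/

set_option autoImplicit false
set_option linter.unusedSectionVars false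
set_option linter.style.haveILetI false
set_option synthInstance.maxHeartbeats 400000
set_option maxHeartbeats 1000000

namespace Fermat.Agent.CAR.Inst.FinFields

open HahnSeries ModularCurve Fermat.Agent.Lib.Red Fermat.Agent.Lib.Red.BaseFn Fermat.Agent.S28
open Fermat.Agent.BAD.TwoVal Fermat.Agent.CAR.V3 Fermat.Agent.CAR.Glob
open Fermat.Agent.CAR.Local Fermat.Agent.CAR.Local.Inst IsLocalRing
open Fermat.Agent.CAR.K0 Fermat.Agent.CAR.V3.MidRing Fermat.Agent.CAR.Local.Inst.LiftInst

local notation "Qb" => AlgebraicClosure ℚ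

variable {q : ℕ} (hq : q.Prime) (A : ValuationSubring Qb) (hA : A.LiesOverPrime q)
  {ζ : Qb} (hζ : IsPrimitiveRoot ζ q) (M' : ℕ) [NeZero M'] [NeZero q] (hqM : ¬ q ∣ M')
  {w : laurentBaseChange ↥(K0 A) (modularFunctionFieldFull (M' * q * q)) ≃ₐ[↥(K0 A)]
    laurentBaseChange ↥(K0 A) (modularFunctionFieldFull (M' * q * q))}

/-- **`hred`** for the literal triple and any family `red` agreeing pointwise with the three
concrete residue maps. -/
theorem hred3
    (red : ∀ i : Fin 3,
      ↥((![OInf3 (badSetup_W0 hq hA M' hqM), OMid hq A hA hζ M' hqM (IsLocalRing.residue A),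
          OZero3 (badSetup_W0 hq hA M' hqM) w] : Fin 3 → ValuationSubring
            ↥(laurentBaseChange ↥(K0 A) (modularFunctionFieldFull (M' * q * q)))) i) →+*
        ↥(modularFunctionFieldFullC (IsLocalRing.ResidueField A) M'))
    (hred0 : ∀ f : OInf3 (badSetup_W0 hq hA M' hqM),
      red 0 f = redInf3 (badSetup_W0 hq hA M' hqM) f)
    (hred1 : ∀ f : OMid hq A hA hζ M' hqM (IsLocalRing.residue A),
      ((red 1 f : ↥(modularFunctionFieldFullC (IsLocalRing.ResidueField A) M')) :
        LaurentSeries (IsLocalRing.ResidueField A))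
        = redMid hq A hA hζ M' hqM (IsLocalRing.residue A) f)
    (hred2 : ∀ f : OZero3 (badSetup_W0 hq hA M' hqM) w,
      red 2 f = redZero3 (badSetup_W0 hq hA M' hqM) w f) :
    ∀ i, ∀ x : ↥((![OInf3 (badSetup_W0 hq hA M' hqM),
        OMid hq A hA hζ M' hqM (IsLocalRing.residue A),
        OZero3 (badSetup_W0 hq hA M' hqM) w] : Fin 3 → ValuationSubring
          ↥(laurentBaseChange ↥(K0 A) (modularFunctionFieldFull (M' * q * q)))) i),
      red i x = 0 ↔ x ∈ maximalIdeal ↥((![OInf3 (badSetup_W0 hq hA M' hqM),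
        OMid hq A hA hζ M' hqM (IsLocalRing.residue A),
        OZero3 (badSetup_W0 hq hA M' hqM) w] : Fin 3 → ValuationSubring
          ↥(laurentBaseChange ↥(K0 A) (modularFunctionFieldFull (M' * q * q)))) i) := by
  intro i
  fin_cases i
  · intro x
    exact (hred0 x) ▸ FinBase.hred_inf (badSetup_W0 hq hA M' hqM) x
  · intro x
    exact FinBase.hred_mid hq A hA hζ M' hqM (red 1) hred1 x
  · intro x
    exact (hred2 x) ▸ FinBase.hred_zero (badSetup_W0 hq hA M' hqM) x

variable [Algebra ↥(W0 A) ↥(laurentBaseChange ↥(K0 A) (modularFunctionFieldFull (M' * q * q)))]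
  [IsScalarTower ↥(W0 A) ↥(K0 A)
    ↥(laurentBaseChange ↥(K0 A) (modularFunctionFieldFull (M' * q * q)))]

/-- **The field `fin`** for the literal triple, the chart ring `chart W0 (J_0 J_2)` and any family
`red` agreeing pointwise with the three concrete residue maps, from "the constants and `x̄` lie
in every finite place". -/
theorem fin3_of (hw : IsAL3 M' q w)
    (red : ∀ i : Fin 3,
      ↥((![OInf3 (badSetup_W0 hq hA M' hqM), OMid hq A hA hζ M' hqM (IsLocalRing.residue A),
          OZero3 (badSetup_W0 hq hA M' hqM) w] : Fin 3 → ValuationSubring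
            ↥(laurentBaseChange ↥(K0 A) (modularFunctionFieldFull (M' * q * q)))) i) →+*
        ↥(modularFunctionFieldFullC (IsLocalRing.ResidueField A) M'))
    (hred0 : ∀ f : OInf3 (badSetup_W0 hq hA M' hqM),
      red 0 f = redInf3 (badSetup_W0 hq hA M' hqM) f)
    (hred1 : ∀ f : OMid hq A hA hζ M' hqM (IsLocalRing.residue A),
      ((red 1 f : ↥(modularFunctionFieldFullC (IsLocalRing.ResidueField A) M')) :
        LaurentSeries (IsLocalRing.ResidueField A))
        = redMid hq A hA hζ M' hqM (IsLocalRing.residue A) f)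
    (hred2 : ∀ f : OZero3 (badSetup_W0 hq hA M' hqM) w,
      red 2 f = redZero3 (badSetup_W0 hq hA M' hqM) w f)
    (hBO : ∀ i : Fin 3, ∀ b : ↥(Charts.chart ↥(W0 A)
        (CuspQuot.J0 (q := q) ↥(K0 A) M' * CuspQuot.J2 ↥(K0 A) M')),
      algebraMap _ ↥(laurentBaseChange ↥(K0 A) (modularFunctionFieldFull (M' * q * q))) b ∈
        (![OInf3 (badSetup_W0 hq hA M' hqM), OMid hq A hA hζ M' hqM (IsLocalRing.residue A),
          OZero3 (badSetup_W0 hq hA M' hqM) w] : Fin 3 → ValuationSubring
            ↥(laurentBaseChange ↥(K0 A) (modularFunctionFieldFull (M' * q * q)))) i)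
    {B' : Type*} [CommRing B']
    (red' : B' →+* ↥(modularFunctionFieldFullC (IsLocalRing.ResidueField A) M'))
    (hk : ∀ Vs, IsFinPlace red' Vs → ∀ c : IsLocalRing.ResidueField A,
      algebraMap (IsLocalRing.ResidueField A)
        ↥(modularFunctionFieldFullC (IsLocalRing.ResidueField A) M') c ∈ Vs)
    (hxk : ∀ Vs, IsFinPlace red' Vs → xk (IsLocalRing.ResidueField A) M' ∈ Vs) :
    ∀ i, ∀ Vs : ValuationSubring ↥(modularFunctionFieldFullC (IsLocalRing.ResidueField A) M'),
      IsFinPlace red' Vs → ∀ b : ↥(Charts.chart ↥(W0 A)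
        (CuspQuot.J0 (q := q) ↥(K0 A) M' * CuspQuot.J2 ↥(K0 A) M')),
        redOn _ (red i) (hBO i) b ∈ Vs := by
  intro i Vs hVs b
  fin_cases i
  · have h := FinBase.fin_inf (badSetup_W0 hq hA M' hqM) (hBO 0) Vs (hk Vs hVs) (hxk Vs hVs) b
    have e : red 0 ⟨_, hBO 0 b⟩ = redInf3 (badSetup_W0 hq hA M' hqM) ⟨_, hBO 0 b⟩ := hred0 _
    change red 0 ⟨_, hBO 0 b⟩ ∈ Vs
    rw [e]
    exact h
  · exact FinBase.fin_mid hq A hA hζ M' hqM (badSetup_W0 hq hA M' hqM).hMk (red 1) hred1
      (hBO 1) Vs (hk Vs hVs) (hxk Vs hVs) b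
  · have h := FinBase.fin_zero (badSetup_W0 hq hA M' hqM) hw (hBO 2) Vs (hk Vs hVs)
      (hxk Vs hVs) b
    have e : red 2 ⟨_, hBO 2 b⟩ = redZero3 (badSetup_W0 hq hA M' hqM) w ⟨_, hBO 2 b⟩ := hred2 _
    change red 2 ⟨_, hBO 2 b⟩ ∈ Vs
    rw [e]
    exact h

/-- **The field `not_max`** for the literal triple and the chart ring `chart W0 (J_0 J_2)` (from
the transcendence of the reductions of `J_0 J_2`; no use of the exactly-three count). -/
theorem not_max3' (hw : IsAL3 M' q w)
    (hBO : ∀ i : Fin 3, ∀ b : ↥(Charts.chart ↥(W0 A)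
        (CuspQuot.J0 (q := q) ↥(K0 A) M' * CuspQuot.J2 ↥(K0 A) M')),
      algebraMap _ ↥(laurentBaseChange ↥(K0 A) (modularFunctionFieldFull (M' * q * q))) b ∈
        (![OInf3 (badSetup_W0 hq hA M' hqM), OMid hq A hA hζ M' hqM (IsLocalRing.residue A),
          OZero3 (badSetup_W0 hq hA M' hqM) w] : Fin 3 → ValuationSubring
            ↥(laurentBaseChange ↥(K0 A) (modularFunctionFieldFull (M' * q * q)))) i)
    (hκ : ∀ f : OMid hq A hA hζ M' hqM (IsLocalRing.residue A),
      redMid hq A hA hζ M' hqM (IsLocalRing.residue A) f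
        ∈ modularFunctionFieldFullC (IsLocalRing.ResidueField A) M') :
    ∀ i, ¬ (centre _ (hBO i)).IsMaximal := by
  intro i
  fin_cases i
  · exact FinBase.not_max_inf (badSetup_W0 hq hA M' hqM) (hBO 0)
  · exact FinBase.not_max_mid hq A hA hζ M' hqM (badSetup_W0 hq hA M' hqM).hMk
      ((redMid hq A hA hζ M' hqM (IsLocalRing.residue A)).codRestrict
        (modularFunctionFieldFullC (IsLocalRing.ResidueField A) M').toSubring hκ)
      (fun _ => rfl) (hBO 1)
  · exact FinBase.not_max_zero (badSetup_W0 hq hA M' hqM) hw (hBO 2)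

include hq hA in
/-- The constants lie in every finite place of a `red'` onto the reduction of the integral
closure of `W0[x_L]`. -/
theorem const_mem_of_redOnto {hM' : (M' : IsLocalRing.ResidueField A) ≠ 0}
    {B' : Type*} [CommRing B']
    {red' : B' →+* ↥(modularFunctionFieldFullC (IsLocalRing.ResidueField A) M')}
    (H : RedOnto (Data.ofJ (W0 A) (resW0 A) M') (resW0_eq_zero_of_not_isUnit A) hM' red')
    (Vs : ValuationSubring ↥(modularFunctionFieldFullC (IsLocalRing.ResidueField A) M'))
    (hVs : IsFinPlace red' Vs) (c : IsLocalRing.ResidueField A) :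
    algebraMap (IsLocalRing.ResidueField A)
      ↥(modularFunctionFieldFullC (IsLocalRing.ResidueField A) M') c ∈ Vs := by
  obtain ⟨a, ha⟩ := H.exists_const (resW0_surjective hq hA) c
  rw [← ha]
  exact hVs.2 a

/-- `x̄` lies in every finite place of a `red'` onto the reduction of the integral closure of
`W0[x_L]`. -/
theorem xk_mem_of_redOnto {hM' : (M' : IsLocalRing.ResidueField A) ≠ 0}
    {B' : Type*} [CommRing B']
    {red' : B' →+* ↥(modularFunctionFieldFullC (IsLocalRing.ResidueField A) M')}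
    (H : RedOnto (Data.ofJ (W0 A) (resW0 A) M') (resW0_eq_zero_of_not_isUnit A) hM' red')
    (Vs : ValuationSubring ↥(modularFunctionFieldFullC (IsLocalRing.ResidueField A) M'))
    (hVs : IsFinPlace red' Vs) : xk (IsLocalRing.ResidueField A) M' ∈ Vs := by
  obtain ⟨a, ha⟩ := H.exists_xt
  rw [Data.ofJ_xt] at ha
  rw [← ha]
  exact hVs.2 a

/-- **The field `fin`** for the literal triple, the chart ring `chart W0 (J_0 J_2)`, any family
`red` agreeing pointwise with the three concrete residue maps and any `red'` onto the reduction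
of the integral closure of `W0[x_L]` (e.g. `B' = integralClosure (ofJ …).AX`,
`red' = redF ∘ incl`, `H := LiftInst.redOnto_of_apply … red' hred'`). -/
theorem fin3 (hw : IsAL3 M' q w)
    (red : ∀ i : Fin 3,
      ↥((![OInf3 (badSetup_W0 hq hA M' hqM), OMid hq A hA hζ M' hqM (IsLocalRing.residue A),
          OZero3 (badSetup_W0 hq hA M' hqM) w] : Fin 3 → ValuationSubring
            ↥(laurentBaseChange ↥(K0 A) (modularFunctionFieldFull (M' * q * q)))) i) →+*
        ↥(modularFunctionFieldFullC (IsLocalRing.ResidueField A) M'))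
    (hred0 : ∀ f : OInf3 (badSetup_W0 hq hA M' hqM),
      red 0 f = redInf3 (badSetup_W0 hq hA M' hqM) f)
    (hred1 : ∀ f : OMid hq A hA hζ M' hqM (IsLocalRing.residue A),
      ((red 1 f : ↥(modularFunctionFieldFullC (IsLocalRing.ResidueField A) M')) :
        LaurentSeries (IsLocalRing.ResidueField A))
        = redMid hq A hA hζ M' hqM (IsLocalRing.residue A) f)
    (hred2 : ∀ f : OZero3 (badSetup_W0 hq hA M' hqM) w,
      red 2 f = redZero3 (badSetup_W0 hq hA M' hqM) w f)
    (hBO : ∀ i : Fin 3, ∀ b : ↥(Charts.chart ↥(W0 A)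
        (CuspQuot.J0 (q := q) ↥(K0 A) M' * CuspQuot.J2 ↥(K0 A) M')),
      algebraMap _ ↥(laurentBaseChange ↥(K0 A) (modularFunctionFieldFull (M' * q * q))) b ∈
        (![OInf3 (badSetup_W0 hq hA M' hqM), OMid hq A hA hζ M' hqM (IsLocalRing.residue A),
          OZero3 (badSetup_W0 hq hA M' hqM) w] : Fin 3 → ValuationSubring
            ↥(laurentBaseChange ↥(K0 A) (modularFunctionFieldFull (M' * q * q)))) i)
    {hM' : (M' : IsLocalRing.ResidueField A) ≠ 0} {B' : Type*} [CommRing B']
    {red' : B' →+* ↥(modularFunctionFieldFullC (IsLocalRing.ResidueField A) M')}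
    (H : RedOnto (Data.ofJ (W0 A) (resW0 A) M') (resW0_eq_zero_of_not_isUnit A) hM' red') :
    ∀ i, ∀ Vs : ValuationSubring ↥(modularFunctionFieldFullC (IsLocalRing.ResidueField A) M'),
      IsFinPlace red' Vs → ∀ b : ↥(Charts.chart ↥(W0 A)
        (CuspQuot.J0 (q := q) ↥(K0 A) M' * CuspQuot.J2 ↥(K0 A) M')),
        redOn _ (red i) (hBO i) b ∈ Vs :=
  fin3_of hq A hA hζ M' hqM hw red hred0 hred1 hred2 hBO red'
    (fun Vs hVs c => const_mem_of_redOnto hq A hA M' H Vs hVs c)
    (fun Vs hVs => xk_mem_of_redOnto A M' H Vs hVs)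

end Fermat.Agent.CAR.Inst.FinFields
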