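import Mathlib
import Fermat.Agent.CAR.V3.MidUnits
import Fermat.Agent.CAR.V3.UnitsZero
import Fermat.Agent.CAR.K0.Setup
import Fermat.Agent.CAR.Local.Inst.Deriv

/-!
# CAR (instance layer, finite chart): the unit fields of the `Contract` in `redOn` shape

Raw objects of ruling #8: `F3 = FK K0 (M' q²)`, `κ = modularFunctionFieldFullC k M'`,
`O = ![OInf3 hB, OMid …, OZero3 hB w]`.  For an arbitrary ring `B` with `[Algebra B F3]`
(the chart ring), arbitrary `y₁ y₂ : F3` with the `q`-expansions `u1`, `u2` and elements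
`uB u₁B v₁B hB : B` with images `y₂ / y₁`, `y₁`, `q¹² / y₂`, `h` (`h · y₂ = d^(12 (q-1)) · y₁`):

* `redOn_mid_u1`, `redOn_mid_v1`, `redOn_mid_u`, `redOn_mid_h` : the middle column, for ANY
  `κ`-valued residue map `ρ` of `O_mid` whose series is `redMid` (`MidKappa.redMidK`,
  `MidKappaB.redMidK`);
* `unit_fields` : the eleven `Contract` fields `Db_ne u_inf u_mid u_zero u₁_inf u₁_mid u₁_zero
  v₁_inf v₁_mid v₁_zero red_h` for a `Fin 3` family of reductions over the literal `O`, with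
  `Db := redOn (O 0) (red 0) (hBO 0) u₁B`, `e = q - 1`, `G = Deriv.GJ k M'`.
-/

set_option autoImplicit false
set_option linter.unusedSectionVars false

noncomputable section

namespace Fermat.Agent.CAR.Inst.FinUnitsRed

open ModularCurve HahnSeries IsLocalRing Fermat.Agent.S24 Fermat.Agent.S28
  Fermat.Agent.Lib.Red Fermat.Agent.CAR.K0 Fermat.Agent.CAR.V3 Fermat.Agent.CAR.V3.MidRing
  Fermat.Agent.BAD.TwoVal Fermat.Agent.CAR.Local Fermat.Agent.CAR.Local.Inst.Deriv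
  Fermat.Agent.CAR.Local.ThetaJ

local notation "Qb" => AlgebraicClosure ℚ

variable {q : ℕ} (hq : q.Prime) (A : ValuationSubring Qb) (hA : A.LiesOverPrime q)
  {ζ : Qb} (hζ : IsPrimitiveRoot ζ q) (M' : ℕ) [NeZero M'] [NeZero q] (hqM : ¬ q ∣ M')

/-! ### The middle column -/

section Mid

variable (ρ : OMid hq A hA hζ M' hqM (IsLocalRing.residue A) →+*
    modularFunctionFieldFullC (IsLocalRing.ResidueField A) M')
  (hρ : ∀ f : OMid hq A hA hζ M' hqM (IsLocalRing.residue A),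
    ((ρ f : modularFunctionFieldFullC (IsLocalRing.ResidueField A) M') :
      LaurentSeries (IsLocalRing.ResidueField A))
      = redMid hq A hA hζ M' hqM (IsLocalRing.residue A) f)
  {B : Type*} [CommRing B] [Algebra B ↥(FK (inertiaField A) (M' * q * q))]
  (hBO : ∀ b : B, algebraMap B ↥(FK (inertiaField A) (M' * q * q)) b
    ∈ OMid hq A hA hζ M' hqM (IsLocalRing.residue A))
  {y₁ y₂ : FK (inertiaField A) (M' * q * q)}
  (hy₁ : (y₁ : LaurentSeries (inertiaField A)) = Units.u1 (inertiaField A) q)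
  (hy₂ : (y₂ : LaurentSeries (inertiaField A)) = Units.u2 (inertiaField A) q)

include hρ hy₁ in
/-- `u₁_mid` : `red_mid u₁ = Db` for every `Db : κ` with series `u1 k q = Δ̄^(1-q)`. -/
theorem redOn_mid_u1 {u₁B : B}
    (hu₁ : algebraMap B ↥(FK (inertiaField A) (M' * q * q)) u₁B = y₁)
    {Db : modularFunctionFieldFullC (IsLocalRing.ResidueField A) M'}
    (hDb : (Db : LaurentSeries (IsLocalRing.ResidueField A))
      = Units.u1 (IsLocalRing.ResidueField A) q) :
    redOn (OMid hq A hA hζ M' hqM (IsLocalRing.residue A)) ρ hBO u₁B = Db := by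
  apply Subtype.ext
  rw [redOn_apply, hρ, hDb]
  have h := hBO u₁B
  have e : (⟨algebraMap B ↥(FK (inertiaField A) (M' * q * q)) u₁B, hBO u₁B⟩ :
      OMid hq A hA hζ M' hqM (IsLocalRing.residue A)) = ⟨y₁, hu₁ ▸ h⟩ := Subtype.ext hu₁
  rw [e]
  exact MidUnits.redMid_u1 hq A hA hζ M' hqM (IsLocalRing.residue A) hy₁ _

include hρ hy₂ in
/-- `v₁_mid` : `red_mid v₁ = Db`. -/
theorem redOn_mid_v1 {v₁B : B}
    (hv₁ : algebraMap B ↥(FK (inertiaField A) (M' * q * q)) v₁B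
      = (q : FK (inertiaField A) (M' * q * q)) ^ 12 / y₂)
    {Db : modularFunctionFieldFullC (IsLocalRing.ResidueField A) M'}
    (hDb : (Db : LaurentSeries (IsLocalRing.ResidueField A))
      = Units.u1 (IsLocalRing.ResidueField A) q) :
    redOn (OMid hq A hA hζ M' hqM (IsLocalRing.residue A)) ρ hBO v₁B = Db := by
  apply Subtype.ext
  rw [redOn_apply, hρ, hDb]
  have h := hBO v₁B
  have e : (⟨algebraMap B ↥(FK (inertiaField A) (M' * q * q)) v₁B, hBO v₁B⟩ :
      OMid hq A hA hζ M' hqM (IsLocalRing.residue A)) = ⟨_, hv₁ ▸ h⟩ := Subtype.ext hv₁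
  rw [e]
  exact MidUnits.redMid_v1 hq A hA hζ M' hqM (IsLocalRing.residue A)
    (Fermat.Agent.CAR.V3.MidRing.residue_eq_zero_of_not_isUnit A) hy₂ _

include hρ hy₁ hy₂ in
/-- `u_mid` : `red_mid u = 0`. -/
theorem redOn_mid_u {uB : B}
    (hu : algebraMap B ↥(FK (inertiaField A) (M' * q * q)) uB = y₂ / y₁) :
    redOn (OMid hq A hA hζ M' hqM (IsLocalRing.residue A)) ρ hBO uB = 0 := by
  apply Subtype.ext
  rw [redOn_apply, hρ]
  have h := hBO uB
  have e : (⟨algebraMap B ↥(FK (inertiaField A) (M' * q * q)) uB, hBO uB⟩ :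
      OMid hq A hA hζ M' hqM (IsLocalRing.residue A)) = ⟨_, hu ▸ h⟩ := Subtype.ext hu
  rw [e]
  exact MidUnits.redMid_u hq A hA hζ M' hqM (IsLocalRing.residue A)
    (Fermat.Agent.CAR.V3.MidRing.residue_eq_zero_of_not_isUnit A) hy₁ hy₂ _

include hρ hy₁ hy₂ in
/-- `red_h` : `red_mid h = G ^ (q - 1)`, `G = J̄⁸ (J̄ - 1728)⁶`, for `h · u₂ = d^(12 (q-1)) · u₁`. -/
theorem redOn_mid_h {hB : B}
    (hh : algebraMap B ↥(FK (inertiaField A) (M' * q * q)) hB * y₂
      = dMid A M' q ^ (12 * (q - 1)) * y₁) :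
    redOn (OMid hq A hA hζ M' hqM (IsLocalRing.residue A)) ρ hBO hB
      = GJ (IsLocalRing.ResidueField A) M' ^ (q - 1) := by
  apply Subtype.ext
  rw [redOn_apply, hρ]
  obtain ⟨hm, hr⟩ := MidUnits.cert_mid hq A hA hζ M' hqM (IsLocalRing.residue A)
    (Fermat.Agent.CAR.V3.MidRing.residue_eq_zero_of_not_isUnit A) hy₁ hy₂ _ hh
  rw [hr, SubmonoidClass.coe_pow, coe_GJ]

end Mid

/-! ### The eleven unit fields over the literal family `![O_inf, O_mid, O_0]` -/

section Family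

set_option synthInstance.maxHeartbeats 400000

variable {w : ↥(FK (inertiaField A) (M' * q * q)) ≃ₐ[↥(inertiaField A)]
    ↥(FK (inertiaField A) (M' * q * q))}
  (red : ∀ i : Fin 3, ((![OInf3 (badSetup_W0 hq hA M' hqM),
      OMid hq A hA hζ M' hqM (IsLocalRing.residue A),
      OZero3 (badSetup_W0 hq hA M' hqM) w] :
      Fin 3 → ValuationSubring ↥(FK (inertiaField A) (M' * q * q))) i) →+*
    modularFunctionFieldFullC (IsLocalRing.ResidueField A) M')
  (h0 : red 0 = redInf3 (badSetup_W0 hq hA M' hqM))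
  (h1 : ∀ f : OMid hq A hA hζ M' hqM (IsLocalRing.residue A),
    ((red 1 f : modularFunctionFieldFullC (IsLocalRing.ResidueField A) M') :
      LaurentSeries (IsLocalRing.ResidueField A))
      = redMid hq A hA hζ M' hqM (IsLocalRing.residue A) f)
  (h2 : red 2 = redZero3 (badSetup_W0 hq hA M' hqM) w)
  {B : Type*} [CommRing B] [Algebra B ↥(FK (inertiaField A) (M' * q * q))]
  (hBO : ∀ i : Fin 3, ∀ b : B, algebraMap B ↥(FK (inertiaField A) (M' * q * q)) b
    ∈ (![OInf3 (badSetup_W0 hq hA M' hqM),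
      OMid hq A hA hζ M' hqM (IsLocalRing.residue A),
      OZero3 (badSetup_W0 hq hA M' hqM) w] :
      Fin 3 → ValuationSubring ↥(FK (inertiaField A) (M' * q * q))) i)
  {y₁ y₂ : FK (inertiaField A) (M' * q * q)}
  (hy₁ : (y₁ : LaurentSeries (inertiaField A)) = Units.u1 (inertiaField A) q)
  (hy₂ : (y₂ : LaurentSeries (inertiaField A)) = Units.u2 (inertiaField A) q)
  {uB u₁B v₁B hB : B}
  (hu : algebraMap B ↥(FK (inertiaField A) (M' * q * q)) uB = y₂ / y₁)
  (hu₁ : algebraMap B ↥(FK (inertiaField A) (M' * q * q)) u₁B = y₁)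
  (hv₁ : algebraMap B ↥(FK (inertiaField A) (M' * q * q)) v₁B
    = (q : FK (inertiaField A) (M' * q * q)) ^ 12 / y₂)
  (hh : algebraMap B ↥(FK (inertiaField A) (M' * q * q)) hB * y₂
    = dMid A M' q ^ (12 * (q - 1)) * y₁)

include h0 h1 h2 hy₁ hy₂ hu hu₁ hv₁ hh in
/-- **The unit fields of the contract** (`Db_ne u_inf u_mid u_zero u₁_mid u₁_zero v₁_inf v₁_mid
v₁_zero red_h`; `u₁_inf` is `rfl`) with `Db := redOn (O 0) (red 0) (hBO 0) u₁B`, `e = q - 1`,
`G = GJ k M'`, and the series of `Db`. -/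
theorem unit_fields (hw : IsAL3 M' q w) :
    redOn _ (red 0) (hBO 0) u₁B ≠ 0 ∧
    ((redOn _ (red 0) (hBO 0) u₁B : modularFunctionFieldFullC (IsLocalRing.ResidueField A) M') :
      LaurentSeries (IsLocalRing.ResidueField A)) = Units.u1 (IsLocalRing.ResidueField A) q ∧
    redOn _ (red 0) (hBO 0) uB = redOn _ (red 0) (hBO 0) u₁B ^ (q - 1) ∧
    redOn _ (red 1) (hBO 1) uB = 0 ∧
    redOn _ (red 2) (hBO 2) uB = redOn _ (red 2) (hBO 2) v₁B ^ (q - 1) ∧
    redOn _ (red 1) (hBO 1) u₁B = redOn _ (red 0) (hBO 0) u₁B ∧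
    redOn _ (red 2) (hBO 2) u₁B = 0 ∧
    redOn _ (red 0) (hBO 0) v₁B = 0 ∧
    redOn _ (red 1) (hBO 1) v₁B = redOn _ (red 0) (hBO 0) u₁B ∧
    redOn _ (red 2) (hBO 2) v₁B ≠ 0 ∧
    redOn _ (red 1) (hBO 1) hB = GJ (IsLocalRing.ResidueField A) M' ^ (q - 1) := by
  have cu : ((algebraMap B ↥(FK (inertiaField A) (M' * q * q)) uB :
      FK (inertiaField A) (M' * q * q)) : LaurentSeries (inertiaField A))
      = Units.u2 (inertiaField A) q * Units.u1inv (inertiaField A) q := by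
    rw [hu]; exact UnitsZero.coe_u_of_y (L := ↥(inertiaField A)) hy₁ hy₂
  have cu₁ : ((algebraMap B ↥(FK (inertiaField A) (M' * q * q)) u₁B :
      FK (inertiaField A) (M' * q * q)) : LaurentSeries (inertiaField A))
      = Units.u1 (inertiaField A) q := by
    rw [hu₁]; exact hy₁
  have cv₁ : ((algebraMap B ↥(FK (inertiaField A) (M' * q * q)) v₁B :
      FK (inertiaField A) (M' * q * q)) : LaurentSeries (inertiaField A))
      = HahnSeries.C ((q : inertiaField A) ^ 12) * Units.u2inv (inertiaField A) q := by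
    rw [hv₁]; exact UnitsZero.coe_v1_of_y (L := ↥(inertiaField A)) hy₂
  have hinf := UnitsZero.redOn_inf_column (badSetup_W0 hq hA M' hqM) (hBO 0) cu cu₁ cv₁
  have hzero := UnitsZero.redOn_zero_column (badSetup_W0 hq hA M' hqM) hw (hBO 2) cu cu₁ cv₁
  rw [h0, h2]
  refine ⟨hinf.2.1, hinf.2.2.1, hinf.1, ?_, hzero.1, ?_, hzero.2.1, hinf.2.2.2, ?_, hzero.2.2, ?_⟩
  · exact redOn_mid_u hq A hA hζ M' hqM (red 1) h1 (hBO 1) hy₁ hy₂ hu
  · exact redOn_mid_u1 hq A hA hζ M' hqM (red 1) h1 (hBO 1) hy₁ hu₁ hinf.2.2.1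
  · exact redOn_mid_v1 hq A hA hζ M' hqM (red 1) h1 (hBO 1) hy₂ hv₁ hinf.2.2.1
  · exact redOn_mid_h hq A hA hζ M' hqM (red 1) h1 (hBO 1) hy₁ hy₂ hh

end Family

end Fermat.Agent.CAR.Inst.FinUnitsRed

end
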