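import Mathlib
import Fermat.Agent.CAR.Inst.FinFields
import Fermat.Agent.CAR.Inst.HMin3
import Fermat.Agent.CAR.Inst.UnitsFinUF
import Fermat.Agent.CAR.Inst.UnitsG7
import Fermat.Agent.CAR.Inst.LiftJ23Inst
import Fermat.Agent.CAR.Inst.EllFinK0
import Fermat.Agent.CAR.Inst.ContractPull
import Fermat.Agent.CAR.V3.MidKappa

/-!
# CAR (row 392): the concrete `Contract` of the finite chart — `contract_fin`

Base `(K0, W0, resW0)` for a valuation subring `A` of `ℚ̄` over the prime `q`, `q ∤ M'`,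
`hB = K0.badSetup_W0 hq hA M' hqM`, `F3 = K0 · F_{M' q²}`, `F' = K0 · F_{M'}`,
`κ = modularFunctionFieldFullC k M'`, `k` the residue field of `A`.

* components `O = ![OInf3 hB, OMid hq A hA hζ M' hqM (residue A), OZero3 hB w]` (ruling #8);
* chart ring `B = chart W0 (J_0 J_2)`, `J_i = CuspQuot.J_i` (ruling #6, convention (B));
* `B' = integralClosure (W0[x_L]) F'` (`BaseFn.Data.ofJ`), `x' ∈ B'` the function `J(q)`.

`exists_contract_K0` : for ANY family `red : ∀ i, O i →+* κ` agreeing pointwise with `redInf3 hB`,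
`redMid` (as a series) and `redZero3 hB w`, ANY `red' : B' →+* κ` which is `redF` on `B'`, ANY
`π₀ π₂ : B' →+* B` which are `π_0^*`, `π_2^*` inside `F3`, and ANY `x' : B'` which is `jLevel`,
there are `u u₁ v₁ h : B` with

`Contract O red hred hBO red' π₀ π₂ (Deriv.dJ k M') q x' u u₁ v₁ h (UnitsCols.Db …) (Deriv.GJ k M')
  12 (q - 1)`, `q = algebraMap W0 B q`.

The only hypotheses are those of the level: `IsAL3 M' q w`, `q = 2 → 3 ∣ M'`, `q = 3 → 2 ∣ M'`.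
Every field is a citation: `HMin3` (hmin, not_max, q_mem), `Pull` (unif, π-fields at `∞`, `0`),
`MidPull`/`MidKappa` (mid fields, `cd`), `FinFields` (fin), `LiftJ23Inst`/`LiftInst` (lift, res),
`Local.Inst.Deriv`/`EllFinK0` (deriv), `UnitsFinUF`/`UnitsG7` (the units block).
-/

set_option autoImplicit false
set_option linter.unusedSectionVars false
set_option linter.unusedVariables false
set_option linter.style.haveILetI false
set_option synthInstance.maxHeartbeats 400000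
set_option maxHeartbeats 16000000

namespace Fermat.Agent.CAR.Inst.Finite

open HahnSeries ModularCurve Fermat.Agent.Lib.Red Fermat.Agent.Lib.Red.BaseFn Fermat.Agent.S28
open Fermat.Agent.BAD.TwoVal Fermat.Agent.CAR.V3 Fermat.Agent.CAR.Glob
open Fermat.Agent.CAR.Local Fermat.Agent.CAR.Local.Inst IsLocalRing
open Fermat.Agent.CAR.K0 Fermat.Agent.CAR.V3.MidRing Fermat.Agent.CAR.Local.Inst.LiftInst
open Fermat.Agent.ESJ.Cong.LevelGen

local notation "Qb" => AlgebraicClosure ℚ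

variable {q : ℕ} [NeZero q] (hq : q.Prime) (A : ValuationSubring Qb) (hA : A.LiesOverPrime q)
  {ζ : Qb} (hζ : IsPrimitiveRoot ζ q) (M' : ℕ) [NeZero M'] (hqM : ¬ q ∣ M')
  {w : laurentBaseChange ↥(K0 A) (modularFunctionFieldFull (M' * q * q)) ≃ₐ[↥(K0 A)]
    laurentBaseChange ↥(K0 A) (modularFunctionFieldFull (M' * q * q))}
  [Algebra ↥(W0 A) ↥(laurentBaseChange ↥(K0 A) (modularFunctionFieldFull (M' * q * q)))]
  [IsScalarTower ↥(W0 A) ↥(K0 A) ↥(laurentBaseChange ↥(K0 A) (modularFunctionFieldFull (M' * q * q)))]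

/-- The element `q` of the chart ring maps to `q`. -/
theorem algebraMap_qB :
    algebraMap ↥(Charts.chart ↥(W0 A) (CuspQuot.J0 (q := q) ↥(K0 A) M' * CuspQuot.J2 ↥(K0 A) M')) ↥(laurentBaseChange ↥(K0 A) (modularFunctionFieldFull (M' * q * q))) (algebraMap ↥(W0 A) ↥(Charts.chart ↥(W0 A) (CuspQuot.J0 (q := q) ↥(K0 A) M' * CuspQuot.J2 ↥(K0 A) M')) ((q : ℕ) : ↥(W0 A))) = ((q : ℕ) : ↥(laurentBaseChange ↥(K0 A) (modularFunctionFieldFull (M' * q * q)))) :=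
  (congrArg (algebraMap ↥(Charts.chart ↥(W0 A) (CuspQuot.J0 (q := q) ↥(K0 A) M' * CuspQuot.J2 ↥(K0 A) M')) ↥(laurentBaseChange ↥(K0 A) (modularFunctionFieldFull (M' * q * q)))) (map_natCast (algebraMap ↥(W0 A) ↥(Charts.chart ↥(W0 A) (CuspQuot.J0 (q := q) ↥(K0 A) M' * CuspQuot.J2 ↥(K0 A) M'))) q)).trans
    (map_natCast (algebraMap ↥(Charts.chart ↥(W0 A) (CuspQuot.J0 (q := q) ↥(K0 A) M' * CuspQuot.J2 ↥(K0 A) M')) ↥(laurentBaseChange ↥(K0 A) (modularFunctionFieldFull (M' * q * q)))) q)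

/-- `q` is a non-unit of the three components (`Contract.q_mem`). -/
theorem qB_mem (hw : IsAL3 M' q w) (i : Fin 3) :
    algebraMap ↥(Charts.chart ↥(W0 A) (CuspQuot.J0 (q := q) ↥(K0 A) M' * CuspQuot.J2 ↥(K0 A) M')) ↥(laurentBaseChange ↥(K0 A) (modularFunctionFieldFull (M' * q * q))) (algebraMap ↥(W0 A) ↥(Charts.chart ↥(W0 A) (CuspQuot.J0 (q := q) ↥(K0 A) M' * CuspQuot.J2 ↥(K0 A) M')) ((q : ℕ) : ↥(W0 A))) ∈ ((![OInf3 (badSetup_W0 hq hA M' hqM), OMid hq A hA hζ M' hqM (IsLocalRing.residue A), OZero3 (badSetup_W0 hq hA M' hqM) w] : Fin 3 → ValuationSubring ↥(laurentBaseChange ↥(K0 A) (modularFunctionFieldFull (M' * q * q)))) i).nonunits :=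
  Eq.mpr (congrArg (fun z => z ∈ ((![OInf3 (badSetup_W0 hq hA M' hqM), OMid hq A hA hζ M' hqM (IsLocalRing.residue A), OZero3 (badSetup_W0 hq hA M' hqM) w] : Fin 3 → ValuationSubring ↥(laurentBaseChange ↥(K0 A) (modularFunctionFieldFull (M' * q * q)))) i).nonunits)
    ((algebraMap_qB (q := q) A M').trans
      (map_natCast (algebraMap ↥(W0 A) ↥(laurentBaseChange ↥(K0 A) (modularFunctionFieldFull (M' * q * q)))) q).symm))
    (HMin3.hqV3 hq A hA hζ M' hqM hw i)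

/-- `Contract.unif_inf`. -/
theorem unif_inf_fin :
    ∀ z ∈ ((![OInf3 (badSetup_W0 hq hA M' hqM), OMid hq A hA hζ M' hqM (IsLocalRing.residue A), OZero3 (badSetup_W0 hq hA M' hqM) w] : Fin 3 → ValuationSubring ↥(laurentBaseChange ↥(K0 A) (modularFunctionFieldFull (M' * q * q)))) 0).nonunits, z / algebraMap ↥(Charts.chart ↥(W0 A) (CuspQuot.J0 (q := q) ↥(K0 A) M' * CuspQuot.J2 ↥(K0 A) M')) ↥(laurentBaseChange ↥(K0 A) (modularFunctionFieldFull (M' * q * q))) (algebraMap ↥(W0 A) ↥(Charts.chart ↥(W0 A) (CuspQuot.J0 (q := q) ↥(K0 A) M' * CuspQuot.J2 ↥(K0 A) M')) ((q : ℕ) : ↥(W0 A))) ∈ (![OInf3 (badSetup_W0 hq hA M' hqM), OMid hq A hA hζ M' hqM (IsLocalRing.residue A), OZero3 (badSetup_W0 hq hA M' hqM) w] : Fin 3 → ValuationSubring ↥(laurentBaseChange ↥(K0 A) (modularFunctionFieldFull (M' * q * q)))) 0 :=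
  fun z hz => Eq.mpr (congrArg (fun t => z / t ∈ (![OInf3 (badSetup_W0 hq hA M' hqM), OMid hq A hA hζ M' hqM (IsLocalRing.residue A), OZero3 (badSetup_W0 hq hA M' hqM) w] : Fin 3 → ValuationSubring ↥(laurentBaseChange ↥(K0 A) (modularFunctionFieldFull (M' * q * q)))) 0) (algebraMap_qB (q := q) A M'))
    (Pull.unif_inf (badSetup_W0 hq hA M' hqM) (Restrict.isUnif_W0 hq hA) z hz)

/-- `Contract.unif_zero`. -/
theorem unif_zero_fin :
    ∀ z ∈ ((![OInf3 (badSetup_W0 hq hA M' hqM), OMid hq A hA hζ M' hqM (IsLocalRing.residue A), OZero3 (badSetup_W0 hq hA M' hqM) w] : Fin 3 → ValuationSubring ↥(laurentBaseChange ↥(K0 A) (modularFunctionFieldFull (M' * q * q)))) 2).nonunits, z / algebraMap ↥(Charts.chart ↥(W0 A) (CuspQuot.J0 (q := q) ↥(K0 A) M' * CuspQuot.J2 ↥(K0 A) M')) ↥(laurentBaseChange ↥(K0 A) (modularFunctionFieldFull (M' * q * q))) (algebraMap ↥(W0 A) ↥(Charts.chart ↥(W0 A) (CuspQuot.J0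 (q := q) ↥(K0 A) M' * CuspQuot.J2 ↥(K0 A) M')) ((q : ℕ) : ↥(W0 A))) ∈ (![OInf3 (badSetup_W0 hq hA M' hqM), OMid hq A hA hζ M' hqM (IsLocalRing.residue A), OZero3 (badSetup_W0 hq hA M' hqM) w] : Fin 3 → ValuationSubring ↥(laurentBaseChange ↥(K0 A) (modularFunctionFieldFull (M' * q * q)))) 2 :=
  fun z hz => Eq.mpr (congrArg (fun t => z / t ∈ (![OInf3 (badSetup_W0 hq hA M' hqM), OMid hq A hA hζ M' hqM (IsLocalRing.residue A), OZero3 (badSetup_W0 hq hA M' hqM) w] : Fin 3 → ValuationSubring ↥(laurentBaseChange ↥(K0 A) (modularFunctionFieldFull (M' * q * q)))) 2) (algebraMap_qB (q := q) A M'))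
    (Pull.unif_zero (badSetup_W0 hq hA M' hqM) w (Restrict.isUnif_W0 hq hA) z hz)

include hq hA hqM in
/-- `Contract.q_ne`. -/
theorem qB_ne_zero : (algebraMap ↥(W0 A) ↥(Charts.chart ↥(W0 A) (CuspQuot.J0 (q := q) ↥(K0 A) M' * CuspQuot.J2 ↥(K0 A) M')) ((q : ℕ) : ↥(W0 A))) ≠ 0 := fun h0 =>
  (Restrict.isUnif_OInf3_natCast (badSetup_W0 hq hA M' hqM) q (Restrict.isUnif_W0 hq hA)).ne_zero
    ((algebraMap_qB (q := q) A M').symm.trans
      ((congrArg (algebraMap ↥(Charts.chart ↥(W0 A) (CuspQuot.J0 (q := q) ↥(K0 A) M' * CuspQuot.J2 ↥(K0 A) M')) ↥(laurentBaseChange ↥(K0 A) (modularFunctionFieldFull (M' * q * q)))) h0).trans (map_zero (algebraMap ↥(Charts.chart ↥(W0 A) (CuspQuot.J0 (q := q) ↥(K0 A) M' * CuspQuot.J2 ↥(K0 A) M')) ↥(laurentBaseChange ↥(K0 A) (modularFunctionFieldFull (M' * q * q)))))))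

section Fields

variable
  (red : ∀ i : Fin 3, ↥((![OInf3 (badSetup_W0 hq hA M' hqM), OMid hq A hA hζ M' hqM (IsLocalRing.residue A), OZero3 (badSetup_W0 hq hA M' hqM) w] : Fin 3 → ValuationSubring ↥(laurentBaseChange ↥(K0 A) (modularFunctionFieldFull (M' * q * q)))) i) →+* ↥(modularFunctionFieldFullC (IsLocalRing.ResidueField A) M'))
  (hred0 : ∀ f : OInf3 (badSetup_W0 hq hA M' hqM), red 0 f = redInf3 (badSetup_W0 hq hA M' hqM) f)
  (hred1 : ∀ f : (OMid hq A hA hζ M' hqM (IsLocalRing.residue A)),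
    ((red 1 f : ↥(modularFunctionFieldFullC (IsLocalRing.ResidueField A) M')) : LaurentSeries (IsLocalRing.ResidueField A)) = (redMid hq A hA hζ M' hqM (IsLocalRing.residue A)) f)
  (hred2 : ∀ f : OZero3 (badSetup_W0 hq hA M' hqM) w, red 2 f = redZero3 (badSetup_W0 hq hA M' hqM) w f)
  (hBO : ∀ i : Fin 3, ∀ b : ↥(Charts.chart ↥(W0 A) (CuspQuot.J0 (q := q) ↥(K0 A) M' * CuspQuot.J2 ↥(K0 A) M')), algebraMap ↥(Charts.chart ↥(W0 A) (CuspQuot.J0 (q := q) ↥(K0 A) M' * CuspQuot.J2 ↥(K0 A) M')) ↥(laurentBaseChange ↥(K0 A) (modularFunctionFieldFull (M' * q * q))) b ∈ (![OInf3 (badSetup_W0 hq hA M' hqM), OMid hq A hA hζ M' hqM (IsLocalRing.residue A), OZero3 (badSetup_W0 hq hA M' hqM) w] : Fin 3 → ValuationSubring ↥(laurentBaseChange ↥(K0 A) (modularFunctionFieldFull (M' * q * q)))) i)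
  (red' : ↥(integralClosure ↥((Data.ofJ (W0 A) (resW0 A) M').AX) ↥(laurentBaseChange ↥(K0 A) (modularFunctionFieldFull M'))) →+* ↥(modularFunctionFieldFullC (IsLocalRing.ResidueField A) M'))
  (hred' : ∀ b : ↥(integralClosure ↥((Data.ofJ (W0 A) (resW0 A) M').AX) ↥(laurentBaseChange ↥(K0 A) (modularFunctionFieldFull M'))),
    red' b = redF (W0 A) (resW0 A) M' (resW0_eq_zero_of_not_isUnit A) (badSetup_W0 hq hA M' hqM).hMk
      ⟨b, (Data.ofJ (W0 A) (resW0 A) M').mem_Ow_of_isIntegral_AX (badSetup_W0 hq hA M' hqM).hMk b.2⟩)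
  (π₀ π₂ : ↥(integralClosure ↥((Data.ofJ (W0 A) (resW0 A) M').AX) ↥(laurentBaseChange ↥(K0 A) (modularFunctionFieldFull M'))) →+* ↥(Charts.chart ↥(W0 A) (CuspQuot.J0 (q := q) ↥(K0 A) M' * CuspQuot.J2 ↥(K0 A) M')))
  (hπ₀ : ∀ y, algebraMap ↥(Charts.chart ↥(W0 A) (CuspQuot.J0 (q := q) ↥(K0 A) M' * CuspQuot.J2 ↥(K0 A) M')) ↥(laurentBaseChange ↥(K0 A) (modularFunctionFieldFull (M' * q * q))) (π₀ y) = piStar0 ↥(K0 A) M' q (y : ↥(laurentBaseChange ↥(K0 A) (modularFunctionFieldFull M'))))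
  (hπ₂ : ∀ y, algebraMap ↥(Charts.chart ↥(W0 A) (CuspQuot.J0 (q := q) ↥(K0 A) M' * CuspQuot.J2 ↥(K0 A) M')) ↥(laurentBaseChange ↥(K0 A) (modularFunctionFieldFull (M' * q * q))) (π₂ y) = piStar2 ↥(K0 A) M' q (y : ↥(laurentBaseChange ↥(K0 A) (modularFunctionFieldFull M'))))
  (x' : ↥(integralClosure ↥((Data.ofJ (W0 A) (resW0 A) M').AX) ↥(laurentBaseChange ↥(K0 A) (modularFunctionFieldFull M'))))
  (hx' : (x' : ↥(laurentBaseChange ↥(K0 A) (modularFunctionFieldFull M'))) = jLevel ↥(K0 A) M')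

include hπ₀ hπ₂ in
/-- `d_y = π₂ y - π₀ y` inside `F3`. -/
theorem algebraMap_dy (y : ↥(integralClosure ↥((Data.ofJ (W0 A) (resW0 A) M').AX) ↥(laurentBaseChange ↥(K0 A) (modularFunctionFieldFull M')))) :
    algebraMap ↥(Charts.chart ↥(W0 A) (CuspQuot.J0 (q := q) ↥(K0 A) M' * CuspQuot.J2 ↥(K0 A) M')) ↥(laurentBaseChange ↥(K0 A) (modularFunctionFieldFull (M' * q * q))) (π₂ y - π₀ y) =
      piStar2 ↥(K0 A) M' q (y : ↥(laurentBaseChange ↥(K0 A) (modularFunctionFieldFull M'))) - piStar0 ↥(K0 A) M' q (y : ↥(laurentBaseChange ↥(K0 A) (modularFunctionFieldFull M'))) :=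
  (map_sub (algebraMap ↥(Charts.chart ↥(W0 A) (CuspQuot.J0 (q := q) ↥(K0 A) M' * CuspQuot.J2 ↥(K0 A) M')) ↥(laurentBaseChange ↥(K0 A) (modularFunctionFieldFull (M' * q * q)))) (π₂ y) (π₀ y)).trans (congrArg₂ (fun a b => a - b) (hπ₂ y) (hπ₀ y))

include hπ₀ hπ₂ hx' in
/-- `d = π₂ x' - π₀ x'` is `dMid = J_2 - J_0`. -/
theorem algebraMap_dB : algebraMap ↥(Charts.chart ↥(W0 A) (CuspQuot.J0 (q := q) ↥(K0 A) M' * CuspQuot.J2 ↥(K0 A) M')) ↥(laurentBaseChange ↥(K0 A) (modularFunctionFieldFull (M' * q * q))) (π₂ x' - π₀ x') = dMid A M' q :=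
  (algebraMap_dy A M' π₀ π₂ hπ₀ hπ₂ x').trans
    ((congrArg (fun z => piStar2 ↥(K0 A) M' q z - piStar0 ↥(K0 A) M' q z) hx').trans
      (dPull_jLevel A M'))

include hπ₀ hπ₂ hx' in
/-- `Contract.d_mem`. -/
theorem d_mem_fin : algebraMap ↥(Charts.chart ↥(W0 A) (CuspQuot.J0 (q := q) ↥(K0 A) M' * CuspQuot.J2 ↥(K0 A) M')) ↥(laurentBaseChange ↥(K0 A) (modularFunctionFieldFull (M' * q * q))) (π₂ x' - π₀ x') ∈ ((![OInf3 (badSetup_W0 hq hA M' hqM), OMid hq A hA hζ M' hqM (IsLocalRing.residue A), OZero3 (badSetup_W0 hq hA M' hqM) w] : Fin 3 → ValuationSubring ↥(laurentBaseChange ↥(K0 A) (modularFunctionFieldFull (M' * q * q)))) 1).nonunits :=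
  Eq.mpr (congrArg (fun z => z ∈ ((![OInf3 (badSetup_W0 hq hA M' hqM), OMid hq A hA hζ M' hqM (IsLocalRing.residue A), OZero3 (badSetup_W0 hq hA M' hqM) w] : Fin 3 → ValuationSubring ↥(laurentBaseChange ↥(K0 A) (modularFunctionFieldFull (M' * q * q)))) 1).nonunits)
    (algebraMap_dB A M' π₀ π₂ hπ₀ hπ₂ x' hx'))
    (dMid_mem_nonunits_OMid hq A hA hζ M' hqM (IsLocalRing.residue A)
      (residue_eq_zero_of_not_isUnit A))

include hπ₀ hπ₂ hx' in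
/-- `Contract.unif_mid`. -/
theorem unif_mid_fin :
    ∀ z ∈ ((![OInf3 (badSetup_W0 hq hA M' hqM), OMid hq A hA hζ M' hqM (IsLocalRing.residue A), OZero3 (badSetup_W0 hq hA M' hqM) w] : Fin 3 → ValuationSubring ↥(laurentBaseChange ↥(K0 A) (modularFunctionFieldFull (M' * q * q)))) 1).nonunits, z / algebraMap ↥(Charts.chart ↥(W0 A) (CuspQuot.J0 (q := q) ↥(K0 A) M' * CuspQuot.J2 ↥(K0 A) M')) ↥(laurentBaseChange ↥(K0 A) (modularFunctionFieldFull (M' * q * q))) (π₂ x' - π₀ x') ∈ (![OInf3 (badSetup_W0 hq hA M' hqM), OMid hq A hA hζ M' hqM (IsLocalRing.residue A), OZero3 (badSetup_W0 hq hA M' hqM) w] : Fin 3 → ValuationSubring ↥(laurentBaseChange ↥(K0 A) (modularFunctionFieldFull (M' * q * q)))) 1 :=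
  fun z hz => Eq.mpr (congrArg (fun t => z / t ∈ (![OInf3 (badSetup_W0 hq hA M' hqM), OMid hq A hA hζ M' hqM (IsLocalRing.residue A), OZero3 (badSetup_W0 hq hA M' hqM) w] : Fin 3 → ValuationSubring ↥(laurentBaseChange ↥(K0 A) (modularFunctionFieldFull (M' * q * q)))) 1)
    (algebraMap_dB A M' π₀ π₂ hπ₀ hπ₂ x' hx'))
    (MidKappa.div_dMid_mem hq A hA hζ M' hqM z hz)

include hred0 hred' hπ₀ in
/-- `Contract.inf_π₀`. -/
theorem inf_pi0_fin (y : ↥(integralClosure ↥((Data.ofJ (W0 A) (resW0 A) M').AX) ↥(laurentBaseChange ↥(K0 A) (modularFunctionFieldFull M')))) : redOn ((![OInf3 (badSetup_W0 hq hA M' hqM), OMid hq A hA hζ M' hqM (IsLocalRing.residue A), OZero3 (badSetup_W0 hq hA M' hqM) w] : Fin 3 → ValuationSubring ↥(laurentBaseChange ↥(K0 A) (modularFunctionFieldFull (M' * q * q)))) 0) (red 0) (hBO 0) (π₀ y) = red' y := by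
  obtain ⟨hy', e⟩ := Pull.inf_pi0 (badSetup_W0 hq hA M' hqM) (y : ↥(laurentBaseChange ↥(K0 A) (modularFunctionFieldFull M'))) ((Data.ofJ (W0 A) (resW0 A) M').mem_Ow_of_isIntegral_AX (badSetup_W0 hq hA M' hqM).hMk y.2)
  have e1 : (⟨algebraMap ↥(Charts.chart ↥(W0 A) (CuspQuot.J0 (q := q) ↥(K0 A) M' * CuspQuot.J2 ↥(K0 A) M')) ↥(laurentBaseChange ↥(K0 A) (modularFunctionFieldFull (M' * q * q))) (π₀ y), hBO 0 (π₀ y)⟩ : ↥(OInf3 (badSetup_W0 hq hA M' hqM))) =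
      ⟨piStar0 ↥(K0 A) M' q (y : ↥(laurentBaseChange ↥(K0 A) (modularFunctionFieldFull M'))), hy'⟩ := Subtype.ext (hπ₀ y)
  exact (redOn_apply _ (red 0) (hBO 0) (π₀ y)).trans
    ((hred0 _).trans ((congrArg (redInf3 (badSetup_W0 hq hA M' hqM)) e1).trans (e.trans (hred' y).symm)))

include hred2 hred' hπ₂ in
/-- `Contract.zero_π₂`. -/
theorem zero_pi2_fin (hw : IsAL3 M' q w) (y : ↥(integralClosure ↥((Data.ofJ (W0 A) (resW0 A) M').AX) ↥(laurentBaseChange ↥(K0 A) (modularFunctionFieldFull M')))) :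
    redOn ((![OInf3 (badSetup_W0 hq hA M' hqM), OMid hq A hA hζ M' hqM (IsLocalRing.residue A), OZero3 (badSetup_W0 hq hA M' hqM) w] : Fin 3 → ValuationSubring ↥(laurentBaseChange ↥(K0 A) (modularFunctionFieldFull (M' * q * q)))) 2) (red 2) (hBO 2) (π₂ y) = red' y := by
  obtain ⟨hy', e⟩ := Pull.zero_pi2 (badSetup_W0 hq hA M' hqM) hw (y : ↥(laurentBaseChange ↥(K0 A) (modularFunctionFieldFull M'))) ((Data.ofJ (W0 A) (resW0 A) M').mem_Ow_of_isIntegral_AX (badSetup_W0 hq hA M' hqM).hMk y.2)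
  have e1 : (⟨algebraMap ↥(Charts.chart ↥(W0 A) (CuspQuot.J0 (q := q) ↥(K0 A) M' * CuspQuot.J2 ↥(K0 A) M')) ↥(laurentBaseChange ↥(K0 A) (modularFunctionFieldFull (M' * q * q))) (π₂ y), hBO 2 (π₂ y)⟩ : ↥(OZero3 (badSetup_W0 hq hA M' hqM) w)) =
      ⟨piStar2 ↥(K0 A) M' q (y : ↥(laurentBaseChange ↥(K0 A) (modularFunctionFieldFull M'))), hy'⟩ := Subtype.ext (hπ₂ y)
  exact (redOn_apply _ (red 2) (hBO 2) (π₂ y)).trans
    ((hred2 _).trans ((congrArg (redZero3 (badSetup_W0 hq hA M' hqM) w) e1).trans (e.trans (hred' y).symm)))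

include hred1 hred' hπ₀ in
/-- `Contract.mid_π₀`. -/
theorem mid_pi0_fin (y : ↥(integralClosure ↥((Data.ofJ (W0 A) (resW0 A) M').AX) ↥(laurentBaseChange ↥(K0 A) (modularFunctionFieldFull M')))) : redOn ((![OInf3 (badSetup_W0 hq hA M' hqM), OMid hq A hA hζ M' hqM (IsLocalRing.residue A), OZero3 (badSetup_W0 hq hA M' hqM) w] : Fin 3 → ValuationSubring ↥(laurentBaseChange ↥(K0 A) (modularFunctionFieldFull (M' * q * q)))) 1) (red 1) (hBO 1) (π₀ y) = red' y := by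
  have hy : (y : ↥(laurentBaseChange ↥(K0 A) (modularFunctionFieldFull M'))) ∈ Ow (W0 A) (resW0 A) M' (badSetup_W0 hq hA M' hqM).hMk := ((Data.ofJ (W0 A) (resW0 A) M').mem_Ow_of_isIntegral_AX (badSetup_W0 hq hA M' hqM).hMk y.2)
  have h1' : piStar0 ↥(K0 A) M' q (y : ↥(laurentBaseChange ↥(K0 A) (modularFunctionFieldFull M'))) ∈ (OMid hq A hA hζ M' hqM (IsLocalRing.residue A)) :=
    piStar0_mem_OMid hq A hA hζ M' hqM (badSetup_W0 hq hA M' hqM).hMk (y : ↥(laurentBaseChange ↥(K0 A) (modularFunctionFieldFull M'))) hy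
  have e := redMid_piStar0 hq A hA hζ M' hqM (badSetup_W0 hq hA M' hqM).hMk (y : ↥(laurentBaseChange ↥(K0 A) (modularFunctionFieldFull M'))) hy h1'
  have e1 : (⟨algebraMap ↥(Charts.chart ↥(W0 A) (CuspQuot.J0 (q := q) ↥(K0 A) M' * CuspQuot.J2 ↥(K0 A) M')) ↥(laurentBaseChange ↥(K0 A) (modularFunctionFieldFull (M' * q * q))) (π₀ y), hBO 1 (π₀ y)⟩ : ↥(OMid hq A hA hζ M' hqM (IsLocalRing.residue A))) =
      ⟨piStar0 ↥(K0 A) M' q (y : ↥(laurentBaseChange ↥(K0 A) (modularFunctionFieldFull M'))), h1'⟩ := Subtype.ext (hπ₀ y)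
  refine (redOn_apply _ (red 1) (hBO 1) (π₀ y)).trans (Subtype.ext ?_)
  exact (hred1 _).trans ((congrArg (redMid hq A hA hζ M' hqM (IsLocalRing.residue A)) e1).trans
    (e.trans (congrArg Subtype.val (hred' y).symm)))

include hred1 hred' hπ₂ in
/-- `Contract.mid_π₂`. -/
theorem mid_pi2_fin (y : ↥(integralClosure ↥((Data.ofJ (W0 A) (resW0 A) M').AX) ↥(laurentBaseChange ↥(K0 A) (modularFunctionFieldFull M')))) : redOn ((![OInf3 (badSetup_W0 hq hA M' hqM), OMid hq A hA hζ M' hqM (IsLocalRing.residue A), OZero3 (badSetup_W0 hq hA M' hqM) w] : Fin 3 → ValuationSubring ↥(laurentBaseChange ↥(K0 A) (modularFunctionFieldFull (M' * q * q)))) 1) (red 1) (hBO 1) (π₂ y) = red' y := by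
  have hy : (y : ↥(laurentBaseChange ↥(K0 A) (modularFunctionFieldFull M'))) ∈ Ow (W0 A) (resW0 A) M' (badSetup_W0 hq hA M' hqM).hMk := ((Data.ofJ (W0 A) (resW0 A) M').mem_Ow_of_isIntegral_AX (badSetup_W0 hq hA M' hqM).hMk y.2)
  have h1' : piStar2 ↥(K0 A) M' q (y : ↥(laurentBaseChange ↥(K0 A) (modularFunctionFieldFull M'))) ∈ (OMid hq A hA hζ M' hqM (IsLocalRing.residue A)) :=
    piStar2_mem_OMid hq A hA hζ M' hqM (badSetup_W0 hq hA M' hqM).hMk (y : ↥(laurentBaseChange ↥(K0 A) (modularFunctionFieldFull M'))) hy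
  have e := redMid_piStar2 hq A hA hζ M' hqM (badSetup_W0 hq hA M' hqM).hMk (y : ↥(laurentBaseChange ↥(K0 A) (modularFunctionFieldFull M'))) hy h1'
  have e1 : (⟨algebraMap ↥(Charts.chart ↥(W0 A) (CuspQuot.J0 (q := q) ↥(K0 A) M' * CuspQuot.J2 ↥(K0 A) M')) ↥(laurentBaseChange ↥(K0 A) (modularFunctionFieldFull (M' * q * q))) (π₂ y), hBO 1 (π₂ y)⟩ : ↥(OMid hq A hA hζ M' hqM (IsLocalRing.residue A))) =
      ⟨piStar2 ↥(K0 A) M' q (y : ↥(laurentBaseChange ↥(K0 A) (modularFunctionFieldFull M'))), h1'⟩ := Subtype.ext (hπ₂ y)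
  refine (redOn_apply _ (red 1) (hBO 1) (π₂ y)).trans (Subtype.ext ?_)
  exact (hred1 _).trans ((congrArg (redMid hq A hA hζ M' hqM (IsLocalRing.residue A)) e1).trans
    (e.trans (congrArg Subtype.val (hred' y).symm)))

include hred1 hred' hπ₀ hπ₂ hx' in
/-- `Contract.cd`. -/
theorem cd_fin [IsAlgClosed (IsLocalRing.ResidueField A)] (y : ↥(integralClosure ↥((Data.ofJ (W0 A) (resW0 A) M').AX) ↥(laurentBaseChange ↥(K0 A) (modularFunctionFieldFull M')))) :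
    ∃ hz : algebraMap ↥(Charts.chart ↥(W0 A) (CuspQuot.J0 (q := q) ↥(K0 A) M' * CuspQuot.J2 ↥(K0 A) M')) ↥(laurentBaseChange ↥(K0 A) (modularFunctionFieldFull (M' * q * q))) (π₂ y - π₀ y) / algebraMap ↥(Charts.chart ↥(W0 A) (CuspQuot.J0 (q := q) ↥(K0 A) M' * CuspQuot.J2 ↥(K0 A) M')) ↥(laurentBaseChange ↥(K0 A) (modularFunctionFieldFull (M' * q * q))) (π₂ x' - π₀ x') ∈ (![OInf3 (badSetup_W0 hq hA M' hqM), OMid hq A hA hζ M' hqM (IsLocalRing.residue A), OZero3 (badSetup_W0 hq hA M' hqM) w] : Fin 3 → ValuationSubring ↥(laurentBaseChange ↥(K0 A) (modularFunctionFieldFull (M' * q * q)))) 1,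
      red 1 ⟨_, hz⟩ = (Fermat.Agent.CAR.Local.Inst.Deriv.dJ (IsLocalRing.ResidueField A) M') (red' y) := by
  have hκ : ∀ f : (OMid hq A hA hζ M' hqM (IsLocalRing.residue A)), (redMid hq A hA hζ M' hqM (IsLocalRing.residue A)) f ∈ modularFunctionFieldFullC (IsLocalRing.ResidueField A) M' :=
    fun f => Count.redMid_mem_fullC hq A hA hζ M' hqM f
  have hy : (y : ↥(laurentBaseChange ↥(K0 A) (modularFunctionFieldFull M'))) ∈ Ow (W0 A) (resW0 A) M' (badSetup_W0 hq hA M' hqM).hMk := ((Data.ofJ (W0 A) (resW0 A) M').mem_Ow_of_isIntegral_AX (badSetup_W0 hq hA M' hqM).hMk y.2)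
  obtain ⟨hz, e⟩ := MidKappa.cd_dJ hq A hA hζ M' hqM hκ (badSetup_W0 hq hA M' hqM).hMk (y : ↥(laurentBaseChange ↥(K0 A) (modularFunctionFieldFull M'))) hy
  have hE : algebraMap ↥(Charts.chart ↥(W0 A) (CuspQuot.J0 (q := q) ↥(K0 A) M' * CuspQuot.J2 ↥(K0 A) M')) ↥(laurentBaseChange ↥(K0 A) (modularFunctionFieldFull (M' * q * q))) (π₂ y - π₀ y) / algebraMap ↥(Charts.chart ↥(W0 A) (CuspQuot.J0 (q := q) ↥(K0 A) M' * CuspQuot.J2 ↥(K0 A) M')) ↥(laurentBaseChange ↥(K0 A) (modularFunctionFieldFull (M' * q * q))) (π₂ x' - π₀ x') =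
      (piStar2 ↥(K0 A) M' q (y : ↥(laurentBaseChange ↥(K0 A) (modularFunctionFieldFull M'))) - piStar0 ↥(K0 A) M' q (y : ↥(laurentBaseChange ↥(K0 A) (modularFunctionFieldFull M')))) / dMid A M' q :=
    congrArg₂ (fun a b => a / b) (algebraMap_dy A M' π₀ π₂ hπ₀ hπ₂ y)
      (algebraMap_dB A M' π₀ π₂ hπ₀ hπ₂ x' hx')
  have hz' : algebraMap ↥(Charts.chart ↥(W0 A) (CuspQuot.J0 (q := q) ↥(K0 A) M' * CuspQuot.J2 ↥(K0 A) M')) ↥(laurentBaseChange ↥(K0 A) (modularFunctionFieldFull (M' * q * q))) (π₂ y - π₀ y) / algebraMap ↥(Charts.chart ↥(W0 A) (CuspQuot.J0 (q := q) ↥(K0 A) M' * CuspQuot.J2 ↥(K0 A) M')) ↥(laurentBaseChange ↥(K0 A) (modularFunctionFieldFull (M' * q * q))) (π₂ x' - π₀ x') ∈ (OMid hq A hA hζ M' hqM (IsLocalRing.residue A)) :=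
    Eq.mpr (congrArg (fun z => z ∈ (OMid hq A hA hζ M' hqM (IsLocalRing.residue A))) hE) hz
  have e1 : (⟨algebraMap ↥(Charts.chart ↥(W0 A) (CuspQuot.J0 (q := q) ↥(K0 A) M' * CuspQuot.J2 ↥(K0 A) M')) ↥(laurentBaseChange ↥(K0 A) (modularFunctionFieldFull (M' * q * q))) (π₂ y - π₀ y) / algebraMap ↥(Charts.chart ↥(W0 A) (CuspQuot.J0 (q := q) ↥(K0 A) M' * CuspQuot.J2 ↥(K0 A) M')) ↥(laurentBaseChange ↥(K0 A) (modularFunctionFieldFull (M' * q * q))) (π₂ x' - π₀ x'), hz'⟩ : ↥(OMid hq A hA hζ M' hqM (IsLocalRing.residue A))) =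
      ⟨(piStar2 ↥(K0 A) M' q (y : ↥(laurentBaseChange ↥(K0 A) (modularFunctionFieldFull M'))) - piStar0 ↥(K0 A) M' q (y : ↥(laurentBaseChange ↥(K0 A) (modularFunctionFieldFull M')))) / dMid A M' q, hz⟩ :=
    Subtype.ext hE
  refine ⟨hz', Subtype.ext ?_⟩
  exact (hred1 _).trans ((congrArg (redMid hq A hA hζ M' hqM (IsLocalRing.residue A)) e1).trans
    ((MidKappa.coe_redMidK hq A hA hζ M' hqM hκ _).symm.trans
      (congrArg Subtype.val (e.trans (congrArg (Fermat.Agent.CAR.Local.Inst.Deriv.dJ (IsLocalRing.ResidueField A) M') (hred' y).symm)))))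

include hred0 hred1 hred2 hπ₀ hπ₂ hx' in
/-- The units block (`e_ne … red_h`) of the contract. -/
theorem exists_units_fin [IsAlgClosed (IsLocalRing.ResidueField A)]
    [IsFractionRing ↥(Charts.chart ↥(W0 A) (CuspQuot.J0 (q := q) ↥(K0 A) M' * CuspQuot.J2 ↥(K0 A) M')) ↥(laurentBaseChange ↥(K0 A) (modularFunctionFieldFull (M' * q * q)))] (hw : IsAL3 M' q w) :
    ∃ u u₁ v₁ h : ↥(Charts.chart ↥(W0 A) (CuspQuot.J0 (q := q) ↥(K0 A) M' * CuspQuot.J2 ↥(K0 A) M')),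
      UnitsCols.UnitsFields ((![OInf3 (badSetup_W0 hq hA M' hqM), OMid hq A hA hζ M' hqM (IsLocalRing.residue A), OZero3 (badSetup_W0 hq hA M' hqM) w] : Fin 3 → ValuationSubring ↥(laurentBaseChange ↥(K0 A) (modularFunctionFieldFull (M' * q * q)))) 0) ((![OInf3 (badSetup_W0 hq hA M' hqM), OMid hq A hA hζ M' hqM (IsLocalRing.residue A), OZero3 (badSetup_W0 hq hA M' hqM) w] : Fin 3 → ValuationSubring ↥(laurentBaseChange ↥(K0 A) (modularFunctionFieldFull (M' * q * q)))) 1) ((![OInf3 (badSetup_W0 hq hA M' hqM), OMid hq A hA hζ M' hqM (IsLocalRing.residue A), OZero3 (badSetup_W0 hq hA M' hqM) w] : Fin 3 → ValuationSubring ↥(laurentBaseChange ↥(K0 A) (modularFunctionFieldFull (M' * q * q)))) 2) (red 0) (red 1) (red 2)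
        (hBO 0) (hBO 1) (hBO 2) (algebraMap ↥(W0 A) ↥(Charts.chart ↥(W0 A) (CuspQuot.J0 (q := q) ↥(K0 A) M' * CuspQuot.J2 ↥(K0 A) M')) ((q : ℕ) : ↥(W0 A))) (π₂ x' - π₀ x') u u₁ v₁ h (UnitsCols.Db hq hA M' hqM) (Fermat.Agent.CAR.Local.Inst.Deriv.GJ (IsLocalRing.ResidueField A) M') 12 (q - 1) := by
  obtain ⟨y₁, hy₁⟩ := MidUnits.exists_y1 hq A M'
  obtain ⟨y₂, hy₂⟩ := MidUnits.exists_y2 hq A M'
  obtain ⟨u, u₁, v₁, h, hu, hu₁, hv₁, hh⟩ :=
    UnitsFinUF.exists_uf hq A hA hζ M' hqM hy₁ hy₂ hw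
  exact ⟨u, u₁, v₁, h, UnitsG7.unitsFields_of_transfer hq hA hζ M' hqM (red 1) hred1 hw _ red
    (fun J c hJ => ⟨hJ.1, (hred0 ⟨J, hJ.1⟩).trans hJ.2⟩)
    (fun J c hJ => hJ)
    (fun J c hJ => ⟨hJ.1, (hred2 ⟨J, hJ.1⟩).trans hJ.2⟩)
    (IsFractionRing.injective _ _) hBO hy₁ hy₂ (algebraMap_qB (q := q) A M')
    (algebraMap_dB A M' π₀ π₂ hπ₀ hπ₂ x' hx') hu hu₁ hv₁ hh⟩

include hred0 hred1 hred2 hred' hπ₀ hπ₂ hx' in
/-- **The concrete contract of the finite chart.** -/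
theorem exists_contract_K0 [IsAlgClosed (IsLocalRing.ResidueField A)]
    [IsFractionRing ↥(Charts.chart ↥(W0 A) (CuspQuot.J0 (q := q) ↥(K0 A) M' * CuspQuot.J2 ↥(K0 A) M')) ↥(laurentBaseChange ↥(K0 A) (modularFunctionFieldFull (M' * q * q)))]
    (hw : IsAL3 M' q w) (hq2 : q = 2 → 3 ∣ M') (hq3 : q = 3 → 2 ∣ M')
    (hred : ∀ i, ∀ x : ↥((![OInf3 (badSetup_W0 hq hA M' hqM), OMid hq A hA hζ M' hqM (IsLocalRing.residue A), OZero3 (badSetup_W0 hq hA M' hqM) w] : Fin 3 → ValuationSubring ↥(laurentBaseChange ↥(K0 A) (modularFunctionFieldFull (M' * q * q)))) i), red i x = 0 ↔ x ∈ maximalIdeal ↥((![OInf3 (badSetup_W0 hq hA M' hqM), OMid hq A hA hζ M' hqM (IsLocalRing.residue A), OZero3 (badSetup_W0 hq hA M' hqM) w] : Fin 3 → ValuationSubring ↥(laurentBaseChange ↥(K0 A) (modularFunctionFieldFull (M' * q * q)))) i)) :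
    ∃ u u₁ v₁ h : ↥(Charts.chart ↥(W0 A) (CuspQuot.J0 (q := q) ↥(K0 A) M' * CuspQuot.J2 ↥(K0 A) M')),
      Contract (![OInf3 (badSetup_W0 hq hA M' hqM), OMid hq A hA hζ M' hqM (IsLocalRing.residue A), OZero3 (badSetup_W0 hq hA M' hqM) w] : Fin 3 → ValuationSubring ↥(laurentBaseChange ↥(K0 A) (modularFunctionFieldFull (M' * q * q)))) red hred hBO red' π₀ π₂ (Fermat.Agent.CAR.Local.Inst.Deriv.dJ (IsLocalRing.ResidueField A) M') (algebraMap ↥(W0 A) ↥(Charts.chart ↥(W0 A) (CuspQuot.J0 (q := q) ↥(K0 A) M' * CuspQuot.J2 ↥(K0 A) M')) ((q : ℕ) : ↥(W0 A))) x' u u₁ v₁ h (UnitsCols.Db hq hA M' hqM) (Fermat.Agent.CAR.Local.Inst.Deriv.GJ (IsLocalRing.ResidueField A) M') 12 (q - 1) := by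
  obtain ⟨u, u₁, v₁, h, U⟩ :=
    exists_units_fin hq A hA hζ M' hqM red hred0 hred1 hred2 hBO π₀ π₂ hπ₀ hπ₂ x' hx' hw
  have hRO := redOnto_of_apply (Data.ofJ (W0 A) (resW0 A) M') (resW0_eq_zero_of_not_isUnit A)
    (badSetup_W0 hq hA M' hqM).hMk red' hred'
  exact ⟨u, u₁, v₁, h,
    { q_ne := qB_ne_zero hq A hA M' hqM
      hmin := HMin3.hmin3 hq A hA hζ M' hqM hw
        (fun i r hr => HMin3.hRV3 hq A hA hζ M' hqM hw i r hr)
      not_max := HMin3.not_max3 hq A hA hζ M' hqM hw hBO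
      q_mem := qB_mem hq A hA hζ M' hqM hw
      unif_inf := unif_inf_fin hq A hA hζ M' hqM
      unif_zero := unif_zero_fin hq A hA hζ M' hqM
      inf_π₀ := inf_pi0_fin hq A hA hζ M' hqM red hred0 hBO red' hred' π₀ hπ₀
      mid_π₀ := mid_pi0_fin hq A hA hζ M' hqM red hred1 hBO red' hred' π₀ hπ₀
      mid_π₂ := mid_pi2_fin hq A hA hζ M' hqM red hred1 hBO red' hred' π₂ hπ₂
      zero_π₂ := zero_pi2_fin hq A hA hζ M' hqM red hred2 hBO red' hred' π₂ hπ₂ hw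
      fin := FinFields.fin3 hq A hA hζ M' hqM hw red hred0 hred1 hred2 hBO hRO
      lift := LiftJ23Inst.contract_lift_ofJ_all hq hA hRO hq2 hq3
      res := contract_res_K0 hq hA hRO
      deriv := Fermat.Agent.CAR.Local.Inst.Deriv.isDeriv_dJ (IsLocalRing.ResidueField A) M'
      deriv_x := (congrArg (Fermat.Agent.CAR.Local.Inst.Deriv.dJ (IsLocalRing.ResidueField A) M')
        (EllFinK0.red'_eq_Jbar M' (badSetup_W0 hq hA M' hqM).hMk red' hred' x' hx')).trans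
          (Fermat.Agent.CAR.Local.Inst.Deriv.dJ_Jbar (IsLocalRing.ResidueField A) M')
      d_mem := d_mem_fin hq A hA hζ M' hqM π₀ π₂ hπ₀ hπ₂ x' hx'
      unif_mid := unif_mid_fin hq A hA hζ M' hqM π₀ π₂ hπ₀ hπ₂ x' hx'
      cd := cd_fin hq A hA hζ M' hqM red hred1 red' hred' π₀ π₂ hπ₀ hπ₂ x' hx'
      e_ne := U.e_ne
      prod := U.prod
      Db_ne := U.Db_ne
      u_inf := U.u_inf
      u_mid := U.u_mid
      u_zero := U.u_zero
      u₁_inf := U.u₁_inf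
      u₁_mid := U.u₁_mid
      u₁_zero := U.u₁_zero
      v₁_inf := U.v₁_inf
      v₁_mid := U.v₁_mid
      v₁_zero := U.v₁_zero
      cert := U.cert
      red_h := U.red_h }⟩

end Fields

end Fermat.Agent.CAR.Inst.Finite
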