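/-
CAR (instance layer): the CLOSED Gauss / `hmin` block over the inertia field.

`(L, A, π) = (K0, W0, resW0)`, `F3 = K0·F_{M'q²}`, chart function `x = J_0 J_2`
(`CuspQuot.J0 * CuspQuot.J2`), `V = ![OInf3 h0, OMid …, OZero3 h0 w]`.  Everything is derived from
`Count.family3_K0` ("exactly three") and `Inst/HMinInst`; the only hypothesis left is
`hw : IsAL3 M' q w` (`Zero.exists_isAL3`) and the abstract instances
`[Algebra ↥(W0 A) F3] [IsScalarTower ↥(W0 A) ↥(K0 A) F3]`.

* `above3`, `inj3`, `hex3` : the three "exactly three" inputs of `HMin.hmin_chart_K0`;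
* `isAbove3`, `gauss_x3`, `gauss_xinv3`, `hex_x3`, `hex_xinv3` : the Gauss triples at `x`, `x⁻¹`
  and the exhaustion in the `ChartX` vocabulary;
* `hRV3`, `hR'V3`, `hmin3`, `hmin3'`, `not_max3`, `not_max3'` : the chart-theorem binders.
-/
import Mathlib
import Fermat.Agent.CAR.V3.CountGauss
import Fermat.Agent.CAR.Inst.HMinInst
import Fermat.Agent.CAR.Glob.ChartXB

set_option autoImplicit false
set_option linter.unusedSectionVars false
set_option linter.style.haveILetI false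

namespace Fermat.Agent.CAR.Inst.GaussK0

open HahnSeries ModularCurve AlgebraicCurve Fermat.Agent.Lib.Red Fermat.Agent.S28
open Fermat.Agent.ESJ.Cong.LevelGen Fermat.Agent.BAD.TwoVal Fermat.Agent.CAR.Formal
open Fermat.Agent.CAR.V3 Fermat.Agent.CAR.V3.CountAbs Fermat.Agent.CAR.Glob
open Fermat.Agent.CAR.Glob.Charts Fermat.Agent.CAR.Glob.CuspQuot Fermat.Agent.CAR.K0
open Fermat.Agent.CAR.V3.MidRing Fermat.Agent.CAR.V3.CountGauss

noncomputable section

local notation "Qb" => AlgebraicClosure ℚ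

/-! ### Generic base: the Gauss triples at `x = J_0 J_2` and `x⁻¹` -/

section Generic

variable {L : Type} [Field L] [Algebra ℚ L] {A : ValuationSubring L} {k : Type} [Field k]
  {π : A →+* k} {M' q : ℕ} [NeZero M'] [NeZero q]

/-- A valuation subring above `Ow` along `π_0^*` is above `A`, and `x = J_0 J_2` is a Gauss point
of it. -/
theorem gauss_x_of_above (hπ : ∀ a : A, ¬ IsUnit a → π a = 0) (hNk : (M' : k) ≠ 0)
    (D : TD.ModEq q)
    {V : ValuationSubring ↥(laurentBaseChange L (modularFunctionFieldFull (M' * q * q)))}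
    (hV : ∀ y : ↥(laurentBaseChange L (modularFunctionFieldFull M')),
      piStar0 L M' q y ∈ V ↔ y ∈ Ow A π M' hNk) :
    IsAboveC A V ∧ J0 (q := q) L M' * J2 (q := q) L M' ∈ V ∧
      ResTranscC A V (J0 (q := q) L M' * J2 (q := q) L M') := by
  letI : Algebra ↥A ↥(laurentBaseChange L (modularFunctionFieldFull (M' * q * q))) :=
    ((algebraMap L ↥(laurentBaseChange L (modularFunctionFieldFull (M' * q * q)))).comp
      (algebraMap ↥A L)).toAlgebra
  haveI : IsScalarTower ↥A L ↥(laurentBaseChange L (modularFunctionFieldFull (M' * q * q))) :=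
    IsScalarTower.of_algebraMap_eq fun _ => rfl
  exact HMin.gauss_chartFn_of_above hπ hNk D hV

/-- The same at `x⁻¹`. -/
theorem gauss_xinv_of_above (hπ : ∀ a : A, ¬ IsUnit a → π a = 0) (hNk : (M' : k) ≠ 0)
    (D : TD.ModEq q)
    {V : ValuationSubring ↥(laurentBaseChange L (modularFunctionFieldFull (M' * q * q)))}
    (hV : ∀ y : ↥(laurentBaseChange L (modularFunctionFieldFull M')),
      piStar0 L M' q y ∈ V ↔ y ∈ Ow A π M' hNk) :
    IsAboveC A V ∧ (J0 (q := q) L M' * J2 (q := q) L M')⁻¹ ∈ V ∧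
      ResTranscC A V (J0 (q := q) L M' * J2 (q := q) L M')⁻¹ := by
  obtain ⟨h1, h2, h3⟩ := gauss_x_of_above hπ hNk D hV
  exact ⟨h1, ChartXB.gauss_inv_iff.mpr ⟨h2, h3⟩⟩

/-- Conversely: a valuation subring above `A` at which `x = J_0 J_2` is a Gauss point is above
`Ow` along `π_0^*`. -/
theorem above_of_gauss_x (hπ : ∀ a : A, ¬ IsUnit a → π a = 0) (hsurj : Function.Surjective π)
    (hNk : (M' : k) ≠ 0) {ϖ : L} (hϖ : IsUnif A ϖ) (D : TD.ModEq q)
    {V : ValuationSubring ↥(laurentBaseChange L (modularFunctionFieldFull (M' * q * q)))}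
    (hV : IsAboveC A V) (hx : J0 (q := q) L M' * J2 (q := q) L M' ∈ V)
    (htr : ResTranscC A V (J0 (q := q) L M' * J2 (q := q) L M')) :
    ∀ y : ↥(laurentBaseChange L (modularFunctionFieldFull M')),
      piStar0 L M' q y ∈ V ↔ y ∈ Ow A π M' hNk := by
  letI : Algebra ↥A ↥(laurentBaseChange L (modularFunctionFieldFull (M' * q * q))) :=
    ((algebraMap L ↥(laurentBaseChange L (modularFunctionFieldFull (M' * q * q)))).comp
      (algebraMap ↥A L)).toAlgebra
  haveI : IsScalarTower ↥A L ↥(laurentBaseChange L (modularFunctionFieldFull (M' * q * q))) :=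
    IsScalarTower.of_algebraMap_eq fun _ => rfl
  exact HMin.above_of_gauss_chartFn hπ hsurj hNk hϖ D hV hx htr

/-- The same from the Gauss triple at `x⁻¹`. -/
theorem above_of_gauss_xinv (hπ : ∀ a : A, ¬ IsUnit a → π a = 0) (hsurj : Function.Surjective π)
    (hNk : (M' : k) ≠ 0) {ϖ : L} (hϖ : IsUnif A ϖ) (D : TD.ModEq q)
    {V : ValuationSubring ↥(laurentBaseChange L (modularFunctionFieldFull (M' * q * q)))}
    (hV : IsAboveC A V) (hx : (J0 (q := q) L M' * J2 (q := q) L M')⁻¹ ∈ V)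
    (htr : ResTranscC A V (J0 (q := q) L M' * J2 (q := q) L M')⁻¹) :
    ∀ y : ↥(laurentBaseChange L (modularFunctionFieldFull M')),
      piStar0 L M' q y ∈ V ↔ y ∈ Ow A π M' hNk := by
  obtain ⟨h2, h3⟩ := ChartXB.gauss_inv_iff.mp ⟨hx, htr⟩
  exact above_of_gauss_x hπ hsurj hNk hϖ D hV h2 h3

/-- `x = J_0 J_2` is transcendental over the constants. -/
theorem transcendental_x :
    Transcendental L (J0 (q := q) L M' * J2 (q := q) L M') :=
  ChartField.transcendental_FNK L (M' * q * q) _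
    (HMin.order_J0_mul_J2_ne_zero (L := L) (M' := M') (q := q))

/-- `x⁻¹` is transcendental over the constants. -/
theorem transcendental_xinv :
    Transcendental L (J0 (q := q) L M' * J2 (q := q) L M')⁻¹ := fun h =>
  transcendental_x (L := L) (M' := M') (q := q) (by simpa using h.inv)

end Generic

/-! ### The instance `(L, A, π) = (K0, W0, resW0)` -/

section K0Inst

set_option synthInstance.maxHeartbeats 400000
set_option maxHeartbeats 1000000

variable {q : ℕ} [NeZero q] (hq : q.Prime) (A : ValuationSubring Qb) (hA : A.LiesOverPrime q)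
  {ζ : Qb} (hζ : IsPrimitiveRoot ζ q) (M' : ℕ) [NeZero M'] (hqM : ¬ q ∣ M')
  {w : laurentBaseChange ↥(K0 A) (modularFunctionFieldFull (M' * q * q)) ≃ₐ[↥(K0 A)]
    laurentBaseChange ↥(K0 A) (modularFunctionFieldFull (M' * q * q))}

set_option quotPrecheck false in
local notation "V3" => (![OInf3 (badSetup_W0 hq hA M' hqM),
  OMid hq A hA hζ M' hqM (IsLocalRing.residue A), OZero3 (badSetup_W0 hq hA M' hqM) w] :
  Fin 3 → ValuationSubring ↥(laurentBaseChange ↥(K0 A) (modularFunctionFieldFull (M' * q * q))))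

set_option quotPrecheck false in
local notation "xK" => (J0 (q := q) ↥(K0 A) M' * J2 (q := q) ↥(K0 A) M')

/-- **(hab)** each of the three rings is above `Ow` along `π_0^*`. -/
theorem above3 (hw : IsAL3 M' q w) (i : Fin 3)
    (y : ↥(laurentBaseChange ↥(K0 A) (modularFunctionFieldFull M'))) :
    piStar0 ↥(K0 A) M' q y ∈ V3 i ↔
      y ∈ Ow (W0 A) (resW0 A) M' (badSetup_W0 hq hA M' hqM).hMk :=
  letI := Count.alg0 ↥(K0 A) M' q
  (Count.family3_K0 hq A hA hζ M' hqM hw).above i y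

/-- **(hinj)** the three rings are pairwise distinct. -/
theorem inj3 (hw : IsAL3 M' q w) : Function.Injective V3 :=
  letI := Count.alg0 ↥(K0 A) M' q
  (Count.family3_K0 hq A hA hζ M' hqM hw).inj

/-- **(hex)** exactly three, `∃ i` form. -/
theorem hex3 (hw : IsAL3 M' q w)
    (V' : ValuationSubring ↥(laurentBaseChange ↥(K0 A) (modularFunctionFieldFull (M' * q * q))))
    (hV' : ∀ y : ↥(laurentBaseChange ↥(K0 A) (modularFunctionFieldFull M')),
      piStar0 ↥(K0 A) M' q y ∈ V' ↔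
        y ∈ Ow (W0 A) (resW0 A) M' (badSetup_W0 hq hA M' hqM).hMk) :
    ∃ i : Fin 3, V' = V3 i := by
  rcases Count.eq_of_isAbove3_K0 hq A hA hζ M' hqM hw V' hV' with h | h | h
  · exact ⟨0, h⟩
  · exact ⟨1, h⟩
  · exact ⟨2, h⟩

/-- Each of the three rings is above `W0` (constants). -/
theorem isAbove3 (hw : IsAL3 M' q w) (i : Fin 3) : IsAboveC (W0 A) (V3 i) := by
  obtain ⟨D⟩ := modEq_all q hq
  exact (gauss_x_of_above (resW0_eq_zero_of_not_isUnit A) _ D
    (above3 hq A hA hζ M' hqM hw i)).1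

/-- `x = J_0 J_2` is a Gauss point of each of the three rings. -/
theorem gauss_x3 (hw : IsAL3 M' q w) (i : Fin 3) :
    xK ∈ V3 i ∧ ResTranscC (W0 A) (V3 i) xK := by
  obtain ⟨D⟩ := modEq_all q hq
  exact (gauss_x_of_above (resW0_eq_zero_of_not_isUnit A) _ D
    (above3 hq A hA hζ M' hqM hw i)).2

/-- `x⁻¹` is a Gauss point of each of the three rings. -/
theorem gauss_xinv3 (hw : IsAL3 M' q w) (i : Fin 3) :
    xK⁻¹ ∈ V3 i ∧ ResTranscC (W0 A) (V3 i) xK⁻¹ := by
  obtain ⟨D⟩ := modEq_all q hq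
  exact (gauss_xinv_of_above (resW0_eq_zero_of_not_isUnit A) _ D
    (above3 hq A hA hζ M' hqM hw i)).2

/-- **Exhaustion at `x`** (`hex` of the abstract `hmin` lemmas, `ChartX` vocabulary). -/
theorem hex_x3 (hw : IsAL3 M' q w)
    (V' : ValuationSubring ↥(laurentBaseChange ↥(K0 A) (modularFunctionFieldFull (M' * q * q))))
    (hV' : IsAboveC (W0 A) V') (hx : xK ∈ V') (htr : ResTranscC (W0 A) V' xK) :
    ∃ i : Fin 3, V' = V3 i := by
  obtain ⟨D⟩ := modEq_all q hq
  exact hex3 hq A hA hζ M' hqM hw V'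
    (above_of_gauss_x (resW0_eq_zero_of_not_isUnit A) (resW0_surjective hq hA) _
      (Restrict.isUnif_W0 hq hA) D hV' hx htr)

/-- **Exhaustion at `x⁻¹`.** -/
theorem hex_xinv3 (hw : IsAL3 M' q w)
    (V' : ValuationSubring ↥(laurentBaseChange ↥(K0 A) (modularFunctionFieldFull (M' * q * q))))
    (hV' : IsAboveC (W0 A) V') (hx : xK⁻¹ ∈ V') (htr : ResTranscC (W0 A) V' xK⁻¹) :
    ∃ i : Fin 3, V' = V3 i := by
  obtain ⟨D⟩ := modEq_all q hq
  exact hex3 hq A hA hζ M' hqM hw V'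
    (above_of_gauss_xinv (resW0_eq_zero_of_not_isUnit A) (resW0_surjective hq hA) _
      (Restrict.isUnif_W0 hq hA) D hV' hx htr)

variable [Algebra ↥(W0 A) ↥(laurentBaseChange ↥(K0 A) (modularFunctionFieldFull (M' * q * q)))]
  [IsScalarTower ↥(W0 A) ↥(K0 A)
    ↥(laurentBaseChange ↥(K0 A) (modularFunctionFieldFull (M' * q * q)))]

/-- **`hRV`**: the finite chart ring lies in the three rings. -/
theorem hRV3 (hw : IsAL3 M' q w) (i : Fin 3) : ∀ r ∈ chart ↥(W0 A) xK, r ∈ V3 i :=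
  fun _ hr => HMin.mem_of_mem_chart_K0 hq hA M' hqM (above3 hq A hA hζ M' hqM hw i) hr

/-- **`hR'V`**: the chart ring at infinity lies in the three rings. -/
theorem hR'V3 (hw : IsAL3 M' q w) (i : Fin 3) : ∀ r ∈ chart ↥(W0 A) xK⁻¹, r ∈ V3 i :=
  fun _ hr => HMin.mem_of_mem_chart_inv_K0 hq hA M' hqM (above3 hq A hA hζ M' hqM hw i) hr

/-- **`hmin`, closed**: the primes of the finite chart ring `chart W0 (J_0 J_2)` minimal over `q`
are the centres of `O_∞`, `O_mid`, `O_0` (literal binder `hmin` of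
`Charts.exists_eq_const_mul_pow_of_charts_FNK`, for any proof `hRV`). -/
theorem hmin3 (hw : IsAL3 M' q w) (hRV : ∀ i, ∀ r ∈ chart ↥(W0 A) xK, r ∈ V3 i) :
    ∀ 𝔮 ∈ (Ideal.span {algebraMap ↥(W0 A) ↥(chart ↥(W0 A) xK)
        ((q : ℕ) : ↥(W0 A))}).minimalPrimes,
      ∃ i, 𝔮 = Local.centre (V3 i) (fun a : chart ↥(W0 A) xK => hRV i a a.2) :=
  HMin.hmin_chart_K0 hq hA M' hqM (inj3 hq A hA hζ M' hqM hw)
    (above3 hq A hA hζ M' hqM hw) (hex3 hq A hA hζ M' hqM hw) 0 hRV

/-- **`hmin'`, closed**: the same for the chart at infinity `chart W0 (J_0 J_2)⁻¹`. -/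
theorem hmin3' (hw : IsAL3 M' q w) (hRV : ∀ i, ∀ r ∈ chart ↥(W0 A) xK⁻¹, r ∈ V3 i) :
    ∀ 𝔮 ∈ (Ideal.span {algebraMap ↥(W0 A) ↥(chart ↥(W0 A) xK⁻¹)
        ((q : ℕ) : ↥(W0 A))}).minimalPrimes,
      ∃ i, 𝔮 = Local.centre (V3 i) (fun a : chart ↥(W0 A) xK⁻¹ => hRV i a a.2) :=
  HMin.hmin_chart_inv_K0 hq hA M' hqM (inj3 hq A hA hζ M' hqM hw)
    (above3 hq A hA hζ M' hqM hw) (hex3 hq A hA hζ M' hqM hw) 0 hRV

/-- **`not_max`, closed** (finite chart): no centre is a maximal ideal. -/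
theorem not_max3 (hw : IsAL3 M' q w) (i : Fin 3)
    (hRV : ∀ b : chart ↥(W0 A) xK, algebraMap ↥(chart ↥(W0 A) xK) _ b ∈ V3 i) :
    ¬ (Local.centre (V3 i) hRV).IsMaximal :=
  HMin.not_max_chart_K0 hq hA M' hqM (above3 hq A hA hζ M' hqM hw i) hRV

/-- **`not_max`, closed** (chart at infinity). -/
theorem not_max3' (hw : IsAL3 M' q w) (i : Fin 3)
    (hRV : ∀ b : chart ↥(W0 A) xK⁻¹, algebraMap ↥(chart ↥(W0 A) xK⁻¹) _ b ∈ V3 i) :
    ¬ (Local.centre (V3 i) hRV).IsMaximal :=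
  HMin.not_max_chart_inv_K0 hq hA M' hqM (above3 hq A hA hζ M' hqM hw i) hRV

end K0Inst

end

end Fermat.Agent.CAR.Inst.GaussK0
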