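import Mathlib
import Fermat.Agent.CAR.Glob.ChartXB
import Fermat.Agent.CAR.Glob.ChartsFNK
import Fermat.Agent.CAR.V3.GaussChartAdjoin
import Fermat.Agent.CAR.V3.GaussTransfer
import Fermat.Agent.CAR.V3.Count
import Fermat.Agent.CAR.Local.Inst.ChartFields

/-!
# CAR / row 394, finite chart: the binder `hmin` of the chart theorem and `not_max`

`x = CuspQuot.J0 * CuspQuot.J2 = π_0^* X · π_2^* X` (`X = J(q^{M'})`) the chart function of the
CAR instance over the inertia field `K0`, `B = Charts.chart W0 x` the finite chart ring and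
`V = ![O_∞, O_mid, O_0]` the three vertical valuation rings of `F = K0 · F_{M' q²}`.

Abstract part (`K → F` fields, `O` a discrete valuation subring of `K`, `t : F`):

* `mem_of_mem_chart`            : a valuation subring above `O` containing `t` contains the chart
  ring `chart O t` (the binder `hRV`);
* `hmin_of_gauss`               : if the `V i` are pairwise distinct, above `O`, Gauss at `t`
  (`t ∈ V i` with transcendental residue) and exhaust the valuation subrings with these
  properties, then every prime of `chart O t` minimal over the uniformiser is the centre of some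
  `V i` (the literal binder `hmin` of `Charts.exists_eq_const_mul_pow_of_charts_FNK`);
* `not_isMaximal_centre_chart`  : the centre on `chart O t` of a valuation subring which is Gauss
  at `t` is not a maximal ideal (`not_max`).

Generic part (`(L, A, π)` a `BadSetup`, `hF` the `CountAbs.Family` of `V3/Count.lean`, i.e. the
binders of `Count.eq_of_isAbove3`; `V = ![OInf3 h, OM, OZero3 h w]`):

* `piStar0_mem_iff3`, `injective3`, `isAbove3`, `gauss_xL3`, `gauss3` : the three rings are
  pairwise distinct, above `A` and Gauss at `x`;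
* `hex3`                        : they are the only ones (from `Count.eq_of_isAbove3`);
* `order_x_ne_zero`             : the binder `hx` of the chart theorem;
* `hRV3`, `hqV3`, `hmin3`, `not_max3` : the binders `hRV`, `hqV`, `hmin` of the chart theorem
  for the finite chart and the field `not_max` of the contract.

Instance part (`(L, A, π) = (K0, W0, resW0)`, binders of `Count.family3_K0`): `isAbove_V3`,
`gauss_V3`, `hex_fin`, `hRV_fin`, `hqV_fin`, `hmin_fin`, `not_max_fin`.
-/

set_option autoImplicit false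
set_option linter.unusedSectionVars false
set_option linter.style.haveILetI false

namespace Fermat.Agent.CAR.Inst.HMinFin

open IntermediateField
open Fermat.Agent.CAR.Formal (IsUnif)
open Fermat.Agent.CAR.V3.CountAbs Fermat.Agent.CAR.Glob Fermat.Agent.CAR.Glob.ChartX
open Fermat.Agent.CAR.Glob.Charts Fermat.Agent.CAR.Local

/-! ### Abstract part -/

section Abstract

variable {K F : Type*} [Field K] [Field F] [Algebra K F] {O : ValuationSubring K}

/-- Push-forward of `IsAbove` along an embedding `φ` of `K`-algebras with `V ∩ F' = O'`. -/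
theorem isAbove_of_map {F' : Type*} [Field F'] [Algebra K F'] (φ : F' →ₐ[K] F)
    {O' : ValuationSubring F'} {V : ValuationSubring F} (hO' : ∀ y : F', φ y ∈ V ↔ y ∈ O')
    (h : IsAbove O O') : IsAbove O V := by
  intro a
  rw [← h a, ← hO', AlgHom.commutes]

/-- Membership in the restriction of a valuation subring along an algebra embedding. -/
theorem mem_comap_algHom {F' : Type*} [Field F'] [Algebra K F'] (φ : F' →ₐ[K] F)
    (V : ValuationSubring F) (y : F') : y ∈ V.comap (φ : F' →+* F) ↔ φ y ∈ V := by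
  rw [ValuationSubring.mem_comap]
  rfl

/-- Non-units along an embedding `φ` with `V ∩ F' = O'`. -/
theorem map_mem_nonunits_iff {F' : Type*} [Field F'] (φ : F' →+* F)
    {O' : ValuationSubring F'} {V : ValuationSubring F} (hO' : ∀ y : F', φ y ∈ V ↔ y ∈ O')
    (y : F') : φ y ∈ V.nonunits ↔ y ∈ O'.nonunits := by
  rw [ValuationSubring.mem_nonunits_iff_or, ValuationSubring.mem_nonunits_iff_or, ← map_inv₀,
    hO', map_eq_zero]

/-- Push-forward of the Gauss condition along an embedding `φ` of `K`-algebras with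
`V ∩ F' = O'`. -/
theorem resTransc_of_map {F' : Type*} [Field F'] [Algebra K F'] (φ : F' →ₐ[K] F)
    {O' : ValuationSubring F'} {V : ValuationSubring F} (hO' : ∀ y : F', φ y ∈ V ↔ y ∈ O')
    {t : F'} (h : ResTransc O O' t) : ResTransc O V (φ t) := by
  intro p hp hnu n
  refine h p hp ?_ n
  rw [← map_mem_nonunits_iff (φ : F' →+* F) hO']
  have e : (φ : F' →+* F) (Polynomial.aeval t p) = Polynomial.aeval (φ t) p :=
    (Polynomial.aeval_algHom_apply φ t p).symm
  rw [e]
  exact hnu

variable [Algebra O F] [IsScalarTower O K F]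

/-- A valuation subring above `O` contains the image of `O`. -/
theorem algebraMap_mem_of_isAbove {V : ValuationSubring F} (hV : IsAbove O V) (w : O) :
    algebraMap O F w ∈ V := by
  rw [IsScalarTower.algebraMap_apply O K F]
  exact (hV _).mpr w.2

/-- **(`hRV`)** A valuation subring above `O` containing `t` contains the chart ring of `t`. -/
theorem mem_of_mem_chart {V : ValuationSubring F} (hV : IsAbove O V) {t : F} (ht : t ∈ V) :
    ∀ r ∈ chart O t, r ∈ V := fun _ hr =>
  Inst.ChartFields.mem_of_isIntegral_adjoin V (algebraMap_mem_of_isAbove hV) ht hr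

/-- **(`hqV`)** A non-unit of `O` is a non-unit of every valuation subring above `O`. -/
theorem algebraMap_mem_nonunits_of_isAbove {V : ValuationSubring F} (hV : IsAbove O V) (w : O)
    (hw : (w : K) ∈ O.nonunits) : algebraMap O F w ∈ V.nonunits := by
  rw [IsScalarTower.algebraMap_apply O K F]
  exact (hV.algebraMap_mem_nonunits_iff _).mpr hw

/-- **(`hmin`), abstract.**  Let the finitely many pairwise distinct `V i` be above the discrete
valuation subring `O` (uniformiser `ϖ`), Gauss at `t`, and exhaust the valuation subrings of `F`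
with these properties; let `F` be finite separable over `K(t)`.  Then every prime of the chart
ring `chart O t` minimal over `ϖ` is the centre of some `V i`. -/
theorem hmin_of_gauss {ϖ : K} (hu : IsUnif O ϖ) (qO : O) (hqO : (qO : K) = ϖ) (t : F)
    [FiniteDimensional K⟮t⟯ F] [Algebra.IsSeparable K⟮t⟯ F]
    {ι : Type*} [Fintype ι] [Nonempty ι] (V : ι → ValuationSubring F)
    (hinj : Function.Injective V)
    (habove : ∀ i, IsAbove O (V i)) (ht : ∀ i, t ∈ V i) (htr : ∀ i, ResTransc O (V i) t)
    (hex : ∀ V' : ValuationSubring F, IsAbove O V' → t ∈ V' → ResTransc O V' t → ∃ i, V' = V i)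
    (hBV : ∀ i, ∀ r ∈ chart O t, r ∈ V i) :
    ∀ 𝔮 ∈ (Ideal.span {algebraMap O (chart O t) qO}).minimalPrimes,
      ∃ i, 𝔮 = centre (V i) (fun a : chart O t => hBV i a a.2) := by
  classical
  obtain ⟨i₀⟩ := ‹Nonempty ι›
  have hint : IsIntegral (Algebra.adjoin O {t}) t :=
    isIntegral_algebraMap (R := Algebra.adjoin O {t}) (A := F)
      (x := ⟨t, Algebra.self_mem_adjoin_singleton O t⟩)
  obtain ⟨e, f, hF⟩ := family_adjoin_of_gauss hu hinj (R := O) (fun r => r.2) hint hint habove ht
    htr hex i₀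
  letI := adjoinAlgebra (W := O) t K⟮t⟯ (mem_adjoin_simple_self K t)
  letI := adjoinAlgebra (W := K) t K⟮t⟯ (mem_adjoin_simple_self K t)
  haveI := adjoinAlgebra_isScalarTower (W := O) t K⟮t⟯ (mem_adjoin_simple_self K t)
  haveI := adjoinAlgebra_isScalarTower (W := K) t K⟮t⟯ (mem_adjoin_simple_self K t)
  have hc := Fermat.Agent.CAR.V3.GaussChartAdjoin.chart_adjoin_of_resTransc (W := O) (O := O)
    (fun a => ⟨fun h => ⟨⟨a, h⟩, rfl⟩, by rintro ⟨b, rfl⟩; exact b.2⟩) (habove i₀) (ht i₀)
    (htr i₀) ϖ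
  have hϖ0 : algebraMap (Algebra.adjoin O {t}) K⟮t⟯ (algebraMap O (Algebra.adjoin O {t}) qO) =
      algebraMap K K⟮t⟯ ϖ := by
    apply Subtype.ext
    show algebraMap O F qO = algebraMap K F ϖ
    rw [IsScalarTower.algebraMap_apply O K F, ← hqO]
    rfl
  have key := hF.minimalPrimes_chart hc (algebraMap O (Algebra.adjoin O {t}) qO) hϖ0
  intro 𝔮 h𝔮
  obtain ⟨i, hi⟩ := key 𝔮 h𝔮
  exact ⟨i, hi⟩

/-- **(`not_max`), abstract.**  The centre on the chart ring `chart O t` of a valuation subring
above `O` which is Gauss at `t` is not a maximal ideal. -/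
theorem not_isMaximal_centre_chart {V : ValuationSubring F} (hV : IsAbove O V) {t : F}
    (ht : t ∈ V) (h : ResTransc O V t) (hBV : ∀ r ∈ chart O t, r ∈ V) :
    ¬ (centre V (fun a : chart O t => hBV a a.2)).IsMaximal := by
  letI := (resHom hV).toAlgebra
  have htr := h.transcendental_residue hV ht
  refine Inst.ChartFields.centre_not_isMaximal (W := O) (B := chart O t)
    (k := IsLocalRing.ResidueField O) V (IsLocalRing.residue V)
    (fun x => IsLocalRing.residue_eq_zero_iff x) (fun a => hBV a a.2) (x := t) (fun b => b.2)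
    ⟨t, self_mem_chart t⟩ rfl (algebraMap_mem_of_isAbove hV)
    (fun w => ⟨IsLocalRing.residue O w, ?_⟩) htr
  rw [RingHom.algebraMap_toAlgebra, resHom_residue]
  exact congrArg (IsLocalRing.residue V) (Subtype.ext (IsScalarTower.algebraMap_apply O K F w))

end Abstract

/-! ### The generic instance `(L, A, π)` -/

section Generic

open HahnSeries ModularCurve AlgebraicCurve Fermat.Agent.Lib.Red Fermat.Agent.S28
open Fermat.Agent.ESJ.Cong.LevelGen Fermat.Agent.BAD.TwoVal
open Fermat.Agent.CAR.V3 Fermat.Agent.CAR.V3.Count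

variable {L : Type} [Field L] [Algebra ℚ L] {A : ValuationSubring L} {k : Type} [Field k]
  {π : A →+* k} {M' q : ℕ} [NeZero M'] [NeZero q]
  {w : laurentBaseChange L (modularFunctionFieldFull (M' * q * q)) ≃ₐ[L]
    laurentBaseChange L (modularFunctionFieldFull (M' * q * q))}

/-- The chart function has nonzero `q`-order (the binder `hx` of the chart theorem). -/
theorem order_x_ne_zero (L : Type) [Field L] [Algebra ℚ L] (M' q : ℕ) [NeZero M'] [NeZero q] :
    ((CuspQuot.J0 (q := q) L M' * CuspQuot.J2 (q := q) L M' :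
      ↥(laurentBaseChange L (modularFunctionFieldFull (M' * q * q)))) :
        LaurentSeries L).order ≠ 0 := by
  have hM : M' ≠ 0 := NeZero.ne M'
  have hM2 : M' * q * q ≠ 0 := NeZero.ne _
  have e : ((CuspQuot.J0 (q := q) L M' * CuspQuot.J2 (q := q) L M' :
      ↥(laurentBaseChange L (modularFunctionFieldFull (M' * q * q)))) :
        LaurentSeries L) = TD.Jd L M' * TD.Jd L (M' * q * q) := by
    rw [← CuspQuot.coe_J0 (q := q) L M', ← CuspQuot.coe_J2 (q := q) L M']
    rfl
  rw [e, HahnSeries.order_mul (ValInd.Jd_ne_zero (K := L) M' hM)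
    (ValInd.Jd_ne_zero (K := L) (M' * q * q) hM2), ValInd.order_Jd M' hM,
    ValInd.order_Jd (M' * q * q) hM2]
  have h1 : (0 : ℤ) < (M' : ℤ) := by exact_mod_cast Nat.pos_of_ne_zero hM
  have h2 : (0 : ℤ) < ((M' * q * q : ℕ) : ℤ) := by exact_mod_cast Nat.pos_of_ne_zero hM2
  omega

variable (h : BadSetup A π M' q)
  {OM : ValuationSubring ↥(laurentBaseChange L (modularFunctionFieldFull (M' * q * q)))}
  (hF : letI := alg0 L M' q
    Family (Ow A π M' h.hMk) ((q : ℕ) : ↥(laurentBaseChange L (modularFunctionFieldFull M')))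
      ![OInf3 h, OM, OZero3 h w] ![1, q - 1, 1] ![1, 1, q ^ 2])

include hF

/-- The three vertical rings restrict along `π_0^*` to the Gauss valuation ring of level `M'`. -/
theorem piStar0_mem_iff3 (i : Fin 3) (y : ↥(laurentBaseChange L (modularFunctionFieldFull M'))) :
    piStar0 L M' q y ∈ (![OInf3 h, OM, OZero3 h w] : Fin 3 → ValuationSubring
        ↥(laurentBaseChange L (modularFunctionFieldFull (M' * q * q)))) i ↔
      y ∈ Ow A π M' h.hMk :=
  letI := alg0 L M' q
  hF.above i y

/-- The three vertical rings are pairwise distinct. -/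
theorem injective3 :
    Function.Injective (![OInf3 h, OM, OZero3 h w] : Fin 3 → ValuationSubring
      ↥(laurentBaseChange L (modularFunctionFieldFull (M' * q * q)))) :=
  letI := alg0 L M' q
  hF.inj

/-- The three vertical rings are above `A`. -/
theorem isAbove3 (i : Fin 3) :
    IsAbove A ((![OInf3 h, OM, OZero3 h w] : Fin 3 → ValuationSubring
      ↥(laurentBaseChange L (modularFunctionFieldFull (M' * q * q)))) i) :=
  isAbove_of_map (piStar0 L M' q) (piStar0_mem_iff3 h hF i) (CountGood.isAbove_Ow h.hπ h.hMk)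

/-- The three vertical rings are Gauss at `π_0^* X`, `X = J(q^{M'})`. -/
theorem gauss_xL3 (i : Fin 3) :
    piStar0 L M' q (xL L M') ∈ (![OInf3 h, OM, OZero3 h w] : Fin 3 → ValuationSubring
        ↥(laurentBaseChange L (modularFunctionFieldFull (M' * q * q)))) i ∧
      ResTransc A ((![OInf3 h, OM, OZero3 h w] : Fin 3 → ValuationSubring
        ↥(laurentBaseChange L (modularFunctionFieldFull (M' * q * q)))) i)
        (piStar0 L M' q (xL L M')) := by
  have h1 := (BaseFn.Data.ofJ A π M').x_mem_Ow h.hMk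
  have h2 := CountGood.resTransc_Ow (BaseFn.Data.ofJ A π M') h.hπ h.hMk
  rw [BaseFn.Data.ofJ_x] at h1 h2
  exact ⟨(piStar0_mem_iff3 h hF i _).mpr h1,
    resTransc_of_map (piStar0 L M' q) (piStar0_mem_iff3 h hF i) h2⟩

/-- **The three vertical rings are Gauss at the chart function** `x = J_0 J_2`. -/
theorem gauss3 (i : Fin 3) :
    CuspQuot.J0 (q := q) L M' * CuspQuot.J2 (q := q) L M' ∈
        (![OInf3 h, OM, OZero3 h w] : Fin 3 → ValuationSubring
          ↥(laurentBaseChange L (modularFunctionFieldFull (M' * q * q)))) i ∧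
      ResTransc A ((![OInf3 h, OM, OZero3 h w] : Fin 3 → ValuationSubring
        ↥(laurentBaseChange L (modularFunctionFieldFull (M' * q * q)))) i)
        (CuspQuot.J0 (q := q) L M' * CuspQuot.J2 (q := q) L M') :=
  (ChartXB.gauss_xB_iff_xL (isAbove3 h hF i)).mpr (gauss_xL3 h hF i)

/-- **(`hex`) Exhaustion at the chart function**: a valuation subring above `A` which is Gauss
at `x = J_0 J_2` is one of the three vertical rings. -/
theorem hex3 (hsurj : Function.Surjective π) {ϖ : L} (hϖ : IsUnif A ϖ)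
    (V' : ValuationSubring ↥(laurentBaseChange L (modularFunctionFieldFull (M' * q * q))))
    (hV' : IsAbove A V')
    (hx : CuspQuot.J0 (q := q) L M' * CuspQuot.J2 (q := q) L M' ∈ V')
    (htr : ResTransc A V' (CuspQuot.J0 (q := q) L M' * CuspQuot.J2 (q := q) L M')) :
    ∃ i, V' = (![OInf3 h, OM, OZero3 h w] : Fin 3 → ValuationSubring
      ↥(laurentBaseChange L (modularFunctionFieldFull (M' * q * q)))) i := by
  obtain ⟨h1, h2⟩ := (ChartXB.gauss_xB_iff_xL hV').mp ⟨hx, htr⟩
  have h3 := CountGood.eq_Ow_of_resTransc (BaseFn.Data.ofJ A π M') h.hπ hsurj h.hMk hϖ _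
    (GaussTransfer.isAbove_comap (piStar0 L M' q) hV')
    (by rw [BaseFn.Data.ofJ_x]; exact (mem_comap_algHom _ _ _).mpr h1)
    (by rw [BaseFn.Data.ofJ_x]; exact GaussTransfer.resTransc_comap (piStar0 L M' q) h2)
  have h4 : ∀ y : ↥(laurentBaseChange L (modularFunctionFieldFull M')),
      piStar0 L M' q y ∈ V' ↔ y ∈ Ow A π M' h.hMk := by
    intro y
    rw [← h3, mem_comap_algHom]
  rcases eq_of_isAbove3 h hF V' h4 with h5 | h5 | h5
  · exact ⟨0, h5⟩
  · exact ⟨1, h5⟩
  · exact ⟨2, h5⟩

variable [Algebra A ↥(laurentBaseChange L (modularFunctionFieldFull (M' * q * q)))]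
  [IsScalarTower A L ↥(laurentBaseChange L (modularFunctionFieldFull (M' * q * q)))]

/-- **(`hRV`)** The finite chart ring lies in the three vertical rings. -/
theorem hRV3 (i : Fin 3) :
    ∀ r ∈ chart A (CuspQuot.J0 (q := q) L M' * CuspQuot.J2 (q := q) L M'),
      r ∈ (![OInf3 h, OM, OZero3 h w] : Fin 3 → ValuationSubring
        ↥(laurentBaseChange L (modularFunctionFieldFull (M' * q * q)))) i :=
  mem_of_mem_chart (isAbove3 h hF i) (gauss3 h hF i).1

/-- **(`hqV`)** A non-unit of `A` is a non-unit of the three vertical rings. -/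
theorem hqV3 (qW : A) (hqW : (qW : L) ∈ A.nonunits) (i : Fin 3) :
    algebraMap A ↥(laurentBaseChange L (modularFunctionFieldFull (M' * q * q))) qW ∈
      ((![OInf3 h, OM, OZero3 h w] : Fin 3 → ValuationSubring
        ↥(laurentBaseChange L (modularFunctionFieldFull (M' * q * q)))) i).nonunits :=
  algebraMap_mem_nonunits_of_isAbove (isAbove3 h hF i) qW hqW

/-- **(`hmin`) of the chart theorem, finite chart**: every prime of the chart ring
`chart A (J_0 J_2)` minimal over the uniformiser is the centre of `O_∞`, `O_mid` or `O_0`.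
Literal binder `hmin` of `Charts.exists_eq_const_mul_pow_of_charts_FNK` (for any proof `hRV` of
the binder `hRV`). -/
theorem hmin3 (hsurj : Function.Surjective π) {ϖ : L} (hϖ : IsUnif A ϖ) (qW : A)
    (hqW : (qW : L) = ϖ)
    (hRV : ∀ i, ∀ r ∈ chart A (CuspQuot.J0 (q := q) L M' * CuspQuot.J2 (q := q) L M'),
      r ∈ (![OInf3 h, OM, OZero3 h w] : Fin 3 → ValuationSubring
        ↥(laurentBaseChange L (modularFunctionFieldFull (M' * q * q)))) i) :
    ∀ 𝔮 ∈ (Ideal.span {algebraMap A (chart A
        (CuspQuot.J0 (q := q) L M' * CuspQuot.J2 (q := q) L M')) qW}).minimalPrimes,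
      ∃ i, 𝔮 = centre
        ((![OInf3 h, OM, OZero3 h w] : Fin 3 → ValuationSubring
          ↥(laurentBaseChange L (modularFunctionFieldFull (M' * q * q)))) i)
        (fun a : chart A (CuspQuot.J0 (q := q) L M' * CuspQuot.J2 (q := q) L M') =>
          hRV i a a.2) := by
  haveI := ChartField.finiteDimensional_FNK L (M' * q * q) _ (order_x_ne_zero L M' q)
  haveI := ChartField.isSeparable_FNK L (M' * q * q) _ (order_x_ne_zero L M' q)
  exact hmin_of_gauss hϖ qW hqW _ _ (injective3 h hF) (isAbove3 h hF)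
    (fun i => (gauss3 h hF i).1) (fun i => (gauss3 h hF i).2) (hex3 h hF hsurj hϖ) hRV

/-- **(`not_max`), finite chart**: the centres of the three vertical rings on the chart ring
`chart A (J_0 J_2)` are not maximal ideals. -/
theorem not_max3
    (hRV : ∀ i, ∀ r ∈ chart A (CuspQuot.J0 (q := q) L M' * CuspQuot.J2 (q := q) L M'),
      r ∈ (![OInf3 h, OM, OZero3 h w] : Fin 3 → ValuationSubring
        ↥(laurentBaseChange L (modularFunctionFieldFull (M' * q * q)))) i) (i : Fin 3) :
    ¬ (centre
        ((![OInf3 h, OM, OZero3 h w] : Fin 3 → ValuationSubring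
          ↥(laurentBaseChange L (modularFunctionFieldFull (M' * q * q)))) i)
        (fun a : chart A (CuspQuot.J0 (q := q) L M' * CuspQuot.J2 (q := q) L M') =>
          hRV i a a.2)).IsMaximal :=
  not_isMaximal_centre_chart (isAbove3 h hF i) (gauss3 h hF i).1 (gauss3 h hF i).2 (hRV i)

end Generic

/-! ### The instance over the inertia field -/

section K0Inst

open HahnSeries ModularCurve AlgebraicCurve Fermat.Agent.Lib.Red Fermat.Agent.S28
open Fermat.Agent.ESJ.Cong.LevelGen Fermat.Agent.BAD.TwoVal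
open Fermat.Agent.CAR.K0 Fermat.Agent.CAR.V3 Fermat.Agent.CAR.V3.MidRing
open Fermat.Agent.CAR.V3.Count

local notation "Qb" => AlgebraicClosure ℚ

set_option synthInstance.maxHeartbeats 400000
set_option maxHeartbeats 1000000

variable {q : ℕ} [NeZero q] (hq : q.Prime) (A : ValuationSubring Qb) (hA : A.LiesOverPrime q)
  {ζ : Qb} (hζ : IsPrimitiveRoot ζ q) (M' : ℕ) [NeZero M'] (hqM : ¬ q ∣ M')
  {w : laurentBaseChange ↥(K0 A) (modularFunctionFieldFull (M' * q * q)) ≃ₐ[↥(K0 A)]
    laurentBaseChange ↥(K0 A) (modularFunctionFieldFull (M' * q * q))}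

/-- The three vertical rings are above `W0`. -/
theorem isAbove_V3 (hw : IsAL3 M' q w) (i : Fin 3) :
    IsAbove (W0 A)
      ((![OInf3 (badSetup_W0 hq hA M' hqM), OMid hq A hA hζ M' hqM (IsLocalRing.residue A),
        OZero3 (badSetup_W0 hq hA M' hqM) w] : Fin 3 → ValuationSubring
          ↥(laurentBaseChange ↥(K0 A) (modularFunctionFieldFull (M' * q * q)))) i) :=
  isAbove3 (badSetup_W0 hq hA M' hqM) (family3_K0 hq A hA hζ M' hqM hw) i

/-- **The three vertical rings are Gauss at the chart function** `x = J_0 J_2`. -/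
theorem gauss_V3 (hw : IsAL3 M' q w) (i : Fin 3) :
    CuspQuot.J0 (q := q) ↥(K0 A) M' * CuspQuot.J2 (q := q) ↥(K0 A) M' ∈
        (![OInf3 (badSetup_W0 hq hA M' hqM), OMid hq A hA hζ M' hqM (IsLocalRing.residue A),
          OZero3 (badSetup_W0 hq hA M' hqM) w] : Fin 3 → ValuationSubring
            ↥(laurentBaseChange ↥(K0 A) (modularFunctionFieldFull (M' * q * q)))) i ∧
      ResTransc (W0 A)
        ((![OInf3 (badSetup_W0 hq hA M' hqM), OMid hq A hA hζ M' hqM (IsLocalRing.residue A),
          OZero3 (badSetup_W0 hq hA M' hqM) w] : Fin 3 → ValuationSubring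
            ↥(laurentBaseChange ↥(K0 A) (modularFunctionFieldFull (M' * q * q)))) i)
        (CuspQuot.J0 (q := q) ↥(K0 A) M' * CuspQuot.J2 (q := q) ↥(K0 A) M') :=
  gauss3 (badSetup_W0 hq hA M' hqM) (family3_K0 hq A hA hζ M' hqM hw) i

/-- **(`hex`) Exhaustion at the chart function**: a valuation subring above `W0` which is Gauss
at `x = J_0 J_2` is one of the three vertical rings. -/
theorem hex_fin (hw : IsAL3 M' q w)
    (V' : ValuationSubring ↥(laurentBaseChange ↥(K0 A) (modularFunctionFieldFull (M' * q * q))))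
    (hV' : IsAbove (W0 A) V')
    (hx : CuspQuot.J0 (q := q) ↥(K0 A) M' * CuspQuot.J2 (q := q) ↥(K0 A) M' ∈ V')
    (htr : ResTransc (W0 A) V'
      (CuspQuot.J0 (q := q) ↥(K0 A) M' * CuspQuot.J2 (q := q) ↥(K0 A) M')) :
    ∃ i, V' =
      (![OInf3 (badSetup_W0 hq hA M' hqM), OMid hq A hA hζ M' hqM (IsLocalRing.residue A),
        OZero3 (badSetup_W0 hq hA M' hqM) w] : Fin 3 → ValuationSubring
          ↥(laurentBaseChange ↥(K0 A) (modularFunctionFieldFull (M' * q * q)))) i :=
  hex3 (badSetup_W0 hq hA M' hqM) (family3_K0 hq A hA hζ M' hqM hw) (resW0_surjective hq hA)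
    (Restrict.isUnif_W0 hq hA) V' hV' hx htr

variable [Algebra ↥(W0 A) ↥(laurentBaseChange ↥(K0 A) (modularFunctionFieldFull (M' * q * q)))]
  [IsScalarTower ↥(W0 A) ↥(K0 A)
    ↥(laurentBaseChange ↥(K0 A) (modularFunctionFieldFull (M' * q * q)))]

/-- **(`hRV`)** The finite chart ring lies in the three vertical rings. -/
theorem hRV_fin (hw : IsAL3 M' q w) (i : Fin 3) :
    ∀ r ∈ chart ↥(W0 A) (CuspQuot.J0 (q := q) ↥(K0 A) M' * CuspQuot.J2 (q := q) ↥(K0 A) M'),
      r ∈ (![OInf3 (badSetup_W0 hq hA M' hqM), OMid hq A hA hζ M' hqM (IsLocalRing.residue A),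
        OZero3 (badSetup_W0 hq hA M' hqM) w] : Fin 3 → ValuationSubring
          ↥(laurentBaseChange ↥(K0 A) (modularFunctionFieldFull (M' * q * q)))) i :=
  hRV3 (badSetup_W0 hq hA M' hqM) (family3_K0 hq A hA hζ M' hqM hw) i

/-- **(`hqV`)** `q` is a non-unit of the three vertical rings. -/
theorem hqV_fin (hw : IsAL3 M' q w) (qW : ↥(W0 A))
    (hqW : (qW : ↥(K0 A)) = ((q : ℕ) : ↥(K0 A))) (i : Fin 3) :
    algebraMap ↥(W0 A) ↥(laurentBaseChange ↥(K0 A) (modularFunctionFieldFull (M' * q * q))) qW ∈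
      ((![OInf3 (badSetup_W0 hq hA M' hqM), OMid hq A hA hζ M' hqM (IsLocalRing.residue A),
        OZero3 (badSetup_W0 hq hA M' hqM) w] : Fin 3 → ValuationSubring
          ↥(laurentBaseChange ↥(K0 A) (modularFunctionFieldFull (M' * q * q)))) i).nonunits :=
  hqV3 (badSetup_W0 hq hA M' hqM) (family3_K0 hq A hA hζ M' hqM hw) qW
    (by rw [hqW]; exact (Restrict.isUnif_W0 hq hA).mem_nonunits) i

/-- **(`hmin`) of the chart theorem, finite chart**: every prime of the chart ring
`chart W0 (J_0 J_2)` minimal over `q` is the centre of `O_∞`, `O_mid` or `O_0`.  Literal binder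
`hmin` of `Charts.exists_eq_const_mul_pow_of_charts_FNK` (any proof `hRV` of the binder `hRV`). -/
theorem hmin_fin (hw : IsAL3 M' q w) (qW : ↥(W0 A))
    (hqW : (qW : ↥(K0 A)) = ((q : ℕ) : ↥(K0 A)))
    (hRV : ∀ i, ∀ r ∈ chart ↥(W0 A)
        (CuspQuot.J0 (q := q) ↥(K0 A) M' * CuspQuot.J2 (q := q) ↥(K0 A) M'),
      r ∈ (![OInf3 (badSetup_W0 hq hA M' hqM), OMid hq A hA hζ M' hqM (IsLocalRing.residue A),
        OZero3 (badSetup_W0 hq hA M' hqM) w] : Fin 3 → ValuationSubring
          ↥(laurentBaseChange ↥(K0 A) (modularFunctionFieldFull (M' * q * q)))) i) :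
    ∀ 𝔮 ∈ (Ideal.span {algebraMap ↥(W0 A) (chart ↥(W0 A)
        (CuspQuot.J0 (q := q) ↥(K0 A) M' * CuspQuot.J2 (q := q) ↥(K0 A) M')) qW}).minimalPrimes,
      ∃ i, 𝔮 = centre
        ((![OInf3 (badSetup_W0 hq hA M' hqM), OMid hq A hA hζ M' hqM (IsLocalRing.residue A),
          OZero3 (badSetup_W0 hq hA M' hqM) w] : Fin 3 → ValuationSubring
            ↥(laurentBaseChange ↥(K0 A) (modularFunctionFieldFull (M' * q * q)))) i)
        (fun a : chart ↥(W0 A)
          (CuspQuot.J0 (q := q) ↥(K0 A) M' * CuspQuot.J2 (q := q) ↥(K0 A) M') => hRV i a a.2) :=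
  hmin3 (badSetup_W0 hq hA M' hqM) (family3_K0 hq A hA hζ M' hqM hw) (resW0_surjective hq hA)
    (Restrict.isUnif_W0 hq hA) qW hqW hRV

/-- **(`not_max`), finite chart**: the centres of the three vertical rings on the chart ring
`chart W0 (J_0 J_2)` are not maximal ideals. -/
theorem not_max_fin (hw : IsAL3 M' q w)
    (hRV : ∀ i, ∀ r ∈ chart ↥(W0 A)
        (CuspQuot.J0 (q := q) ↥(K0 A) M' * CuspQuot.J2 (q := q) ↥(K0 A) M'),
      r ∈ (![OInf3 (badSetup_W0 hq hA M' hqM), OMid hq A hA hζ M' hqM (IsLocalRing.residue A),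
        OZero3 (badSetup_W0 hq hA M' hqM) w] : Fin 3 → ValuationSubring
          ↥(laurentBaseChange ↥(K0 A) (modularFunctionFieldFull (M' * q * q)))) i) (i : Fin 3) :
    ¬ (centre
        ((![OInf3 (badSetup_W0 hq hA M' hqM), OMid hq A hA hζ M' hqM (IsLocalRing.residue A),
          OZero3 (badSetup_W0 hq hA M' hqM) w] : Fin 3 → ValuationSubring
            ↥(laurentBaseChange ↥(K0 A) (modularFunctionFieldFull (M' * q * q)))) i)
        (fun a : chart ↥(W0 A)
          (CuspQuot.J0 (q := q) ↥(K0 A) M' * CuspQuot.J2 (q := q) ↥(K0 A) M') =>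
            hRV i a a.2)).IsMaximal :=
  not_max3 (badSetup_W0 hq hA M' hqM) (family3_K0 hq A hA hζ M' hqM hw) hRV i

end K0Inst

end Fermat.Agent.CAR.Inst.HMinFin
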