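/-
CAR (Inst), row 394 input (helper85's line #2855; this file: helper67): **exhaustion at the Gauss
point of the chart function** `x = J_0 J_2` (convention (B): `J_i = π_i^* (xL)`), at the level of
the inertia field `K0`.

With `O = W0 A ⊆ K0 A`, `F3 = K0·F_{M'q²}` and the three valuation rings
`V = ![O_∞, O_mid, O_0]` of `CAR/V3/Count.lean`:

* `hex_J0`   : a valuation subring of `F3` above `W0` containing `J_0` with transcendental residue
  is one of the three (restriction along `π_0^*` is the Gauss ring `Ow` by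
  `CountGood.eq_Ow_of_resTransc`, then `Count.eq_of_isAbove3_K0`);
* `hex_x`    : the same for `x = J_0 J_2` (mutual integrality of `J_0`, `J_2` and
  `ChartX.exists_eq_of_resTransc_mul`);
* `hex_xinv` : the same for `x⁻¹` (`x⁻¹` with transcendental residue is a unit).

These are the literal `hex` hypotheses of `HMinAbs.hmin_of_exhaust` for `t := x` and `t := x⁻¹`.
Abstract parts: `isAbove_comap`, `resTransc_comap` (restriction along an algebra homomorphism),
`resTransc_of_inv` (Gauss condition for `t⁻¹` ⟹ Gauss condition for `t`).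
-/
import Mathlib
import Fermat.Agent.CAR.V3.Count
import Fermat.Agent.CAR.V3.CountGoodX
import Fermat.Agent.CAR.Glob.ChartX
import Fermat.Agent.CAR.Glob.ChartXInst
import Fermat.Agent.CAR.Glob.CuspQuotInst

set_option autoImplicit false
set_option linter.unusedSectionVars false
set_option linter.style.haveILetI false

namespace Fermat.Agent.CAR.Inst.HexX

open HahnSeries ModularCurve AlgebraicCurve Polynomial IsLocalRing
open Fermat.Agent.Lib.Red Fermat.Agent.S28
open Fermat.Agent.BAD.TwoVal Fermat.Agent.CAR.Formal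
open Fermat.Agent.CAR.V3 Fermat.Agent.CAR.V3.CountAbs Fermat.Agent.CAR.Glob
open Fermat.Agent.CAR.Glob.ChartX

noncomputable section

/-! ### Abstract transfers -/

section Abstract

variable {K F : Type*} [Field K] [Field F] [Algebra K F] {O : ValuationSubring K}
  {V : ValuationSubring F}

/-- Non-units of the restriction of a valuation subring along a field homomorphism. -/
theorem mem_nonunits_comap_iff {F' : Type*} [Field F'] (φ : F' →+* F) (x : F') :
    x ∈ (V.comap φ).nonunits ↔ φ x ∈ V.nonunits := by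
  rw [ValuationSubring.mem_nonunits_iff_or, ValuationSubring.mem_nonunits_iff_or,
    ValuationSubring.mem_comap, map_inv₀, map_eq_zero]

/-- The restriction along a `K`-algebra homomorphism of a valuation subring above `O` is above
`O`. -/
theorem isAbove_comap {F' : Type*} [Field F'] [Algebra K F'] (φ : F' →ₐ[K] F)
    (hV : IsAbove O V) : IsAbove O (V.comap (φ : F' →+* F)) := by
  intro a
  rw [ValuationSubring.mem_comap, ← hV a]
  have e : (φ : F' →+* F) (algebraMap K F' a) = algebraMap K F a := φ.commutes a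
  rw [e]

/-- The Gauss condition restricts along a `K`-algebra homomorphism. -/
theorem resTransc_comap {F' : Type*} [Field F'] [Algebra K F'] (φ : F' →ₐ[K] F) (t' : F')
    (h : ResTransc O V (φ t')) : ResTransc O (V.comap (φ : F' →+* F)) t' := by
  intro p hp hnu n
  refine h p hp ?_ n
  have e : aeval (φ t') p = (φ : F' →+* F) (aeval t' p) := aeval_algHom_apply φ t' p
  rw [e]
  exact (mem_nonunits_comap_iff (φ : F' →+* F) _).mp hnu

/-- **Gauss condition for `t⁻¹` ⟹ Gauss condition for `t`**: if `t⁻¹ ∈ V` has transcendental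
residue then it is a unit of `V`, so `t ∈ V`, and the residue of `t` is the inverse of a
transcendental element. -/
theorem resTransc_of_inv (hV : IsAbove O V) {t : F} (ht : t⁻¹ ∈ V) (h : ResTransc O V t⁻¹) :
    t ∈ V ∧ ResTransc O V t := by
  -- `t⁻¹` is a unit of `V`
  have hnu : t⁻¹ ∉ V.nonunits := by
    intro hmem
    have h1 := h (X : K[X]) (fun n => by
      rw [coeff_X]
      split_ifs
      · exact O.one_mem
      · exact O.zero_mem) (by rw [aeval_X]; exact hmem) 1
    rw [coeff_X_one, ValuationSubring.mem_nonunits_iff, map_one] at h1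
    exact lt_irrefl _ h1
  rw [ValuationSubring.mem_nonunits_iff_or, not_or, not_not, inv_inv] at hnu
  obtain ⟨ht0, htV⟩ := hnu
  refine ⟨htV, resTransc_of_transcendental_residue hV htV ?_⟩
  letI := (resHom hV).toAlgebra
  have htr := h.transcendental_residue hV ht
  have hmul : residue V ⟨t, htV⟩ * residue V ⟨t⁻¹, ht⟩ = 1 := by
    rw [← map_mul, ← map_one (residue V)]
    congr 1
    apply Subtype.ext
    show t * t⁻¹ = 1
    exact mul_inv_cancel₀ (fun h0 => ht0 (by rw [h0, inv_zero]))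
  have hinv : residue V ⟨t, htV⟩ = (residue V ⟨t⁻¹, ht⟩)⁻¹ := eq_inv_of_mul_eq_one_left hmul
  rw [hinv]
  intro halg
  exact htr (IsAlgebraic.inv_iff.mp halg)

end Abstract

/-! ### The instance `(K0, W0, resW0)` -/

section Jd

variable (L : Type) [Field L] [Algebra ℚ L] (M' : ℕ) [NeZero M'] {q : ℕ} [NeZero q]

/-- `J_0 = π_0^* (xL) = J(q^{M'})`, as a `jd`. -/
theorem J0_eq_jd :
    CuspQuot.J0 (q := q) L M' = ChartXInst.jd L (M' * q * q) M' ⟨q * q, by ring⟩ :=
  Subtype.ext (CuspQuot.coe_J0 L M')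

/-- `J_2 = π_2^* (xL) = J(q^{M' q²})`, as a `jd`. -/
theorem J2_eq_jd :
    CuspQuot.J2 (q := q) L M' = ChartXInst.jd L (M' * q * q) (M' * q * q) dvd_rfl :=
  Subtype.ext (CuspQuot.coe_J2 L M')

/-- `J_0` is integral over `ℤ[J_2]`. -/
theorem isIntegral_J0_J2 :
    IsIntegral (Algebra.adjoin ℤ {CuspQuot.J2 (q := q) L M'}) (CuspQuot.J0 (q := q) L M') := by
  rw [J0_eq_jd, J2_eq_jd]
  exact ChartXInst.isIntegral_jd_jd L (M' * q * q) _ _ _ _

/-- `J_2` is integral over `ℤ[J_0]`. -/
theorem isIntegral_J2_J0 :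
    IsIntegral (Algebra.adjoin ℤ {CuspQuot.J0 (q := q) L M'}) (CuspQuot.J2 (q := q) L M') := by
  rw [J0_eq_jd, J2_eq_jd]
  exact ChartXInst.isIntegral_jd_jd L (M' * q * q) _ _ _ _

end Jd

section K0Inst

open Fermat.Agent.CAR.K0 Fermat.Agent.CAR.V3.MidRing

set_option synthInstance.maxHeartbeats 400000
set_option maxHeartbeats 1000000

local notation "Qb" => AlgebraicClosure ℚ

variable {q : ℕ} [NeZero q] (hq : q.Prime) (A : ValuationSubring Qb) (hA : A.LiesOverPrime q)
  {ζ : Qb} (hζ : IsPrimitiveRoot ζ q) (M' : ℕ) [NeZero M'] (hqM : ¬ q ∣ M')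
  {w : laurentBaseChange ↥(K0 A) (modularFunctionFieldFull (M' * q * q)) ≃ₐ[↥(K0 A)]
    laurentBaseChange ↥(K0 A) (modularFunctionFieldFull (M' * q * q))}

/-- The restriction along `π_0^*` of a valuation subring of `F3` above `W0` at which `J_0` has
transcendental residue is the Gauss valuation ring of level `M'`. -/
theorem comap_piStar0_eq_Ow
    (V' : ValuationSubring ↥(laurentBaseChange ↥(K0 A) (modularFunctionFieldFull (M' * q * q))))
    (hV' : IsAbove (W0 A) V') (hJ : CuspQuot.J0 (q := q) ↥(K0 A) M' ∈ V')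
    (htr : ResTransc (W0 A) V' (CuspQuot.J0 (q := q) ↥(K0 A) M')) :
    V'.comap (piStar0 ↥(K0 A) M' q : ↥(laurentBaseChange ↥(K0 A) (modularFunctionFieldFull M')) →+*
        ↥(laurentBaseChange ↥(K0 A) (modularFunctionFieldFull (M' * q * q)))) =
      Ow (W0 A) (resW0 A) M' (badSetup_W0 hq hA M' hqM).hMk := by
  refine CountGood.eq_Ow_of_resTransc (BaseFn.Data.ofJ (W0 A) (resW0 A) M')
    (badSetup_W0 hq hA M' hqM).hπ (resW0_surjective hq hA) (badSetup_W0 hq hA M' hqM).hMk
    (Restrict.isUnif_W0 hq hA) _ (isAbove_comap _ hV') ?_ ?_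
  · rw [BaseFn.Data.ofJ_x, ValuationSubring.mem_comap]
    exact hJ
  · rw [BaseFn.Data.ofJ_x]
    exact resTransc_comap _ _ htr

/-- **Exhaustion at the Gauss point of `J_0`.** -/
theorem hex_J0 (hw : IsAL3 M' q w)
    (V' : ValuationSubring ↥(laurentBaseChange ↥(K0 A) (modularFunctionFieldFull (M' * q * q))))
    (hV' : IsAbove (W0 A) V') (hJ : CuspQuot.J0 (q := q) ↥(K0 A) M' ∈ V')
    (htr : ResTransc (W0 A) V' (CuspQuot.J0 (q := q) ↥(K0 A) M')) :
    ∃ i, V' = ![OInf3 (badSetup_W0 hq hA M' hqM),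
      OMid hq A hA hζ M' hqM (IsLocalRing.residue A),
      OZero3 (badSetup_W0 hq hA M' hqM) w] i := by
  have hcomap := comap_piStar0_eq_Ow hq A hA M' hqM V' hV' hJ htr
  rcases Count.eq_of_isAbove3_K0 hq A hA hζ M' hqM hw V' (fun x => by
    rw [← hcomap, ValuationSubring.mem_comap]
    rfl) with h | h | h
  · exact ⟨0, h⟩
  · exact ⟨1, h⟩
  · exact ⟨2, h⟩

/-- **Exhaustion at the Gauss point of the chart function `x = J_0 J_2`**: the literal `hex` of
`HMinAbs.hmin_of_exhaust` for `t := x`. -/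
theorem hex_x (hw : IsAL3 M' q w)
    (V' : ValuationSubring ↥(laurentBaseChange ↥(K0 A) (modularFunctionFieldFull (M' * q * q))))
    (hV' : IsAbove (W0 A) V')
    (hx : CuspQuot.J0 (q := q) ↥(K0 A) M' * CuspQuot.J2 (q := q) ↥(K0 A) M' ∈ V')
    (htr : ResTransc (W0 A) V'
      (CuspQuot.J0 (q := q) ↥(K0 A) M' * CuspQuot.J2 (q := q) ↥(K0 A) M')) :
    ∃ i, V' = ![OInf3 (badSetup_W0 hq hA M' hqM),
      OMid hq A hA hζ M' hqM (IsLocalRing.residue A),
      OZero3 (badSetup_W0 hq hA M' hqM) w] i :=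
  exists_eq_of_resTransc_mul (R := ℤ)
    (fun r => by rw [eq_intCast]; exact intCast_mem (W0 A) r)
    (isIntegral_J0_J2 ↥(K0 A) M') (isIntegral_J2_J0 ↥(K0 A) M')
    (fun V'' h1 h2 h3 => hex_J0 hq A hA hζ M' hqM hw V'' h1 h2 h3) V' hV' hx htr

/-- **Exhaustion at the Gauss point of `x⁻¹`**: the literal `hex` of `HMinAbs.hmin_of_exhaust`
for `t := x⁻¹`. -/
theorem hex_xinv (hw : IsAL3 M' q w)
    (V' : ValuationSubring ↥(laurentBaseChange ↥(K0 A) (modularFunctionFieldFull (M' * q * q))))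
    (hV' : IsAbove (W0 A) V')
    (hx : (CuspQuot.J0 (q := q) ↥(K0 A) M' * CuspQuot.J2 (q := q) ↥(K0 A) M')⁻¹ ∈ V')
    (htr : ResTransc (W0 A) V'
      (CuspQuot.J0 (q := q) ↥(K0 A) M' * CuspQuot.J2 (q := q) ↥(K0 A) M')⁻¹) :
    ∃ i, V' = ![OInf3 (badSetup_W0 hq hA M' hqM),
      OMid hq A hA hζ M' hqM (IsLocalRing.residue A),
      OZero3 (badSetup_W0 hq hA M' hqM) w] i := by
  obtain ⟨h1, h2⟩ := resTransc_of_inv hV' hx htr
  exact hex_x hq A hA hζ M' hqM hw V' hV' h1 h2

end K0Inst

end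

end Fermat.Agent.CAR.Inst.HexX
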