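/-
CAR B6 (helper51): the chart ring of level `N = M' q` and the degeneracy maps — the CONCRETE half
of `CAR/Glue/NodeInst.lean` (helper64).

Setting: `L ⊇ ℚ` a field, `A` a valuation subring of `L` (for CAR: `(L, A) = (K0, W0)`), the three
function fields `F' = L·F_{M'}`, `F_N = L·F_{M' q}`, `F = L·F_{M' q²}` (subfields of `L((q))`) and
the degeneracy maps `α^*, β^*` of the Prelude (`heckeAlphaBar`, `heckeBetaBar`).

* `IsJ y` : `y` has the expansion `J(q^d)` for some `d ≠ 0`; the **integrality web**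
  `IsJ.isIntegral_adjoin` : any two such functions are integral over each other's `R[·]`
  (from `S28.Integrality` + the modular equations `Lib.Red.modEq_all`), for every coefficient ring.
* `IsJChart R x` : `x` is a *chart function*: mutually integral (over `R`) with one — hence with
  every — `J(q^d)` of the field.  Examples: every `J(q^d)` (`IsJ.isJChart`), every product of two
  of them (`isJChart_mul`), in particular `jLevel`, `xL`, the BAD chart function
  `α^* x · β^* x`, and the CAR chart function `x = J_0 J_2` of ruling #6 R1 (`isJChart_J0_mul_J2`).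
  All chart functions of a field have the same chart ring (`IsJChart.chart_eq`), and the image of
  a chart function under `α^*`, `β^*`, `π_i^*` is a chart function (`IsJChart.map`).
* `h1`, `h2` : the two inputs of `NodeInst` for any ring hom preserving the `J`'s;
  `chartHom` : the induced map of chart rings, `chartHom_isIntegral`, `chartHom_comp`.
* the chart block of the node relation in LITERAL binder shapes (`NodeTriple`, `NodeData`,
  `NodeContract.hnode_of_contract`), for an abstract coefficient ring `W` with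
  `[Algebra W L] [Algebra W (L·F_N)] [IsScalarTower W L (L·F_N)]`:
  `hΦα`, `hΦβ`, `h1α`, `h2α`, `h1β`, `h2β` for ANY chart functions `xN`, `x`;
* the chart instances as theorems: `IsJChart.isIntegrallyClosed`, `IsJChart.isFractionRing`,
  `IsJChart.isNoetherianRing`, `IsJChart.finiteDimensional`, `IsJChart.isSeparable`,
  `charZero_level`;
* `p0`, `p1 : B' →+* chart A xN` (`B' = integralClosure (A[x_L]) F'`, ruling #6 R2), `pi0`, `pi1`,
  `pi2 : B' →+* chart A x`, and the four factorisations `hα₀`, `hα₁`, `hβ₁`, `hβ₂`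
  (`π_0 = α ∘ p_0`, `π_1 = α ∘ p_1 = β ∘ p_0`, `π_2 = β ∘ p_1`) for ANY `π_i` restricting
  `piStar_i`;
* `isIntegral_AX_iff_mem_chart` : `B'` is the chart ring `chart A x_L`;
* `isRatPoint_comap_chartHom` : the point below a `k`-rational point is `k`-rational.
-/
import Mathlib
import Fermat.Agent.CAR.Glue.NodeInst
import Fermat.Agent.CAR.Glob.ChartX
import Fermat.Agent.CAR.Glob.ChartXInst
import Fermat.Agent.CAR.Glob.ChartFieldInst
import Fermat.Agent.CAR.Glob.Charts
import Fermat.Agent.CAR.Inst.BPrimeWeb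
import Fermat.Agent.CAR.Glob.CuspQuotInst
import Fermat.Agent.CAR.V3.Inf
import Fermat.Agent.S28.Integrality
import Fermat.Agent.S28.RJClosed
import Fermat.Agent.Lib.Red.Unconditional
import Fermat.Agent.Lib.Red.IntegralX
import Fermat.Agent.Lib.FF.ModLRed

set_option autoImplicit false
set_option linter.style.haveILetI false
set_option linter.unusedSectionVars false

namespace Fermat.Agent.CAR.Inst.LevelN

open Polynomial ModularCurve Fermat.Agent.S28 Fermat.Agent.Lib.Red Fermat.Agent.CAR.V3
open Fermat.Agent.CAR.Glob Fermat.Agent.CAR.Glob.Charts Fermat.Agent.CAR.Glue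
open Fermat.Agent.ESJ.Cong.LevelGen IntermediateField

noncomputable section

/-! ### The integrality web inside a field of Laurent series -/

section Web

variable {L : Type*} [Field L] {E : IntermediateField L (LaurentSeries L)}

/-- `y` is one of the functions `J(q^d)`, `d ≠ 0`. -/
def IsJ (y : E) : Prop := ∃ d : ℕ, d ≠ 0 ∧ (y : LaurentSeries L) = TD.Jd L d

/-- Integrality over `ℤ[z]` descends from the ambient field of Laurent series to the subfield. -/
theorem isIntegral_closure_of_coe {y z : E}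
    (h : IsIntegral (Subring.closure ({(z : LaurentSeries L)} : Set (LaurentSeries L)))
      (y : LaurentSeries L)) :
    IsIntegral (Subring.closure ({z} : Set E)) y := by
  obtain ⟨p, hp, hpy⟩ := h
  have hmem : ∀ a : Subring.closure ({z} : Set E),
      ((a : E) : LaurentSeries L) ∈
        Subring.closure ({(z : LaurentSeries L)} : Set (LaurentSeries L)) := by
    rintro ⟨a, ha⟩
    induction ha using Subring.closure_induction with
    | mem x hx =>
      rw [Set.mem_singleton_iff] at hx
      subst hx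
      exact Subring.subset_closure rfl
    | zero => exact Subring.zero_mem _
    | one => exact Subring.one_mem _
    | add x y _ _ hx hy => exact Subring.add_mem _ hx hy
    | neg x _ hx => exact Subring.neg_mem _ hx
    | mul x y _ _ hx hy => exact Subring.mul_mem _ hx hy
  let s : Subring.closure ({z} : Set E) →+*
      Subring.closure ({(z : LaurentSeries L)} : Set (LaurentSeries L)) :=
    ((algebraMap E (LaurentSeries L)).comp (Subring.subtype _)).codRestrict _ hmem
  have hs : Function.Surjective s := by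
    rintro ⟨b, hb⟩
    induction hb using Subring.closure_induction with
    | mem x hx =>
      rw [Set.mem_singleton_iff] at hx
      subst hx
      exact ⟨⟨z, Subring.subset_closure rfl⟩, rfl⟩
    | zero => exact ⟨0, Subtype.ext (by simp)⟩
    | one => exact ⟨1, Subtype.ext (by simp)⟩
    | add x y _ _ hx hy =>
      obtain ⟨a, ha⟩ := hx
      obtain ⟨b, hb⟩ := hy
      exact ⟨a + b, by rw [map_add, ha, hb]; rfl⟩
    | neg x _ hx =>
      obtain ⟨a, ha⟩ := hx
      exact ⟨-a, by rw [map_neg, ha]; rfl⟩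
    | mul x y _ _ hx hy =>
      obtain ⟨a, ha⟩ := hx
      obtain ⟨b, hb⟩ := hy
      exact ⟨a * b, by rw [map_mul, ha, hb]; rfl⟩
  obtain ⟨p', hp', -, hp'm⟩ := Polynomial.lifts_and_degree_eq_and_monic
    ((Polynomial.mem_lifts p).mpr (Polynomial.map_surjective s hs p)) hp
  refine ⟨p', hp'm, ?_⟩
  have hinj : Function.Injective (algebraMap E (LaurentSeries L)) :=
    (algebraMap E (LaurentSeries L)).injective
  apply hinj
  rw [map_zero, Polynomial.hom_eval₂]
  have hcomp : (algebraMap E (LaurentSeries L)).comp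
      (algebraMap (Subring.closure ({z} : Set E)) E) =
      (algebraMap (Subring.closure ({(z : LaurentSeries L)} : Set (LaurentSeries L)))
        (LaurentSeries L)).comp s := RingHom.ext fun _ => rfl
  rw [hcomp, ← Polynomial.eval₂_map, hp']
  exact hpy

/-- `J(q^a)` is integral over `ℤ[J(q^b)]` inside `L((q))`. -/
theorem isIntegral_closure_Jd (L : Type*) [Field L] {a b : ℕ} (ha : a ≠ 0) (hb : b ≠ 0) :
    IsIntegral (Subring.closure ({TD.Jd L b} : Set (LaurentSeries L))) (TD.Jd L a) := by
  have h1 := (Integrality.isIntegral_Jd_of_commRing L b hb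
    (fun r hr _ => modEq_all r hr) a ha).1
  have h2 := (Integrality.isIntegral_Jd_of_commRing L a ha
    (fun r hr _ => modEq_all r hr) b hb).2
  rw [mul_comm b a] at h2
  refine Integrality.isIntegral_closure_trans ?_ h1
  rintro y hy
  rw [Set.mem_singleton_iff] at hy
  rw [hy]
  exact h2

/-- **The integrality web.**  Any two of the functions `J(q^d)` of a field of Laurent series are
integral over each other's `R[·]`, for every coefficient ring `R`. -/
theorem IsJ.isIntegral_adjoin {R : Type*} [CommRing R] [Algebra R E] {y z : E} (hy : IsJ y)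
    (hz : IsJ z) : IsIntegral (Algebra.adjoin R ({z} : Set E)) y := by
  obtain ⟨a, ha, hya⟩ := hy
  obtain ⟨b, hb, hzb⟩ := hz
  apply Integrality.isIntegral_adjoin_of_closure
  apply isIntegral_closure_of_coe
  rw [hya, hzb]
  exact isIntegral_closure_Jd L ha hb

/-- The functions `J(q^d)` are transcendental over the constants. -/
theorem IsJ.transcendental {y : E} (hy : IsJ y) : Transcendental L y := by
  obtain ⟨a, ha, hya⟩ := hy
  intro halg
  apply RJClosed.transcendental_Jd L a ha
  have := halg.algHom E.val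
  rw [← hya]
  exact this

theorem IsJ.ne_zero {y : E} (hy : IsJ y) : y ≠ 0 := fun h0 =>
  hy.transcendental (h0 ▸ isAlgebraic_zero)

end Web

/-! ### Chart functions -/

section JChart

variable {L : Type*} [Field L] {E : IntermediateField L (LaurentSeries L)}
  (R : Type*) [CommRing R] [Algebra R E]

/-- `x` is a **chart function** (over `R`): it is mutually integral with one of the functions
`J(q^d)` of the field (equivalently — by the web — with all of them). -/
def IsJChart (x : E) : Prop :=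
  ∃ z : E, IsJ z ∧ IsIntegral (Algebra.adjoin R ({x} : Set E)) z ∧
    IsIntegral (Algebra.adjoin R ({z} : Set E)) x

variable {R}

theorem isIntegral_adjoin_self (x : E) : IsIntegral (Algebra.adjoin R ({x} : Set E)) x :=
  self_mem_chart (W := R) x

/-- Every `J(q^d)` is a chart function. -/
theorem IsJ.isJChart {x : E} (hx : IsJ x) : IsJChart R x :=
  ⟨x, hx, isIntegral_adjoin_self x, isIntegral_adjoin_self x⟩

/-- A chart function sees every `J(q^d)` as integral. -/
theorem IsJChart.isIntegral_of_isJ {x z : E} (hx : IsJChart R x) (hz : IsJ z) :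
    IsIntegral (Algebra.adjoin R ({x} : Set E)) z := by
  obtain ⟨z₀, hz₀, h1, -⟩ := hx
  exact ChartX.isIntegral_adjoin_trans h1 (hz.isIntegral_adjoin hz₀)

/-- A chart function is integral over `R[J(q^d)]`, for every `d`. -/
theorem IsJChart.isIntegral_over_isJ {x z : E} (hx : IsJChart R x) (hz : IsJ z) :
    IsIntegral (Algebra.adjoin R ({z} : Set E)) x := by
  obtain ⟨z₀, hz₀, -, h2⟩ := hx
  exact ChartX.isIntegral_adjoin_trans (hz₀.isIntegral_adjoin hz) h2

/-- **Any two chart functions are integral over each other.** -/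
theorem IsJChart.isIntegral {x₁ x₂ : E} (h₁ : IsJChart R x₁) (h₂ : IsJChart R x₂) :
    IsIntegral (Algebra.adjoin R ({x₁} : Set E)) x₂ := by
  obtain ⟨z₀, hz₀, -, h2⟩ := h₂
  exact ChartX.isIntegral_adjoin_trans (h₁.isIntegral_of_isJ hz₀) h2

/-- The chart ring does not depend on the chart function. -/
theorem IsJChart.chart_eq {x₁ x₂ : E} (h₁ : IsJChart R x₁) (h₂ : IsJChart R x₂) :
    chart R x₁ = chart R x₂ := by
  ext y
  rw [mem_chart_iff, mem_chart_iff]
  exact ⟨fun h => ChartX.isIntegral_adjoin_trans (h₂.isIntegral h₁) h,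
    fun h => ChartX.isIntegral_adjoin_trans (h₁.isIntegral h₂) h⟩

/-- A chart function lies in the chart ring of every chart function. -/
theorem IsJChart.mem_chart {x₁ x₂ : E} (h₁ : IsJChart R x₁) (h₂ : IsJChart R x₂) :
    x₂ ∈ chart R x₁ := h₁.isIntegral h₂

/-- Every `J(q^d)` lies in the chart ring of a chart function. -/
theorem IsJChart.isJ_mem_chart {x z : E} (hx : IsJChart R x) (hz : IsJ z) : z ∈ chart R x :=
  hx.isIntegral_of_isJ hz

/-- The product of two of the `J(q^d)` is a chart function (`x = J_0 J_2`, `x_N = J_0 J_1`). -/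
theorem isJChart_mul {y z : E} (hy : IsJ y) (hz : IsJ z) : IsJChart R (y * z) := by
  refine ⟨y, hy, ChartX.isIntegral_adjoin_mul_left (hy.isIntegral_adjoin hz), ?_⟩
  exact (isIntegral_adjoin_self y).mul (hz.isIntegral_adjoin hy)

/-- Chart functions are transcendental over the constants. -/
theorem IsJChart.transcendental [Algebra R L] [IsScalarTower R L E] {x : E}
    (hx : IsJChart R x) : Transcendental L x := by
  obtain ⟨z₀, hz₀, h1, -⟩ := hx
  exact ChartX.transcendental_of_isIntegral_adjoin hz₀.transcendental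
    (ChartX.isIntegral_intermediateField_of_isIntegral_adjoin (R := R) (L⟮x⟯)
      (mem_adjoin_simple_self L x) h1)

theorem IsJChart.ne_zero [Algebra R L] [IsScalarTower R L E] {x : E} (hx : IsJChart R x) :
    x ≠ 0 := fun h0 => hx.transcendental (h0 ▸ isAlgebraic_zero)

end JChart

/-! ### Ring homomorphisms preserving the `J`'s -/

section Maps

variable {L : Type*} [Field L] {E₁ E₂ E₃ : IntermediateField L (LaurentSeries L)}
  {R : Type*} [CommRing R] [Algebra R E₁] [Algebra R E₂] [Algebra R E₃]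

/-- A ring homomorphism between two fields of Laurent series which is compatible with the
coefficient ring `R` and maps the `J`'s to `J`'s (`α^*`, `β^*`, `π_i^*`). -/
structure JHom (R : Type*) [CommRing R] {E₁ E₂ : IntermediateField L (LaurentSeries L)}
    [Algebra R E₁] [Algebra R E₂] (Φ : E₁ →+* E₂) : Prop where
  map_algebraMap : ∀ r : R, Φ (algebraMap R E₁ r) = algebraMap R E₂ r
  map_isJ : ∀ y : E₁, IsJ y → IsJ (Φ y)

theorem JHom.comp {Φ : E₁ →+* E₂} {Ψ : E₂ →+* E₃} (hΨ : JHom R Ψ) (hΦ : JHom R Φ) :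
    JHom R (Ψ.comp Φ) where
  map_algebraMap r := by rw [RingHom.comp_apply, hΦ.map_algebraMap, hΨ.map_algebraMap]
  map_isJ y hy := hΨ.map_isJ _ (hΦ.map_isJ y hy)

/-- The image of a chart function is a chart function. -/
theorem IsJChart.map {Φ : E₁ →+* E₂} (hΦ : JHom R Φ) {x : E₁} (hx : IsJChart R x) :
    IsJChart R (Φ x) := by
  obtain ⟨z₀, hz₀, h1, h2⟩ := hx
  exact ⟨Φ z₀, hΦ.map_isJ z₀ hz₀, ChartX.isIntegral_adjoin_map Φ hΦ.map_algebraMap h1,
    ChartX.isIntegral_adjoin_map Φ hΦ.map_algebraMap h2⟩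

/-- **(h1)** of `NodeInst`: `Φ x₁` lies in the chart ring at `x₂`. -/
theorem JHom.h1 {Φ : E₁ →+* E₂} (hΦ : JHom R Φ) {x₁ : E₁} {x₂ : E₂} (h₁ : IsJChart R x₁)
    (h₂ : IsJChart R x₂) : Φ x₁ ∈ chart R x₂ :=
  h₂.mem_chart (h₁.map hΦ)

/-- **(h2)** of `NodeInst`: `x₂` is integral over `R[Φ x₁]`. -/
theorem JHom.h2 {Φ : E₁ →+* E₂} (hΦ : JHom R Φ) {x₁ : E₁} {x₂ : E₂} (h₁ : IsJChart R x₁)
    (h₂ : IsJChart R x₂) : IsIntegral (Algebra.adjoin R ({Φ x₁} : Set E₂)) x₂ :=
  (h₁.map hΦ).isIntegral h₂

/-- **The map of chart rings** induced by a `J`-preserving homomorphism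
(`= NodeInst.chartMap`). -/
def chartHom {Φ : E₁ →+* E₂} (hΦ : JHom R Φ) {x₁ : E₁} {x₂ : E₂} (h₁ : IsJChart R x₁)
    (h₂ : IsJChart R x₂) : chart R x₁ →+* chart R x₂ :=
  NodeInst.chartMap Φ hΦ.map_algebraMap (hΦ.h1 h₁ h₂)

theorem chartHom_eq_chartMap {Φ : E₁ →+* E₂} (hΦ : JHom R Φ) {x₁ : E₁} {x₂ : E₂}
    (h₁ : IsJChart R x₁) (h₂ : IsJChart R x₂) :
    chartHom hΦ h₁ h₂ = NodeInst.chartMap Φ hΦ.map_algebraMap (hΦ.h1 h₁ h₂) := rfl

@[simp] theorem coe_chartHom {Φ : E₁ →+* E₂} (hΦ : JHom R Φ) {x₁ : E₁} {x₂ : E₂}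
    (h₁ : IsJChart R x₁) (h₂ : IsJChart R x₂) (y : chart R x₁) :
    ((chartHom hΦ h₁ h₂ y : chart R x₂) : E₂) = Φ (y : E₁) := rfl

theorem chartHom_algebraMap {Φ : E₁ →+* E₂} (hΦ : JHom R Φ) {x₁ : E₁} {x₂ : E₂}
    (h₁ : IsJChart R x₁) (h₂ : IsJChart R x₂) (r : R) :
    chartHom hΦ h₁ h₂ (algebraMap R (chart R x₁) r) = algebraMap R (chart R x₂) r :=
  NodeInst.chartMap_algebraMap Φ hΦ.map_algebraMap (hΦ.h1 h₁ h₂) r

theorem chartHom_injective {Φ : E₁ →+* E₂} (hΦ : JHom R Φ) {x₁ : E₁} {x₂ : E₂}
    (h₁ : IsJChart R x₁) (h₂ : IsJChart R x₂) : Function.Injective (chartHom hΦ h₁ h₂) :=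
  NodeInst.chartMap_injective Φ hΦ.map_algebraMap (hΦ.h1 h₁ h₂)

/-- The chart ring above is integral over the chart ring below. -/
theorem chartHom_isIntegral {Φ : E₁ →+* E₂} (hΦ : JHom R Φ) {x₁ : E₁} {x₂ : E₂}
    (h₁ : IsJChart R x₁) (h₂ : IsJChart R x₂) : (chartHom hΦ h₁ h₂).IsIntegral :=
  NodeInst.chartMap_isIntegral Φ hΦ.map_algebraMap (hΦ.h1 h₁ h₂) (hΦ.h2 h₁ h₂)

/-- Functoriality: the chart maps compose. -/
theorem chartHom_comp {Φ : E₁ →+* E₂} {Ψ : E₂ →+* E₃} (hΨ : JHom R Ψ) (hΦ : JHom R Φ)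
    {x₁ : E₁} {x₂ : E₂} {x₃ : E₃} (h₁ : IsJChart R x₁) (h₂ : IsJChart R x₂)
    (h₃ : IsJChart R x₃) :
    (chartHom hΨ h₂ h₃).comp (chartHom hΦ h₁ h₂) = chartHom (hΨ.comp hΦ) h₁ h₃ :=
  RingHom.ext fun _ => Subtype.ext rfl

/-- Two chart maps agree as soon as the field homomorphisms agree. -/
theorem chartHom_congr {Φ Ψ : E₁ →+* E₂} (hΦ : JHom R Φ) (hΨ : JHom R Ψ)
    (h : ∀ y : E₁, Φ y = Ψ y) {x₁ : E₁} {x₂ : E₂} (h₁ : IsJChart R x₁) (h₂ : IsJChart R x₂) :
    chartHom hΦ h₁ h₂ = chartHom hΨ h₁ h₂ :=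
  RingHom.ext fun y => Subtype.ext (h (y : E₁))

/-- The point below a `k`-rational point is `k`-rational (`NodeInst.isRatPoint_comap`). -/
theorem isRatPoint_comap_chartHom {k : Type*} [Field k] {res : R →+* k} {Φ : E₁ →+* E₂}
    (hΦ : JHom R Φ) {x₁ : E₁} {x₂ : E₂} (h₁ : IsJChart R x₁) (h₂ : IsJChart R x₂)
    (P : Ideal (chart R x₂)) (hP : NodeUnits.IsRatPoint res P) :
    NodeUnits.IsRatPoint res (P.comap (chartHom hΦ h₁ h₂)) :=
  NodeInst.isRatPoint_comap Φ hΦ.map_algebraMap (hΦ.h1 h₁ h₂) P hP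

/-- The point below a closed point is closed. -/
theorem comap_chartHom_isMaximal {Φ : E₁ →+* E₂} (hΦ : JHom R Φ) {x₁ : E₁} {x₂ : E₂}
    (h₁ : IsJChart R x₁) (h₂ : IsJChart R x₂) (P : Ideal (chart R x₂)) [P.IsMaximal] :
    (P.comap (chartHom hΦ h₁ h₂)).IsMaximal :=
  NodeInst.comap_isMaximal Φ hΦ.map_algebraMap (hΦ.h1 h₁ h₂) (hΦ.h2 h₁ h₂) P

/-- `Algebra.IsIntegral` form (with the algebra structure `(chartHom …).toAlgebra`, which is
`NodeInst.chartAlgebra`). -/
theorem algebraIsIntegral_chartHom {Φ : E₁ →+* E₂} (hΦ : JHom R Φ) {x₁ : E₁} {x₂ : E₂}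
    (h₁ : IsJChart R x₁) (h₂ : IsJChart R x₂) :
    letI := (chartHom hΦ h₁ h₂).toAlgebra
    Algebra.IsIntegral (chart R x₁) (chart R x₂) :=
  letI := (chartHom hΦ h₁ h₂).toAlgebra
  ⟨chartHom_isIntegral hΦ h₁ h₂⟩

end Maps

/-! ### The modular function fields `L·F_N` -/

section Levels

variable {L : Type*} [Field L] [Algebra ℚ L]

variable (L) in
/-- `x_L = J(q^N)` is one of the `J`'s. -/
theorem isJ_xL (N : ℕ) [NeZero N] : IsJ (xL L N) := ⟨N, NeZero.ne N, coe_xL L N⟩

variable (L) in
/-- `jLevel = J(q)` is one of the `J`'s. -/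
theorem isJ_jLevel (N : ℕ) [NeZero N] : IsJ (jLevel L N) := ⟨1, one_ne_zero, coe_jLevel L N⟩

/-- `α^*` preserves the `J`'s. -/
theorem isJ_heckeAlphaBar (N ℓ : ℕ) [NeZero N] [NeZero ℓ]
    {y : ↥(laurentBaseChange L (modularFunctionFieldFull N))} (hy : IsJ y) :
    IsJ (heckeAlphaBar L N ℓ y) := by
  obtain ⟨d, hd, h⟩ := hy
  exact ⟨d, hd, by rw [coe_heckeAlphaBar, h]⟩

/-- `β^*` maps `J(q^d)` to `J(q^(ℓ d))`. -/
theorem isJ_heckeBetaBar (N ℓ : ℕ) [NeZero N] [NeZero ℓ]
    {y : ↥(laurentBaseChange L (modularFunctionFieldFull N))} (hy : IsJ y) :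
    IsJ (heckeBetaBar L N ℓ y) := by
  obtain ⟨d, hd, h⟩ := hy
  exact ⟨ℓ * d, Nat.mul_ne_zero (NeZero.ne ℓ) hd,
    by rw [coe_heckeBetaBar, h, TD.qExpand_Jd L ℓ d hd]⟩

/-- `π_0^*` preserves the `J`'s. -/
theorem isJ_piStar0 (M' q : ℕ) [NeZero M'] [NeZero q]
    {y : ↥(laurentBaseChange L (modularFunctionFieldFull M'))} (hy : IsJ y) :
    IsJ (piStar0 L M' q y) := by
  rw [piStar0_apply]
  exact isJ_heckeAlphaBar (M' * q) q (isJ_heckeAlphaBar M' q hy)

/-- `π_1^*` maps `J(q^d)` to `J(q^(q d))`. -/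
theorem isJ_piStar1 (M' q : ℕ) [NeZero M'] [NeZero q]
    {y : ↥(laurentBaseChange L (modularFunctionFieldFull M'))} (hy : IsJ y) :
    IsJ (piStar1 L M' q y) := by
  rw [piStar1_apply]
  exact isJ_heckeAlphaBar (M' * q) q (isJ_heckeBetaBar M' q hy)

/-- `π_2^*` maps `J(q^d)` to `J(q^(q² d))`. -/
theorem isJ_piStar2 (M' q : ℕ) [NeZero M'] [NeZero q]
    {y : ↥(laurentBaseChange L (modularFunctionFieldFull M'))} (hy : IsJ y) :
    IsJ (piStar2 L M' q y) := by
  rw [piStar2_apply]
  exact isJ_heckeBetaBar (M' * q) q (isJ_heckeBetaBar M' q hy)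

/-! #### The degeneracy maps are `J`-homomorphisms

The coefficient ring `W` acts on the function fields through abstract instances
`[Algebra W L] [Algebra W (L·F_N)] [IsScalarTower W L (L·F_N)]` (team ruling: the concrete
`W0`-algebra structures are never found by instance search). -/

section JHoms

variable {W : Type*} [CommRing W] [Algebra W L]

/-- An `L`-algebra homomorphism commutes with the constants of `W`. -/
theorem algHom_algebraMap {E₁ E₂ : IntermediateField L (LaurentSeries L)} [Algebra W E₁]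
    [IsScalarTower W L E₁] [Algebra W E₂] [IsScalarTower W L E₂] (Φ : E₁ →ₐ[L] E₂) (w : W) :
    Φ (algebraMap W E₁ w) = algebraMap W E₂ w := by
  rw [IsScalarTower.algebraMap_apply W L E₁, Φ.commutes, ← IsScalarTower.algebraMap_apply]

/-- An `L`-algebra homomorphism preserving the `J`'s is a `J`-homomorphism over `W`. -/
theorem jHom_of_algHom {E₁ E₂ : IntermediateField L (LaurentSeries L)} [Algebra W E₁]
    [IsScalarTower W L E₁] [Algebra W E₂] [IsScalarTower W L E₂] (Φ : E₁ →ₐ[L] E₂)
    (h : ∀ y : E₁, IsJ y → IsJ (Φ y)) : JHom W Φ.toRingHom where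
  map_algebraMap w := algHom_algebraMap Φ w
  map_isJ y hy := h y hy

variable (W) in
/-- `α^*` is a `J`-homomorphism over `W`. -/
theorem jHom_alpha (N ℓ : ℕ) [NeZero N] [NeZero ℓ]
    [Algebra W ↥(laurentBaseChange L (modularFunctionFieldFull N))]
    [IsScalarTower W L ↥(laurentBaseChange L (modularFunctionFieldFull N))]
    [Algebra W ↥(laurentBaseChange L (modularFunctionFieldFull (N * ℓ)))]
    [IsScalarTower W L ↥(laurentBaseChange L (modularFunctionFieldFull (N * ℓ)))] :
    JHom W (heckeAlphaBar L N ℓ).toRingHom :=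
  jHom_of_algHom _ fun _ hy => isJ_heckeAlphaBar N ℓ hy

variable (W) in
/-- `β^*` is a `J`-homomorphism over `W`. -/
theorem jHom_beta (N ℓ : ℕ) [NeZero N] [NeZero ℓ]
    [Algebra W ↥(laurentBaseChange L (modularFunctionFieldFull N))]
    [IsScalarTower W L ↥(laurentBaseChange L (modularFunctionFieldFull N))]
    [Algebra W ↥(laurentBaseChange L (modularFunctionFieldFull (N * ℓ)))]
    [IsScalarTower W L ↥(laurentBaseChange L (modularFunctionFieldFull (N * ℓ)))] :
    JHom W (heckeBetaBar L N ℓ).toRingHom :=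
  jHom_of_algHom _ fun _ hy => isJ_heckeBetaBar N ℓ hy

end JHoms

end Levels

/-! #### Chart functions of `L·F_N`: the three chart instances -/

section ChartInst

variable {L : Type} [Field L] [Algebra ℚ L] {W : Type*} [CommRing W] [Algebra W L]
  {N : ℕ} [NeZero N] [Algebra W ↥(laurentBaseChange L (modularFunctionFieldFull N))]
  [IsScalarTower W L ↥(laurentBaseChange L (modularFunctionFieldFull N))]
  {x : ↥(laurentBaseChange L (modularFunctionFieldFull N))}

/-- `L·F_N` is finite over `L(x)` for every chart function `x`. -/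
theorem IsJChart.finiteDimensional (hx : IsJChart W x) :
    FiniteDimensional ↥L⟮x⟯ ↥(laurentBaseChange L (modularFunctionFieldFull N)) := by
  have := Fermat.Agent.ESJ.Jac.FinDimK.finiteDimensional_jBarK L N
  exact ChartField.finiteDimensional_adjoin_simple_of_transcendental
    (Fermat.Agent.ESJ.Jac.jBarK L N) hx.transcendental

/-- `L·F_N` is separable over `L(x)` (characteristic zero). -/
theorem IsJChart.isSeparable (hx : IsJChart W x) :
    Algebra.IsSeparable ↥L⟮x⟯ ↥(laurentBaseChange L (modularFunctionFieldFull N)) := by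
  have := hx.finiteDimensional
  have : CharZero L := algebraRat.charZero L
  exact ChartField.isSeparable_adjoin_simple_of_charZero x

omit [NeZero N] [Algebra W L] [Algebra W ↥(laurentBaseChange L (modularFunctionFieldFull N))]
  [IsScalarTower W L ↥(laurentBaseChange L (modularFunctionFieldFull N))] in
/-- `L·F_N` has characteristic zero. -/
theorem charZero_level (L : Type*) [Field L] [Algebra ℚ L] (N : ℕ) :
    CharZero ↥(laurentBaseChange L (modularFunctionFieldFull N)) := by
  have : CharZero L := algebraRat.charZero L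
  exact charZero_of_injective_algebraMap
    (algebraMap L ↥(laurentBaseChange L (modularFunctionFieldFull N))).injective

variable [IsDomain W] [IsFractionRing W L]

/-- The chart ring of a chart function is integrally closed. -/
theorem IsJChart.isIntegrallyClosed (hx : IsJChart W x) : IsIntegrallyClosed (chart W x) := by
  have := hx.finiteDimensional
  exact chart_isIntegrallyClosed (W := W) (K0 := L) L⟮x⟯ (mem_adjoin_simple_self L x) le_rfl

/-- `L·F_N` is the fraction field of the chart ring of a chart function. -/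
theorem IsJChart.isFractionRing (hx : IsJChart W x) :
    IsFractionRing (chart W x) ↥(laurentBaseChange L (modularFunctionFieldFull N)) := by
  have := hx.finiteDimensional
  exact chart_isFractionRing (W := W) (K0 := L) L⟮x⟯ (mem_adjoin_simple_self L x) le_rfl

/-- The chart ring of a chart function is Noetherian. -/
theorem IsJChart.isNoetherianRing [IsNoetherianRing W] [IsIntegrallyClosed W]
    (hx : IsJChart W x) : IsNoetherianRing (chart W x) := by
  have := hx.finiteDimensional
  have := hx.isSeparable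
  exact chart_isNoetherianRing (W := W) (K0 := L) hx.transcendental L⟮x⟯
    (mem_adjoin_simple_self L x) le_rfl

end ChartInst

/-! #### Examples of chart functions -/

section Examples

variable {L : Type*} [Field L] [Algebra ℚ L] {W : Type*} [CommRing W]

/-- A function with expansion `J(q^d)` is a chart function. -/
theorem isJChart_of_coe {N : ℕ} [Algebra W ↥(laurentBaseChange L (modularFunctionFieldFull N))]
    {d : ℕ} (hd : d ≠ 0) {y : ↥(laurentBaseChange L (modularFunctionFieldFull N))}
    (hy : (y : LaurentSeries L) = TD.Jd L d) : IsJChart W y :=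
  IsJ.isJChart ⟨d, hd, hy⟩

/-- `jLevel = J(q)` is a chart function. -/
theorem isJChart_jLevel (N : ℕ) [NeZero N]
    [Algebra W ↥(laurentBaseChange L (modularFunctionFieldFull N))] :
    IsJChart W (jLevel L N) := (isJ_jLevel L N).isJChart

/-- `xL = J(q^N)` is a chart function. -/
theorem isJChart_xL (N : ℕ) [NeZero N]
    [Algebra W ↥(laurentBaseChange L (modularFunctionFieldFull N))] :
    IsJChart W (xL L N) := (isJ_xL L N).isJChart

/-- `ChartXInst.jd` (`= J(q^d)`, `d ∣ N`) is a chart function. -/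
theorem isJChart_jd (N : ℕ) [NeZero N]
    [Algebra W ↥(laurentBaseChange L (modularFunctionFieldFull N))] (d : ℕ) (hd : d ∣ N) :
    IsJChart W (ChartXInst.jd L N d hd) :=
  isJChart_of_coe (fun h => NeZero.ne N (by rw [h] at hd; exact Nat.eq_zero_of_zero_dvd hd))
    (ChartXInst.coe_jd L N d hd)

end Examples

section ExamplesCusp

variable (L : Type) [Field L] [Algebra ℚ L] (M' q : ℕ) [NeZero M'] [NeZero q]
  {W : Type*} [CommRing W]
  [Algebra W ↥(laurentBaseChange L (modularFunctionFieldFull (M' * q * q)))]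

theorem isJ_J0 : IsJ (CuspQuot.J0 (q := q) L M') :=
  ⟨M', NeZero.ne M', CuspQuot.coe_J0 L M'⟩

theorem isJ_J1 : IsJ (CuspQuot.J1 (q := q) L M') :=
  ⟨M' * q, Nat.mul_ne_zero (NeZero.ne M') (NeZero.ne q), CuspQuot.coe_J1 L M'⟩

theorem isJ_J2 : IsJ (CuspQuot.J2 (q := q) L M') :=
  ⟨M' * q * q, Nat.mul_ne_zero (Nat.mul_ne_zero (NeZero.ne M') (NeZero.ne q)) (NeZero.ne q),
    CuspQuot.coe_J2 L M'⟩

/-- **The CAR chart function `x = J_0 J_2` (ruling #6 R1) is a chart function.** -/
theorem isJChart_J0_mul_J2 :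
    IsJChart W (CuspQuot.J0 (q := q) L M' * CuspQuot.J2 L M') :=
  isJChart_mul (isJ_J0 L M' q) (isJ_J2 L M' q)

end ExamplesCusp

/-! #### The chart block of the node relation, in the literal binder shapes of
`NodeTriple.triple_ratio_pow_of_red` / `NodeData.triple_ratio_pow_of_contract` /
`NodeContract.hnode_of_contract`

`FN = L·F_{M' q}`, `F = L·F_{M' q²}`, `Φα = (heckeAlphaBar L (M' * q) q).toRingHom`
(`= RestrictNF.alphaStar L M' q`), `Φβ = (heckeBetaBar L (M' * q) q).toRingHom`; `xN`, `x` ANY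
chart functions. -/

section ChartBlock

variable {L : Type*} [Field L] [Algebra ℚ L] {W : Type*} [CommRing W] [Algebra W L]
  (M' q : ℕ) [NeZero M'] [NeZero q]
  [Algebra W ↥(laurentBaseChange L (modularFunctionFieldFull (M' * q)))]
  [IsScalarTower W L ↥(laurentBaseChange L (modularFunctionFieldFull (M' * q)))]
  [Algebra W ↥(laurentBaseChange L (modularFunctionFieldFull (M' * q * q)))]
  [IsScalarTower W L ↥(laurentBaseChange L (modularFunctionFieldFull (M' * q * q)))]

variable (W) in
/-- **`hΦα`**: `α^*` commutes with the constants. -/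
theorem hΦα (w : W) :
    (heckeAlphaBar L (M' * q) q).toRingHom
        (algebraMap W ↥(laurentBaseChange L (modularFunctionFieldFull (M' * q))) w) =
      algebraMap W ↥(laurentBaseChange L (modularFunctionFieldFull (M' * q * q))) w :=
  (jHom_alpha W (M' * q) q).map_algebraMap w

variable (W) in
/-- **`hΦβ`**: `β^*` commutes with the constants. -/
theorem hΦβ (w : W) :
    (heckeBetaBar L (M' * q) q).toRingHom
        (algebraMap W ↥(laurentBaseChange L (modularFunctionFieldFull (M' * q))) w) =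
      algebraMap W ↥(laurentBaseChange L (modularFunctionFieldFull (M' * q * q))) w :=
  (jHom_beta W (M' * q) q).map_algebraMap w

variable {M' q}
variable {xN : ↥(laurentBaseChange L (modularFunctionFieldFull (M' * q)))}
  {x : ↥(laurentBaseChange L (modularFunctionFieldFull (M' * q * q)))}

/-- **`h1α`**: `α^* x_N ∈ chart W x`. -/
theorem h1α (hN : IsJChart W xN) (hx : IsJChart W x) :
    (heckeAlphaBar L (M' * q) q).toRingHom xN ∈ chart W x :=
  (jHom_alpha W (M' * q) q).h1 hN hx

/-- **`h2α`**: `x` is integral over `W[α^* x_N]`. -/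
theorem h2α (hN : IsJChart W xN) (hx : IsJChart W x) :
    IsIntegral (Algebra.adjoin W {(heckeAlphaBar L (M' * q) q).toRingHom xN}) x :=
  (jHom_alpha W (M' * q) q).h2 hN hx

/-- **`h1β`**: `β^* x_N ∈ chart W x`. -/
theorem h1β (hN : IsJChart W xN) (hx : IsJChart W x) :
    (heckeBetaBar L (M' * q) q).toRingHom xN ∈ chart W x :=
  (jHom_beta W (M' * q) q).h1 hN hx

/-- **`h2β`**: `x` is integral over `W[β^* x_N]`. -/
theorem h2β (hN : IsJChart W xN) (hx : IsJChart W x) :
    IsIntegral (Algebra.adjoin W {(heckeBetaBar L (M' * q) q).toRingHom xN}) x :=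
  (jHom_beta W (M' * q) q).h2 hN hx

end ChartBlock

/-! #### The maps `p₀, p₁ : B' → chart A x_N` and the four factorisations

`B' = integralClosure (A[x_L]) F'` (ruling #6 R2: `(BaseFn.Data.ofJ A π M').AX = A[x_L]`,
`x_L = J(q^{M'})`), `A` a valuation subring of `L`. -/

section BPrime

set_option synthInstance.maxHeartbeats 400000

variable {L : Type*} [Field L] [Algebra ℚ L] (A : ValuationSubring L) {k : Type} [Field k]
  (π : A →+* k) (M' q : ℕ) [NeZero M'] [NeZero q]

/-- An `L`-algebra map `φ : F' → E` which preserves the `J`'s sends `B'` into the chart ring of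
every chart function of `E`. -/
theorem map_mem_chart_of_isIntegral_AX {N : ℕ} [NeZero N]
    {E : IntermediateField L (LaurentSeries L)} [Algebra ↥A E] [IsScalarTower ↥A L E]
    (φ : ↥(laurentBaseChange L (modularFunctionFieldFull N)) →ₐ[L] E)
    (hφ : ∀ y, IsJ y → IsJ (φ y)) {x : E} (hx : IsJChart ↥A x)
    {y : ↥(laurentBaseChange L (modularFunctionFieldFull N))}
    (hy : IsIntegral ↥((BaseFn.Data.ofJ A π N).AX) y) : φ y ∈ chart ↥A x := by
  refine BPrimeWeb.map_mem_chart_of_isIntegral_AX (BaseFn.Data.ofJ A π N) φ ?_ hy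
  rw [BaseFn.Data.ofJ_x]
  exact ChartX.isIntegral_adjoin_singleton_iff.mp (hx.isIntegral_of_isJ (hφ _ (isJ_xL L N)))

/-- The ring homomorphism `B' → chart A x` induced by a `J`-preserving `L`-algebra map. -/
def bPrimeHom {N : ℕ} [NeZero N]
    {E : IntermediateField L (LaurentSeries L)} [Algebra ↥A E] [IsScalarTower ↥A L E]
    (φ : ↥(laurentBaseChange L (modularFunctionFieldFull N)) →ₐ[L] E)
    (hφ : ∀ y, IsJ y → IsJ (φ y)) {x : E} (hx : IsJChart ↥A x) :
    ↥(integralClosure ↥((BaseFn.Data.ofJ A π N).AX)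
      ↥(laurentBaseChange L (modularFunctionFieldFull N))) →+* chart ↥A x :=
  ((φ : ↥(laurentBaseChange L (modularFunctionFieldFull N)) →+* E).comp
    (integralClosure ↥((BaseFn.Data.ofJ A π N).AX)
      ↥(laurentBaseChange L (modularFunctionFieldFull N))).subtype).codRestrict (chart ↥A x)
    (fun y => map_mem_chart_of_isIntegral_AX A π φ hφ hx y.2)

theorem coe_bPrimeHom {N : ℕ} [NeZero N]
    {E : IntermediateField L (LaurentSeries L)} [Algebra ↥A E] [IsScalarTower ↥A L E]
    (φ : ↥(laurentBaseChange L (modularFunctionFieldFull N)) →ₐ[L] E)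
    (hφ : ∀ y, IsJ y → IsJ (φ y)) {x : E} (hx : IsJChart ↥A x)
    (y : ↥(integralClosure ↥((BaseFn.Data.ofJ A π N).AX)
      ↥(laurentBaseChange L (modularFunctionFieldFull N)))) :
    ((bPrimeHom A π φ hφ hx y : chart ↥A x) : E) =
      φ (y : ↥(laurentBaseChange L (modularFunctionFieldFull N))) := rfl

/-- `B'` is the chart ring of `x_L` (for any `A`-algebra structure on `F'` compatible with
`L`): `y` is integral over `A[x_L]` iff `y ∈ chart A x_L`. -/
theorem isIntegral_AX_iff_mem_chart {N : ℕ} [NeZero N]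
    [Algebra ↥A ↥(laurentBaseChange L (modularFunctionFieldFull N))]
    [IsScalarTower ↥A L ↥(laurentBaseChange L (modularFunctionFieldFull N))]
    {y : ↥(laurentBaseChange L (modularFunctionFieldFull N))} :
    IsIntegral ↥((BaseFn.Data.ofJ A π N).AX) y ↔ y ∈ chart ↥A (xL L N) := by
  rw [BPrimeWeb.isIntegral_AX_iff_forall, mem_chart_iff,
    ChartX.isIntegral_adjoin_singleton_iff, BaseFn.Data.ofJ_x]
  refine forall_congr' fun V => ?_
  have e : ∀ a : A, algebraMap ↥A ↥(laurentBaseChange L (modularFunctionFieldFull N)) a =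
      algebraMap L ↥(laurentBaseChange L (modularFunctionFieldFull N)) (a : L) := fun a =>
    IsScalarTower.algebraMap_apply ↥A L _ a
  constructor
  · intro h hA hx
    exact h (fun a => by rw [← e]; exact hA a) hx
  · intro h hA hx
    exact h (fun a => by rw [e]; exact hA a) hx

variable [Algebra ↥A ↥(laurentBaseChange L (modularFunctionFieldFull (M' * q)))]
  [IsScalarTower ↥A L ↥(laurentBaseChange L (modularFunctionFieldFull (M' * q)))]
  [Algebra ↥A ↥(laurentBaseChange L (modularFunctionFieldFull (M' * q * q)))]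
  [IsScalarTower ↥A L ↥(laurentBaseChange L (modularFunctionFieldFull (M' * q * q)))]
  {xN : ↥(laurentBaseChange L (modularFunctionFieldFull (M' * q)))}
  {x : ↥(laurentBaseChange L (modularFunctionFieldFull (M' * q * q)))}

/-- **`p₀ : B' → chart A x_N`**, `y(z) ↦ y(z)` (restriction of `heckeAlphaBar L M' q`). -/
def p0 (hN : IsJChart ↥A xN) :
    ↥(integralClosure ↥((BaseFn.Data.ofJ A π M').AX)
      ↥(laurentBaseChange L (modularFunctionFieldFull M'))) →+* chart ↥A xN :=
  bPrimeHom A π (heckeAlphaBar L M' q) (fun _ h => isJ_heckeAlphaBar M' q h) hN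

/-- **`p₁ : B' → chart A x_N`**, `y(z) ↦ y(qz)` (restriction of `heckeBetaBar L M' q`). -/
def p1 (hN : IsJChart ↥A xN) :
    ↥(integralClosure ↥((BaseFn.Data.ofJ A π M').AX)
      ↥(laurentBaseChange L (modularFunctionFieldFull M'))) →+* chart ↥A xN :=
  bPrimeHom A π (heckeBetaBar L M' q) (fun _ h => isJ_heckeBetaBar M' q h) hN

/-- `π₀ : B' → chart A x` (restriction of `piStar0`). -/
def pi0 (hx : IsJChart ↥A x) :
    ↥(integralClosure ↥((BaseFn.Data.ofJ A π M').AX)
      ↥(laurentBaseChange L (modularFunctionFieldFull M'))) →+* chart ↥A x :=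
  bPrimeHom A π (piStar0 L M' q)
    (fun _ h => isJ_piStar0 M' q h) hx

/-- `π₁ : B' → chart A x` (restriction of `piStar1`). -/
def pi1 (hx : IsJChart ↥A x) :
    ↥(integralClosure ↥((BaseFn.Data.ofJ A π M').AX)
      ↥(laurentBaseChange L (modularFunctionFieldFull M'))) →+* chart ↥A x :=
  bPrimeHom A π (piStar1 L M' q)
    (fun _ h => isJ_piStar1 M' q h) hx

/-- `π₂ : B' → chart A x` (restriction of `piStar2`). -/
def pi2 (hx : IsJChart ↥A x) :
    ↥(integralClosure ↥((BaseFn.Data.ofJ A π M').AX)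
      ↥(laurentBaseChange L (modularFunctionFieldFull M'))) →+* chart ↥A x :=
  bPrimeHom A π (piStar2 L M' q)
    (fun _ h => isJ_piStar2 M' q h) hx

theorem coe_p0 (hN : IsJChart ↥A xN)
    (y : ↥(integralClosure ↥((BaseFn.Data.ofJ A π M').AX)
      ↥(laurentBaseChange L (modularFunctionFieldFull M')))) :
    ((p0 A π M' q hN y : chart ↥A xN) :
        ↥(laurentBaseChange L (modularFunctionFieldFull (M' * q)))) =
      heckeAlphaBar L M' q (y : ↥(laurentBaseChange L (modularFunctionFieldFull M'))) := rfl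

theorem coe_p1 (hN : IsJChart ↥A xN)
    (y : ↥(integralClosure ↥((BaseFn.Data.ofJ A π M').AX)
      ↥(laurentBaseChange L (modularFunctionFieldFull M')))) :
    ((p1 A π M' q hN y : chart ↥A xN) :
        ↥(laurentBaseChange L (modularFunctionFieldFull (M' * q)))) =
      heckeBetaBar L M' q (y : ↥(laurentBaseChange L (modularFunctionFieldFull M'))) := rfl

theorem coe_pi0 (hx : IsJChart ↥A x)
    (y : ↥(integralClosure ↥((BaseFn.Data.ofJ A π M').AX)
      ↥(laurentBaseChange L (modularFunctionFieldFull M')))) :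
    ((pi0 A π M' q hx y : chart ↥A x) :
        ↥(laurentBaseChange L (modularFunctionFieldFull (M' * q * q)))) =
      piStar0 L M' q (y : ↥(laurentBaseChange L (modularFunctionFieldFull M'))) := rfl

theorem coe_pi1 (hx : IsJChart ↥A x)
    (y : ↥(integralClosure ↥((BaseFn.Data.ofJ A π M').AX)
      ↥(laurentBaseChange L (modularFunctionFieldFull M')))) :
    ((pi1 A π M' q hx y : chart ↥A x) :
        ↥(laurentBaseChange L (modularFunctionFieldFull (M' * q * q)))) =
      piStar1 L M' q (y : ↥(laurentBaseChange L (modularFunctionFieldFull M'))) := rfl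

theorem coe_pi2 (hx : IsJChart ↥A x)
    (y : ↥(integralClosure ↥((BaseFn.Data.ofJ A π M').AX)
      ↥(laurentBaseChange L (modularFunctionFieldFull M')))) :
    ((pi2 A π M' q hx y : chart ↥A x) :
        ↥(laurentBaseChange L (modularFunctionFieldFull (M' * q * q)))) =
      piStar2 L M' q (y : ↥(laurentBaseChange L (modularFunctionFieldFull M'))) := rfl

/-! The four factorisations, in the literal shapes `hα₀ hα₁ hβ₁ hβ₂` of
`NodeData.triple_ratio_pow_of_contract` / `NodeContract.hnode_of_contract`, for ANY ring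
homomorphisms `π_i : B' → chart A x` which are the restrictions of `piStar_i` (`x` arbitrary). -/

/-- **`hα₀`**: `π₀ = α ∘ p₀`. -/
theorem hα₀ (hN : IsJChart ↥A xN)
    (hΦ : ∀ w : ↥A, (heckeAlphaBar L (M' * q) q).toRingHom
      (algebraMap ↥A ↥(laurentBaseChange L (modularFunctionFieldFull (M' * q))) w) =
        algebraMap ↥A ↥(laurentBaseChange L (modularFunctionFieldFull (M' * q * q))) w)
    (h1 : (heckeAlphaBar L (M' * q) q).toRingHom xN ∈ chart ↥A x)
    (π₀ : ↥(integralClosure ↥((BaseFn.Data.ofJ A π M').AX)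
      ↥(laurentBaseChange L (modularFunctionFieldFull M'))) →+* chart ↥A x)
    (hπ₀ : ∀ y, ((π₀ y : chart ↥A x) :
      ↥(laurentBaseChange L (modularFunctionFieldFull (M' * q * q)))) =
        piStar0 L M' q (y : ↥(laurentBaseChange L (modularFunctionFieldFull M')))) :
    ∀ y, NodeInst.chartMap (heckeAlphaBar L (M' * q) q).toRingHom hΦ h1 (p0 A π M' q hN y) =
      π₀ y := by
  intro y
  apply Subtype.ext
  rw [hπ₀, NodeInst.coe_chartMap, coe_p0, piStar0_apply]
  rfl

/-- **`hα₁`**: `π₁ = α ∘ p₁`. -/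
theorem hα₁ (hN : IsJChart ↥A xN)
    (hΦ : ∀ w : ↥A, (heckeAlphaBar L (M' * q) q).toRingHom
      (algebraMap ↥A ↥(laurentBaseChange L (modularFunctionFieldFull (M' * q))) w) =
        algebraMap ↥A ↥(laurentBaseChange L (modularFunctionFieldFull (M' * q * q))) w)
    (h1 : (heckeAlphaBar L (M' * q) q).toRingHom xN ∈ chart ↥A x)
    (π₁ : ↥(integralClosure ↥((BaseFn.Data.ofJ A π M').AX)
      ↥(laurentBaseChange L (modularFunctionFieldFull M'))) →+* chart ↥A x)
    (hπ₁ : ∀ y, ((π₁ y : chart ↥A x) :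
      ↥(laurentBaseChange L (modularFunctionFieldFull (M' * q * q)))) =
        piStar1 L M' q (y : ↥(laurentBaseChange L (modularFunctionFieldFull M')))) :
    ∀ y, NodeInst.chartMap (heckeAlphaBar L (M' * q) q).toRingHom hΦ h1 (p1 A π M' q hN y) =
      π₁ y := by
  intro y
  apply Subtype.ext
  rw [hπ₁, NodeInst.coe_chartMap, coe_p1, piStar1_apply]
  rfl

/-- **`hβ₁`**: `π₁ = β ∘ p₀`. -/
theorem hβ₁ (hN : IsJChart ↥A xN)
    (hΦ : ∀ w : ↥A, (heckeBetaBar L (M' * q) q).toRingHom
      (algebraMap ↥A ↥(laurentBaseChange L (modularFunctionFieldFull (M' * q))) w) =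
        algebraMap ↥A ↥(laurentBaseChange L (modularFunctionFieldFull (M' * q * q))) w)
    (h1 : (heckeBetaBar L (M' * q) q).toRingHom xN ∈ chart ↥A x)
    (π₁ : ↥(integralClosure ↥((BaseFn.Data.ofJ A π M').AX)
      ↥(laurentBaseChange L (modularFunctionFieldFull M'))) →+* chart ↥A x)
    (hπ₁ : ∀ y, ((π₁ y : chart ↥A x) :
      ↥(laurentBaseChange L (modularFunctionFieldFull (M' * q * q)))) =
        piStar1 L M' q (y : ↥(laurentBaseChange L (modularFunctionFieldFull M')))) :
    ∀ y, NodeInst.chartMap (heckeBetaBar L (M' * q) q).toRingHom hΦ h1 (p0 A π M' q hN y) =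
      π₁ y := by
  intro y
  apply Subtype.ext
  rw [hπ₁, NodeInst.coe_chartMap, coe_p0, piStar1_apply']
  rfl

/-- **`hβ₂`**: `π₂ = β ∘ p₁`. -/
theorem hβ₂ (hN : IsJChart ↥A xN)
    (hΦ : ∀ w : ↥A, (heckeBetaBar L (M' * q) q).toRingHom
      (algebraMap ↥A ↥(laurentBaseChange L (modularFunctionFieldFull (M' * q))) w) =
        algebraMap ↥A ↥(laurentBaseChange L (modularFunctionFieldFull (M' * q * q))) w)
    (h1 : (heckeBetaBar L (M' * q) q).toRingHom xN ∈ chart ↥A x)
    (π₂ : ↥(integralClosure ↥((BaseFn.Data.ofJ A π M').AX)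
      ↥(laurentBaseChange L (modularFunctionFieldFull M'))) →+* chart ↥A x)
    (hπ₂ : ∀ y, ((π₂ y : chart ↥A x) :
      ↥(laurentBaseChange L (modularFunctionFieldFull (M' * q * q)))) =
        piStar2 L M' q (y : ↥(laurentBaseChange L (modularFunctionFieldFull M')))) :
    ∀ y, NodeInst.chartMap (heckeBetaBar L (M' * q) q).toRingHom hΦ h1 (p1 A π M' q hN y) =
      π₂ y := by
  intro y
  apply Subtype.ext
  rw [hπ₂, NodeInst.coe_chartMap, coe_p1, piStar2_apply]
  rfl

end BPrime

end

end Fermat.Agent.CAR.Inst.LevelN
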