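/-
CAR (row 396, LevelN, MAP half): the two chart maps `p₀ p₁ : B' → chart W xN` of level `M'` into
level `N = M' q` and the four factorisations of the pull-backs `π₀ π₁ π₂` through the degeneracy
maps `α^*`, `β^*` of level `N` into level `M' q²`, in the literal binder shapes of
`NodeContract.hnode_of_contract` / `NodeData.triple_ratio_pow_of_contract`.

Generic base `(L, A, π)` (instance: `(K0 A, W0 A, resW0 A)`), abstract `A`-algebra structures
`[Algebra ↥A FN] [IsScalarTower ↥A L FN]` on the function fields of levels `M' q`, `M' q²`: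

* `B' := integralClosure A[xL] (L · F_{M'})`, `xL = J(q^{M'})` (`BaseFn.Data.ofJ`);
* `xN : L · F_{M' q}` ANY function with expansion `J(q^{M'})` (e.g. `ChartXInst.jd L (M'*q) M' _`
  or `heckeAlphaBar L M' q (xL L M')`);
* `p0 y := ⟨α_{M'}^* y, _⟩`, `p1 y := ⟨β_{M'}^* y, _⟩ : B' →+* chart ↥A xN`;
* for ANY `x`, ANY `h1α : α^* xN ∈ chart ↥A x`, `h1β : β^* xN ∈ chart ↥A x` and ANY ring
  homomorphisms `π_i : B' →+* chart ↥A x` with `((π_i y : chart ↥A x) : F) = piStar_i L M' q ↑y`: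
  `chartMap α^* (p0 y) = π₀ y`, `chartMap α^* (p1 y) = π₁ y`, `chartMap β^* (p0 y) = π₁ y`,
  `chartMap β^* (p1 y) = π₂ y`.
-/
import Mathlib
import Fermat.Agent.CAR.Inst.BPrimeWeb
import Fermat.Agent.CAR.Glue.NodeInst
import Fermat.Agent.CAR.V3.RestrictNF

set_option autoImplicit false
set_option linter.unusedSectionVars false
set_option synthInstance.maxHeartbeats 400000

namespace Fermat.Agent.CAR.Inst.LevelNP

open ModularCurve HahnSeries Fermat.Agent.S28 Fermat.Agent.Lib.Red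
open Fermat.Agent.CAR.V3 Fermat.Agent.CAR.V3.RestrictNF Fermat.Agent.CAR.Glob.Charts
open Fermat.Agent.CAR.Glue Fermat.Agent.ESJ.Cong.LevelGen

noncomputable section

variable {L : Type} [Field L] [Algebra ℚ L] (A : ValuationSubring L) {k : Type} [Field k]
  (π : A →+* k) (M' q : ℕ) [NeZero M'] [NeZero q]

/-- `B'`: the integral closure of `A[xL]` in `L · F_{M'}` (`xL = J(q^{M'})`). -/
abbrev BPrime : Type :=
  ↥(integralClosure ↥((BaseFn.Data.ofJ A π M').AX)
    ↥(laurentBaseChange L (modularFunctionFieldFull M')))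

/-- The inclusion `B' → L · F_{M'}`. -/
abbrev inclB : BPrime A π M' →+* ↥(laurentBaseChange L (modularFunctionFieldFull M')) :=
  (integralClosure ↥((BaseFn.Data.ofJ A π M').AX)
    ↥(laurentBaseChange L (modularFunctionFieldFull M'))).toSubring.subtype

theorem isIntegral_inclB (y : BPrime A π M') :
    IsIntegral ↥((BaseFn.Data.ofJ A π M').AX) (inclB A π M' y) := y.2

variable [Algebra ↥A ↥(laurentBaseChange L (modularFunctionFieldFull (M' * q)))]
  [IsScalarTower ↥A L ↥(laurentBaseChange L (modularFunctionFieldFull (M' * q)))]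

/-- `α_{M'}^*` maps `B'` into the chart ring of level `M' q` at any function `xN` with expansion
`J(q^{M'})`. -/
theorem alpha_mem_chart {xN : ↥(laurentBaseChange L (modularFunctionFieldFull (M' * q)))}
    (hxN : (xN : LaurentSeries L) = TD.Jd L M')
    {y : ↥(laurentBaseChange L (modularFunctionFieldFull M'))}
    (hy : IsIntegral ↥((BaseFn.Data.ofJ A π M').AX) y) :
    heckeAlphaBar L M' q y ∈ chart ↥A xN := by
  refine BPrimeWeb.map_mem_chart_of_isIntegral_AX (BaseFn.Data.ofJ A π M')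
    (heckeAlphaBar L M' q) (fun V _ hxV => ?_) hy
  have e : heckeAlphaBar L M' q (BaseFn.Data.ofJ A π M').x = xN := by
    apply Subtype.ext
    rw [coe_heckeAlphaBar, BaseFn.Data.ofJ_x, coe_xL, hxN]
  rw [e]
  exact hxV

/-- `β_{M'}^*` maps `B'` into the chart ring of level `M' q` at any function `xN` with expansion
`J(q^{M'})`. -/
theorem beta_mem_chart {xN : ↥(laurentBaseChange L (modularFunctionFieldFull (M' * q)))}
    (hxN : (xN : LaurentSeries L) = TD.Jd L M')
    {y : ↥(laurentBaseChange L (modularFunctionFieldFull M'))}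
    (hy : IsIntegral ↥((BaseFn.Data.ofJ A π M').AX) y) :
    heckeBetaBar L M' q y ∈ chart ↥A xN := by
  refine BPrimeWeb.map_mem_chart_of_isIntegral_AX (BaseFn.Data.ofJ A π M')
    (heckeBetaBar L M' q) (fun V _ hxV => ?_) hy
  have e : ((heckeBetaBar L M' q (BaseFn.Data.ofJ A π M').x :
      ↥(laurentBaseChange L (modularFunctionFieldFull (M' * q)))) : LaurentSeries L)
      = TD.Jd L (q * M') := by
    rw [coe_heckeBetaBar, BaseFn.Data.ofJ_x, coe_xL, TD.qExpand_Jd L q M' (NeZero.ne M')]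
  exact BPrimeWeb.mem_of_coe_of_mem (NeZero.ne M')
    (Nat.mul_ne_zero (NeZero.ne q) (NeZero.ne M')) hxN e V hxV

/-- **`p₀ : B' → chart ↥A xN`**, `y ↦ α_{M'}^* y`. -/
def p0 {xN : ↥(laurentBaseChange L (modularFunctionFieldFull (M' * q)))}
    (hxN : (xN : LaurentSeries L) = TD.Jd L M') : BPrime A π M' →+* chart ↥A xN :=
  ((heckeAlphaBar L M' q).toRingHom.comp (inclB A π M')).codRestrict (chart ↥A xN)
    (fun y => alpha_mem_chart A π M' q hxN (isIntegral_inclB A π M' y))

/-- **`p₁ : B' → chart ↥A xN`**, `y ↦ β_{M'}^* y`. -/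
def p1 {xN : ↥(laurentBaseChange L (modularFunctionFieldFull (M' * q)))}
    (hxN : (xN : LaurentSeries L) = TD.Jd L M') : BPrime A π M' →+* chart ↥A xN :=
  ((heckeBetaBar L M' q).toRingHom.comp (inclB A π M')).codRestrict (chart ↥A xN)
    (fun y => beta_mem_chart A π M' q hxN (isIntegral_inclB A π M' y))

variable {xN : ↥(laurentBaseChange L (modularFunctionFieldFull (M' * q)))}
  (hxN : (xN : LaurentSeries L) = TD.Jd L M')

theorem coe_p0 (y : BPrime A π M') :
    ((p0 A π M' q hxN y : chart ↥A xN) :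
      ↥(laurentBaseChange L (modularFunctionFieldFull (M' * q)))) =
      heckeAlphaBar L M' q (y : ↥(laurentBaseChange L (modularFunctionFieldFull M'))) := rfl

theorem coe_p1 (y : BPrime A π M') :
    ((p1 A π M' q hxN y : chart ↥A xN) :
      ↥(laurentBaseChange L (modularFunctionFieldFull (M' * q)))) =
      heckeBetaBar L M' q (y : ↥(laurentBaseChange L (modularFunctionFieldFull M'))) := rfl

/-! ### The four factorisations -/

variable [Algebra ↥A ↥(laurentBaseChange L (modularFunctionFieldFull (M' * q * q)))]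
  {x : ↥(laurentBaseChange L (modularFunctionFieldFull (M' * q * q)))}
  (hΦα : ∀ w : ↥A, alphaStar L M' q
    (algebraMap ↥A ↥(laurentBaseChange L (modularFunctionFieldFull (M' * q))) w) =
      algebraMap ↥A ↥(laurentBaseChange L (modularFunctionFieldFull (M' * q * q))) w)
  (hΦβ : ∀ w : ↥A, betaStar L M' q
    (algebraMap ↥A ↥(laurentBaseChange L (modularFunctionFieldFull (M' * q))) w) =
      algebraMap ↥A ↥(laurentBaseChange L (modularFunctionFieldFull (M' * q * q))) w)
  (h1α : alphaStar L M' q xN ∈ chart ↥A x) (h1β : betaStar L M' q xN ∈ chart ↥A x)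

/-- **`hα₀`**: `α^* ∘ p₀ = π₀`. -/
theorem hα₀ (π₀ : BPrime A π M' →+* chart ↥A x)
    (hπ₀ : ∀ y, ((π₀ y : chart ↥A x) :
      ↥(laurentBaseChange L (modularFunctionFieldFull (M' * q * q)))) =
        piStar0 L M' q (y : ↥(laurentBaseChange L (modularFunctionFieldFull M')))) :
    ∀ y, NodeInst.chartMap (alphaStar L M' q) hΦα h1α (p0 A π M' q hxN y) = π₀ y := by
  intro y
  apply Subtype.ext
  rw [hπ₀ y]
  rfl

/-- **`hα₁`**: `α^* ∘ p₁ = π₁`. -/
theorem hα₁ (π₁ : BPrime A π M' →+* chart ↥A x)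
    (hπ₁ : ∀ y, ((π₁ y : chart ↥A x) :
      ↥(laurentBaseChange L (modularFunctionFieldFull (M' * q * q)))) =
        piStar1 L M' q (y : ↥(laurentBaseChange L (modularFunctionFieldFull M')))) :
    ∀ y, NodeInst.chartMap (alphaStar L M' q) hΦα h1α (p1 A π M' q hxN y) = π₁ y := by
  intro y
  apply Subtype.ext
  rw [hπ₁ y]
  rfl

/-- **`hβ₁`**: `β^* ∘ p₀ = π₁`. -/
theorem hβ₁ (π₁ : BPrime A π M' →+* chart ↥A x)
    (hπ₁ : ∀ y, ((π₁ y : chart ↥A x) :
      ↥(laurentBaseChange L (modularFunctionFieldFull (M' * q * q)))) =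
        piStar1 L M' q (y : ↥(laurentBaseChange L (modularFunctionFieldFull M')))) :
    ∀ y, NodeInst.chartMap (betaStar L M' q) hΦβ h1β (p0 A π M' q hxN y) = π₁ y := by
  intro y
  apply Subtype.ext
  rw [hπ₁ y, piStar1_apply']
  rfl

/-- **`hβ₂`**: `β^* ∘ p₁ = π₂`. -/
theorem hβ₂ (π₂ : BPrime A π M' →+* chart ↥A x)
    (hπ₂ : ∀ y, ((π₂ y : chart ↥A x) :
      ↥(laurentBaseChange L (modularFunctionFieldFull (M' * q * q)))) =
        piStar2 L M' q (y : ↥(laurentBaseChange L (modularFunctionFieldFull M')))) :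
    ∀ y, NodeInst.chartMap (betaStar L M' q) hΦβ h1β (p1 A π M' q hxN y) = π₂ y := by
  intro y
  apply Subtype.ext
  rw [hπ₂ y]
  rfl

include hxN in
/-- **The MAP half of LevelN, packaged**: the two chart maps `p₀ p₁ : B' →+* chart ↥A xN` with
the four factorisations, in the literal shapes of the binders `p₀ p₁ hα₀ hα₁ hβ₁ hβ₂` of
`NodeContract.hnode_of_contract`. -/
theorem exists_p0_p1 (π₀ π₁ π₂ : BPrime A π M' →+* chart ↥A x)
    (hπ₀ : ∀ y, ((π₀ y : chart ↥A x) :
      ↥(laurentBaseChange L (modularFunctionFieldFull (M' * q * q)))) =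
        piStar0 L M' q (y : ↥(laurentBaseChange L (modularFunctionFieldFull M'))))
    (hπ₁ : ∀ y, ((π₁ y : chart ↥A x) :
      ↥(laurentBaseChange L (modularFunctionFieldFull (M' * q * q)))) =
        piStar1 L M' q (y : ↥(laurentBaseChange L (modularFunctionFieldFull M'))))
    (hπ₂ : ∀ y, ((π₂ y : chart ↥A x) :
      ↥(laurentBaseChange L (modularFunctionFieldFull (M' * q * q)))) =
        piStar2 L M' q (y : ↥(laurentBaseChange L (modularFunctionFieldFull M')))) :
    ∃ p₀ p₁ : BPrime A π M' →+* chart ↥A xN,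
      (∀ y, NodeInst.chartMap (alphaStar L M' q) hΦα h1α (p₀ y) = π₀ y) ∧
      (∀ y, NodeInst.chartMap (alphaStar L M' q) hΦα h1α (p₁ y) = π₁ y) ∧
      (∀ y, NodeInst.chartMap (betaStar L M' q) hΦβ h1β (p₀ y) = π₁ y) ∧
      (∀ y, NodeInst.chartMap (betaStar L M' q) hΦβ h1β (p₁ y) = π₂ y) :=
  ⟨p0 A π M' q hxN, p1 A π M' q hxN, hα₀ A π M' q hxN hΦα h1α π₀ hπ₀,
    hα₁ A π M' q hxN hΦα h1α π₁ hπ₁, hβ₁ A π M' q hxN hΦβ h1β π₁ hπ₁,
    hβ₂ A π M' q hxN hΦβ h1β π₂ hπ₂⟩

end

end Fermat.Agent.CAR.Inst.LevelNP
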