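import Mathlib
import Fermat.Agent.CAR.Lift
import Fermat.Agent.BAD.Base.CuspX
import Fermat.Agent.Lib.Red.HauptData

/-!
# CAR / LIFT at `q ∈ {2, 3}`: the cusp chart of `J` from the Hauptmodul base (brick B2 (b2))

At residue characteristic `q ∈ {2, 3}` the good-reduction statements `Lift.T3`, `Lift.T3'` are
available only for the Hauptmodul base `y` (level `5 - q`), while the CAR charts are the
`J`-charts.  Here `J = p(y) / y ^ e` with `p` monic with coefficients in `A`, `p(0)` a unit.

* `exists_isIntegral_pow_mul` (clearing lemma, pure algebra): if `a` is integral over `L[y⁻¹]`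
  then `y ^ n * a` is integral over `L[y]` for all large `n`.
* `lift_frac_inf_of_rel` : **the conclusion of `Lift.lift_frac_inf BJ`** (every `c` regular at a
  place `Q` of the special fibre with `J̄(Q) ≠ 0` is `redF a / redF b` with
  `a, b ∈ Lift.Binf BJ`, `redF b` a unit at `Q`) from `Lift.T3 By` and `Lift.T3' By`, for two
  base functions related by `BJ.x * By.x ^ e = p(By.x)`.  Multiplier trick: at a place with
  `ȳ(Q) ≠ 0` lift on the chart `y ≠ 0` and multiply by `(y ^ d / p(y)) ^ n`; at a place with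
  `ȳ(Q) = 0` lift on the chart `y ≠ ∞` and multiply by `p(y) ^ (-n)`.
  No finiteness of zeros or poles over `L` is used (`L` need not be algebraically closed).
* `lift_frac_inf_haupt2`, `lift_frac_inf_haupt3` : the instances `BJ = ofJ`,
  `By = ofHaupt2` (`J y² = (y + 256)³`) resp. `By = ofHaupt3` (`J y³ = (y + 27)(y + 243)³`).
-/

set_option autoImplicit false

noncomputable section

namespace Fermat.Agent.CAR.Inst.LiftJ23Inf

open HahnSeries ModularCurve Polynomial AlgebraicCurve Fermat.Agent.S28 IntermediateField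
  Fermat.Agent.Lib.FF Fermat.Agent.Lib.Red Fermat.Agent.S24 Fermat.Agent.CAR Fermat.Agent.BAD

section Clear

variable {L F : Type*} [Field L] [Field F] [Algebra L F]

theorem isIntegral_of_mem_adjoin {y z : F} (hz : z ∈ Algebra.adjoin L {y}) :
    IsIntegral (Algebra.adjoin L {y}) z := by
  have h := isIntegral_algebraMap (R := ↥(Algebra.adjoin L {y})) (A := F)
    (x := (⟨z, hz⟩ : ↥(Algebra.adjoin L {y})))
  exact h

/-- The elements `a` of `F` such that `y ^ n * a` is integral over `L[y]` for all large `n`. -/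
def clearSub (L : Type*) {F : Type*} [Field L] [Field F] [Algebra L F] (y : F) :
    Subalgebra L F where
  carrier := {a | ∃ E : ℕ, ∀ n, E ≤ n → IsIntegral (Algebra.adjoin L {y}) (y ^ n * a)}
  mul_mem' := by
    rintro a b ⟨E₁, h₁⟩ ⟨E₂, h₂⟩
    refine ⟨E₁ + E₂, fun n hn => ?_⟩
    have e : y ^ n * (a * b) = (y ^ E₁ * a) * (y ^ (n - E₁) * b) := by
      have : y ^ n = y ^ E₁ * y ^ (n - E₁) := by
        rw [← _root_.pow_add, Nat.add_sub_cancel' (by omega)]
      rw [this]
      ring
    rw [e]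
    exact (h₁ E₁ le_rfl).mul (h₂ _ (by omega))
  add_mem' := by
    rintro a b ⟨E₁, h₁⟩ ⟨E₂, h₂⟩
    refine ⟨max E₁ E₂, fun n hn => ?_⟩
    rw [mul_add]
    exact (h₁ n (le_trans (le_max_left _ _) hn)).add (h₂ n (le_trans (le_max_right _ _) hn))
  zero_mem' := ⟨0, fun n _ => by rw [mul_zero]; exact isIntegral_zero⟩
  one_mem' := ⟨0, fun n _ => by
    rw [mul_one]
    exact isIntegral_of_mem_adjoin
      ((Algebra.adjoin L {y}).pow_mem (Algebra.self_mem_adjoin_singleton L y) n)⟩
  algebraMap_mem' := by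
    intro c
    refine ⟨0, fun n _ => ?_⟩
    exact isIntegral_of_mem_adjoin
      ((Algebra.adjoin L {y}).mul_mem
        ((Algebra.adjoin L {y}).pow_mem (Algebra.self_mem_adjoin_singleton L y) n)
        ((Algebra.adjoin L {y}).algebraMap_mem c))

/-- **Clearing lemma.**  If `a` is integral over `L[y⁻¹]`, then `y ^ n * a` is integral over
`L[y]` for all large `n`. -/
theorem exists_isIntegral_pow_mul {y : F} (hy : y ≠ 0) {a : F}
    (ha : IsIntegral (Algebra.adjoin L {y⁻¹}) a) :
    ∃ E : ℕ, ∀ n, E ≤ n → IsIntegral (Algebra.adjoin L {y}) (y ^ n * a) := by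
  classical
  have hle : Algebra.adjoin L {y⁻¹} ≤ clearSub L y := by
    refine Algebra.adjoin_le ?_
    intro z hz
    rw [Set.mem_singleton_iff] at hz
    subst hz
    refine ⟨1, fun n hn => ?_⟩
    have e : y ^ n * y⁻¹ = y ^ (n - 1) := by
      obtain ⟨m, rfl⟩ : ∃ m, n = m + 1 := ⟨n - 1, by omega⟩
      rw [pow_succ, mul_assoc, mul_inv_cancel₀ hy, mul_one, Nat.add_sub_cancel]
    rw [e]
    exact isIntegral_of_mem_adjoin
      ((Algebra.adjoin L {y}).pow_mem (Algebra.self_mem_adjoin_singleton L y) _)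
  obtain ⟨f, hf, hfa⟩ := ha
  have hc : ∀ i, ∃ E : ℕ, ∀ n, E ≤ n →
      IsIntegral (Algebra.adjoin L {y}) (y ^ n * ((f.coeff i : ↥(Algebra.adjoin L {y⁻¹})) : F)) :=
    fun i => hle (f.coeff i).2
  choose E hE using hc
  refine ⟨(Finset.range f.natDegree).sup E, fun n hn => ?_⟩
  set fF : F[X] := f.map (algebraMap ↥(Algebra.adjoin L {y⁻¹}) F) with hfF
  have hfFm : fF.Monic := hf.map _
  have hdeg : fF.natDegree = f.natDegree := hf.natDegree_map _
  have hroot : eval₂ (RingHom.id F) a fF = 0 := by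
    rw [hfF, eval₂_map, RingHom.id_comp]
    exact hfa
  have hqm : (scaleRoots fF (y ^ n)).Monic := (monic_scaleRoots_iff _).2 hfFm
  have hqroot : eval₂ (RingHom.id F) (y ^ n * a) (scaleRoots fF (y ^ n)) = 0 :=
    scaleRoots_eval₂_eq_zero (RingHom.id F) hroot
  have hcoef : ∀ i, (scaleRoots fF (y ^ n)).coeff i ∈
      Set.range (algebraMap ↥(integralClosure ↥(Algebra.adjoin L {y}) F) F) := by
    intro i
    rw [coeff_scaleRoots, hdeg]
    rcases lt_trichotomy i f.natDegree with hi | hi | hi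
    · have h1 : E i ≤ n * (f.natDegree - i) :=
        le_trans (Finset.le_sup (Finset.mem_range.2 hi))
          (le_trans hn (Nat.le_mul_of_pos_right _ (by omega)))
      have h2 := hE i _ h1
      refine ⟨⟨_, h2⟩, ?_⟩
      show y ^ (n * (f.natDegree - i)) * ((f.coeff i : ↥(Algebra.adjoin L {y⁻¹})) : F) = _
      rw [hfF, coeff_map, ← pow_mul, mul_comm]
      rfl
    · subst hi
      refine ⟨1, ?_⟩
      rw [map_one, ← hdeg, hfFm.coeff_natDegree, Nat.sub_self, pow_zero, mul_one]
    · refine ⟨0, ?_⟩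
      rw [map_zero, coeff_eq_zero_of_natDegree_lt (by rw [hdeg]; exact hi), zero_mul]
  obtain ⟨q', hq'map, -, hq'm⟩ :=
    lifts_and_natDegree_eq_and_monic ((lifts_iff_coeff_lifts _).2 hcoef) hqm
  have h1 : IsIntegral ↥(integralClosure ↥(Algebra.adjoin L {y}) F) (y ^ n * a) := by
    refine ⟨q', hq'm, ?_⟩
    rw [eval₂_eq_eval_map, hq'map, ← eval₂_id]
    exact hqroot
  exact isIntegral_trans (R := ↥(Algebra.adjoin L {y}))
    (A := ↥(integralClosure ↥(Algebra.adjoin L {y}) F)) _ h1

end Clear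

section Places

variable {K F : Type*} [Field K] [Field F] [Algebra K F]

/-- Membership in the valuation ring of a place from a vanishing order. -/
theorem mem_of_ord_eq_zero (P : Place K F) {f : F} (hf : P.ord f = 0) :
    f ∈ P.toValuationSubring := (mem_iff_ord_nonneg P).2 hf.ge

/-- The inverse of a function without zero at `P` is regular at `P`. -/
theorem inv_mem_of_ord_nonpos (P : Place K F) {f : F} (hf : P.ord f ≤ 0) :
    f⁻¹ ∈ P.toValuationSubring := by
  rw [mem_iff_ord_nonneg, P.ord_inv]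
  omega

end Places

section Lift

variable {L : Type*} [Field L] [Algebra ℚ L] {A : ValuationSubring L} {k : Type} [Field k]
  {π : A →+* k} {N : ℕ} [NeZero N]

set_option maxHeartbeats 1600000 in
/-- **The cusp chart of `BJ` from the two charts of `By`** (`BJ.x * By.x ^ e = p(By.x)`): the
literal conclusion of `Lift.lift_frac_inf BJ`, from `Lift.T3 By` and `Lift.T3' By`. -/
theorem lift_frac_inf_of_rel [IsAlgClosed k] (hπ : ∀ a : A, ¬ IsUnit a → π a = 0)
    (hsurj : Function.Surjective π) (hNk : (N : k) ≠ 0) (BJ By : BaseFn.Data A π N)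
    (p : A[X]) (hp : p.Monic) (hd : 1 ≤ p.natDegree) (hp0 : π (p.coeff 0) ≠ 0) (e : ℕ)
    (hrel : BJ.x * By.x ^ e = aeval By.x (p.map A.subtype))
    (h3 : Lift.T3 By hπ hNk) (h3' : Lift.T3' By hπ hNk)
    (Q : Place k ↥(modularFunctionFieldFullC k N)) (hQ : Q.ord (BJ.xt hπ hNk) ≤ 0)
    {c : ↥(modularFunctionFieldFullC k N)} (hc : 0 ≤ Q.ord c) :
    ∃ a b : Ow A π N hNk,
      (a : ↥(laurentBaseChange L (modularFunctionFieldFull N))) ∈ Lift.Binf BJ hNk ∧
      (b : ↥(laurentBaseChange L (modularFunctionFieldFull N))) ∈ Lift.Binf BJ hNk ∧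
      Q.ord (redF A π N hπ hNk b) = 0 ∧ redF A π N hπ hNk b ≠ 0 ∧
      redF A π N hπ hNk a = c * redF A π N hπ hNk b := by
  classical
  have hfin : FiniteDimensional ↥(L⟮By.x⟯) ↥(laurentBaseChange L (modularFunctionFieldFull N)) :=
    By.finite_L hπ hsurj hNk
  -- notation
  set y : ↥(laurentBaseChange L (modularFunctionFieldFull N)) := By.x with hy
  set J : ↥(laurentBaseChange L (modularFunctionFieldFull N)) := BJ.x with hJ
  set yb : ↥(modularFunctionFieldFullC k N) := By.xt hπ hNk with hyb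
  set Jb : ↥(modularFunctionFieldFullC k N) := BJ.xt hπ hNk with hJb
  set d : ℕ := p.natDegree with hdd
  set pL : L[X] := p.map A.subtype with hpL
  set pk : k[X] := p.map π with hpk
  set Py : ↥(laurentBaseChange L (modularFunctionFieldFull N)) := aeval y pL with hPy
  set Pb : ↥(modularFunctionFieldFullC k N) := aeval yb pk with hPb
  -- basic nonvanishing
  have hy0 : y ≠ 0 := By.x_ne_zero hπ hNk
  have hJ0 : J ≠ 0 := BJ.x_ne_zero hπ hNk
  have hyb0 : yb ≠ 0 := by
    intro h0
    apply By.transcendental_xt hπ hNk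
    show IsAlgebraic k yb
    rw [h0]
    exact isAlgebraic_zero
  have hJb0 : Jb ≠ 0 := by
    intro h0
    apply BJ.transcendental_xt hπ hNk
    show IsAlgebraic k Jb
    rw [h0]
    exact isAlgebraic_zero
  have hpLm : pL.Monic := hp.map _
  have hpkm : pk.Monic := hp.map _
  have hpL0 : pL ≠ 0 := hpLm.ne_zero
  have hpk0 : pk ≠ 0 := hpkm.ne_zero
  have hdL : pL.natDegree = d := hp.natDegree_map _
  have hdk : pk.natDegree = d := hp.natDegree_map _
  have hcL : pL.coeff 0 ≠ 0 := by
    rw [hpL, coeff_map]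
    intro h0
    apply hp0
    have : p.coeff 0 = 0 := Subtype.ext h0
    rw [this, map_zero]
  have hck : pk.coeff 0 ≠ 0 := by
    rw [hpk, coeff_map]
    exact hp0
  have hPy0 : Py ≠ 0 := fun h0 =>
    hpL0 ((transcendental_iff.mp (By.transcendental_x hπ hNk)) pL h0)
  have hPb0 : Pb ≠ 0 := fun h0 =>
    hpk0 ((transcendental_iff.mp (By.transcendental_xt hπ hNk)) pk h0)
  -- the elements of `Ow`
  set yO : Ow A π N hNk := ⟨y, By.x_mem_Ow hNk⟩ with hyO
  set PO : Ow A π N hNk := ⟨Py, By.aeval_map_mem_Ow hNk p⟩ with hPO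
  have hU : IsUnit PO := By.isUnit_aeval_map hπ hNk p hpk0
  set w : Ow A π N hNk := ((hU.unit⁻¹ : (Ow A π N hNk)ˣ) : Ow A π N hNk) with hw
  have hwP : w * PO = 1 := by
    rw [hw]
    exact hU.val_inv_mul
  have hwc : (w : ↥(laurentBaseChange L (modularFunctionFieldFull N))) = Py⁻¹ := by
    have h1 : (w : ↥(laurentBaseChange L (modularFunctionFieldFull N))) * Py = 1 :=
      congrArg Subtype.val hwP
    exact eq_inv_of_mul_eq_one_left h1
  have hredy : redF A π N hπ hNk yO = yb := By.redF_x hπ hNk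
  have hredP : redF A π N hπ hNk PO = Pb := By.redF_aeval_map hπ hNk p
  have hredw : redF A π N hπ hNk w = Pb⁻¹ := by
    have h1 : redF A π N hπ hNk w * Pb = 1 := by
      rw [← hredP, ← map_mul, hwP, map_one]
    exact eq_inv_of_mul_eq_one_left h1
  -- the reduced relation
  have hrelk : Jb * yb ^ e = Pb := by
    have h1 : (⟨J, BJ.x_mem_Ow hNk⟩ : Ow A π N hNk) * yO ^ e = PO := Subtype.ext hrel
    have h2 := congrArg (redF A π N hπ hNk) h1
    rw [map_mul, map_pow, hredy, hredP] at h2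
    exact h2
  -- orders of `p(y)` on the generic fibre
  have ordPy : ∀ P : Place L ↥(laurentBaseChange L (modularFunctionFieldFull N)),
      P.ord Py = P.ord J + (e : ℤ) * P.ord y := by
    intro P
    rw [← hrel, P.ord_mul hJ0 (pow_ne_zero e hy0), CuspX.ord_pow_nat]
  have ordPy_pos : ∀ P : Place L ↥(laurentBaseChange L (modularFunctionFieldFull N)),
      0 < P.ord y → P.ord Py = 0 := fun P h => (CuspX.ord_aeval_of_pos P h pL hcL).2
  have ordPy_neg : ∀ P : Place L ↥(laurentBaseChange L (modularFunctionFieldFull N)),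
      P.ord y < 0 → P.ord Py = (d : ℤ) * P.ord y := by
    intro P h
    rw [(CuspX.ord_aeval_of_neg P h pL hpL0).2, hdL]
  -- orders of `p̄(ȳ)` on the special fibre
  have ordPb : Q.ord Pb = Q.ord Jb + (e : ℤ) * Q.ord yb := by
    rw [← hrelk, Q.ord_mul hJb0 (pow_ne_zero e hyb0), CuspX.ord_pow_nat]
  have hd1 : (1 : ℤ) ≤ d := by exact_mod_cast hd
  rcases le_or_gt (Q.ord yb) 0 with hQy | hQy
  · -- `ȳ(Q) ≠ 0`: the chart `y ≠ 0`, multiplier `(y ^ d / p(y)) ^ n`
    obtain ⟨a₁, b₁, ha₁, hb₁, hQb, hb0, hab⟩ := Lift.lift_frac_inf By hπ hsurj hNk h3' Q hQy hc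
    have ha₁' := (Lift.mem_Binf_iff_isIntegral By hπ hsurj hNk).1 ha₁
    have hb₁' := (Lift.mem_Binf_iff_isIntegral By hπ hsurj hNk).1 hb₁
    obtain ⟨Ea, hEa⟩ := exists_isIntegral_pow_mul (L := L) hy0 ha₁'.2
    obtain ⟨Eb, hEb⟩ := exists_isIntegral_pow_mul (L := L) hy0 hb₁'.2
    set n : ℕ := max Ea Eb with hn
    set uO : Ow A π N hNk := yO ^ d * w with huO
    have huc : (uO : ↥(laurentBaseChange L (modularFunctionFieldFull N))) = y ^ d * Py⁻¹ := by
      rw [huO]
      show y ^ d * (w : ↥(laurentBaseChange L (modularFunctionFieldFull N))) = _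
      rw [hwc]
    -- membership in `Binf BJ`
    have key : ∀ z : Ow A π N hNk,
        (z : ↥(laurentBaseChange L (modularFunctionFieldFull N))) ∈ Lift.Binf By hNk →
        IsIntegral ↥(Algebra.adjoin L {y})
          (y ^ n * (z : ↥(laurentBaseChange L (modularFunctionFieldFull N)))) →
        ((z * uO ^ n : Ow A π N hNk) : ↥(laurentBaseChange L (modularFunctionFieldFull N))) ∈
          Lift.Binf BJ hNk := by
      intro z hz hint
      refine ⟨(z * uO ^ n).2, fun P hP => ?_⟩
      rw [← mem_iff_ord_nonneg]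
      have ecoe : ((z * uO ^ n : Ow A π N hNk) :
          ↥(laurentBaseChange L (modularFunctionFieldFull N))) =
          (z : ↥(laurentBaseChange L (modularFunctionFieldFull N))) * (y ^ d * Py⁻¹) ^ n := by
        show (z : ↥(laurentBaseChange L (modularFunctionFieldFull N))) *
          (uO : ↥(laurentBaseChange L (modularFunctionFieldFull N))) ^ n = _
        rw [huc]
      rw [ecoe]
      rcases lt_or_ge (P.ord y) 0 with hneg | hnn
      · -- a pole of `y`: `y ^ d / p(y)` is a unit
        have h1 : P.ord (y ^ d * Py⁻¹) = 0 := by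
          rw [P.ord_mul (pow_ne_zero d hy0) (inv_ne_zero hPy0), CuspX.ord_pow_nat, P.ord_inv,
            ordPy_neg P hneg]
          ring
        exact mul_mem ((mem_iff_ord_nonneg P).2 (hz.2 P hneg.le))
          (pow_mem (mem_of_ord_eq_zero P h1) n)
      · -- `y` regular: use the cleared function `y ^ n * z`
        have h1 : y ^ n * (z : ↥(laurentBaseChange L (modularFunctionFieldFull N))) ∈
            P.toValuationSubring :=
          (mem_iff_ord_nonneg P).2 ((Holo.isIntegral_adjoin_iff y _).1 hint P hnn)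
        have h2 : y ∈ P.toValuationSubring := (mem_iff_ord_nonneg P).2 hnn
        have h3 : Py⁻¹ ∈ P.toValuationSubring := by
          apply inv_mem_of_ord_nonpos
          rcases hnn.lt_or_eq with hpos | hzero
          · exact (ordPy_pos P hpos).le
          · rw [ordPy P, ← hzero, mul_zero, add_zero]
            exact hP
        have e2 : (z : ↥(laurentBaseChange L (modularFunctionFieldFull N))) *
            (y ^ d * Py⁻¹) ^ n = (y ^ n * z) * ((y ^ (d - 1)) ^ n * Py⁻¹ ^ n) := by
          have : y ^ d = y * y ^ (d - 1) := by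
            rw [← pow_succ', Nat.sub_add_cancel hd]
          rw [this]
          ring
        rw [e2]
        exact mul_mem h1 (mul_mem (pow_mem (pow_mem h2 _) n) (pow_mem h3 n))
    have hintA : IsIntegral ↥(Algebra.adjoin L {y})
        (y ^ n * (a₁ : ↥(laurentBaseChange L (modularFunctionFieldFull N)))) :=
      hEa n (le_max_left _ _)
    have hintB : IsIntegral ↥(Algebra.adjoin L {y})
        (y ^ n * (b₁ : ↥(laurentBaseChange L (modularFunctionFieldFull N)))) :=
      hEb n (le_max_right _ _)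
    -- the reduction of the multiplier is a unit at `Q`
    set ub : ↥(modularFunctionFieldFullC k N) := yb ^ d * Pb⁻¹ with hub
    have hredu : redF A π N hπ hNk uO = ub := by
      rw [huO, map_mul, map_pow, hredy, hredw]
    have hub0 : ub ≠ 0 := mul_ne_zero (pow_ne_zero d hyb0) (inv_ne_zero hPb0)
    have hQu : Q.ord ub = 0 := by
      rw [hub, Q.ord_mul (pow_ne_zero d hyb0) (inv_ne_zero hPb0), CuspX.ord_pow_nat, Q.ord_inv]
      rcases hQy.lt_or_eq with hneg | hzero
      · rw [(CuspX.ord_aeval_of_neg Q hneg pk hpk0).2, hdk]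
        ring
      · have h1 : 0 ≤ Q.ord Pb := CuspX.ord_aeval_nonneg Q hzero.ge pk
        have h2 : Q.ord Pb ≤ 0 := by
          rw [ordPb, hzero, mul_zero, add_zero]
          exact hQ
        rw [hzero, mul_zero]
        omega
    have hQun : Q.ord (ub ^ n) = 0 := by
      rw [CuspX.ord_pow_nat, hQu, mul_zero]
    refine ⟨a₁ * uO ^ n, b₁ * uO ^ n, key a₁ ha₁ hintA, key b₁ hb₁ hintB, ?_, ?_, ?_⟩
    · rw [map_mul, map_pow, hredu, Q.ord_mul hb0 (pow_ne_zero n hub0), hQb, hQun, add_zero]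
    · rw [map_mul, map_pow, hredu]
      exact mul_ne_zero hb0 (pow_ne_zero n hub0)
    · rw [map_mul, map_pow, hredu, map_mul, map_pow, hredu, hab, mul_assoc]
  · -- `ȳ(Q) = 0`: the chart `y ≠ ∞`, multiplier `p(y) ^ (-n)`
    obtain ⟨a₁, b₁, ha₁, hb₁, hQb, hb0, hab⟩ := Lift.lift_frac By hπ hsurj hNk h3 Q hQy.le hc
    have ha₁' := (By.isIntegral_AX_iff hπ hsurj hNk).1 ha₁
    have hb₁' := (By.isIntegral_AX_iff hπ hsurj hNk).1 hb₁
    have hyi0 : y⁻¹ ≠ 0 := inv_ne_zero hy0
    have hai : IsIntegral ↥(Algebra.adjoin L {(y⁻¹)⁻¹})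
        (a₁ : ↥(laurentBaseChange L (modularFunctionFieldFull N))) := by
      rw [inv_inv]
      exact ha₁'.2
    have hbi : IsIntegral ↥(Algebra.adjoin L {(y⁻¹)⁻¹})
        (b₁ : ↥(laurentBaseChange L (modularFunctionFieldFull N))) := by
      rw [inv_inv]
      exact hb₁'.2
    obtain ⟨Ea, hEa⟩ := exists_isIntegral_pow_mul (L := L) hyi0 hai
    obtain ⟨Eb, hEb⟩ := exists_isIntegral_pow_mul (L := L) hyi0 hbi
    set n : ℕ := max Ea Eb with hn
    have key : ∀ z : Ow A π N hNk,
        IsIntegral ↥(Algebra.adjoin L {y})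
          (z : ↥(laurentBaseChange L (modularFunctionFieldFull N))) →
        IsIntegral ↥(Algebra.adjoin L {y⁻¹})
          (y⁻¹ ^ n * (z : ↥(laurentBaseChange L (modularFunctionFieldFull N)))) →
        ((z * w ^ n : Ow A π N hNk) : ↥(laurentBaseChange L (modularFunctionFieldFull N))) ∈
          Lift.Binf BJ hNk := by
      intro z hz hint
      refine ⟨(z * w ^ n).2, fun P hP => ?_⟩
      rw [← mem_iff_ord_nonneg]
      have ecoe : ((z * w ^ n : Ow A π N hNk) :
          ↥(laurentBaseChange L (modularFunctionFieldFull N))) =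
          (z : ↥(laurentBaseChange L (modularFunctionFieldFull N))) * Py⁻¹ ^ n := by
        show (z : ↥(laurentBaseChange L (modularFunctionFieldFull N))) *
          (w : ↥(laurentBaseChange L (modularFunctionFieldFull N))) ^ n = _
        rw [hwc]
      rw [ecoe]
      rcases lt_or_ge 0 (P.ord y) with hpos | hnp
      · -- a zero of `y`: `p(y)` is a unit, `z` is regular
        have h1 : (z : ↥(laurentBaseChange L (modularFunctionFieldFull N))) ∈
            P.toValuationSubring :=
          (mem_iff_ord_nonneg P).2 ((Holo.isIntegral_adjoin_iff y _).1 hz P hpos.le)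
        exact mul_mem h1 (pow_mem (inv_mem_of_ord_nonpos P (ordPy_pos P hpos).le) n)
      · -- `y ≠ 0`: use the cleared function `y⁻¹ ^ n * z`
        have h1 : y⁻¹ ^ n * (z : ↥(laurentBaseChange L (modularFunctionFieldFull N))) ∈
            P.toValuationSubring :=
          (mem_iff_ord_nonneg P).2 ((Holo.isIntegral_adjoin_inv_iff y _).1 hint P hnp)
        have h2 : y * Py⁻¹ ∈ P.toValuationSubring := by
          rw [mem_iff_ord_nonneg, P.ord_mul hy0 (inv_ne_zero hPy0), P.ord_inv]
          rcases hnp.lt_or_eq with hneg | hzero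
          · rw [ordPy_neg P hneg]
            nlinarith
          · have hP' : P.ord J ≤ 0 := hP
            rw [ordPy P, hzero, mul_zero, add_zero]
            omega
        have e2 : (z : ↥(laurentBaseChange L (modularFunctionFieldFull N))) * Py⁻¹ ^ n =
            (y⁻¹ ^ n * z) * (y * Py⁻¹) ^ n := by
          have h : y⁻¹ ^ n * y ^ n = 1 := by
            rw [← mul_pow, inv_mul_cancel₀ hy0, one_pow]
          calc (z : ↥(laurentBaseChange L (modularFunctionFieldFull N))) * Py⁻¹ ^ n
              = (y⁻¹ ^ n * y ^ n) * (z * Py⁻¹ ^ n) := by rw [h, one_mul]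
            _ = (y⁻¹ ^ n * z) * (y * Py⁻¹) ^ n := by
                rw [mul_pow]
                ring
        rw [e2]
        exact mul_mem h1 (pow_mem h2 n)
    have hintA : IsIntegral ↥(Algebra.adjoin L {y⁻¹})
        (y⁻¹ ^ n * (a₁ : ↥(laurentBaseChange L (modularFunctionFieldFull N)))) :=
      hEa n (le_max_left _ _)
    have hintB : IsIntegral ↥(Algebra.adjoin L {y⁻¹})
        (y⁻¹ ^ n * (b₁ : ↥(laurentBaseChange L (modularFunctionFieldFull N)))) :=
      hEb n (le_max_right _ _)
    have hQP : Q.ord Pb = 0 := (CuspX.ord_aeval_of_pos Q hQy pk hck).2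
    have hQw : Q.ord (Pb⁻¹ ^ n) = 0 := by
      rw [CuspX.ord_pow_nat, Q.ord_inv, hQP, neg_zero, mul_zero]
    have hw0 : Pb⁻¹ ^ n ≠ 0 := pow_ne_zero n (inv_ne_zero hPb0)
    refine ⟨a₁ * w ^ n, b₁ * w ^ n, key a₁ ha₁'.2 hintA, key b₁ hb₁'.2 hintB, ?_, ?_, ?_⟩
    · rw [map_mul, map_pow, hredw, Q.ord_mul hb0 hw0, hQb, hQw, add_zero]
    · rw [map_mul, map_pow, hredw]
      exact mul_ne_zero hb0 hw0
    · rw [map_mul, map_pow, hredw, map_mul, map_pow, hredw, hab, mul_assoc]

end Lift

section Inst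

variable {L : Type*} [Field L] [Algebra ℚ L] {A : ValuationSubring L} {k : Type} [Field k]
  {π : A →+* k}

set_option synthInstance.maxHeartbeats 400000 in
/-- **Level `N = m · 2`, residue characteristic `≠ 2`** (used at `q = 3`): the cusp chart of
`J = J(q^N)` from the two charts of the Hauptmodul `y₂(q^m)`, `J y² = (y + 256)³`. -/
theorem lift_frac_inf_haupt2 [IsAlgClosed k] (hπ : ∀ a : A, ¬ IsUnit a → π a = 0)
    (hsurj : Function.Surjective π) (N m : ℕ) [NeZero N] [NeZero m] (hN : N = m * 2)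
    (h2 : (2 : k) ≠ 0) (hNk : (N : k) ≠ 0)
    (h3 : Lift.T3 (BaseFn.ofHaupt2 A π N m hN h2) hπ hNk)
    (h3' : Lift.T3' (BaseFn.ofHaupt2 A π N m hN h2) hπ hNk)
    (Q : Place k ↥(modularFunctionFieldFullC k N))
    (hQ : Q.ord ((BaseFn.Data.ofJ A π N).xt hπ hNk) ≤ 0)
    {c : ↥(modularFunctionFieldFullC k N)} (hc : 0 ≤ Q.ord c) :
    ∃ a b : Ow A π N hNk,
      (a : ↥(laurentBaseChange L (modularFunctionFieldFull N))) ∈
        Lift.Binf (BaseFn.Data.ofJ A π N) hNk ∧
      (b : ↥(laurentBaseChange L (modularFunctionFieldFull N))) ∈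
        Lift.Binf (BaseFn.Data.ofJ A π N) hNk ∧
      Q.ord (redF A π N hπ hNk b) = 0 ∧ redF A π N hπ hNk b ≠ 0 ∧
      redF A π N hπ hNk a = c * redF A π N hπ hNk b := by
  refine lift_frac_inf_of_rel hπ hsurj hNk (BaseFn.Data.ofJ A π N)
    (BaseFn.ofHaupt2 A π N m hN h2) ((Polynomial.X + Polynomial.C (256 : A)) ^ 3) ((monic_X_add_C _).pow 3) ?_ ?_ 2 ?_
    h3 h3' Q hQ hc
  · rw [(monic_X_add_C (256 : A)).natDegree_pow, natDegree_X_add_C]
    norm_num
  · rw [coeff_zero_eq_eval_zero, eval_pow, eval_add, eval_X, eval_C, zero_add, map_pow]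
    have e : π (256 : A) = (2 : k) ^ 8 := by
      rw [map_ofNat]
      norm_num
    rw [e]
    exact pow_ne_zero _ (pow_ne_zero _ h2)
  · rw [BaseFn.Data.ofJ_x, BaseFn.ofHaupt2_rel (A := A) (π := π) N m hN h2]
    simp only [Polynomial.map_pow, Polynomial.map_add, Polynomial.map_X, Polynomial.map_ofNat,
      map_pow, map_add, aeval_X, map_ofNat]

set_option synthInstance.maxHeartbeats 400000 in
/-- **Level `N = m · 3`, residue characteristic `≠ 3`** (used at `q = 2`): the cusp chart of
`J = J(q^N)` from the two charts of the Hauptmodul `t₃(q^m)`, `J y³ = (y + 27)(y + 243)³`. -/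
theorem lift_frac_inf_haupt3 [IsAlgClosed k] (hπ : ∀ a : A, ¬ IsUnit a → π a = 0)
    (hsurj : Function.Surjective π) (N m : ℕ) [NeZero N] [NeZero m] (hN : N = m * 3)
    (h3k : (3 : k) ≠ 0) (hNk : (N : k) ≠ 0)
    (h3 : Lift.T3 (BaseFn.ofHaupt3 A π N m hN h3k) hπ hNk)
    (h3' : Lift.T3' (BaseFn.ofHaupt3 A π N m hN h3k) hπ hNk)
    (Q : Place k ↥(modularFunctionFieldFullC k N))
    (hQ : Q.ord ((BaseFn.Data.ofJ A π N).xt hπ hNk) ≤ 0)
    {c : ↥(modularFunctionFieldFullC k N)} (hc : 0 ≤ Q.ord c) :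
    ∃ a b : Ow A π N hNk,
      (a : ↥(laurentBaseChange L (modularFunctionFieldFull N))) ∈
        Lift.Binf (BaseFn.Data.ofJ A π N) hNk ∧
      (b : ↥(laurentBaseChange L (modularFunctionFieldFull N))) ∈
        Lift.Binf (BaseFn.Data.ofJ A π N) hNk ∧
      Q.ord (redF A π N hπ hNk b) = 0 ∧ redF A π N hπ hNk b ≠ 0 ∧
      redF A π N hπ hNk a = c * redF A π N hπ hNk b := by
  have hm : ((Polynomial.X + Polynomial.C (27 : A)) * (Polynomial.X + Polynomial.C (243 : A)) ^ 3).Monic :=
    (monic_X_add_C _).mul ((monic_X_add_C _).pow 3)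
  refine lift_frac_inf_of_rel hπ hsurj hNk (BaseFn.Data.ofJ A π N)
    (BaseFn.ofHaupt3 A π N m hN h3k) ((Polynomial.X + Polynomial.C (27 : A)) * (Polynomial.X + Polynomial.C (243 : A)) ^ 3) hm ?_ ?_ 3 ?_
    h3 h3' Q hQ hc
  · rw [(monic_X_add_C (27 : A)).natDegree_mul ((monic_X_add_C (243 : A)).pow 3),
      (monic_X_add_C (243 : A)).natDegree_pow, natDegree_X_add_C, natDegree_X_add_C]
    norm_num
  · rw [coeff_zero_eq_eval_zero, eval_mul, eval_pow, eval_add, eval_add, eval_X, eval_C, eval_C,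
      zero_add, zero_add, map_mul, map_pow]
    have e1 : π (27 : A) = (3 : k) ^ 3 := by
      rw [map_ofNat]
      norm_num
    have e2 : π (243 : A) = (3 : k) ^ 5 := by
      rw [map_ofNat]
      norm_num
    rw [e1, e2]
    exact mul_ne_zero (pow_ne_zero _ h3k) (pow_ne_zero _ (pow_ne_zero _ h3k))
  · rw [BaseFn.Data.ofJ_x, BaseFn.ofHaupt3_rel (A := A) (π := π) N m hN h3k]
    simp only [Polynomial.map_mul, Polynomial.map_pow, Polynomial.map_add, Polynomial.map_X,
      Polynomial.map_ofNat, map_mul, map_pow, map_add, aeval_X, map_ofNat]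

end Inst

end Fermat.Agent.CAR.Inst.LiftJ23Inf
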