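import Mathlib
import Fermat.Agent.CAR.Lift
import Fermat.Agent.CAR.Inst.LiftJ23

/-!
# CAR / B2 (helper29): the LITERAL `Lift.T3'` for the `J`-chart from `T3 ∧ T3'` of a Hauptmodul

Generic `(L, A, π, k)`, level `N`, two base functions `BJ By : BaseFn.Data A π N` related by

  `J · y^a = (y + c₁)(y + c₂)^a`,  `c₁, c₂` units of `A`, `a ≥ 1`   (`D : RelData BJ By`)

(level 2: `a = 2`, `c₁ = c₂ = 256`; level 3: `a = 3`, `c₁ = 27`, `c₂ = 243`).

* `T3'_of_rel D hπ hsurj hNk (hT : Lift.T3 By hπ hNk) (hT' : Lift.T3' By hπ hNk) :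
  Lift.T3' BJ hπ hNk` — every function of the special fibre regular where `J̄ ≠ 0` lifts to a
  Gauss-integral function regular where `J ≠ 0`.  No algebraic closedness, no finiteness of zeros.
* instances `rel2`, `rel3 : RelData (Data.ofJ A π M) (ofHaupt2/3 …)` and
  `T3'_ofJ_of_haupt2`, `T3'_ofJ_of_haupt3`.

Proof.  `w = 1/P(y)`, `u = y^(a+1)/P(y)` (`P = (X + c₁)(X + c₂)^a`) lie in
`R = Lift.Binf BJ` (`= B'_∞` of the `J`-chart) and are coprime there (`RelData.isCoprime_U_W`).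
For `s` regular where `J̄ ≠ 0`: `s · P̄(ȳ)^N` is regular where `ȳ ≠ ∞` and
`s · (P̄(ȳ)/ȳ^(a+1))^N` is regular where `ȳ ≠ 0` (`exists_pow_mul_regular_fin/_inf`: clearing
denominators in an integral equation, `exists_pow_mul_isIntegral`); lift them by `T3`, `T3'` of
`By` to `g₁`, `g₂`; the pole orders of `g₁` at `y = ∞` and of `g₂` at `y = 0` are bounded
(`exists_pow_mul_regular_of_fin/_of_inf`, the same lemma), so `G₁ = g₁ w^(N+n₁)`,
`G₂ = g₂ u^(N+n₂)` lie in `R` and reduce to `s · w̄^n₁`, `s · ū^n₂`; finally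
`α u^n₂ + β w^n₁ = 1` in `R` and `α G₂ + β G₁` reduces to `s`.
-/

set_option autoImplicit false
set_option linter.unusedSectionVars false

noncomputable section

namespace Fermat.Agent.CAR.Inst.LiftT3Rel

open HahnSeries ModularCurve AlgebraicCurve Fermat.Agent.S28 IntermediateField
  Fermat.Agent.Lib.FF Fermat.Agent.Lib.Red Fermat.Agent.Lib.Red.BaseFn Fermat.Agent.S24

/-! ### Algebra: clearing a denominator in an integral equation -/

section Algebra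

variable {K F : Type*} [Field K] [Field F] [Algebra K F]

/-- Elements of `S₀[f⁻¹]` have denominators `f ^ m`. -/
theorem exists_pow_mul_mem (S₀ : Subalgebra K F) {f : F} (hf : f ∈ S₀) (hf0 : f ≠ 0) {c : F}
    (hc : c ∈ Algebra.adjoin K ((S₀ : Set F) ∪ {f⁻¹})) : ∃ m : ℕ, c * f ^ m ∈ S₀ := by
  induction hc using Algebra.adjoin_induction with
  | mem x hx =>
    rcases hx with hx | hx
    · exact ⟨0, by rw [pow_zero, mul_one]; exact hx⟩
    · rw [Set.mem_singleton_iff] at hx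
      exact ⟨1, by rw [hx, pow_one, inv_mul_cancel₀ hf0]; exact one_mem _⟩
  | algebraMap r => exact ⟨0, by rw [pow_zero, mul_one]; exact S₀.algebraMap_mem r⟩
  | add x y _ _ hx hy =>
    obtain ⟨m, hm⟩ := hx
    obtain ⟨n, hn⟩ := hy
    refine ⟨m + n, ?_⟩
    have e : (x + y) * f ^ (m + n) = x * f ^ m * f ^ n + y * f ^ n * f ^ m := by ring
    rw [e]
    exact add_mem (mul_mem hm (pow_mem hf n)) (mul_mem hn (pow_mem hf m))
  | mul x y _ _ hx hy =>
    obtain ⟨m, hm⟩ := hx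
    obtain ⟨n, hn⟩ := hy
    refine ⟨m + n, ?_⟩
    have e : (x * y) * f ^ (m + n) = (x * f ^ m) * (y * f ^ n) := by ring
    rw [e]
    exact mul_mem hm hn

/-- **Clearing denominators.**  If `z` is integral over `S₀[f⁻¹]` (`f ∈ S₀`), then `z * f ^ N` is
integral over `S₀` for some `N`. -/
theorem exists_pow_mul_isIntegral (S₀ : Subalgebra K F) {f : F} (hf : f ∈ S₀) (hf0 : f ≠ 0)
    {z : F} (hz : IsIntegral (Algebra.adjoin K ((S₀ : Set F) ∪ {f⁻¹})) z) :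
    ∃ N : ℕ, IsIntegral S₀ (z * f ^ N) := by
  obtain ⟨p, hp, hpz⟩ := hz
  have hden : ∀ i : ℕ, ∃ m : ℕ, ((p.coeff i : Algebra.adjoin K ((S₀ : Set F) ∪ {f⁻¹})) : F) *
      f ^ m ∈ S₀ := fun i => exists_pow_mul_mem S₀ hf hf0 (p.coeff i).2
  choose m hm using hden
  set D : ℕ := ∑ i ∈ Finset.range p.natDegree, m i with hD
  have hmD : ∀ i ∈ Finset.range p.natDegree, ∀ e : ℕ, D ≤ e →
      ((p.coeff i : Algebra.adjoin K ((S₀ : Set F) ∪ {f⁻¹})) : F) * f ^ e ∈ S₀ := by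
    intro i hi e he
    have h1 : m i ≤ D := Finset.single_le_sum (f := m) (fun _ _ => Nat.zero_le _) hi
    have e' : ((p.coeff i : Algebra.adjoin K ((S₀ : Set F) ∪ {f⁻¹})) : F) * f ^ e =
        ((p.coeff i : Algebra.adjoin K ((S₀ : Set F) ∪ {f⁻¹})) : F) * f ^ m i * f ^ (e - m i) := by
      rw [mul_assoc, ← _root_.pow_add]
      congr 2
      omega
    rw [e']
    exact mul_mem (hm i) (pow_mem hf _)
  set q : Polynomial F := p.map (algebraMap (Algebra.adjoin K ((S₀ : Set F) ∪ {f⁻¹})) F) with hq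
  have hqm : q.Monic := hp.map _
  have hqd : q.natDegree = p.natDegree := hp.natDegree_map _
  have hqz : q.eval z = 0 := by
    rw [hq, Polynomial.eval_map]
    exact hpz
  have hPm : (q.scaleRoots (f ^ D)).Monic := (Polynomial.monic_scaleRoots_iff _).2 hqm
  have hroot : (q.scaleRoots (f ^ D)).eval (f ^ D * z) = 0 := by
    have h := Polynomial.scaleRoots_eval₂_eq_zero (RingHom.id F) (p := q) (r := z) (s := f ^ D)
      (by rw [Polynomial.eval₂_id]; exact hqz)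
    rw [Polynomial.eval₂_id] at h
    exact h
  have hlift : q.scaleRoots (f ^ D) ∈ Polynomial.lifts (algebraMap S₀ F) := by
    rw [Polynomial.lifts_iff_coeff_lifts]
    intro i
    rw [Polynomial.coeff_scaleRoots, hqd, hq, Polynomial.coeff_map]
    rcases lt_trichotomy i p.natDegree with hi | hi | hi
    · have h1 : D ≤ D * (p.natDegree - i) := Nat.le_mul_of_pos_right D (by omega)
      have h2 := hmD i (Finset.mem_range.2 hi) _ h1
      rw [← pow_mul]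
      exact ⟨⟨_, h2⟩, rfl⟩
    · rw [hi, hp.coeff_natDegree, Nat.sub_self, pow_zero, mul_one, map_one]
      exact ⟨1, map_one _⟩
    · rw [Polynomial.coeff_eq_zero_of_natDegree_lt hi, map_zero, zero_mul]
      exact ⟨0, map_zero _⟩
  obtain ⟨Q, hQ, -, hQm⟩ := Polynomial.lifts_and_natDegree_eq_and_monic hlift hPm
  refine ⟨D, Q, hQm, ?_⟩
  rw [← Polynomial.eval_map, hQ, mul_comm]
  exact hroot

/-- Integrality over a smaller subalgebra implies integrality over a bigger one. -/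
theorem isIntegral_mono {S₁ S₂ : Subalgebra K F} (h : S₁ ≤ S₂) {z : F} (hz : IsIntegral S₁ z) :
    IsIntegral S₂ z := by
  obtain ⟨p, hp, hpz⟩ := hz
  refine ⟨p.map (Subalgebra.inclusion h).toRingHom, hp.map _, ?_⟩
  rw [Polynomial.eval₂_map]
  exact hpz

end Algebra

/-! ### Places: where `J = (y + c₁)(y + c₂)^a / y^a` is nonzero, `y + c_i` is nonzero -/

section Places

variable {K F : Type*} [Field K] [Field F] [Algebra K F]

/-- `ord (y + c) = ord y` at a pole of `y`. -/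
theorem ord_add_const_of_neg (P : Place K F) {y : F} {c : K} (hc : c ≠ 0) (hy : P.ord y < 0) :
    P.ord (y + algebraMap K F c) = P.ord y := by
  have hy0 : y ≠ 0 := by
    rintro rfl
    simp at hy
  exact (Counting.isRawVal_ord P).map_add_of_lt hy0 ((map_ne_zero _).2 hc)
    (by rw [LiftFF.ord_algebraMap]; exact hy)

/-- `ord (y + c) = 0` at a zero of `y` (`c ≠ 0`). -/
theorem ord_add_const_of_pos (P : Place K F) {y : F} {c : K} (hc : c ≠ 0) (hy : 0 < P.ord y) :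
    P.ord (y + algebraMap K F c) = 0 :=
  LiftFF.ord_add_eq_zero P hy ((map_ne_zero _).2 hc) (LiftFF.ord_algebraMap P c)

/-- `0 ≤ ord (y + c)` where `y` is regular. -/
theorem ord_add_const_nonneg (P : Place K F) {y : F} (c : K) (hy : 0 ≤ P.ord y) :
    0 ≤ P.ord (y + algebraMap K F c) := by
  rw [← mem_iff_ord_nonneg]
  exact add_mem ((mem_iff_ord_nonneg P).2 hy) (P.algebraMap_mem' c)

/-- **(ordE)**: at a place where `J ≠ 0` (`ord J ≤ 0`), both `y + c₁` and `y + c₂` have order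
`≤ 0`, i.e. their inverses are regular. -/
theorem ord_add_const_le_zero_of_rel (P : Place K F) {J y : F} {c₁ c₂ : K} {a : ℕ} (ha : 1 ≤ a)
    (hc₁ : c₁ ≠ 0) (hc₂ : c₂ ≠ 0) (hy0 : y ≠ 0) (h1 : y + algebraMap K F c₁ ≠ 0)
    (h2 : y + algebraMap K F c₂ ≠ 0)
    (hrel : J * y ^ a = (y + algebraMap K F c₁) * (y + algebraMap K F c₂) ^ a)
    (hJ : P.ord J ≤ 0) :
    P.ord (y + algebraMap K F c₁) ≤ 0 ∧ P.ord (y + algebraMap K F c₂) ≤ 0 := by
  have hJ0 : J ≠ 0 := by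
    rintro rfl
    rw [zero_mul] at hrel
    exact mul_ne_zero h1 (pow_ne_zero a h2) hrel.symm
  have hord : P.ord J + a * P.ord y =
      P.ord (y + algebraMap K F c₁) + a * P.ord (y + algebraMap K F c₂) := by
    have h := congrArg P.ord hrel
    rwa [P.ord_mul hJ0 (pow_ne_zero a hy0), P.ord_mul h1 (pow_ne_zero a h2), LiftFF.ord_pow,
      LiftFF.ord_pow] at h
  rcases lt_trichotomy (P.ord y) 0 with hy | hy | hy
  · rw [ord_add_const_of_neg P hc₁ hy, ord_add_const_of_neg P hc₂ hy]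
    exact ⟨hy.le, hy.le⟩
  · have n1 := ord_add_const_nonneg P c₁ hy.ge
    have n2 := ord_add_const_nonneg P c₂ hy.ge
    rw [hy, mul_zero, add_zero] at hord
    have ha' : (1 : ℤ) ≤ (a : ℤ) := by exact_mod_cast ha
    have n3 : 0 ≤ (a : ℤ) * P.ord (y + algebraMap K F c₂) := mul_nonneg (by omega) n2
    have n4 : P.ord (y + algebraMap K F c₂) ≤ (a : ℤ) * P.ord (y + algebraMap K F c₂) := by
      nlinarith
    constructor <;> omega
  · rw [ord_add_const_of_pos P hc₁ hy, ord_add_const_of_pos P hc₂ hy]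
    exact ⟨le_rfl, le_rfl⟩

end Places

/-! ### Place form of the denominator lemma -/

section PlaceForm

variable {K F : Type*} [Field K] [Field F] [Algebra K F]

/-- If `z` is integral over `K[t]` and `t ∈ K[x][f⁻¹]` (`f ∈ K[x]`), then `z * f ^ n` is regular
wherever `x` is regular, for some `n`. -/
theorem exists_pow_mul_regular (x f t : F) (hf : f ∈ Algebra.adjoin K {x}) (hf0 : f ≠ 0)
    (ht : t ∈ Algebra.adjoin K ((Algebra.adjoin K {x} : Set F) ∪ {f⁻¹})) {z : F}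
    (hz : IsIntegral (Algebra.adjoin K {t}) z) :
    ∃ n : ℕ, ∀ Q : Place K F, 0 ≤ Q.ord x → 0 ≤ Q.ord (z * f ^ n) := by
  have h2 : Algebra.adjoin K {t} ≤
      Algebra.adjoin K ((Algebra.adjoin K {x} : Set F) ∪ {f⁻¹}) :=
    Algebra.adjoin_le (Set.singleton_subset_iff.2 ht)
  obtain ⟨n, hn⟩ := exists_pow_mul_isIntegral (Algebra.adjoin K {x}) hf hf0 (isIntegral_mono h2 hz)
  exact ⟨n, fun Q hQ => Holo.ord_nonneg_of_isIntegral hn Q hQ⟩

/-- Chart `y ≠ ∞`: if `s` is integral over `K[J⁻¹]` and `J y^a = (y + e₁)(y + e₂)^a`, then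
`s * ((y + e₁)(y + e₂)^a) ^ n` is regular where `y` is regular. -/
theorem exists_pow_mul_regular_fin {J y : F} {e₁ e₂ : K} {a : ℕ} (hy0 : y ≠ 0)
    (h1 : y + algebraMap K F e₁ ≠ 0) (h2 : y + algebraMap K F e₂ ≠ 0)
    (hrel : J * y ^ a = (y + algebraMap K F e₁) * (y + algebraMap K F e₂) ^ a) {s : F}
    (hs : IsIntegral (Algebra.adjoin K {J⁻¹}) s) :
    ∃ n : ℕ, ∀ Q : Place K F, 0 ≤ Q.ord y →
      0 ≤ Q.ord (s * ((y + algebraMap K F e₁) * (y + algebraMap K F e₂) ^ a) ^ n) := by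
  refine exists_pow_mul_regular (K := K) y _ J⁻¹ ?_ (mul_ne_zero h1 (pow_ne_zero a h2)) ?_ hs
  · exact mul_mem (add_mem (Algebra.self_mem_adjoin_singleton K y) (Subalgebra.algebraMap_mem _ _))
      (pow_mem (add_mem (Algebra.self_mem_adjoin_singleton K y)
        (Subalgebra.algebraMap_mem _ _)) a)
  · have e : J⁻¹ = y ^ a * ((y + algebraMap K F e₁) * (y + algebraMap K F e₂) ^ a)⁻¹ := by
      rw [← hrel, mul_inv, ← mul_assoc, mul_comm (y ^ a), mul_assoc,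
        mul_inv_cancel₀ (pow_ne_zero a hy0), mul_one]
    rw [e]
    exact mul_mem
      (Algebra.subset_adjoin (Or.inl (pow_mem (Algebra.self_mem_adjoin_singleton K y) a)))
      (Algebra.subset_adjoin (Or.inr rfl))

theorem one_add_mul_inv_mul {F : Type*} [Field F] {y : F} (d : F) (hy0 : y ≠ 0) :
    (1 + d * y⁻¹) * y = y + d := by
  field_simp

/-- Chart `y ≠ 0`: if `s` is integral over `K[J⁻¹]` and `J y^a = (y + e₁)(y + e₂)^a`, then
`s * ((1 + e₁ y⁻¹)(1 + e₂ y⁻¹)^a) ^ n` is regular where `y ≠ 0`. -/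
theorem exists_pow_mul_regular_inf {J y : F} {e₁ e₂ : K} {a : ℕ} (hy0 : y ≠ 0)
    (h1 : y + algebraMap K F e₁ ≠ 0) (h2 : y + algebraMap K F e₂ ≠ 0)
    (hrel : J * y ^ a = (y + algebraMap K F e₁) * (y + algebraMap K F e₂) ^ a) {s : F}
    (hs : IsIntegral (Algebra.adjoin K {J⁻¹}) s) :
    ∃ n : ℕ, ∀ Q : Place K F, Q.ord y ≤ 0 →
      0 ≤ Q.ord (s * ((1 + algebraMap K F e₁ * y⁻¹) * (1 + algebraMap K F e₂ * y⁻¹) ^ a) ^ n) := by
  have hf1 : 1 + algebraMap K F e₁ * y⁻¹ ≠ 0 := by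
    intro h0
    apply h1
    rw [← one_add_mul_inv_mul _ hy0, h0, zero_mul]
  have hf2 : 1 + algebraMap K F e₂ * y⁻¹ ≠ 0 := by
    intro h0
    apply h2
    rw [← one_add_mul_inv_mul _ hy0, h0, zero_mul]
  have hJ : J = (1 + algebraMap K F e₁ * y⁻¹) * (1 + algebraMap K F e₂ * y⁻¹) ^ a * y := by
    have e1 : (1 + algebraMap K F e₁ * y⁻¹) * (1 + algebraMap K F e₂ * y⁻¹) ^ a * y * y ^ a =
        (y + algebraMap K F e₁) * (y + algebraMap K F e₂) ^ a := by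
      rw [← one_add_mul_inv_mul (algebraMap K F e₁) hy0,
        ← one_add_mul_inv_mul (algebraMap K F e₂) hy0, mul_pow]
      ring
    exact mul_right_cancel₀ (pow_ne_zero a hy0) (hrel.trans e1.symm)
  obtain ⟨n, hn⟩ := exists_pow_mul_regular (K := K) y⁻¹
    ((1 + algebraMap K F e₁ * y⁻¹) * (1 + algebraMap K F e₂ * y⁻¹) ^ a) J⁻¹
    (mul_mem (add_mem (one_mem _)
        (mul_mem (Subalgebra.algebraMap_mem _ _) (Algebra.self_mem_adjoin_singleton K y⁻¹)))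
      (pow_mem (add_mem (one_mem _)
        (mul_mem (Subalgebra.algebraMap_mem _ _) (Algebra.self_mem_adjoin_singleton K y⁻¹))) a))
    (mul_ne_zero hf1 (pow_ne_zero a hf2))
    (by
      have e : J⁻¹ = y⁻¹ *
          ((1 + algebraMap K F e₁ * y⁻¹) * (1 + algebraMap K F e₂ * y⁻¹) ^ a)⁻¹ := by
        conv_lhs => rw [hJ]
        rw [mul_inv, mul_comm]
      rw [e]
      exact mul_mem
        (Algebra.subset_adjoin (Or.inl (Algebra.self_mem_adjoin_singleton K y⁻¹)))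
        (Algebra.subset_adjoin (Or.inr rfl))) hs
  exact ⟨n, fun Q hQ => hn Q (by rw [Q.ord_inv]; omega)⟩

/-- A function regular where `y ≠ ∞` has bounded poles at `y = ∞`. -/
theorem exists_pow_mul_regular_of_fin {y g : F} (hy0 : y ≠ 0)
    (hg : IsIntegral (Algebra.adjoin K {y}) g) :
    ∃ n : ℕ, ∀ P : Place K F, P.ord y ≤ 0 → 0 ≤ P.ord (g * y⁻¹ ^ n) := by
  obtain ⟨n, hn⟩ := exists_pow_mul_regular (K := K) y⁻¹ y⁻¹ y
    (Algebra.self_mem_adjoin_singleton K _) (inv_ne_zero hy0)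
    (Algebra.subset_adjoin (Or.inr (by rw [inv_inv]; rfl))) hg
  exact ⟨n, fun P hP => hn P (by rw [P.ord_inv]; omega)⟩

/-- A function regular where `y ≠ 0` has bounded poles at `y = 0`. -/
theorem exists_pow_mul_regular_of_inf {y g : F} (hy0 : y ≠ 0)
    (hg : IsIntegral (Algebra.adjoin K {y⁻¹}) g) :
    ∃ n : ℕ, ∀ P : Place K F, 0 ≤ P.ord y → 0 ≤ P.ord (g * y ^ n) :=
  exists_pow_mul_regular (K := K) y y y⁻¹ (Algebra.self_mem_adjoin_singleton K _) hy0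
    (Algebra.subset_adjoin (Or.inr rfl)) hg

end PlaceForm

/-! ### Field and ring identities -/

section Identities

theorem t_eq {F : Type*} [Field F] (y c : F) (h : y + c ≠ 0) :
    1 - c * (y + c)⁻¹ = y * (y + c)⁻¹ := by
  field_simp
  ring

theorem coprime_id {F : Type*} [Field F] (y c₁ c₂ : F) (h1 : y + c₁ ≠ 0) (h2 : y + c₂ ≠ 0) :
    (1 + (c₁ - c₂) * (y + c₂)⁻¹) * (1 - c₁ * (y + c₁)⁻¹) + c₂ * (y + c₂)⁻¹ = 1 := by
  field_simp
  ring

theorem pb_wb {F : Type*} [Field F] (y d₁ d₂ : F) (a : ℕ) (h1 : y + d₁ ≠ 0) (h2 : y + d₂ ≠ 0) :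
    ((y + d₁) * (y + d₂) ^ a) * ((y + d₁)⁻¹ * (y + d₂)⁻¹ ^ a) = 1 := by
  have e : ((y + d₁) * (y + d₂) ^ a) * ((y + d₁)⁻¹ * (y + d₂)⁻¹ ^ a) =
      ((y + d₁) * (y + d₁)⁻¹) * ((y + d₂) * (y + d₂)⁻¹) ^ a := by
    rw [mul_pow]
    ring
  rw [e, mul_inv_cancel₀ h1, mul_inv_cancel₀ h2, one_pow, one_mul]

theorem fb_ub {F : Type*} [Field F] (y d₁ d₂ : F) (a : ℕ) (hy : y ≠ 0) (h1 : y + d₁ ≠ 0)
    (h2 : y + d₂ ≠ 0) :
    ((1 + d₁ * y⁻¹) * (1 + d₂ * y⁻¹) ^ a) *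
      ((1 - d₁ * (y + d₁)⁻¹) * (1 - d₂ * (y + d₂)⁻¹) ^ a) = 1 := by
  have e1 : (1 + d₁ * y⁻¹) * (1 - d₁ * (y + d₁)⁻¹) = 1 := by
    field_simp
    ring
  have e2 : (1 + d₂ * y⁻¹) * (1 - d₂ * (y + d₂)⁻¹) = 1 := by
    field_simp
    ring
  have e : ((1 + d₁ * y⁻¹) * (1 + d₂ * y⁻¹) ^ a) *
      ((1 - d₁ * (y + d₁)⁻¹) * (1 - d₂ * (y + d₂)⁻¹) ^ a) =
      ((1 + d₁ * y⁻¹) * (1 - d₁ * (y + d₁)⁻¹)) *
        ((1 + d₂ * y⁻¹) * (1 - d₂ * (y + d₂)⁻¹)) ^ a := by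
    rw [mul_pow]
    ring
  rw [e, e1, e2, one_pow, one_mul]

theorem pow_split_inv {R : Type*} [CommRing R] (g w y yi : R) (h : yi * y = 1) (m n : ℕ) :
    g * w ^ (m + n) = (g * yi ^ n) * (y * w) ^ n * w ^ m := by
  have e1 : yi ^ n * y ^ n = 1 := by rw [← mul_pow, h, one_pow]
  rw [mul_pow, _root_.pow_add]
  linear_combination (-(g * w ^ n * w ^ m)) * e1

theorem pow_split_mul {R : Type*} [CommRing R] (g u y v : R) (h : y * v = u) (m n : ℕ) :
    g * u ^ (m + n) = (g * y ^ n) * v ^ n * u ^ m := by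
  rw [_root_.pow_add, ← h, mul_pow]
  ring

theorem red_split {R : Type*} [CommRing R] (s p w : R) (h : p * w = 1) (m n : ℕ) :
    s * p ^ m * w ^ (m + n) = s * w ^ n := by
  rw [_root_.pow_add]
  have e : s * p ^ m * (w ^ m * w ^ n) = s * (p * w) ^ m * w ^ n := by
    rw [mul_pow]
    ring
  rw [e, h, one_pow, mul_one]

end Identities

/-! ### The Gauss valuation ring: inverses and reductions -/

section Main

variable {L : Type*} [Field L] [Algebra ℚ L] {A : ValuationSubring L} {k : Type} [Field k]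
  {π : A →+* k} {N : ℕ} [NeZero N]

theorem redF_congr (hπ : ∀ a : A, ¬ IsUnit a → π a = 0) (hNk : (N : k) ≠ 0) {f g : ↥(laurentBaseChange L (modularFunctionFieldFull N))}
    (hf : f ∈ Ow A π N hNk) (hg : g ∈ Ow A π N hNk) (h : f = g) :
    redF A π N hπ hNk ⟨f, hf⟩ = redF A π N hπ hNk ⟨g, hg⟩ := by
  subst h
  rfl

/-- Elements of `Ow` with nonzero reduction are invertible in `Ow`. -/
theorem inv_mem_Ow (hπ : ∀ a : A, ¬ IsUnit a → π a = 0) (hNk : (N : k) ≠ 0) {f : ↥(laurentBaseChange L (modularFunctionFieldFull N))}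
    (hf : f ∈ Ow A π N hNk) (hne : redF A π N hπ hNk ⟨f, hf⟩ ≠ 0) : f⁻¹ ∈ Ow A π N hNk := by
  have hu : IsUnit (⟨f, hf⟩ : Ow A π N hNk) := by
    by_contra hnu
    exact hne ((redF_eq_zero_iff hπ hNk _).mpr hnu)
  obtain ⟨w, hw⟩ := hu.exists_right_inv
  have hw' : f * (w : ↥(laurentBaseChange L (modularFunctionFieldFull N))) = 1 := congrArg Subtype.val hw
  rw [← eq_inv_of_mul_eq_one_right hw']
  exact w.2

theorem redF_inv (hπ : ∀ a : A, ¬ IsUnit a → π a = 0) (hNk : (N : k) ≠ 0) {f : ↥(laurentBaseChange L (modularFunctionFieldFull N))}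
    (hf : f ∈ Ow A π N hNk) (hne : redF A π N hπ hNk ⟨f, hf⟩ ≠ 0) :
    redF A π N hπ hNk ⟨f⁻¹, inv_mem_Ow hπ hNk hf hne⟩ = (redF A π N hπ hNk ⟨f, hf⟩)⁻¹ := by
  have hf0 : f ≠ 0 := by
    rintro rfl
    apply hne
    have : (⟨0, hf⟩ : Ow A π N hNk) = 0 := rfl
    rw [this, map_zero]
  have h1 : (⟨f⁻¹, inv_mem_Ow hπ hNk hf hne⟩ : Ow A π N hNk) * ⟨f, hf⟩ = 1 :=
    Subtype.ext (inv_mul_cancel₀ hf0)
  have h2 := congrArg (redF A π N hπ hNk) h1
  rw [map_mul, map_one] at h2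
  exact eq_inv_of_mul_eq_one_left h2

theorem const_mem_Ow (hπ : ∀ a : A, ¬ IsUnit a → π a = 0) (hNk : (N : k) ≠ 0) (c : A) :
    algebraMap L ↥(laurentBaseChange L (modularFunctionFieldFull N)) (c : L) ∈ Ow A π N hNk :=
  (algebraMap_mem_Ow_iff hπ hNk (c : L)).mpr c.2

theorem add_const_mem_Ow (B : BaseFn.Data A π N) (hπ : ∀ a : A, ¬ IsUnit a → π a = 0)
    (hNk : (N : k) ≠ 0) (c : A) : B.x + algebraMap L ↥(laurentBaseChange L (modularFunctionFieldFull N)) (c : L) ∈ Ow A π N hNk :=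
  add_mem (B.x_mem_Ow hNk) (const_mem_Ow hπ hNk c)

theorem redF_add_const (B : BaseFn.Data A π N) (hπ : ∀ a : A, ¬ IsUnit a → π a = 0)
    (hNk : (N : k) ≠ 0) (c : A) :
    redF A π N hπ hNk ⟨B.x + algebraMap L ↥(laurentBaseChange L (modularFunctionFieldFull N)) (c : L), add_const_mem_Ow B hπ hNk c⟩ =
      B.xt hπ hNk + algebraMap k ↥(modularFunctionFieldFullC k N) (π c) := by
  have e : (⟨B.x + algebraMap L ↥(laurentBaseChange L (modularFunctionFieldFull N)) (c : L), add_const_mem_Ow B hπ hNk c⟩ : Ow A π N hNk) =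
      ⟨B.x, B.x_mem_Ow hNk⟩ + ⟨algebraMap L ↥(laurentBaseChange L (modularFunctionFieldFull N)) (c : L), const_mem_Ow hπ hNk c⟩ := rfl
  rw [e, map_add, B.redF_x hπ hNk, redF_algebraMap hπ hNk c]

theorem xt_add_const_ne_zero (B : BaseFn.Data A π N) (hπ : ∀ a : A, ¬ IsUnit a → π a = 0)
    (hNk : (N : k) ≠ 0) (c : k) : B.xt hπ hNk + algebraMap k ↥(modularFunctionFieldFullC k N) c ≠ 0 := by
  intro h0
  apply B.transcendental_xt hπ hNk
  have e : B.xt hπ hNk = algebraMap k ↥(modularFunctionFieldFullC k N) (-c) := by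
    rw [map_neg]
    exact eq_neg_of_add_eq_zero_left h0
  rw [e]
  exact isAlgebraic_algebraMap _

theorem x_add_const_ne_zero (B : BaseFn.Data A π N) (hπ : ∀ a : A, ¬ IsUnit a → π a = 0)
    (hNk : (N : k) ≠ 0) (c : L) : B.x + algebraMap L ↥(laurentBaseChange L (modularFunctionFieldFull N)) c ≠ 0 := by
  intro h0
  apply B.transcendental_x hπ hNk
  have e : B.x = algebraMap L ↥(laurentBaseChange L (modularFunctionFieldFull N)) (-c) := by
    rw [map_neg]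
    exact eq_neg_of_add_eq_zero_left h0
  rw [e]
  exact isAlgebraic_algebraMap _

theorem coe_ne_zero_of_pi {c : A} (hc : π c ≠ 0) : (c : L) ≠ 0 := by
  intro h0
  apply hc
  have : c = 0 := Subtype.ext h0
  rw [this, map_zero]

/-- The reduction of the relation. -/
theorem rel_red (BJ By : BaseFn.Data A π N) (hπ : ∀ a : A, ¬ IsUnit a → π a = 0)
    (hNk : (N : k) ≠ 0) (c₁ c₂ : A) (a : ℕ)
    (hrel : BJ.x * By.x ^ a =
      (By.x + algebraMap L ↥(laurentBaseChange L (modularFunctionFieldFull N)) (c₁ : L)) * (By.x + algebraMap L ↥(laurentBaseChange L (modularFunctionFieldFull N)) (c₂ : L)) ^ a) :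
    BJ.xt hπ hNk * By.xt hπ hNk ^ a =
      (By.xt hπ hNk + algebraMap k ↥(modularFunctionFieldFullC k N) (π c₁)) * (By.xt hπ hNk + algebraMap k ↥(modularFunctionFieldFullC k N) (π c₂)) ^ a := by
  have e : (⟨BJ.x, BJ.x_mem_Ow hNk⟩ : Ow A π N hNk) * ⟨By.x, By.x_mem_Ow hNk⟩ ^ a =
      ⟨By.x + algebraMap L ↥(laurentBaseChange L (modularFunctionFieldFull N)) (c₁ : L), add_const_mem_Ow By hπ hNk c₁⟩ *
        ⟨By.x + algebraMap L ↥(laurentBaseChange L (modularFunctionFieldFull N)) (c₂ : L), add_const_mem_Ow By hπ hNk c₂⟩ ^ a :=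
    Subtype.ext hrel
  have h := congrArg (redF A π N hπ hNk) e
  rw [map_mul, map_pow, map_mul, map_pow, BJ.redF_x hπ hNk, By.redF_x hπ hNk,
    redF_add_const By hπ hNk c₁, redF_add_const By hπ hNk c₂] at h
  exact h

/-- `(y + c₁)⁻¹` and `(y + c₂)⁻¹` lie in `B'_∞` (the `J`-chart at infinity). -/
theorem inv_add_const_mem_Binf (BJ By : BaseFn.Data A π N) (hπ : ∀ a : A, ¬ IsUnit a → π a = 0)
    (hNk : (N : k) ≠ 0) (c₁ c₂ : A) (a : ℕ) (ha : 1 ≤ a) (hc₁ : π c₁ ≠ 0) (hc₂ : π c₂ ≠ 0)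
    (hrel : BJ.x * By.x ^ a =
      (By.x + algebraMap L ↥(laurentBaseChange L (modularFunctionFieldFull N)) (c₁ : L)) * (By.x + algebraMap L ↥(laurentBaseChange L (modularFunctionFieldFull N)) (c₂ : L)) ^ a) :
    (By.x + algebraMap L ↥(laurentBaseChange L (modularFunctionFieldFull N)) (c₁ : L))⁻¹ ∈ Lift.Binf BJ hNk ∧
      (By.x + algebraMap L ↥(laurentBaseChange L (modularFunctionFieldFull N)) (c₂ : L))⁻¹ ∈ Lift.Binf BJ hNk := by
  have hO1 : (By.x + algebraMap L ↥(laurentBaseChange L (modularFunctionFieldFull N)) (c₁ : L))⁻¹ ∈ Ow A π N hNk :=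
    inv_mem_Ow hπ hNk (add_const_mem_Ow By hπ hNk c₁) (by
      rw [redF_add_const By hπ hNk c₁]
      exact xt_add_const_ne_zero By hπ hNk _)
  have hO2 : (By.x + algebraMap L ↥(laurentBaseChange L (modularFunctionFieldFull N)) (c₂ : L))⁻¹ ∈ Ow A π N hNk :=
    inv_mem_Ow hπ hNk (add_const_mem_Ow By hπ hNk c₂) (by
      rw [redF_add_const By hπ hNk c₂]
      exact xt_add_const_ne_zero By hπ hNk _)
  have key : ∀ P : Place L ↥(laurentBaseChange L (modularFunctionFieldFull N)), P.ord BJ.x ≤ 0 →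
      P.ord (By.x + algebraMap L ↥(laurentBaseChange L (modularFunctionFieldFull N)) (c₁ : L)) ≤ 0 ∧
        P.ord (By.x + algebraMap L ↥(laurentBaseChange L (modularFunctionFieldFull N)) (c₂ : L)) ≤ 0 := fun P hP =>
    ord_add_const_le_zero_of_rel P ha (coe_ne_zero_of_pi hc₁) (coe_ne_zero_of_pi hc₂)
      (By.x_ne_zero hπ hNk) (x_add_const_ne_zero By hπ hNk _) (x_add_const_ne_zero By hπ hNk _)
      hrel hP
  refine ⟨⟨hO1, fun P hP => ?_⟩, ⟨hO2, fun P hP => ?_⟩⟩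
  · rw [P.ord_inv]
    have := (key P hP).1
    omega
  · rw [P.ord_inv]
    have := (key P hP).2
    omega

theorem const_mem_Binf (BJ : BaseFn.Data A π N) (hπ : ∀ a : A, ¬ IsUnit a → π a = 0)
    (hNk : (N : k) ≠ 0) (c : A) : algebraMap L ↥(laurentBaseChange L (modularFunctionFieldFull N)) (c : L) ∈ Lift.Binf BJ hNk :=
  ⟨const_mem_Ow hπ hNk c, fun P _ => by rw [LiftFF.ord_algebraMap]⟩

/-! ### The relation data and the ring `B'_∞` of the `J`-chart -/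

/-- A relation `J · y^a = (y + c₁)(y + c₂)^a` between two base functions, with `c₁, c₂` units of
`A` and `a ≥ 1`. -/
structure RelData (BJ By : BaseFn.Data A π N) where
  /-- first constant -/
  c₁ : A
  /-- second constant -/
  c₂ : A
  /-- exponent -/
  a : ℕ
  ha : 1 ≤ a
  hc₁ : π c₁ ≠ 0
  hc₂ : π c₂ ≠ 0
  rel : BJ.x * By.x ^ a =
    (By.x + algebraMap L ↥(laurentBaseChange L (modularFunctionFieldFull N)) (c₁ : L)) * (By.x + algebraMap L ↥(laurentBaseChange L (modularFunctionFieldFull N)) (c₂ : L)) ^ a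

namespace RelData

variable {BJ By : BaseFn.Data A π N} (D : RelData BJ By) (hπ : ∀ a : A, ¬ IsUnit a → π a = 0)
  (hNk : (N : k) ≠ 0)

/-- `1 / (y + c₁)` in `B'_∞`. -/
def E1 : ↥(Lift.Binf BJ hNk) :=
  ⟨(By.x + algebraMap L ↥(laurentBaseChange L (modularFunctionFieldFull N)) (D.c₁ : L))⁻¹,
    (inv_add_const_mem_Binf BJ By hπ hNk D.c₁ D.c₂ D.a D.ha D.hc₁ D.hc₂ D.rel).1⟩

/-- `1 / (y + c₂)` in `B'_∞`. -/
def E2 : ↥(Lift.Binf BJ hNk) :=
  ⟨(By.x + algebraMap L ↥(laurentBaseChange L (modularFunctionFieldFull N)) (D.c₂ : L))⁻¹,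
    (inv_add_const_mem_Binf BJ By hπ hNk D.c₁ D.c₂ D.a D.ha D.hc₁ D.hc₂ D.rel).2⟩

/-- The constant `c₁` in `B'_∞`. -/
def C1 : ↥(Lift.Binf BJ hNk) := ⟨algebraMap L ↥(laurentBaseChange L (modularFunctionFieldFull N)) (D.c₁ : L), const_mem_Binf BJ hπ hNk D.c₁⟩

/-- The constant `c₂` in `B'_∞`. -/
def C2 : ↥(Lift.Binf BJ hNk) := ⟨algebraMap L ↥(laurentBaseChange L (modularFunctionFieldFull N)) (D.c₂ : L), const_mem_Binf BJ hπ hNk D.c₂⟩

/-- `y / (y + c₁)` in `B'_∞`. -/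
def T1 : ↥(Lift.Binf BJ hNk) := 1 - D.C1 hπ hNk * D.E1 hπ hNk

/-- `y / (y + c₂)` in `B'_∞`. -/
def T2 : ↥(Lift.Binf BJ hNk) := 1 - D.C2 hπ hNk * D.E2 hπ hNk

/-- `u = y^(a+1) / P(y)`: value `1` at `y = ∞`, zero at `y = 0`. -/
def U : ↥(Lift.Binf BJ hNk) := D.T1 hπ hNk * D.T2 hπ hNk ^ D.a

/-- `w = 1 / P(y)`: zero at `y = ∞`. -/
def W : ↥(Lift.Binf BJ hNk) := D.E1 hπ hNk * D.E2 hπ hNk ^ D.a

theorem coe_E1 : ((D.E1 hπ hNk : ↥(Lift.Binf BJ hNk)) : ↥(laurentBaseChange L (modularFunctionFieldFull N))) =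
    (By.x + algebraMap L ↥(laurentBaseChange L (modularFunctionFieldFull N)) (D.c₁ : L))⁻¹ := rfl

theorem coe_E2 : ((D.E2 hπ hNk : ↥(Lift.Binf BJ hNk)) : ↥(laurentBaseChange L (modularFunctionFieldFull N))) =
    (By.x + algebraMap L ↥(laurentBaseChange L (modularFunctionFieldFull N)) (D.c₂ : L))⁻¹ := rfl

theorem coe_C1 : ((D.C1 hπ hNk : ↥(Lift.Binf BJ hNk)) : ↥(laurentBaseChange L (modularFunctionFieldFull N))) = algebraMap L ↥(laurentBaseChange L (modularFunctionFieldFull N)) (D.c₁ : L) := rfl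

theorem coe_C2 : ((D.C2 hπ hNk : ↥(Lift.Binf BJ hNk)) : ↥(laurentBaseChange L (modularFunctionFieldFull N))) = algebraMap L ↥(laurentBaseChange L (modularFunctionFieldFull N)) (D.c₂ : L) := rfl

theorem coe_T1 : ((D.T1 hπ hNk : ↥(Lift.Binf BJ hNk)) : ↥(laurentBaseChange L (modularFunctionFieldFull N))) =
    By.x * ((D.E1 hπ hNk : ↥(Lift.Binf BJ hNk)) : ↥(laurentBaseChange L (modularFunctionFieldFull N))) := by
  have e : ((D.T1 hπ hNk : ↥(Lift.Binf BJ hNk)) : ↥(laurentBaseChange L (modularFunctionFieldFull N))) =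
      1 - algebraMap L ↥(laurentBaseChange L (modularFunctionFieldFull N)) (D.c₁ : L) * (By.x + algebraMap L ↥(laurentBaseChange L (modularFunctionFieldFull N)) (D.c₁ : L))⁻¹ := rfl
  rw [e, coe_E1]
  exact t_eq _ _ (x_add_const_ne_zero By hπ hNk _)

theorem coe_T2 : ((D.T2 hπ hNk : ↥(Lift.Binf BJ hNk)) : ↥(laurentBaseChange L (modularFunctionFieldFull N))) =
    By.x * ((D.E2 hπ hNk : ↥(Lift.Binf BJ hNk)) : ↥(laurentBaseChange L (modularFunctionFieldFull N))) := by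
  have e : ((D.T2 hπ hNk : ↥(Lift.Binf BJ hNk)) : ↥(laurentBaseChange L (modularFunctionFieldFull N))) =
      1 - algebraMap L ↥(laurentBaseChange L (modularFunctionFieldFull N)) (D.c₂ : L) * (By.x + algebraMap L ↥(laurentBaseChange L (modularFunctionFieldFull N)) (D.c₂ : L))⁻¹ := rfl
  rw [e, coe_E2]
  exact t_eq _ _ (x_add_const_ne_zero By hπ hNk _)

/-- `y · w = (y/(y + c₁)) · (1/(y + c₂))^a ∈ B'_∞`. -/
theorem x_mul_W : By.x * ((D.W hπ hNk : ↥(Lift.Binf BJ hNk)) : ↥(laurentBaseChange L (modularFunctionFieldFull N))) =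
    ((D.T1 hπ hNk * D.E2 hπ hNk ^ D.a : ↥(Lift.Binf BJ hNk)) : ↥(laurentBaseChange L (modularFunctionFieldFull N))) := by
  have e1 : ((D.W hπ hNk : ↥(Lift.Binf BJ hNk)) : ↥(laurentBaseChange L (modularFunctionFieldFull N))) =
      ((D.E1 hπ hNk : ↥(Lift.Binf BJ hNk)) : ↥(laurentBaseChange L (modularFunctionFieldFull N))) *
        ((D.E2 hπ hNk : ↥(Lift.Binf BJ hNk)) : ↥(laurentBaseChange L (modularFunctionFieldFull N))) ^ D.a := rfl
  have e2 : ((D.T1 hπ hNk * D.E2 hπ hNk ^ D.a : ↥(Lift.Binf BJ hNk)) : ↥(laurentBaseChange L (modularFunctionFieldFull N))) =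
      ((D.T1 hπ hNk : ↥(Lift.Binf BJ hNk)) : ↥(laurentBaseChange L (modularFunctionFieldFull N))) *
        ((D.E2 hπ hNk : ↥(Lift.Binf BJ hNk)) : ↥(laurentBaseChange L (modularFunctionFieldFull N))) ^ D.a := rfl
  rw [e1, e2, coe_T1, mul_assoc]

/-- `y · ((1/(y + c₁)) · (y/(y + c₂))^a) = u`. -/
theorem x_mul_V : By.x * ((D.E1 hπ hNk * D.T2 hπ hNk ^ D.a : ↥(Lift.Binf BJ hNk)) : ↥(laurentBaseChange L (modularFunctionFieldFull N))) =
    ((D.U hπ hNk : ↥(Lift.Binf BJ hNk)) : ↥(laurentBaseChange L (modularFunctionFieldFull N))) := by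
  have e1 : ((D.U hπ hNk : ↥(Lift.Binf BJ hNk)) : ↥(laurentBaseChange L (modularFunctionFieldFull N))) =
      ((D.T1 hπ hNk : ↥(Lift.Binf BJ hNk)) : ↥(laurentBaseChange L (modularFunctionFieldFull N))) *
        ((D.T2 hπ hNk : ↥(Lift.Binf BJ hNk)) : ↥(laurentBaseChange L (modularFunctionFieldFull N))) ^ D.a := rfl
  have e2 : ((D.E1 hπ hNk * D.T2 hπ hNk ^ D.a : ↥(Lift.Binf BJ hNk)) : ↥(laurentBaseChange L (modularFunctionFieldFull N))) =
      ((D.E1 hπ hNk : ↥(Lift.Binf BJ hNk)) : ↥(laurentBaseChange L (modularFunctionFieldFull N))) *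
        ((D.T2 hπ hNk : ↥(Lift.Binf BJ hNk)) : ↥(laurentBaseChange L (modularFunctionFieldFull N))) ^ D.a := rfl
  rw [e1, e2, coe_T1, mul_assoc]

theorem isCoprime_T1_E1 : IsCoprime (D.T1 hπ hNk) (D.E1 hπ hNk) :=
  ⟨1, D.C1 hπ hNk, by rw [T1]; ring⟩

theorem isCoprime_T2_E2 : IsCoprime (D.T2 hπ hNk) (D.E2 hπ hNk) :=
  ⟨1, D.C2 hπ hNk, by rw [T2]; ring⟩

theorem isCoprime_T1_E2 : IsCoprime (D.T1 hπ hNk) (D.E2 hπ hNk) := by
  refine ⟨1 + (D.C1 hπ hNk - D.C2 hπ hNk) * D.E2 hπ hNk, D.C2 hπ hNk, ?_⟩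
  apply Subtype.ext
  exact coprime_id By.x (algebraMap L ↥(laurentBaseChange L (modularFunctionFieldFull N)) (D.c₁ : L)) (algebraMap L ↥(laurentBaseChange L (modularFunctionFieldFull N)) (D.c₂ : L))
    (x_add_const_ne_zero By hπ hNk _) (x_add_const_ne_zero By hπ hNk _)

theorem isCoprime_T2_E1 : IsCoprime (D.T2 hπ hNk) (D.E1 hπ hNk) := by
  refine ⟨1 + (D.C2 hπ hNk - D.C1 hπ hNk) * D.E1 hπ hNk, D.C1 hπ hNk, ?_⟩
  apply Subtype.ext
  exact coprime_id By.x (algebraMap L ↥(laurentBaseChange L (modularFunctionFieldFull N)) (D.c₂ : L)) (algebraMap L ↥(laurentBaseChange L (modularFunctionFieldFull N)) (D.c₁ : L))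
    (x_add_const_ne_zero By hπ hNk _) (x_add_const_ne_zero By hπ hNk _)

/-- **`u` and `w` are coprime in `B'_∞`.** -/
theorem isCoprime_U_W : IsCoprime (D.U hπ hNk) (D.W hπ hNk) :=
  IsCoprime.mul_left
    (IsCoprime.mul_right (D.isCoprime_T1_E1 hπ hNk) (D.isCoprime_T1_E2 hπ hNk).pow_right)
    (IsCoprime.mul_right (D.isCoprime_T2_E1 hπ hNk) (D.isCoprime_T2_E2 hπ hNk).pow_right).pow_left

end RelData

/-- The reduction map on `B'_∞`. -/
def rhoInf (BJ : BaseFn.Data A π N) (hπ : ∀ a : A, ¬ IsUnit a → π a = 0) (hNk : (N : k) ≠ 0) :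
    ↥(Lift.Binf BJ hNk) →+* ↥(modularFunctionFieldFullC k N) :=
  (redF A π N hπ hNk).comp
    (Subring.inclusion (fun _ hx => hx.1 : Lift.Binf BJ hNk ≤ (Ow A π N hNk).toSubring))

theorem rhoInf_apply (BJ : BaseFn.Data A π N) (hπ : ∀ a : A, ¬ IsUnit a → π a = 0)
    (hNk : (N : k) ≠ 0) (r : ↥(Lift.Binf BJ hNk)) :
    rhoInf BJ hπ hNk r = redF A π N hπ hNk ⟨(r : ↥(laurentBaseChange L (modularFunctionFieldFull N))), r.2.1⟩ := rfl

namespace RelData

variable {BJ By : BaseFn.Data A π N} (D : RelData BJ By) (hπ : ∀ a : A, ¬ IsUnit a → π a = 0)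
  (hNk : (N : k) ≠ 0)

theorem rhoInf_E1 : rhoInf BJ hπ hNk (D.E1 hπ hNk) =
    (By.xt hπ hNk + algebraMap k ↥(modularFunctionFieldFullC k N) (π D.c₁))⁻¹ := by
  rw [rhoInf_apply, ← redF_add_const By hπ hNk D.c₁, ← redF_inv hπ hNk]
  · rfl
  · rw [redF_add_const By hπ hNk D.c₁]
    exact xt_add_const_ne_zero By hπ hNk _

theorem rhoInf_E2 : rhoInf BJ hπ hNk (D.E2 hπ hNk) =
    (By.xt hπ hNk + algebraMap k ↥(modularFunctionFieldFullC k N) (π D.c₂))⁻¹ := by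
  rw [rhoInf_apply, ← redF_add_const By hπ hNk D.c₂, ← redF_inv hπ hNk]
  · rfl
  · rw [redF_add_const By hπ hNk D.c₂]
    exact xt_add_const_ne_zero By hπ hNk _

theorem rhoInf_C1 : rhoInf BJ hπ hNk (D.C1 hπ hNk) = algebraMap k ↥(modularFunctionFieldFullC k N) (π D.c₁) := by
  rw [rhoInf_apply, ← redF_algebraMap hπ hNk D.c₁]
  rfl

theorem rhoInf_C2 : rhoInf BJ hπ hNk (D.C2 hπ hNk) = algebraMap k ↥(modularFunctionFieldFullC k N) (π D.c₂) := by
  rw [rhoInf_apply, ← redF_algebraMap hπ hNk D.c₂]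
  rfl

/-- `P̄(ȳ) · w̄ = 1`. -/
theorem pb_mul_rhoInf_W :
    ((By.xt hπ hNk + algebraMap k ↥(modularFunctionFieldFullC k N) (π D.c₁)) *
      (By.xt hπ hNk + algebraMap k ↥(modularFunctionFieldFullC k N) (π D.c₂)) ^ D.a) * rhoInf BJ hπ hNk (D.W hπ hNk) = 1 := by
  rw [W, map_mul, map_pow, rhoInf_E1, rhoInf_E2]
  exact pb_wb _ _ _ _ (xt_add_const_ne_zero By hπ hNk _) (xt_add_const_ne_zero By hπ hNk _)

/-- `(P̄(ȳ)/ȳ^(a+1)) · ū = 1`. -/
theorem fb_mul_rhoInf_U :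
    ((1 + algebraMap k ↥(modularFunctionFieldFullC k N) (π D.c₁) * (By.xt hπ hNk)⁻¹) *
      (1 + algebraMap k ↥(modularFunctionFieldFullC k N) (π D.c₂) * (By.xt hπ hNk)⁻¹) ^ D.a) *
        rhoInf BJ hπ hNk (D.U hπ hNk) = 1 := by
  rw [U, map_mul, map_pow, T1, T2, map_sub, map_sub, map_one, map_mul, map_mul, rhoInf_E1,
    rhoInf_E2, rhoInf_C1, rhoInf_C2]
  refine fb_ub _ _ _ _ ?_ (xt_add_const_ne_zero By hπ hNk _) (xt_add_const_ne_zero By hπ hNk _)
  intro h0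
  exact By.transcendental_xt hπ hNk (h0 ▸ isAlgebraic_zero)

/-- A lift regular where `y ≠ ∞`, times a power of `w`, lies in `B'_∞`. -/
theorem mul_W_pow_mem (g : Ow A π N hNk)
    (hreg : ∀ P : Place L ↥(laurentBaseChange L (modularFunctionFieldFull N)), 0 ≤ P.ord By.x → 0 ≤ P.ord (g : ↥(laurentBaseChange L (modularFunctionFieldFull N)))) (n : ℕ)
    (hn : ∀ P : Place L ↥(laurentBaseChange L (modularFunctionFieldFull N)), P.ord By.x ≤ 0 → 0 ≤ P.ord ((g : ↥(laurentBaseChange L (modularFunctionFieldFull N))) * (By.x)⁻¹ ^ n)) (m : ℕ) :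
    (g : ↥(laurentBaseChange L (modularFunctionFieldFull N))) * ((D.W hπ hNk : ↥(Lift.Binf BJ hNk)) : ↥(laurentBaseChange L (modularFunctionFieldFull N))) ^ (m + n) ∈ Lift.Binf BJ hNk := by
  refine ⟨mul_mem g.2 (pow_mem (D.W hπ hNk).2.1 _), fun P hP => ?_⟩
  rw [← mem_iff_ord_nonneg]
  have hW : ((D.W hπ hNk : ↥(Lift.Binf BJ hNk)) : ↥(laurentBaseChange L (modularFunctionFieldFull N))) ∈ P.toValuationSubring :=
    (mem_iff_ord_nonneg P).2 ((D.W hπ hNk).2.2 P hP)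
  rcases le_total 0 (P.ord By.x) with h | h
  · exact mul_mem ((mem_iff_ord_nonneg P).2 (hreg P h)) (pow_mem hW _)
  · rw [pow_split_inv (g : ↥(laurentBaseChange L (modularFunctionFieldFull N))) _ By.x (By.x)⁻¹ (inv_mul_cancel₀ (By.x_ne_zero hπ hNk)) m n,
      D.x_mul_W hπ hNk]
    exact mul_mem (mul_mem ((mem_iff_ord_nonneg P).2 (hn P h))
      (pow_mem ((mem_iff_ord_nonneg P).2
        ((D.T1 hπ hNk * D.E2 hπ hNk ^ D.a).2.2 P hP)) _)) (pow_mem hW _)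

/-- A lift regular where `y ≠ 0`, times a power of `u`, lies in `B'_∞`. -/
theorem mul_U_pow_mem (g : Ow A π N hNk)
    (hreg : ∀ P : Place L ↥(laurentBaseChange L (modularFunctionFieldFull N)), P.ord By.x ≤ 0 → 0 ≤ P.ord (g : ↥(laurentBaseChange L (modularFunctionFieldFull N)))) (n : ℕ)
    (hn : ∀ P : Place L ↥(laurentBaseChange L (modularFunctionFieldFull N)), 0 ≤ P.ord By.x → 0 ≤ P.ord ((g : ↥(laurentBaseChange L (modularFunctionFieldFull N))) * By.x ^ n)) (m : ℕ) :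
    (g : ↥(laurentBaseChange L (modularFunctionFieldFull N))) * ((D.U hπ hNk : ↥(Lift.Binf BJ hNk)) : ↥(laurentBaseChange L (modularFunctionFieldFull N))) ^ (m + n) ∈ Lift.Binf BJ hNk := by
  refine ⟨mul_mem g.2 (pow_mem (D.U hπ hNk).2.1 _), fun P hP => ?_⟩
  rw [← mem_iff_ord_nonneg]
  have hU : ((D.U hπ hNk : ↥(Lift.Binf BJ hNk)) : ↥(laurentBaseChange L (modularFunctionFieldFull N))) ∈ P.toValuationSubring :=
    (mem_iff_ord_nonneg P).2 ((D.U hπ hNk).2.2 P hP)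
  rcases le_total 0 (P.ord By.x) with h | h
  · rw [pow_split_mul (g : ↥(laurentBaseChange L (modularFunctionFieldFull N))) _ By.x _ (D.x_mul_V hπ hNk) m n]
    exact mul_mem (mul_mem ((mem_iff_ord_nonneg P).2 (hn P h))
      (pow_mem ((mem_iff_ord_nonneg P).2
        ((D.E1 hπ hNk * D.T2 hπ hNk ^ D.a).2.2 P hP)) _)) (pow_mem hU _)
  · exact mul_mem ((mem_iff_ord_nonneg P).2 (hreg P h)) (pow_mem hU _)

end RelData

/-- **`T3'` for the `J`-chart from `T3` and `T3'` of the `y`-chart**, for a relation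
`J · y^a = (y + c₁)(y + c₂)^a`. -/
theorem T3'_of_rel {BJ By : BaseFn.Data A π N} (D : RelData BJ By)
    (hπ : ∀ a : A, ¬ IsUnit a → π a = 0) (hsurj : Function.Surjective π) (hNk : (N : k) ≠ 0)
    (hT : Lift.T3 By hπ hNk) (hT' : Lift.T3' By hπ hNk) : Lift.T3' BJ hπ hNk := by
  intro s hs
  have hfinL : FiniteDimensional ↥(L⟮By.x⟯) ↥(laurentBaseChange L (modularFunctionFieldFull N)) := By.finite_L hπ hsurj hNk
  have hy0 : By.x ≠ 0 := By.x_ne_zero hπ hNk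
  have hyb0 : By.xt hπ hNk ≠ 0 := fun h0 =>
    By.transcendental_xt hπ hNk (h0 ▸ isAlgebraic_zero)
  have hrelk := rel_red BJ By hπ hNk D.c₁ D.c₂ D.a D.rel
  -- `s` is integral over `k[J̄⁻¹]`
  have hsJ : IsIntegral ↥(Algebra.adjoin k {(BJ.xt hπ hNk)⁻¹}) s :=
    (Lift.isIntegral_xt_inv_iff_place BJ hπ hsurj hNk).2 hs
  -- chart `y ≠ ∞`
  obtain ⟨N₁, hN₁⟩ := exists_pow_mul_regular_fin (K := k) hyb0
    (xt_add_const_ne_zero By hπ hNk _) (xt_add_const_ne_zero By hπ hNk _) hrelk hsJ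
  obtain ⟨g₁, hg₁, hreg₁⟩ := hT _ hN₁
  obtain ⟨n₁, hn₁⟩ := exists_pow_mul_regular_of_fin (K := L) hy0
    ((Holo.isIntegral_adjoin_iff By.x _).2 hreg₁)
  -- chart `y ≠ 0`
  obtain ⟨N₂, hN₂⟩ := exists_pow_mul_regular_inf (K := k) hyb0
    (xt_add_const_ne_zero By hπ hNk _) (xt_add_const_ne_zero By hπ hNk _) hrelk hsJ
  obtain ⟨g₂, hg₂, hreg₂⟩ := hT' _ hN₂
  obtain ⟨n₂, hn₂⟩ := exists_pow_mul_regular_of_inf (K := L) hy0
    ((Holo.isIntegral_adjoin_inv_iff By.x _).2 hreg₂)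
  -- the two partial lifts in `B'_∞`
  obtain ⟨G₁, hG₁⟩ : ∃ G : ↥(Lift.Binf BJ hNk), rhoInf BJ hπ hNk G =
      s * rhoInf BJ hπ hNk (D.W hπ hNk) ^ n₁ := by
    refine ⟨⟨_, D.mul_W_pow_mem hπ hNk g₁ hreg₁ n₁ hn₁ N₁⟩, ?_⟩
    have e : rhoInf BJ hπ hNk ⟨_, D.mul_W_pow_mem hπ hNk g₁ hreg₁ n₁ hn₁ N₁⟩ =
        redF A π N hπ hNk g₁ * rhoInf BJ hπ hNk (D.W hπ hNk) ^ (N₁ + n₁) := by
      rw [rhoInf_apply, rhoInf_apply, ← map_pow, ← map_mul]
      rfl
    rw [e, hg₁]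
    exact red_split _ _ _ (D.pb_mul_rhoInf_W hπ hNk) N₁ n₁
  obtain ⟨G₂, hG₂⟩ : ∃ G : ↥(Lift.Binf BJ hNk), rhoInf BJ hπ hNk G =
      s * rhoInf BJ hπ hNk (D.U hπ hNk) ^ n₂ := by
    refine ⟨⟨_, D.mul_U_pow_mem hπ hNk g₂ hreg₂ n₂ hn₂ N₂⟩, ?_⟩
    have e : rhoInf BJ hπ hNk ⟨_, D.mul_U_pow_mem hπ hNk g₂ hreg₂ n₂ hn₂ N₂⟩ =
        redF A π N hπ hNk g₂ * rhoInf BJ hπ hNk (D.U hπ hNk) ^ (N₂ + n₂) := by
      rw [rhoInf_apply, rhoInf_apply, ← map_pow, ← map_mul]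
      rfl
    rw [e, hg₂]
    exact red_split _ _ _ (D.fb_mul_rhoInf_U hπ hNk) N₂ n₂
  -- glue
  obtain ⟨α, β, hαβ⟩ : IsCoprime (D.U hπ hNk ^ n₂) (D.W hπ hNk ^ n₁) :=
    (D.isCoprime_U_W hπ hNk).pow
  obtain ⟨r, hr⟩ : ∃ r : ↥(Lift.Binf BJ hNk), r = α * G₂ + β * G₁ := ⟨_, rfl⟩
  have hfin : rhoInf BJ hπ hNk r = s := by
    have h3 := congrArg (rhoInf BJ hπ hNk) hαβ
    rw [map_add, map_mul, map_mul, map_pow, map_pow, map_one] at h3
    rw [hr, map_add, map_mul, map_mul, hG₁, hG₂]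
    linear_combination s * h3
  exact ⟨⟨(r : ↥(laurentBaseChange L (modularFunctionFieldFull N))), r.2.1⟩, hfin, r.2.2⟩

end Main

/-! ### The instances: the Hauptmoduln of level 2 and 3 -/

section Instances

variable {L : Type*} [Field L] [Algebra ℚ L] {A : ValuationSubring L} {k : Type} [Field k]
  {π : A →+* k}

/-- The relation `J_M · y² = (y + 256)(y + 256)²` of level 2. -/
def rel2 (M m : ℕ) [NeZero M] [NeZero m] (hM : M = m * 2) (h2 : (2 : k) ≠ 0) :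
    RelData (Data.ofJ A π M) (ofHaupt2 A π M m hM h2) where
  c₁ := 256
  c₂ := 256
  a := 2
  ha := by norm_num
  hc₁ := by
    rw [map_ofNat]
    have : (256 : k) = 2 ^ 8 := by norm_num
    rw [this]
    exact pow_ne_zero _ h2
  hc₂ := by
    rw [map_ofNat]
    have : (256 : k) = 2 ^ 8 := by norm_num
    rw [this]
    exact pow_ne_zero _ h2
  rel := by
    have e : algebraMap L ↥(laurentBaseChange L (modularFunctionFieldFull M))
        (((256 : A) : A) : L) = 256 := by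
      have e' : (((256 : A) : A) : L) = 256 := rfl
      rw [e', map_ofNat]
    rw [e, LiftJ23.hrel2' M m hM h2]
    ring

/-- The relation `J_M · y³ = (y + 27)(y + 243)³` of level 3. -/
def rel3 (M m : ℕ) [NeZero M] [NeZero m] (hM : M = m * 3) (h3 : (3 : k) ≠ 0) :
    RelData (Data.ofJ A π M) (ofHaupt3 A π M m hM h3) where
  c₁ := 27
  c₂ := 243
  a := 3
  ha := by norm_num
  hc₁ := by
    rw [map_ofNat]
    have : (27 : k) = 3 ^ 3 := by norm_num
    rw [this]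
    exact pow_ne_zero _ h3
  hc₂ := by
    rw [map_ofNat]
    have : (243 : k) = 3 ^ 5 := by norm_num
    rw [this]
    exact pow_ne_zero _ h3
  rel := by
    have e1 : algebraMap L ↥(laurentBaseChange L (modularFunctionFieldFull M))
        (((27 : A) : A) : L) = 27 := by
      have e' : (((27 : A) : A) : L) = 27 := rfl
      rw [e', map_ofNat]
    have e2 : algebraMap L ↥(laurentBaseChange L (modularFunctionFieldFull M))
        (((243 : A) : A) : L) = 243 := by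
      have e' : (((243 : A) : A) : L) = 243 := rfl
      rw [e', map_ofNat]
    rw [e1, e2, LiftJ23.hrel3' M m hM h3]

/-- **(T3') for `x = J(q^M)` from the Hauptmodul of level 2** (`M = m * 2`, `2 ≠ 0` in `k`). -/
theorem T3'_ofJ_of_haupt2 (hπ : ∀ a : A, ¬ IsUnit a → π a = 0) (hsurj : Function.Surjective π)
    (M m : ℕ) [NeZero M] [NeZero m] (hMk : (M : k) ≠ 0) (hM : M = m * 2) (h2 : (2 : k) ≠ 0)
    (h : Lift.T3 (ofHaupt2 A π M m hM h2) hπ hMk)
    (h' : Lift.T3' (ofHaupt2 A π M m hM h2) hπ hMk) :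
    Lift.T3' (Data.ofJ A π M) hπ hMk :=
  T3'_of_rel (rel2 M m hM h2) hπ hsurj hMk h h'

/-- **(T3') for `x = J(q^M)` from the Hauptmodul of level 3** (`M = m * 3`, `3 ≠ 0` in `k`). -/
theorem T3'_ofJ_of_haupt3 (hπ : ∀ a : A, ¬ IsUnit a → π a = 0) (hsurj : Function.Surjective π)
    (M m : ℕ) [NeZero M] [NeZero m] (hMk : (M : k) ≠ 0) (hM : M = m * 3) (h3 : (3 : k) ≠ 0)
    (h : Lift.T3 (ofHaupt3 A π M m hM h3) hπ hMk)
    (h' : Lift.T3' (ofHaupt3 A π M m hM h3) hπ hMk) :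
    Lift.T3' (Data.ofJ A π M) hπ hMk :=
  T3'_of_rel (rel3 M m hM h3) hπ hsurj hMk h h'

end Instances

end Fermat.Agent.CAR.Inst.LiftT3Rel
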