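import Mathlib
import Fermat.Agent.CAR.Inst.LiftT3Rel
import Fermat.Agent.CAR.Inst.LiftJ23Inst

/-!
# CAR / LIFT over `(K0, W0, resW0)`: the literal `Lift.T3'` for `x = J(q^{M'})`, EVERY `q`

`A` a valuation subring of `ℚ̄` over a prime `q`, `K0` its inertia field, `W0 = A ∩ K0`,
`k` the residue field, `M'` a level with `(M' : k) ≠ 0`,
`BJ := BaseFn.Data.ofJ (W0 A) (resW0 A) M'`.

* `T3'_ofJ_of_eq_mul_two` (`q ≠ 2`, `M' = m * 2`), `T3'_ofJ_of_eq_mul_three` (`q ≠ 3`,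
  `M' = m * 3`) : `Lift.T3' BJ` by the chart change `Inst/LiftT3Rel.lean` from the Hauptmodul
  bases (`LiftK0.Closed.T3_ofHaupt{2,3}_K0`, `T3'_ofHaupt{2,3}_K0`);
* **`T3'_ofJ_all hq hA (hq2 : q = 2 → 3 ∣ M') (hq3 : q = 3 → 2 ∣ M') : Lift.T3' BJ …`** — the
  twin of `LiftJ23Inst.T3_ofJ_all`; with it every theorem of `CAR/Lift.lean` on the chart at
  infinity (`exists_lift_inf`, `lift_frac_inf`, `lift_sep_inf`) applies verbatim for every `q`;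
* `T3_T3'_ofJ_all` : both charts at once.
-/

set_option autoImplicit false
set_option synthInstance.maxHeartbeats 400000
set_option maxHeartbeats 1000000

namespace Fermat.Agent.CAR.Inst.LiftT3RelK0

open HahnSeries ModularCurve AlgebraicCurve Fermat.Agent.S28 Fermat.Agent.Lib.Red
  Fermat.Agent.Lib.Red.BaseFn Fermat.Agent.CAR.Lift Fermat.Agent.CAR.K0
  Fermat.Agent.CAR.Local.Inst.LiftInst Fermat.Agent.CAR.Inst.LiftJ23Inst

local notation "Qb" => AlgebraicClosure ℚ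

variable {q : ℕ} (hq : q.Prime) {A : ValuationSubring Qb} (hA : A.LiesOverPrime q)

variable {M' : ℕ} [NeZero M'] {hM' : (M' : IsLocalRing.ResidueField A) ≠ 0}

include hq hA in
/-- **(T3') for `x = J(q^{M'})`, `q ≠ 2`, `M' = m * 2`** (chart change from the Hauptmodul of
level `2`). -/
theorem T3'_ofJ_of_eq_mul_two (h2 : q ≠ 2) {m : ℕ} [NeZero m] (hM : M' = m * 2) :
    T3' (Data.ofJ (W0 A) (resW0 A) M') (resW0_eq_zero_of_not_isUnit A) hM' :=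
  Fermat.Agent.CAR.Inst.LiftT3Rel.T3'_ofJ_of_haupt2 (resW0_eq_zero_of_not_isUnit A)
    (resW0_surjective hq hA) M' m hM' hM (two_ne_zero_of_ne hq hA h2)
    (Fermat.Agent.CAR.LiftK0.Closed.T3_ofHaupt2_K0 hq hA hM hM' (two_ne_zero_of_ne hq hA h2))
    (Fermat.Agent.CAR.LiftK0.Closed.T3'_ofHaupt2_K0 hq hA hM hM' (two_ne_zero_of_ne hq hA h2))

include hq hA in
/-- **(T3') for `x = J(q^{M'})`, `q ≠ 3`, `M' = m * 3`** (chart change from the Hauptmodul of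
level `3`). -/
theorem T3'_ofJ_of_eq_mul_three (h3 : q ≠ 3) {m : ℕ} [NeZero m] (hM : M' = m * 3) :
    T3' (Data.ofJ (W0 A) (resW0 A) M') (resW0_eq_zero_of_not_isUnit A) hM' :=
  Fermat.Agent.CAR.Inst.LiftT3Rel.T3'_ofJ_of_haupt3 (resW0_eq_zero_of_not_isUnit A)
    (resW0_surjective hq hA) M' m hM' hM (three_ne_zero_of_ne hq hA h3)
    (Fermat.Agent.CAR.LiftK0.Closed.T3_ofHaupt3_K0 hq hA hM hM' (three_ne_zero_of_ne hq hA h3))
    (Fermat.Agent.CAR.LiftK0.Closed.T3'_ofHaupt3_K0 hq hA hM hM' (three_ne_zero_of_ne hq hA h3))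

include hq hA in
/-- **(T3') for `x = J(q^{M'})` over `(K0, W0, resW0)`, every `q`**: `3 ∣ M'` if `q = 2`,
`2 ∣ M'` if `q = 3`. -/
theorem T3'_ofJ_all (hq2 : q = 2 → 3 ∣ M') (hq3 : q = 3 → 2 ∣ M') :
    T3' (Data.ofJ (W0 A) (resW0 A) M') (resW0_eq_zero_of_not_isUnit A) hM' := by
  by_cases h2 : q = 2
  · obtain ⟨m, hm, hM⟩ := exists_eq_mul_of_dvd (hq2 h2)
    have h3 : q ≠ 3 := by omega
    exact T3'_ofJ_of_eq_mul_three hq hA h3 hM
  · by_cases h3 : q = 3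
    · obtain ⟨m, hm, hM⟩ := exists_eq_mul_of_dvd (hq3 h3)
      exact T3'_ofJ_of_eq_mul_two hq hA h2 hM
    · exact Fermat.Agent.CAR.LiftK0.Closed.T3'_ofJ_K0 hq hA M' hM'
        (natCast_1728_ne_zero hq hA h2 h3)

include hq hA in
/-- Both charts of the `J`-line over `(K0, W0, resW0)`, every `q`. -/
theorem T3_T3'_ofJ_all (hq2 : q = 2 → 3 ∣ M') (hq3 : q = 3 → 2 ∣ M') :
    T3 (Data.ofJ (W0 A) (resW0 A) M') (resW0_eq_zero_of_not_isUnit A) hM' ∧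
      T3' (Data.ofJ (W0 A) (resW0 A) M') (resW0_eq_zero_of_not_isUnit A) hM' :=
  ⟨T3_ofJ_all hq hA hq2 hq3, T3'_ofJ_all hq hA hq2 hq3⟩

end Fermat.Agent.CAR.Inst.LiftT3RelK0
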