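import Mathlib
import Fermat.Agent.CAR.V3.MidAll
import Fermat.Agent.CAR.Core.FrontK0

/-!
# CAR (instance): the record `NF.Data` in the literal shape of `Core.chain` over the inertia field

`Core.chain` / `Core.newInertiaK0At_of_chain` consume
`D : NF.Data α β q PA PC (O 0) (O 1) (O 2) (algebraMap W FN q₀) ϖ d` for a family
`O : Fin 3 → ValuationSubring F`.  Here, for `(K, W) = (K0, W0)` (the inertia field of a valuation
subring `A` of `ℚ̄` over `q` and its valuation ring), `q₀ := (q : W0)`,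
`O := ![O_∞³, O_mid, O_0³]` (`comp3`), `PA := O_∞`, `PC := O_0`, `ϖ := q`, `d := dMid`:

* `comp3` : the family `![OInf3 hB, OMid …, OZero3 hB w]`;
* `nfData_comp3` : the record `D` with uniformiser `(q : F_N)` — the argument `D` of
  `Core.newInertiaK0At_W0_of_points`;
* `nfData_chain` : the same with uniformiser `algebraMap W0 F_N (q : W0)`, for ANY
  `Algebra ↥(W0 A) F_N` instance — the argument `D` of `Core.newInertiaK0At_of_chain` /
  `Core.newInertiaK0At_of_points` at `(K, W) = (K0, W0)`;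
* `newInertiaK0At_of_pointPkgs` : `Core.newInertiaK0At_W0_of_points` with `D`, `PA`, `PC`, `O`,
  `ϖ`, `d`, `hWA`, `hWC` filled in: what remains is the chart block and the two point packages.
-/

set_option autoImplicit false
set_option linter.unusedSectionVars false

noncomputable section

namespace Fermat.Agent.CAR.Inst.NFDataChain

open ModularCurve Fermat.Agent.S28 Fermat.Agent.BAD.TwoVal Fermat.Agent.ESJ.Jac
  Fermat.Agent.CAR.K0 Fermat.Agent.CAR.V3 Fermat.Agent.CAR.V3.MidRing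
  Fermat.Agent.CAR.V3.MidRestrict Fermat.Agent.CAR.V3.RestrictNF Fermat.Agent.CAR.Formal

local notation "Qb" => AlgebraicClosure ℚ

variable {q : ℕ} (hq : q.Prime) (A : ValuationSubring Qb) (hA : A.LiesOverPrime q)
  {ζ : Qb} (hζ : IsPrimitiveRoot ζ q) (M' : ℕ) [NeZero M'] [NeZero q] (hqM : ¬ q ∣ M')
  {W : ALAut (inertiaField A) M' q}

/-- The three valuation rings `![O_∞³, O_mid, O_0³]` of `K0 · F_{M'q²}` above `q`. -/
def comp3 (w : ALAut (inertiaField A) (M' * q) q) :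
    Fin 3 → ValuationSubring (FNK ↥(inertiaField A) (M' * q * q)) :=
  ![OInf3 (badSetup_W0 hq hA M' hqM), OMid hq A hA hζ M' hqM (IsLocalRing.residue A),
    OZero3 (badSetup_W0 hq hA M' hqM) w]

variable {w : ALAut (inertiaField A) (M' * q) q}

theorem comp3_zero : comp3 hq A hA hζ M' hqM w 0 = OInf3 (badSetup_W0 hq hA M' hqM) := rfl

theorem comp3_one :
    comp3 hq A hA hζ M' hqM w 1 = OMid hq A hA hζ M' hqM (IsLocalRing.residue A) := rfl

theorem comp3_two : comp3 hq A hA hζ M' hqM w 2 = OZero3 (badSetup_W0 hq hA M' hqM) w := rfl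

theorem comp3_two' : comp3 hq A hA hζ M' hqM w 2 = OZ3 (badSetup_W0 hq hA M' hqM) w := rfl

/-- **`NF.Data` in the literal shape of `Core.newInertiaK0At_W0_of_points`** (the family
`O := comp3`, uniformiser `(q : F_N)`). -/
theorem nfData_comp3 (hW : IsAL M' q W) (hw : IsAL3 M' q w) :
    NF.Data (alphaStar ↥(inertiaField A) M' q) (betaStar ↥(inertiaField A) M' q) q
      (OInf (badSetup_W0 hq hA M' hqM)) (OZero (badSetup_W0 hq hA M' hqM) W)
      (comp3 hq A hA hζ M' hqM w 0) (comp3 hq A hA hζ M' hqM w 1) (comp3 hq A hA hζ M' hqM w 2)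
      ((q : ℕ) : FNK ↥(inertiaField A) (M' * q))
      ((q : ℕ) : FNK ↥(inertiaField A) (M' * q * q)) (dMid A M' q) := by
  rw [comp3_zero, comp3_one, comp3_two']
  exact MidAll.nfDataK0 hq A hA hζ M' hqM hW hw

/-- **`NF.Data` in the literal shape of `Core.chain`** at `(K0, W0)`, `q₀ := (q : W0)`, for any
`W0`-algebra structure on `K0 · F_{M'q}`. -/
theorem nfData_chain [Algebra ↥(W0 A) (FNK ↥(inertiaField A) (M' * q))]
    (hW : IsAL M' q W) (hw : IsAL3 M' q w) :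
    NF.Data (alphaStar ↥(inertiaField A) M' q) (betaStar ↥(inertiaField A) M' q) q
      (OInf (badSetup_W0 hq hA M' hqM)) (OZero (badSetup_W0 hq hA M' hqM) W)
      (comp3 hq A hA hζ M' hqM w 0) (comp3 hq A hA hζ M' hqM w 1) (comp3 hq A hA hζ M' hqM w 2)
      (algebraMap ↥(W0 A) (FNK ↥(inertiaField A) (M' * q)) ((q : ℕ) : ↥(W0 A)))
      ((q : ℕ) : FNK ↥(inertiaField A) (M' * q * q)) (dMid A M' q) := by
  rw [map_natCast, comp3_zero, comp3_one, comp3_two']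
  exact MidAll.nfDataK0 hq A hA hζ M' hqM hW hw

set_option synthInstance.maxHeartbeats 400000 in
/-- `hWA` of `Core.chain`: the constants of `W0` lie in `O_∞` (level `M' q`). -/
theorem algebraMap_W0_mem_OInf [Algebra ↥(W0 A) (FNK ↥(K0 A) (M' * q))]
    [IsScalarTower ↥(W0 A) ↥(K0 A) (FNK ↥(K0 A) (M' * q))] :
    ∀ c : W0 A, algebraMap (W0 A) (FNK ↥(K0 A) (M' * q)) c
      ∈ OInf (badSetup_W0 hq hA M' hqM) := by
  intro c
  rw [IsScalarTower.algebraMap_apply (W0 A) (K0 A) (FNK ↥(K0 A) (M' * q))]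
  exact (algebraMap_mem_OInf_iff (badSetup_W0 hq hA M' hqM) _).mpr c.2

set_option synthInstance.maxHeartbeats 400000 in
/-- `hWC` of `Core.chain`: the constants of `W0` lie in `O_0` (level `M' q`). -/
theorem algebraMap_W0_mem_OZero [Algebra ↥(W0 A) (FNK ↥(K0 A) (M' * q))]
    [IsScalarTower ↥(W0 A) ↥(K0 A) (FNK ↥(K0 A) (M' * q))] :
    ∀ c : W0 A, algebraMap (W0 A) (FNK ↥(K0 A) (M' * q)) c
      ∈ OZero (badSetup_W0 hq hA M' hqM) W := by
  intro c
  rw [IsScalarTower.algebraMap_apply (W0 A) (K0 A) (FNK ↥(K0 A) (M' * q))]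
  exact (algebraMap_mem_OZero_iff (badSetup_W0 hq hA M' hqM) _).mpr c.2

open Fermat.Agent.CAR.Core Fermat.Agent.CAR.Glob.Charts in
set_option maxHeartbeats 1000000 in
set_option synthInstance.maxHeartbeats 400000 in
/-- **`NewInertiaK0At` over the inertia field from the chart block and the point packages**:
`Core.newInertiaK0At_W0_of_points` with the record `NF.Data` (`nfData_comp3`) filled in. -/
theorem newInertiaK0At_of_pointPkgs (p : ℕ) (hp : p.Prime) (hqp : q ≠ p)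
    [Algebra ↥(W0 A) (FNK ↥(K0 A) (M' * q))] [Algebra ↥(W0 A) (FNK ↥(K0 A) (M' * q * q))]
    [IsScalarTower ↥(W0 A) ↥(K0 A) (FNK ↥(K0 A) (M' * q))]
    [IsScalarTower ↥(W0 A) ↥(K0 A) (FNK ↥(K0 A) (M' * q * q))]
    (hW : IsAL M' q W) (hw : IsAL3 M' q w)
    (x : FNK ↥(K0 A) (M' * q * q)) (hx : (x : LaurentSeries ↥(K0 A)).order ≠ 0)
    (hRV : ∀ i, ∀ r ∈ chart ↥(W0 A) x, r ∈ comp3 hq A hA hζ M' hqM w i)
    (hR'V : ∀ i, ∀ r ∈ chart ↥(W0 A) x⁻¹, r ∈ comp3 hq A hA hζ M' hqM w i)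
    (hmin : ∀ 𝔮 ∈ (Ideal.span {algebraMap (W0 A) (chart ↥(W0 A) x)
        ((q : ℕ) : W0 A)}).minimalPrimes,
      ∃ i, 𝔮 = Local.centre (comp3 hq A hA hζ M' hqM w i)
        (fun a : chart ↥(W0 A) x => hRV i a a.2))
    (hmin' : ∀ 𝔮 ∈ (Ideal.span {algebraMap (W0 A) (chart ↥(W0 A) x⁻¹)
        ((q : ℕ) : W0 A)}).minimalPrimes,
      ∃ i, 𝔮 = Local.centre (comp3 hq A hA hζ M' hqM w i)
        (fun a : chart ↥(W0 A) x⁻¹ => hR'V i a a.2))
    (hptR : ∀ (n : ℕ) (Q : Ideal (chart ↥(W0 A) x)), Q.IsMaximal →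
      algebraMap (W0 A) (chart ↥(W0 A) x) ((q : ℕ) : W0 A) ∈ Q →
      PointPkg ↥(K0 A) (resW0 A) (p ^ n) q (alphaStar ↥(K0 A) M' q) (betaStar ↥(K0 A) M' q)
        (OInf (badSetup_W0 hq hA M' hqM)) (OZero (badSetup_W0 hq hA M' hqM) W)
        (comp3 hq A hA hζ M' hqM w)
        (LocalPair (comp3 hq A hA hζ M' hqM w) (chart ↥(W0 A) x) Q (p ^ n)))
    (hptR' : ∀ (n : ℕ) (Q : Ideal (chart ↥(W0 A) x⁻¹)), Q.IsMaximal →
      algebraMap (W0 A) (chart ↥(W0 A) x⁻¹) ((q : ℕ) : W0 A) ∈ Q →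
      (⟨x⁻¹, self_mem_chart x⁻¹⟩ : chart ↥(W0 A) x⁻¹) ∈ Q →
      PointPkg ↥(K0 A) (resW0 A) (p ^ n) q (alphaStar ↥(K0 A) M' q) (betaStar ↥(K0 A) M' q)
        (OInf (badSetup_W0 hq hA M' hqM)) (OZero (badSetup_W0 hq hA M' hqM) W)
        (comp3 hq A hA hζ M' hqM w)
        (LocalPair (comp3 hq A hA hζ M' hqM w) (chart ↥(W0 A) x⁻¹) Q (p ^ n))) :
    NormBc.NewInertiaK0At (M' * q) q p (K0.inertiaField A) :=
  newInertiaK0At_W0_of_points hq A hA M' p hp hqp
    (OInf (badSetup_W0 hq hA M' hqM)) (OZero (badSetup_W0 hq hA M' hqM) W)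
    (comp3 hq A hA hζ M' hqM w) ((q : ℕ) : FNK ↥(K0 A) (M' * q * q)) (dMid A M' q)
    (nfData_comp3 hq A hA hζ M' hqM hW hw) (algebraMap_W0_mem_OInf hq A hA M' hqM)
    (algebraMap_W0_mem_OZero hq A hA M' hqM) x hx hRV hR'V hmin hmin' hptR hptR'

end Fermat.Agent.CAR.Inst.NFDataChain

end
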