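import Mathlib
import Fermat.Agent.CAR.Inst.UnitsClosed
import Fermat.Agent.CAR.Core.HptRpK0B
import Fermat.Agent.CAR.Core.Plug

/-!
# CAR (instance, G7): the units block of the finite-chart contract at `Core.O3` / `red3`

`B = ↥(chart W0 (J_0 J_2))`, components `Core.O3 hq A hA hζ M' hqM w = ![O_∞, O_mid, O_0]`,
reductions `HptRpK0B.red3 hq A hA hζ M' hqM w`.  For any `qB dB : B` mapping to `q`, `dMid`,
there are `uB u₁B v₁B hB : B` such that the record `UnitsCols.UnitsFields` (the fourteen unit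
fields `e_ne prod Db_ne u_* u₁_* v₁_* cert red_h` of `Local.Inst.Contract`) holds at
`(O3 i, red3 i, hBO i)`:

* `exists_unitsFields_red3` : `hBO` a binder;
* `exists_unitsFields_red3_hRV` : `hBO := fun i a => HMin3.hRV3 … i a a.2`, canonical
  `qB := algebraMap W0 B q`, `dB := ⟨dMid, _⟩`.
-/

set_option autoImplicit false
set_option linter.style.haveILetI false
set_option linter.unusedSectionVars false

namespace Fermat.Agent.CAR.Inst.UnitsFinContract

open ModularCurve HahnSeries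
open Fermat.Agent.S28 Fermat.Agent.Lib.Red
open Fermat.Agent.CAR.Glob Fermat.Agent.CAR.Glob.Charts Fermat.Agent.CAR.Glob.CuspQuot
open Fermat.Agent.CAR.V3 Fermat.Agent.CAR.V3.Units
open Fermat.Agent.CAR.K0 Fermat.Agent.CAR.V3.MidRing Fermat.Agent.CAR.V3.MidUnits
open Fermat.Agent.CAR.Local Fermat.Agent.CAR.Local.InstCusp
open Fermat.Agent.CAR.Inst.UnitsCols Fermat.Agent.CAR.Core Fermat.Agent.CAR.Core.HptRpK0B

local notation "Qb" => AlgebraicClosure ℚ

set_option synthInstance.maxHeartbeats 400000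
set_option maxHeartbeats 1000000

variable {q : ℕ} [NeZero q] (hq : q.Prime) {A : ValuationSubring Qb} (hA : A.LiesOverPrime q)
  {ζ : Qb} (hζ : IsPrimitiveRoot ζ q) (M' : ℕ) [NeZero M'] (hqM : ¬ q ∣ M')
  {w : laurentBaseChange ↥(K0 A) (modularFunctionFieldFull (M' * q * q)) ≃ₐ[↥(K0 A)]
    laurentBaseChange ↥(K0 A) (modularFunctionFieldFull (M' * q * q))}
  [Algebra ↥(W0 A) ↥(laurentBaseChange ↥(K0 A) (modularFunctionFieldFull (M' * q * q)))]
  [IsScalarTower ↥(W0 A) ↥(K0 A)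
    ↥(laurentBaseChange ↥(K0 A) (modularFunctionFieldFull (M' * q * q)))]

/-- **The units block at `Core.O3` / `HptRpK0B.red3`, `hBO` a binder.** -/
theorem exists_unitsFields_red3
    [IsAlgClosed (IsLocalRing.ResidueField A)] (hw : IsAL3 M' q w)
    (hBO : ∀ i, ∀ b : ↥(chart ↥(W0 A) (J0 (q := q) ↥(K0 A) M' * J2 (q := q) ↥(K0 A) M')),
      algebraMap _ ↥(laurentBaseChange ↥(K0 A) (modularFunctionFieldFull (M' * q * q))) b
        ∈ O3 hq A hA hζ M' hqM w i)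
    (qB dB : ↥(chart ↥(W0 A) (J0 (q := q) ↥(K0 A) M' * J2 (q := q) ↥(K0 A) M')))
    (hqB : algebraMap _ ↥(laurentBaseChange ↥(K0 A) (modularFunctionFieldFull (M' * q * q))) qB =
      ((q : ℕ) : ↥(laurentBaseChange ↥(K0 A) (modularFunctionFieldFull (M' * q * q)))))
    (hdB : algebraMap _ ↥(laurentBaseChange ↥(K0 A) (modularFunctionFieldFull (M' * q * q))) dB =
      dMid A M' q) :
    ∃ (uB u₁B v₁B hB : ↥(chart ↥(W0 A) (J0 (q := q) ↥(K0 A) M' * J2 (q := q) ↥(K0 A) M')))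
      (y₁ y₂ : ↥(laurentBaseChange ↥(K0 A) (modularFunctionFieldFull (M' * q * q)))),
      (y₁ : LaurentSeries ↥(K0 A)) = u1 ↥(K0 A) q ∧ (y₂ : LaurentSeries ↥(K0 A)) = u2 ↥(K0 A) q ∧
      algebraMap _ ↥(laurentBaseChange ↥(K0 A) (modularFunctionFieldFull (M' * q * q))) uB =
        y₂ / y₁ ∧
      algebraMap _ ↥(laurentBaseChange ↥(K0 A) (modularFunctionFieldFull (M' * q * q))) u₁B =
        y₁ ∧
      algebraMap _ ↥(laurentBaseChange ↥(K0 A) (modularFunctionFieldFull (M' * q * q))) v₁B =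
        ((q : ℕ) : ↥(laurentBaseChange ↥(K0 A) (modularFunctionFieldFull (M' * q * q)))) ^ 12 /
          y₂ ∧
      algebraMap _ ↥(laurentBaseChange ↥(K0 A) (modularFunctionFieldFull (M' * q * q))) hB =
        dMid A M' q ^ (12 * (q - 1)) * y₁ / y₂ ∧
      UnitsFields (O3 hq A hA hζ M' hqM w 0) (O3 hq A hA hζ M' hqM w 1) (O3 hq A hA hζ M' hqM w 2)
        (red3 hq A hA hζ M' hqM w 0) (red3 hq A hA hζ M' hqM w 1) (red3 hq A hA hζ M' hqM w 2)
        (hBO 0) (hBO 1) (hBO 2)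
        qB dB uB u₁B v₁B hB (Db hq hA M' hqM)
        (Local.Inst.Deriv.GJ (IsLocalRing.ResidueField A) M') 12 (q - 1) :=
  UnitsClosed.exists_unitsFields_of_transfer hq hA hζ M' hqM
    (MidKappa.redMidK hq A hA hζ M' hqM (Count.redMid_mem_fullC hq A hA hζ M' hqM))
    (fun f => MidKappa.coe_redMidK hq A hA hζ M' hqM _ f) hw
    (O3 hq A hA hζ M' hqM w) (red3 hq A hA hζ M' hqM w)
    (fun _ _ h => h) (fun _ _ h => h) (fun _ _ h => h) hBO qB dB hqB hdB

/-- `hBO`: the chart ring lies in the three components (`HMin3.hRV3` in the `algebraMap`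
shape). -/
theorem hBO3 (hw : IsAL3 M' q w) (i : Fin 3)
    (b : ↥(chart ↥(W0 A) (J0 (q := q) ↥(K0 A) M' * J2 (q := q) ↥(K0 A) M'))) :
    algebraMap _ ↥(laurentBaseChange ↥(K0 A) (modularFunctionFieldFull (M' * q * q))) b
        ∈ O3 hq A hA hζ M' hqM w i :=
  HMin3.hRV3 hq A hA hζ M' hqM hw i b.1 b.2

/-- The canonical `dB := ⟨dMid, _⟩ : B`. -/
noncomputable def dB :
    ↥(chart ↥(W0 A) (J0 (q := q) ↥(K0 A) M' * J2 (q := q) ↥(K0 A) M')) :=
  ⟨dMid A M' q, UnitsFinUF.dMid_mem_chart hq A M'⟩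

theorem algebraMap_dB :
    algebraMap _ ↥(laurentBaseChange ↥(K0 A) (modularFunctionFieldFull (M' * q * q)))
      (dB hq (A := A) M') = dMid A M' q := rfl

/-- **The units block at `Core.O3` / `HptRpK0B.red3`, fully closed**: `hBO := hBO3`
(= `HMin3.hRV3`), `qB := algebraMap W0 B q`, `dB := ⟨dMid, _⟩`. -/
theorem exists_unitsFields_red3_hRV
    [IsAlgClosed (IsLocalRing.ResidueField A)] (hw : IsAL3 M' q w) :
    ∃ (uB u₁B v₁B hB : ↥(chart ↥(W0 A) (J0 (q := q) ↥(K0 A) M' * J2 (q := q) ↥(K0 A) M')))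
      (y₁ y₂ : ↥(laurentBaseChange ↥(K0 A) (modularFunctionFieldFull (M' * q * q)))),
      (y₁ : LaurentSeries ↥(K0 A)) = u1 ↥(K0 A) q ∧ (y₂ : LaurentSeries ↥(K0 A)) = u2 ↥(K0 A) q ∧
      algebraMap _ ↥(laurentBaseChange ↥(K0 A) (modularFunctionFieldFull (M' * q * q))) uB =
        y₂ / y₁ ∧
      algebraMap _ ↥(laurentBaseChange ↥(K0 A) (modularFunctionFieldFull (M' * q * q))) u₁B =
        y₁ ∧
      algebraMap _ ↥(laurentBaseChange ↥(K0 A) (modularFunctionFieldFull (M' * q * q))) v₁B =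
        ((q : ℕ) : ↥(laurentBaseChange ↥(K0 A) (modularFunctionFieldFull (M' * q * q)))) ^ 12 /
          y₂ ∧
      algebraMap _ ↥(laurentBaseChange ↥(K0 A) (modularFunctionFieldFull (M' * q * q))) hB =
        dMid A M' q ^ (12 * (q - 1)) * y₁ / y₂ ∧
      UnitsFields (O3 hq A hA hζ M' hqM w 0) (O3 hq A hA hζ M' hqM w 1) (O3 hq A hA hζ M' hqM w 2)
        (red3 hq A hA hζ M' hqM w 0) (red3 hq A hA hζ M' hqM w 1) (red3 hq A hA hζ M' hqM w 2)
        (hBO3 hq hA hζ M' hqM hw 0) (hBO3 hq hA hζ M' hqM hw 1) (hBO3 hq hA hζ M' hqM hw 2)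
        (algebraMap ↥(W0 A)
          ↥(chart ↥(W0 A) (J0 (q := q) ↥(K0 A) M' * J2 (q := q) ↥(K0 A) M')) ((q : ℕ) : ↥(W0 A)))
        (dB hq (A := A) M') uB u₁B v₁B hB (Db hq hA M' hqM)
        (Local.Inst.Deriv.GJ (IsLocalRing.ResidueField A) M') 12 (q - 1) :=
  exists_unitsFields_red3 hq hA hζ M' hqM hw (hBO3 hq hA hζ M' hqM hw) _ _
    (UnitsClosed.algebraMap_natCast_chart M' _) (algebraMap_dB hq M')

end Fermat.Agent.CAR.Inst.UnitsFinContract
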