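import Mathlib
import Fermat.Agent.CAR.Inst.HMinFin
import Fermat.Agent.CAR.Inst.BPrimeWeb
import Fermat.Agent.CAR.V3.UnitsF
import Fermat.Agent.CAR.V3.MidUnits
import Fermat.Agent.CAR.V3.UnitsZeroH

/-!
# CAR / row 385 (UF): the four unit elements of the finite chart ring

`x = CuspQuot.J0 * CuspQuot.J2` the chart function over the inertia field `K0`,
`B = Charts.chart W0 x` the finite chart ring, `y₁`, `y₂ ∈ F3 = K0 · F_{M' q²}` the functions with
`q`-expansions `u₁ = Δ(z)/Δ(qz)`, `u₂ = Δ(qz)/Δ(q²z)` (`Units.u1`, `Units.u2`).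

* `u1_mem_chart`, `v1_mem_chart`, `u2_mem_chart`, … : **integrality half** — `y₁`, `q¹²/y₁`, `y₂`,
  `q¹²/y₂` lie in `chart W x` for every coefficient ring `W` (`Units.isIntegral_units_of_coe`);
* `minimalPrimes_span_pow` : the primes minimal over `(a ^ n)` are those minimal over `(a)`;
* `u_mem_chart`, `h_mem_chart` : **saturation half** — `u = y₂/y₁` and the certificate
  `h = d^(12(q-1)) y₁/y₂` lie in `chart W0 x`: `q¹² u`, `q¹² h` are integral, `u`, `h` lie in the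
  three vertical rings, and the primes minimal over `q` are their centres (`HMinFin.hmin_fin`);
* `exists_unitsFin` : the four elements `uB u₁B v₁B hB` of `B` in the literal `hu hu₁ hv₁ hh`
  shape of `UnitsCols.unitsFields`.
-/

set_option autoImplicit false
set_option linter.unusedSectionVars false
set_option linter.style.haveILetI false

namespace Fermat.Agent.CAR.Inst.UnitsFinD

open IntermediateField
open Fermat.Agent.CAR.Formal (IsUnif)
open Fermat.Agent.CAR.V3.CountAbs Fermat.Agent.CAR.Glob Fermat.Agent.CAR.Glob.ChartX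
open Fermat.Agent.CAR.Glob.Charts Fermat.Agent.CAR.Local

/-! ### Minimal primes over a power -/

/-- The primes minimal over `(a ^ n)`, `n ≠ 0`, are the primes minimal over `(a)`. -/
theorem minimalPrimes_span_pow {R : Type*} [CommRing R] (a : R) {n : ℕ} (hn : n ≠ 0) :
    (Ideal.span {a ^ n}).minimalPrimes = (Ideal.span {a}).minimalPrimes := by
  rw [← Ideal.span_singleton_pow, ← Ideal.radical_minimalPrimes, Ideal.radical_pow _ hn,
    Ideal.radical_minimalPrimes]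

/-! ### Integrality half (any coefficient ring) -/

section Integral

open HahnSeries ModularCurve Fermat.Agent.Lib.Red Fermat.Agent.S28
open Fermat.Agent.ESJ.Cong.LevelGen Fermat.Agent.CAR.V3

variable {L : Type} [Field L] [Algebra ℚ L] {M' q : ℕ} [NeZero M'] [NeZero q]
  {W : Type*} [CommRing W]
  [Algebra W ↥(laurentBaseChange L (modularFunctionFieldFull (M' * q * q)))]
  {y₁ y₂ : ↥(laurentBaseChange L (modularFunctionFieldFull (M' * q * q)))}

/-- `π_0^* J` is integral over `W[J_0 J_2]`. -/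
theorem isIntegral_piStar0_jLevel (hq : q.Prime) :
    IsIntegral (Algebra.adjoin W
        {CuspQuot.J0 (q := q) L M' * CuspQuot.J2 (q := q) L M'})
      (piStar0 L M' q (jLevel L M')) :=
  BPrimeWeb.mem_chart_of_coe_eq_Jd L M' q hq one_ne_zero (coe_piStar0_jLevel L M' q)

/-- **Integrality half**: `y₁`, `q¹²/y₁`, `y₂`, `q¹²/y₂`, `q¹² y₁/y₂`, `q¹² y₂/y₁` lie in the finite
chart ring (any coefficient ring `W`). -/
theorem units_mem_chart (hq : q.Prime)
    (hy₁ : (y₁ : LaurentSeries L) = Units.u1 L q) (hy₂ : (y₂ : LaurentSeries L) = Units.u2 L q) :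
    y₁ ∈ chart W (CuspQuot.J0 (q := q) L M' * CuspQuot.J2 (q := q) L M') ∧
      ((q : ℕ) : ↥(laurentBaseChange L (modularFunctionFieldFull (M' * q * q)))) ^ 12 / y₁ ∈
        chart W (CuspQuot.J0 (q := q) L M' * CuspQuot.J2 (q := q) L M') ∧
      y₂ ∈ chart W (CuspQuot.J0 (q := q) L M' * CuspQuot.J2 (q := q) L M') ∧
      ((q : ℕ) : ↥(laurentBaseChange L (modularFunctionFieldFull (M' * q * q)))) ^ 12 / y₂ ∈
        chart W (CuspQuot.J0 (q := q) L M' * CuspQuot.J2 (q := q) L M') ∧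
      ((q : ℕ) : ↥(laurentBaseChange L (modularFunctionFieldFull (M' * q * q)))) ^ 12 *
          (y₁ / y₂) ∈ chart W (CuspQuot.J0 (q := q) L M' * CuspQuot.J2 (q := q) L M') ∧
      ((q : ℕ) : ↥(laurentBaseChange L (modularFunctionFieldFull (M' * q * q)))) ^ 12 *
          (y₂ / y₁) ∈ chart W (CuspQuot.J0 (q := q) L M' * CuspQuot.J2 (q := q) L M') := by
  obtain ⟨i1, i2, i3, i4, i5, i6⟩ := Units.isIntegral_units_of_coe
    (R₁ := ↥(Algebra.adjoin W {CuspQuot.J0 (q := q) L M' * CuspQuot.J2 (q := q) L M'}))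
    hq (isIntegral_piStar0_jLevel hq) hy₁ hy₂
  exact ⟨mem_chart_iff.mpr i1, mem_chart_iff.mpr i2, mem_chart_iff.mpr i3, mem_chart_iff.mpr i4,
    mem_chart_iff.mpr i5, mem_chart_iff.mpr i6⟩

/-- `q¹² · (d^n · y₁ / y₂)` lies in the finite chart ring for `d` in it. -/
theorem cert_mul_mem_chart (hq : q.Prime)
    (hy₁ : (y₁ : LaurentSeries L) = Units.u1 L q) (hy₂ : (y₂ : LaurentSeries L) = Units.u2 L q)
    {d : ↥(laurentBaseChange L (modularFunctionFieldFull (M' * q * q)))}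
    (hd : d ∈ chart W (CuspQuot.J0 (q := q) L M' * CuspQuot.J2 (q := q) L M')) (n : ℕ) :
    ((q : ℕ) : ↥(laurentBaseChange L (modularFunctionFieldFull (M' * q * q)))) ^ 12 *
        (d ^ n * y₁ / y₂) ∈ chart W (CuspQuot.J0 (q := q) L M' * CuspQuot.J2 (q := q) L M') :=
  mem_chart_iff.mpr (Units.isIntegral_cert_of_coe
    (R₁ := ↥(Algebra.adjoin W {CuspQuot.J0 (q := q) L M' * CuspQuot.J2 (q := q) L M'}))
    hq (isIntegral_piStar0_jLevel hq) hy₁ hy₂ (mem_chart_iff.mp hd) n)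

end Integral

/-! ### Saturation half, over the inertia field -/

section K0Inst

open HahnSeries ModularCurve AlgebraicCurve Fermat.Agent.Lib.Red Fermat.Agent.S28
open Fermat.Agent.ESJ.Cong.LevelGen Fermat.Agent.BAD.TwoVal
open Fermat.Agent.CAR.K0 Fermat.Agent.CAR.V3 Fermat.Agent.CAR.V3.MidRing

local notation "Qb" => AlgebraicClosure ℚ

set_option synthInstance.maxHeartbeats 400000
set_option maxHeartbeats 1000000

variable {q : ℕ} [NeZero q] (hq : q.Prime) (A : ValuationSubring Qb) (hA : A.LiesOverPrime q)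
  {ζ : Qb} (hζ : IsPrimitiveRoot ζ q) (M' : ℕ) [NeZero M'] (hqM : ¬ q ∣ M')
  {w : laurentBaseChange ↥(K0 A) (modularFunctionFieldFull (M' * q * q)) ≃ₐ[↥(K0 A)]
    laurentBaseChange ↥(K0 A) (modularFunctionFieldFull (M' * q * q))}
  {y₁ y₂ : ↥(laurentBaseChange ↥(K0 A) (modularFunctionFieldFull (M' * q * q)))}
  [Algebra ↥(W0 A) ↥(laurentBaseChange ↥(K0 A) (modularFunctionFieldFull (M' * q * q)))]
  [IsScalarTower ↥(W0 A) ↥(K0 A)
    ↥(laurentBaseChange ↥(K0 A) (modularFunctionFieldFull (M' * q * q)))]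

/-- **Saturation at `q¹²`** in the finite chart ring: an element of the three vertical rings whose
product with `q¹²` lies in `chart W0 (J_0 J_2)` lies in it. -/
theorem mem_chart_of_pow_mul_mem (hw : IsAL3 M' q w)
    {y : ↥(laurentBaseChange ↥(K0 A) (modularFunctionFieldFull (M' * q * q)))}
    (h0 : y ∈ OInf3 (badSetup_W0 hq hA M' hqM))
    (h1 : y ∈ OMid hq A hA hζ M' hqM (IsLocalRing.residue A))
    (h2 : y ∈ OZero3 (badSetup_W0 hq hA M' hqM) w)
    (hqy : ((q : ℕ) : ↥(laurentBaseChange ↥(K0 A) (modularFunctionFieldFull (M' * q * q)))) ^ 12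
      * y ∈ chart ↥(W0 A) (CuspQuot.J0 (q := q) ↥(K0 A) M' * CuspQuot.J2 (q := q) ↥(K0 A) M')) :
    y ∈ chart ↥(W0 A) (CuspQuot.J0 (q := q) ↥(K0 A) M' * CuspQuot.J2 (q := q) ↥(K0 A) M') := by
  haveI := isDiscreteValuationRing_W0 hq hA
  haveI : IsNoetherianRing ↥(W0 A) := inferInstance
  haveI : IsIntegrallyClosed ↥(W0 A) := inferInstance
  have hx := HMinFin.order_x_ne_zero ↥(K0 A) M' q
  haveI := ChartField.finiteDimensional_FNK ↥(K0 A) (M' * q * q) _ hx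
  haveI := ChartField.isSeparable_FNK ↥(K0 A) (M' * q * q) _ hx
  have hRV := HMinFin.hRV_fin hq A hA hζ M' hqM hw
  have hqW : (((q : ℕ) : ↥(W0 A)) : ↥(K0 A)) = ((q : ℕ) : ↥(K0 A)) := rfl
  have hmin := HMinFin.hmin_fin hq A hA hζ M' hqM hw ((q : ℕ) : ↥(W0 A)) hqW hRV
  have hcast : algebraMap ↥(W0 A)
      ↥(laurentBaseChange ↥(K0 A) (modularFunctionFieldFull (M' * q * q))) ((q : ℕ) : ↥(W0 A)) =
      ((q : ℕ) : ↥(laurentBaseChange ↥(K0 A) (modularFunctionFieldFull (M' * q * q)))) :=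
    map_natCast _ q
  have hq0 : ((q : ℕ) : ↥(laurentBaseChange ↥(K0 A) (modularFunctionFieldFull (M' * q * q))))
      ≠ 0 := Nat.cast_ne_zero.mpr hq.ne_zero
  have hbF : ((algebraMap ↥(W0 A) (chart ↥(W0 A)
      (CuspQuot.J0 (q := q) ↥(K0 A) M' * CuspQuot.J2 (q := q) ↥(K0 A) M')) ((q : ℕ) : ↥(W0 A)) ^ 12
        : chart ↥(W0 A) (CuspQuot.J0 (q := q) ↥(K0 A) M' * CuspQuot.J2 (q := q) ↥(K0 A) M')) :
      ↥(laurentBaseChange ↥(K0 A) (modularFunctionFieldFull (M' * q * q)))) =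
      ((q : ℕ) : ↥(laurentBaseChange ↥(K0 A) (modularFunctionFieldFull (M' * q * q)))) ^ 12 := by
    rw [SubmonoidClass.coe_pow, ← hcast]
    rfl
  refine mem_chart_of_mul_mem (W := ↥(W0 A)) (K0 := ↥(K0 A)) _
    (ChartField.transcendental_FNK ↥(K0 A) (M' * q * q) _ hx) _
    (mem_adjoin_simple_self ↥(K0 A) _) le_rfl hRV
    (b := algebraMap ↥(W0 A) (chart ↥(W0 A)
      (CuspQuot.J0 (q := q) ↥(K0 A) M' * CuspQuot.J2 (q := q) ↥(K0 A) M')) ((q : ℕ) : ↥(W0 A))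
        ^ 12) ?_ ?_ ?_ ?_
  · intro hb0
    have h3 := congrArg (fun z : chart ↥(W0 A)
      (CuspQuot.J0 (q := q) ↥(K0 A) M' * CuspQuot.J2 (q := q) ↥(K0 A) M') =>
        (z : ↥(laurentBaseChange ↥(K0 A) (modularFunctionFieldFull (M' * q * q))))) hb0
    simp only [hbF] at h3
    exact pow_ne_zero 12 hq0 h3
  · rw [minimalPrimes_span_pow _ (by norm_num : (12 : ℕ) ≠ 0)]
    exact hmin
  · intro i
    fin_cases i
    · exact h0
    · exact h1
    · exact h2
  · rw [hbF]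
    exact hqy

variable (hy₁ : (y₁ : LaurentSeries ↥(K0 A)) = Units.u1 ↥(K0 A) q)
  (hy₂ : (y₂ : LaurentSeries ↥(K0 A)) = Units.u2 ↥(K0 A) q)

include hq hA hζ hqM hy₁ hy₂

/-- **`u = y₂ / y₁` lies in the finite chart ring.** -/
theorem u_mem_chart (hw : IsAL3 M' q w) :
    y₂ / y₁ ∈ chart ↥(W0 A)
      (CuspQuot.J0 (q := q) ↥(K0 A) M' * CuspQuot.J2 (q := q) ↥(K0 A) M') :=
  mem_chart_of_pow_mul_mem hq A hA hζ M' hqM hw
    (UnitsZero.u_mem_OInf3 (badSetup_W0 hq hA M' hqM) (UnitsZero.coe_u_of_y hy₁ hy₂))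
    (MidUnits.u_mem_OMid hq A hA hζ M' hqM (IsLocalRing.residue A)
      (residue_eq_zero_of_not_isUnit A) hy₁ hy₂)
    (UnitsZero.u_mem_OZero3_of_y (badSetup_W0 hq hA M' hqM) hw hy₁ hy₂)
    (units_mem_chart hq hy₁ hy₂).2.2.2.2.2

/-- **The certificate `h = d^(12(q-1)) y₁ / y₂` lies in the finite chart ring.** -/
theorem h_mem_chart (hw : IsAL3 M' q w) :
    dMid A M' q ^ (12 * (q - 1)) * y₁ / y₂ ∈ chart ↥(W0 A)
      (CuspQuot.J0 (q := q) ↥(K0 A) M' * CuspQuot.J2 (q := q) ↥(K0 A) M') :=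
  mem_chart_of_pow_mul_mem hq A hA hζ M' hqM hw
    (UnitsZeroH.hMid_mem_OInf3 (badSetup_W0 hq hA M' hqM) hy₁ hy₂)
    (MidUnits.cert_mid' hq A hA hζ M' hqM (IsLocalRing.residue A)
      (residue_eq_zero_of_not_isUnit A) hy₁ hy₂).1
    (UnitsZeroH.hMid_mem_OZero3 (badSetup_W0 hq hA M' hqM) hw hy₁ hy₂)
    (cert_mul_mem_chart hq hy₁ hy₂ (BPrimeWeb.dMid_mem_chart A M' q hq) _)

/-- **(UF)** The four unit elements of the finite chart ring `B = chart W0 (J_0 J_2)`, in the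
literal shape of the hypotheses `hu hu₁ hv₁ hh` of `UnitsCols.unitsFields`. -/
theorem exists_unitsFin (hw : IsAL3 M' q w) :
    ∃ uB u₁B v₁B hB : ↥(chart ↥(W0 A)
        (CuspQuot.J0 (q := q) ↥(K0 A) M' * CuspQuot.J2 (q := q) ↥(K0 A) M')),
      algebraMap ↥(chart ↥(W0 A)
          (CuspQuot.J0 (q := q) ↥(K0 A) M' * CuspQuot.J2 (q := q) ↥(K0 A) M'))
          ↥(laurentBaseChange ↥(K0 A) (modularFunctionFieldFull (M' * q * q))) uB = y₂ / y₁ ∧
      algebraMap ↥(chart ↥(W0 A)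
          (CuspQuot.J0 (q := q) ↥(K0 A) M' * CuspQuot.J2 (q := q) ↥(K0 A) M'))
          ↥(laurentBaseChange ↥(K0 A) (modularFunctionFieldFull (M' * q * q))) u₁B = y₁ ∧
      algebraMap ↥(chart ↥(W0 A)
          (CuspQuot.J0 (q := q) ↥(K0 A) M' * CuspQuot.J2 (q := q) ↥(K0 A) M'))
          ↥(laurentBaseChange ↥(K0 A) (modularFunctionFieldFull (M' * q * q))) v₁B =
        ((q : ℕ) : ↥(laurentBaseChange ↥(K0 A) (modularFunctionFieldFull (M' * q * q)))) ^ 12
          / y₂ ∧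
      algebraMap ↥(chart ↥(W0 A)
          (CuspQuot.J0 (q := q) ↥(K0 A) M' * CuspQuot.J2 (q := q) ↥(K0 A) M'))
          ↥(laurentBaseChange ↥(K0 A) (modularFunctionFieldFull (M' * q * q))) hB =
        dMid A M' q ^ (12 * (q - 1)) * y₁ / y₂ :=
  ⟨⟨_, u_mem_chart hq A hA hζ M' hqM hy₁ hy₂ hw⟩, ⟨_, (units_mem_chart hq hy₁ hy₂).1⟩,
    ⟨_, (units_mem_chart hq hy₁ hy₂).2.2.2.1⟩, ⟨_, h_mem_chart hq A hA hζ M' hqM hy₁ hy₂ hw⟩,
    rfl, rfl, rfl, rfl⟩

end K0Inst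

end Fermat.Agent.CAR.Inst.UnitsFinD
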