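/-
CAR (instance layer): the small `K0`-level facts which the `Contract` / cusp / chart instances
call, on the RAW `V3` objects and in the literal shapes of the records.

Setting: `q` prime, `A` a valuation subring of `ℚ̄` over `q`, `K0 = ℚ̄^I`, `W0 = A ∩ K0`,
`k` the residue field of `A`, `hB := K0.badSetup_W0 hq hA M' hqM`, the three components
`OInf3 hB`, `OMid hq A hA hζ M' hqM (IsLocalRing.residue A)`, `OZero3 hB w` of
`F3 = K0 · F_{M' q²}`, the chart function `x = CuspQuot.J0 * CuspQuot.J2` (ruling #6, R1).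

* `hred_inf`, `hred_zero`, `hred_mid`, `hred_mid_of_coe` : the field `hred` per component
  (`red f = 0 ↔ f ∈ IsLocalRing.maximalIdeal O`);  `forall_fin3` : the `Fin 3` assembler;
* `q_mem_inf`, `q_mem_mid`, `q_mem_zero` (+ `algebraMap` forms) : `q` is a non-unit of each
  component (`q_mem`, `hqV`);
* `unif_inf`, `unif_zero` : Contract shape `∀ z ∈ O.nonunits, z / q ∈ O`;  `he_inf`, `he_mid`,
  `he_zero` : `∀ z ∈ O.nonunits, z ^ (q - 1) / q ∈ O`;
* `redInf3_surjective`, `redZero3_surjective`, `joint_surjective_K0`;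
* `algebraMap_W0_mem_inf / mid / zero` : the constants of `W0` lie in each component;
  `x_mem_*`, `x_inv_mem_*` : `x` and `x⁻¹` lie in each component;
  `chart_le_inf / mid / zero`, `chart_inv_le_inf / mid / zero` : `hBO`, `hRV`, `hR'V`;
* `isUnit_natCast_W0`, `exists_natCast_mul_eq_one`, `exists_pow_mul_eq_one` : `(m : W0)` is
  invertible for `m` prime to `q`;  `isNoetherianRing_W0`, `isIntegrallyClosed_W0`.
-/
import Mathlib
import Fermat.Agent.CAR.V3.MidPull
import Fermat.Agent.CAR.V3.RestrictZero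
import Fermat.Agent.CAR.Glob.Charts
import Fermat.Agent.CAR.Glob.ChartRam
import Fermat.Agent.CAR.Glob.CuspQuotInst
import Fermat.Agent.CAR.Local.Inst.ChartFields
import Fermat.Agent.CAR.K0.Setup

set_option autoImplicit false
set_option linter.unusedSectionVars false
set_option linter.style.haveILetI false

noncomputable section

namespace Fermat.Agent.CAR.Inst.V3K0

open ModularCurve HahnSeries Fermat.Agent.S28 Fermat.Agent.Lib.Red Fermat.Agent.CAR.K0
  Fermat.Agent.CAR.V3 Fermat.Agent.CAR.V3.MidRing Fermat.Agent.BAD.TwoVal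
  Fermat.Agent.CAR.Formal Fermat.Agent.CAR.Glob Fermat.Agent.CAR.Glob.Charts
  Fermat.Agent.CAR.V3.Restrict Fermat.Agent.CAR.V3.RestrictZero

local notation "Qb" => AlgebraicClosure ℚ

/-! ### Abstract valuation-ring facts -/

section Abstract

variable {F : Type*} [Field F]

/-- A statement about a `Fin 3`-family from its three instances. -/
theorem forall_fin3 {P : Fin 3 → Prop} (h0 : P 0) (h1 : P 1) (h2 : P 2) : ∀ i, P i := by
  intro i
  fin_cases i
  · exact h0
  · exact h1
  · exact h2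

/-- "kernel = non-units" in the literal `hred` shape of the records. -/
theorem iff_mem_maximalIdeal_of_iff_not_isUnit {O : ValuationSubring F} {κ : Type*} [Zero κ]
    {r : O → κ} (h : ∀ f : O, r f = 0 ↔ ¬ IsUnit f) :
    ∀ x : O, r x = 0 ↔ x ∈ IsLocalRing.maximalIdeal O := fun x => by
  rw [h, IsLocalRing.mem_maximalIdeal, mem_nonunits_iff]

/-- The inverse of a unit of a valuation subring lies in it. -/
theorem inv_mem_of_isUnit {O : ValuationSubring F} {f : F} (hf : f ∈ O)
    (hu : IsUnit (⟨f, hf⟩ : O)) : f⁻¹ ∈ O := by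
  obtain ⟨b, hb⟩ := hu.exists_right_inv
  have hb' : f * (b : F) = 1 := congrArg Subtype.val hb
  rw [← eq_inv_of_mul_eq_one_right hb']
  exact b.2

/-- Contract shape of "`c` is a uniformiser". -/
theorem div_mem_of_isUnif {O : ValuationSubring F} {c : F} (h : IsUnif O c) :
    ∀ z ∈ O.nonunits, z / c ∈ O := by
  intro z hz
  have h1 := pow_div_mem_of_isUnif_self h (e := 1) one_pos z hz
  rwa [pow_one] at h1

/-- `hBO` / `hRV`: a valuation subring containing `W` and `x` contains the chart ring of `x`. -/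
theorem chart_le_of_mem {W : Type*} [CommRing W] [Algebra W F] (V : ValuationSubring F) {x : F}
    (hW : ∀ w : W, algebraMap W F w ∈ V) (hx : x ∈ V) : ∀ r ∈ chart W x, r ∈ V :=
  fun _ hr => Fermat.Agent.CAR.Local.Inst.ChartFields.mem_of_isIntegral_adjoin V hW hx
    (mem_chart_iff.mp hr)

end Abstract

/-! ### Generic abbreviations

The instances `Algebra K0 ↥(K0 · F_N)` / `SMul K0 ↥(K0 · F_N)` are slow to synthesise for
`K0 = inertiaField A` (1–3 s each, and section binders are re-elaborated for every declaration).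
The two abbreviations below are elaborated once for a generic constant field `L`; they are
REDUCIBLE, and instance search finds the same instance terms at `L = K0`, so

* `Aut3 ↥(K0 A) M' q` is the literal type
  `laurentBaseChange ↥(K0 A) (modularFunctionFieldFull (M' * q * q)) ≃ₐ[↥(K0 A)] …` of `w`, and
* `TowerW ↥(K0 A) (W0 A) M' q` is the literal binder
  `IsScalarTower ↥(W0 A) ↥(K0 A) ↥(laurentBaseChange ↥(K0 A) (modularFunctionFieldFull (M' * q * q)))`

(a consumer with the literal binders calls every statement below as it stands). -/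

section Abbrev

/-- The type of the `L`-automorphisms of `L · F_{M' q²}` (the type of `w` in `IsAL3 M' q w`). -/
abbrev Aut3 (L : Type*) [Field L] [Algebra ℚ L] (M' q : ℕ) : Type _ :=
  laurentBaseChange L (modularFunctionFieldFull (M' * q * q)) ≃ₐ[L]
    laurentBaseChange L (modularFunctionFieldFull (M' * q * q))

/-- The scalar tower `A → L → L · F_{M' q²}` for an algebra structure of the valuation ring `A`
on the function field. -/
abbrev TowerW (L : Type*) [Field L] [Algebra ℚ L] (A : ValuationSubring L) (M' q : ℕ)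
    [Algebra A ↥(laurentBaseChange L (modularFunctionFieldFull (M' * q * q)))] : Prop :=
  IsScalarTower A L ↥(laurentBaseChange L (modularFunctionFieldFull (M' * q * q)))

/-- `algebraMap A F = algebraMap L F ∘ (A ⊆ L)`. -/
theorem tower_algebraMap_apply {L : Type*} [Field L] [Algebra ℚ L] {A : ValuationSubring L}
    {M' q : ℕ} [Algebra A ↥(laurentBaseChange L (modularFunctionFieldFull (M' * q * q)))]
    [TowerW L A M' q] (a : A) :
    algebraMap A ↥(laurentBaseChange L (modularFunctionFieldFull (M' * q * q))) a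
      = algebraMap L ↥(laurentBaseChange L (modularFunctionFieldFull (M' * q * q))) (a : L) :=
  IsScalarTower.algebraMap_apply A L _ a

end Abbrev

/-! ### Generic base `(L, A, π)` with `BadSetup` -/

section Bad

variable {L : Type*} [Field L] [Algebra ℚ L] {A : ValuationSubring L} {k : Type} [Field k]
  {π : A →+* k} {M' q : ℕ} [NeZero M'] [NeZero q]
  {w : laurentBaseChange L (modularFunctionFieldFull (M' * q * q)) ≃ₐ[L]
    laurentBaseChange L (modularFunctionFieldFull (M' * q * q))}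

/-- `hred` for `O_∞`. -/
theorem hred_inf (h : BadSetup A π M' q) :
    ∀ x : OInf3 h, redInf3 h x = 0 ↔ x ∈ IsLocalRing.maximalIdeal (OInf3 h) :=
  iff_mem_maximalIdeal_of_iff_not_isUnit (redInf3_eq_zero_iff h)

/-- `hred` for `O_0`. -/
theorem hred_zero (h : BadSetup A π M' q)
    (w : laurentBaseChange L (modularFunctionFieldFull (M' * q * q)) ≃ₐ[L]
      laurentBaseChange L (modularFunctionFieldFull (M' * q * q))) :
    ∀ x : OZero3 h w, redZero3 h w x = 0 ↔ x ∈ IsLocalRing.maximalIdeal (OZero3 h w) :=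
  iff_mem_maximalIdeal_of_iff_not_isUnit (redZero3_eq_zero_iff h)

/-- `red_∞` is onto. -/
theorem redInf3_surjective (h : BadSetup A π M' q) (hsurj : Function.Surjective π) :
    Function.Surjective (redInf3 h) := by
  intro a
  obtain ⟨x, rfl⟩ := redF_surjective h.hπ hsurj h.hMk a
  have hx1 : piStar0 L M' q (x : laurentBaseChange L (modularFunctionFieldFull M')) ∈ OInf3 h :=
    (piStar0_mem_OInf3_iff h _).mpr x.2
  exact ⟨⟨_, hx1⟩, redInf3_piStar0 h _ x.2 hx1⟩

/-- `red_0` is onto. -/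
theorem redZero3_surjective (h : BadSetup A π M' q)
    (w : laurentBaseChange L (modularFunctionFieldFull (M' * q * q)) ≃ₐ[L]
      laurentBaseChange L (modularFunctionFieldFull (M' * q * q)))
    (hsurj : Function.Surjective π) : Function.Surjective (redZero3 h w) := by
  intro a
  obtain ⟨⟨c, hc⟩, rfl⟩ := redInf3_surjective h hsurj a
  have e : w (w.symm c) = c := w.apply_symm_apply c
  have hc' : w.symm c ∈ OZero3 h w := by
    rw [mem_OZero3_iff, e]
    exact hc
  have hc'' : w (w.symm c) ∈ OInf3 h := (mem_OZero3_iff h _).mp hc'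
  refine ⟨⟨w.symm c, hc'⟩, ?_⟩
  rw [redZero3_apply h _ hc' hc'']
  exact redInf3_congr h e hc'' hc

/-- The base function `xL = J(q^{M'})` lies in the Gauss valuation ring of level `M'`. -/
theorem xL_mem_Ow (hMk : (M' : k) ≠ 0) : xL L M' ∈ Ow A π M' hMk := by
  rw [mem_Ow_iff, coe_xL]
  exact Jd_mem_gaussRing A π M'

/-- The base function `xL = J(q^{M'})` is a unit of the Gauss valuation ring of level `M'`. -/
theorem xL_inv_mem_Ow (hMk : (M' : k) ≠ 0) : (xL L M')⁻¹ ∈ Ow A π M' hMk := by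
  rw [mem_Ow_iff]
  have e : (((xL L M')⁻¹ : laurentBaseChange L (modularFunctionFieldFull M')) : LaurentSeries L)
      = (TD.Jd L M')⁻¹ := by
    rw [← coe_xL]
    rfl
  rw [e]
  have hm : TD.Jd L M' ∈ gaussRing A π := Jd_mem_gaussRing A π M'
  refine inv_mem_gaussRing A π hm ?_
  rw [red_Jd]
  exact Fermat.Agent.S28.ValInd.Jd_ne_zero (K := k) M' (NeZero.ne M')

end Bad

/-! ### The chart function `x = J_0 J_2` in a valuation subring -/

section ChartFn

variable {L : Type} [Field L] [Algebra ℚ L] {A : ValuationSubring L} {k : Type} [Field k]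
  {π : A →+* k} {M' q : ℕ} [NeZero M'] [NeZero q]

/-- If `π_0^*` and `π_2^*` map the Gauss valuation ring of level `M'` into the valuation
subring `O`, then `x = J_0 J_2` and `x⁻¹` lie in `O`. -/
theorem x_mem_and_inv_mem (hMk : (M' : k) ≠ 0)
    (O : ValuationSubring ↥(laurentBaseChange L (modularFunctionFieldFull (M' * q * q))))
    (h0 : ∀ y ∈ Ow A π M' hMk, piStar0 L M' q y ∈ O)
    (h2 : ∀ y ∈ Ow A π M' hMk, piStar2 L M' q y ∈ O) :
    CuspQuot.J0 (q := q) L M' * CuspQuot.J2 L M' ∈ O ∧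
      (CuspQuot.J0 (q := q) L M' * CuspQuot.J2 L M')⁻¹ ∈ O := by
  have hx := xL_mem_Ow (L := L) (A := A) (π := π) (M' := M') hMk
  have hx' := xL_inv_mem_Ow (L := L) (A := A) (π := π) (M' := M') hMk
  refine ⟨O.mul_mem _ _ (h0 _ hx) (h2 _ hx), ?_⟩
  rw [mul_inv]
  refine O.mul_mem _ _ ?_ ?_
  · have e : (CuspQuot.J0 (q := q) L M')⁻¹ = piStar0 L M' q (xL L M')⁻¹ := by
      rw [map_inv₀]
      rfl
    rw [e]
    exact h0 _ hx'
  · have e : (CuspQuot.J2 (q := q) L M')⁻¹ = piStar2 L M' q (xL L M')⁻¹ := by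
      rw [map_inv₀]
      rfl
    rw [e]
    exact h2 _ hx'

variable {w : laurentBaseChange L (modularFunctionFieldFull (M' * q * q)) ≃ₐ[L]
    laurentBaseChange L (modularFunctionFieldFull (M' * q * q))}

/-- `x = J_0 J_2` is a unit of `O_∞`. -/
theorem x_mem_and_inv_mem_OInf3 (h : BadSetup A π M' q) :
    CuspQuot.J0 (q := q) L M' * CuspQuot.J2 L M' ∈ OInf3 h ∧
      (CuspQuot.J0 (q := q) L M' * CuspQuot.J2 L M')⁻¹ ∈ OInf3 h :=
  x_mem_and_inv_mem h.hMk (OInf3 h) (fun y hy => (piStar0_mem_OInf3_iff h y).mpr hy)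
    (fun y hy => (piStar2_mem_OInf3_iff h y).mpr hy)

/-- `x = J_0 J_2` is a unit of `O_0`. -/
theorem x_mem_and_inv_mem_OZero3 (h : BadSetup A π M' q) (hw : IsAL3 M' q w) :
    CuspQuot.J0 (q := q) L M' * CuspQuot.J2 L M' ∈ OZero3 h w ∧
      (CuspQuot.J0 (q := q) L M' * CuspQuot.J2 L M')⁻¹ ∈ OZero3 h w :=
  x_mem_and_inv_mem h.hMk (OZero3 h w) (fun y hy => (piStar0_mem_OZero3_iff h hw y).mpr hy)
    (fun y hy => (piStar2_mem_OZero3_iff h hw y).mpr hy)

variable [Algebra A ↥(laurentBaseChange L (modularFunctionFieldFull (M' * q * q)))]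
  [TowerW L A M' q]

/-- The constants of `A` lie in `O_∞`. -/
theorem algebraMap_mem_OInf3 (h : BadSetup A π M' q) (a : A) :
    algebraMap A ↥(laurentBaseChange L (modularFunctionFieldFull (M' * q * q))) a ∈ OInf3 h := by
  rw [tower_algebraMap_apply a]
  exact (algebraMap_mem_OInf3_iff h _).mpr a.2

/-- The constants of `A` lie in `O_0`. -/
theorem algebraMap_mem_OZero3 (h : BadSetup A π M' q) (w : Aut3 L M' q) (a : A) :
    algebraMap A ↥(laurentBaseChange L (modularFunctionFieldFull (M' * q * q))) a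
      ∈ OZero3 h w := by
  rw [tower_algebraMap_apply a]
  exact (algebraMap_mem_OZero3_iff h _).mpr a.2

end ChartFn

/-! ### The instance `(L, A, π) = (K0, W0, resW0)` -/

/-- A constant of a field of Laurent series, as an element of the subtype (for `F = FK K M`
the right-hand side is `MidRing.CK K M c` by definition). -/
theorem algebraMap_eq_mk_C {L : Type*} [Field L] (F : IntermediateField L (LaurentSeries L))
    (c : L) : algebraMap L ↥F c = ⟨HahnSeries.C c, Fermat.Agent.Lib.Red.C_mem F c⟩ := by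
  apply Subtype.ext
  show algebraMap L (LaurentSeries L) c = HahnSeries.C c
  rw [Fermat.Agent.Lib.Red.C_eq_algebraMap]

section K0Inst

variable {q : ℕ} (hq : q.Prime) (A : ValuationSubring Qb) (hA : A.LiesOverPrime q)
  {ζ : Qb} (hζ : IsPrimitiveRoot ζ q) (M' : ℕ) [NeZero M'] [NeZero q] (hqM : ¬ q ∣ M')

/-! #### `W0`: invertible integers, Noetherian, integrally closed -/

include hq hA in
/-- An integer prime to `q` is a unit of `W0`. -/
theorem isUnit_natCast_W0 {m : ℕ} (hm : Nat.Coprime m q) : IsUnit ((m : ℕ) : W0 A) := by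
  by_contra hnu
  have h0 : resW0 A ((m : ℕ) : W0 A) = 0 := resW0_eq_zero_of_not_isUnit A _ hnu
  rw [map_natCast] at h0
  have : CharP (IsLocalRing.ResidueField A) q :=
    (CharP.charP_iff_prime_eq_zero hq).mpr (resW0_natCast_eq_zero hq hA)
  have hdvd : q ∣ m := (CharP.cast_eq_zero_iff (IsLocalRing.ResidueField A) q m).mp h0
  exact hq.one_lt.ne' (Nat.Coprime.eq_one_of_dvd hm.symm hdvd)

include hq hA in
/-- `hmm` of the chart theorem: `(m : W0)` is invertible for `m` prime to `q`. -/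
theorem exists_natCast_mul_eq_one {m : ℕ} (hm : Nat.Coprime m q) :
    ∃ m' : W0 A, ((m : ℕ) : W0 A) * m' = 1 :=
  (isUnit_natCast_W0 hq A hA hm).exists_right_inv

include hq hA in
/-- `hmm` of the chart theorem for `m = p ^ n`, `p ≠ q` prime. -/
theorem exists_pow_mul_eq_one {p : ℕ} (hp : p.Prime) (hpq : p ≠ q) (n : ℕ) :
    ∃ m' : W0 A, ((p ^ n : ℕ) : W0 A) * m' = 1 :=
  exists_natCast_mul_eq_one hq A hA
    (Nat.Coprime.pow_left n ((Nat.coprime_primes hp hq).mpr hpq))

include hq hA in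
theorem isNoetherianRing_W0 : IsNoetherianRing (W0 A) := by
  have := isDiscreteValuationRing_W0 hq hA
  infer_instance

include hq hA in
theorem isIntegrallyClosed_W0 : IsIntegrallyClosed (W0 A) := by
  have := isDiscreteValuationRing_W0 hq hA
  infer_instance

include hq hA in
/-- `q ≠ 0` in `W0`. -/
theorem natCast_W0_ne_zero : ((q : ℕ) : W0 A) ≠ 0 :=
  (irreducible_natCast_W0 hq hA).ne_zero

/-! #### `hred` for the middle component -/

/-- `hred` for `O_mid` (reduction with values in `k((q))`). -/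
theorem hred_mid :
    ∀ x : OMid hq A hA hζ M' hqM (IsLocalRing.residue A),
      redMid hq A hA hζ M' hqM (IsLocalRing.residue A) x = 0 ↔
        x ∈ IsLocalRing.maximalIdeal (OMid hq A hA hζ M' hqM (IsLocalRing.residue A)) :=
  iff_mem_maximalIdeal_of_iff_not_isUnit (redMid_eq_zero_iff hq A hA hζ M' hqM _)

/-- `hred` for `O_mid` and any `κ`-valued co-restriction `r` of `redMid`. -/
theorem hred_mid_of_coe
    (r : OMid hq A hA hζ M' hqM (IsLocalRing.residue A) →
      ↥(modularFunctionFieldFullC (IsLocalRing.ResidueField A) M'))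
    (hr : ∀ f, ((r f : ↥(modularFunctionFieldFullC (IsLocalRing.ResidueField A) M')) :
      LaurentSeries (IsLocalRing.ResidueField A))
        = redMid hq A hA hζ M' hqM (IsLocalRing.residue A) f) :
    ∀ x : OMid hq A hA hζ M' hqM (IsLocalRing.residue A),
      r x = 0 ↔ x ∈ IsLocalRing.maximalIdeal (OMid hq A hA hζ M' hqM (IsLocalRing.residue A)) := by
  refine iff_mem_maximalIdeal_of_iff_not_isUnit (fun f => ?_)
  rw [← redMid_eq_zero_iff hq A hA hζ M' hqM (IsLocalRing.residue A) f, ← hr f]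
  constructor
  · intro h
    rw [h]
    rfl
  · intro h
    exact Subtype.ext h

/-! #### `q_mem`, `unif`, `he` -/

variable (hB : BadSetup (W0 A) (resW0 A) M' q)
  (w : Aut3 ↥(K0 A) M' q)

include hq hA in
/-- `q` is a uniformiser of `O_∞`. -/
theorem isUnif_inf :
    IsUnif (OInf3 hB)
      ((q : ℕ) : ↥(laurentBaseChange ↥(K0 A) (modularFunctionFieldFull (M' * q * q)))) :=
  isUnif_OInf3_natCast hB q (isUnif_W0 hq hA)

include hq hA in
/-- `q` is a uniformiser of `O_0`. -/
theorem isUnif_zero :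
    IsUnif (OZero3 hB w)
      ((q : ℕ) : ↥(laurentBaseChange ↥(K0 A) (modularFunctionFieldFull (M' * q * q)))) :=
  isUnif_OZero3_natCast hB w q (isUnif_W0 hq hA)

include hq hA in
/-- `q_mem` at `O_∞`. -/
theorem q_mem_inf :
    ((q : ℕ) : ↥(laurentBaseChange ↥(K0 A) (modularFunctionFieldFull (M' * q * q))))
      ∈ (OInf3 hB).nonunits :=
  (isUnif_inf hq A hA M' hB).mem_nonunits

include hq hA in
/-- `q_mem` at `O_0`. -/
theorem q_mem_zero :
    ((q : ℕ) : ↥(laurentBaseChange ↥(K0 A) (modularFunctionFieldFull (M' * q * q))))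
      ∈ (OZero3 hB w).nonunits :=
  (isUnif_zero hq A hA M' hB w).mem_nonunits

/-- `q_mem` at `O_mid`. -/
theorem q_mem_mid :
    ((q : ℕ) : ↥(laurentBaseChange ↥(K0 A) (modularFunctionFieldFull (M' * q * q))))
      ∈ (OMid hq A hA hζ M' hqM (IsLocalRing.residue A)).nonunits :=
  natCast_mem_nonunits_OMid hq A hA hζ M' hqM _ (residue_eq_zero_of_not_isUnit A)

include hq hA in
/-- `unif_inf` in Contract shape. -/
theorem unif_inf : ∀ z ∈ (OInf3 hB).nonunits,
    z / ((q : ℕ) : ↥(laurentBaseChange ↥(K0 A) (modularFunctionFieldFull (M' * q * q))))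
      ∈ OInf3 hB :=
  div_mem_of_isUnif (isUnif_inf hq A hA M' hB)

include hq hA in
/-- `unif_zero` in Contract shape. -/
theorem unif_zero : ∀ z ∈ (OZero3 hB w).nonunits,
    z / ((q : ℕ) : ↥(laurentBaseChange ↥(K0 A) (modularFunctionFieldFull (M' * q * q))))
      ∈ OZero3 hB w :=
  div_mem_of_isUnif (isUnif_zero hq A hA M' hB w)

/-- `unif_mid` in Contract shape (uniformiser `d = J(q^{q²}) - J(q)`). -/
theorem unif_mid : ∀ z ∈ (OMid hq A hA hζ M' hqM (IsLocalRing.residue A)).nonunits,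
    z / dMid A M' q ∈ OMid hq A hA hζ M' hqM (IsLocalRing.residue A) :=
  div_mem_of_isUnif (isUnif_dMid hq A hA hζ M' hqM _ (residue_eq_zero_of_not_isUnit A))

include hq hA in
/-- `he` at `O_∞` with `e = q - 1`. -/
theorem he_inf : ∀ z ∈ (OInf3 hB).nonunits,
    z ^ (q - 1) /
      ((q : ℕ) : ↥(laurentBaseChange ↥(K0 A) (modularFunctionFieldFull (M' * q * q))))
      ∈ OInf3 hB :=
  pow_div_mem_of_isUnif_self (isUnif_inf hq A hA M' hB) (Nat.sub_pos_of_lt hq.one_lt)

include hq hA in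
/-- `he` at `O_0` with `e = q - 1`. -/
theorem he_zero : ∀ z ∈ (OZero3 hB w).nonunits,
    z ^ (q - 1) /
      ((q : ℕ) : ↥(laurentBaseChange ↥(K0 A) (modularFunctionFieldFull (M' * q * q))))
      ∈ OZero3 hB w :=
  pow_div_mem_of_isUnif_self (isUnif_zero hq A hA M' hB w) (Nat.sub_pos_of_lt hq.one_lt)

/-- `he` at `O_mid` with `e = q - 1` (the ramification index of `O_mid` over `q`). -/
theorem he_mid : ∀ z ∈ (OMid hq A hA hζ M' hqM (IsLocalRing.residue A)).nonunits,
    z ^ (q - 1) /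
      ((q : ℕ) : ↥(laurentBaseChange ↥(K0 A) (modularFunctionFieldFull (M' * q * q))))
      ∈ OMid hq A hA hζ M' hqM (IsLocalRing.residue A) := by
  obtain ⟨c, -, hc', hqc⟩ := exists_natCast_eq_dMid_pow_mul hq A hA hζ M' hqM _
    (residue_eq_zero_of_not_isUnit A)
  have hU := isUnif_dMid hq A hA hζ M' hqM _ (residue_eq_zero_of_not_isUnit A)
  refine pow_div_mem_of_isUnif hU ?_
  rw [hqc, div_mul_eq_div_div, div_self (pow_ne_zero _ hU.ne_zero), one_div]
  exact hc'

/-! #### Surjectivity -/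

include hq hA in
theorem redInf3_surjective_K0 : Function.Surjective (redInf3 hB) :=
  redInf3_surjective hB (resW0_surjective hq hA)

include hq hA in
theorem redZero3_surjective_K0 : Function.Surjective (redZero3 hB w) :=
  redZero3_surjective hB w (resW0_surjective hq hA)

include hq hA in
/-- Joint surjectivity for the pair `(∞, 0)` at `K0`. -/
theorem joint_surjective_K0 {w : Aut3 ↥(K0 A) M' q}
    (hw : IsAL3 M' q w)
    (a b : ↥(modularFunctionFieldFullC (IsLocalRing.ResidueField A) M')) :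
    ∃ f : ↥(laurentBaseChange ↥(K0 A) (modularFunctionFieldFull (M' * q * q))),
      ∃ (h1 : f ∈ OInf3 hB) (h2 : f ∈ OZero3 hB w),
        redInf3 hB ⟨f, h1⟩ = a ∧ redZero3 hB w ⟨f, h2⟩ = b :=
  joint_surjective3 hB hw (resW0_surjective hq hA) a b

/-! #### The chart function in the three components -/

/-- `x = J_0 J_2` is a unit of `O_∞`. -/
theorem x_mem_inf :
    CuspQuot.J0 (q := q) ↥(K0 A) M' * CuspQuot.J2 ↥(K0 A) M' ∈ OInf3 hB :=
  (x_mem_and_inv_mem_OInf3 hB).1

theorem x_inv_mem_inf :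
    (CuspQuot.J0 (q := q) ↥(K0 A) M' * CuspQuot.J2 ↥(K0 A) M')⁻¹ ∈ OInf3 hB :=
  (x_mem_and_inv_mem_OInf3 hB).2

/-- `x = J_0 J_2` is a unit of `O_0`. -/
theorem x_mem_zero {w : Aut3 ↥(K0 A) M' q}
    (hw : IsAL3 M' q w) :
    CuspQuot.J0 (q := q) ↥(K0 A) M' * CuspQuot.J2 ↥(K0 A) M' ∈ OZero3 hB w :=
  (x_mem_and_inv_mem_OZero3 hB hw).1

theorem x_inv_mem_zero {w : Aut3 ↥(K0 A) M' q}
    (hw : IsAL3 M' q w) :
    (CuspQuot.J0 (q := q) ↥(K0 A) M' * CuspQuot.J2 ↥(K0 A) M')⁻¹ ∈ OZero3 hB w :=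
  (x_mem_and_inv_mem_OZero3 hB hw).2

include hB in
/-- `x = J_0 J_2` is a unit of `O_mid`. -/
theorem x_mem_and_inv_mem_OMid :
    CuspQuot.J0 (q := q) ↥(K0 A) M' * CuspQuot.J2 ↥(K0 A) M'
        ∈ OMid hq A hA hζ M' hqM (IsLocalRing.residue A) ∧
      (CuspQuot.J0 (q := q) ↥(K0 A) M' * CuspQuot.J2 ↥(K0 A) M')⁻¹
        ∈ OMid hq A hA hζ M' hqM (IsLocalRing.residue A) :=
  x_mem_and_inv_mem hB.hMk (OMid hq A hA hζ M' hqM (IsLocalRing.residue A))
    (fun y hy => piStar0_mem_OMid hq A hA hζ M' hqM hB.hMk y hy)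
    (fun y hy => piStar2_mem_OMid hq A hA hζ M' hqM hB.hMk y hy)

include hB in
theorem x_mem_mid :
    CuspQuot.J0 (q := q) ↥(K0 A) M' * CuspQuot.J2 ↥(K0 A) M'
      ∈ OMid hq A hA hζ M' hqM (IsLocalRing.residue A) :=
  (x_mem_and_inv_mem_OMid hq A hA hζ M' hqM hB).1

include hB in
theorem x_inv_mem_mid :
    (CuspQuot.J0 (q := q) ↥(K0 A) M' * CuspQuot.J2 ↥(K0 A) M')⁻¹
      ∈ OMid hq A hA hζ M' hqM (IsLocalRing.residue A) :=
  (x_mem_and_inv_mem_OMid hq A hA hζ M' hqM hB).2

end K0Inst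

/-! ### The family forms which only need a `W0`-algebra structure on `F3`

`q = algebraMap W0 F3 q`: `hqV`, `he` of the chart theorem and `q_ne`, `q_mem`, `unif_inf`,
`unif_zero` of `Contract` / `V3Base` / `V3BaseCusp` for the literal family
`![OInf3 hB, OMid …, OZero3 hB w]`. -/

section K0Alg

variable {q : ℕ} (hq : q.Prime) (A : ValuationSubring Qb) (hA : A.LiesOverPrime q)
  {ζ : Qb} (hζ : IsPrimitiveRoot ζ q) (M' : ℕ) [NeZero M'] [NeZero q] (hqM : ¬ q ∣ M')
  (hB : BadSetup (W0 A) (resW0 A) M' q) (w : Aut3 ↥(K0 A) M' q)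

include hq hA in
/-- `q_mem` (natural-number form) for the family of the three components. -/
theorem q_mem_fin3 : ∀ i : Fin 3,
    ((q : ℕ) : ↥(laurentBaseChange ↥(K0 A) (modularFunctionFieldFull (M' * q * q))))
      ∈ ((![OInf3 hB, OMid hq A hA hζ M' hqM (IsLocalRing.residue A), OZero3 hB w] :
        Fin 3 → ValuationSubring
          ↥(laurentBaseChange ↥(K0 A) (modularFunctionFieldFull (M' * q * q)))) i).nonunits :=
  forall_fin3 (q_mem_inf hq A hA M' hB) (q_mem_mid hq A hA hζ M' hqM) (q_mem_zero hq A hA M' hB w)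

include hq hA in
/-- `he` (natural-number form, `e = q - 1`) for the family of the three components. -/
theorem he_natCast_fin3 : ∀ i : Fin 3,
    ∀ z ∈ ((![OInf3 hB, OMid hq A hA hζ M' hqM (IsLocalRing.residue A), OZero3 hB w] :
        Fin 3 → ValuationSubring
          ↥(laurentBaseChange ↥(K0 A) (modularFunctionFieldFull (M' * q * q)))) i).nonunits,
      z ^ (q - 1) /
        ((q : ℕ) : ↥(laurentBaseChange ↥(K0 A) (modularFunctionFieldFull (M' * q * q))))
        ∈ (![OInf3 hB, OMid hq A hA hζ M' hqM (IsLocalRing.residue A), OZero3 hB w] :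
          Fin 3 → ValuationSubring
            ↥(laurentBaseChange ↥(K0 A) (modularFunctionFieldFull (M' * q * q)))) i :=
  forall_fin3 (he_inf hq A hA M' hB) (he_mid hq A hA hζ M' hqM) (he_zero hq A hA M' hB w)

variable [Algebra ↥(W0 A) ↥(laurentBaseChange ↥(K0 A) (modularFunctionFieldFull (M' * q * q)))]

include hq hA in
/-- `hqV` at `O_∞`. -/
theorem hqV_inf :
    algebraMap ↥(W0 A) ↥(laurentBaseChange ↥(K0 A) (modularFunctionFieldFull (M' * q * q)))
      ((q : ℕ) : W0 A) ∈ (OInf3 hB).nonunits := by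
  rw [map_natCast]
  exact q_mem_inf hq A hA M' hB

include hq hA in
/-- `hqV` at `O_0`. -/
theorem hqV_zero :
    algebraMap ↥(W0 A) ↥(laurentBaseChange ↥(K0 A) (modularFunctionFieldFull (M' * q * q)))
      ((q : ℕ) : W0 A) ∈ (OZero3 hB w).nonunits := by
  rw [map_natCast]
  exact q_mem_zero hq A hA M' hB w

/-- `hqV` at `O_mid`. -/
theorem hqV_mid :
    algebraMap ↥(W0 A) ↥(laurentBaseChange ↥(K0 A) (modularFunctionFieldFull (M' * q * q)))
      ((q : ℕ) : W0 A) ∈ (OMid hq A hA hζ M' hqM (IsLocalRing.residue A)).nonunits := by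
  rw [map_natCast]
  exact q_mem_mid hq A hA hζ M' hqM

include hq hA in
/-- `hqV` of the chart theorem for the family of the three components. -/
theorem hqV_fin3 : ∀ i : Fin 3,
    algebraMap ↥(W0 A) ↥(laurentBaseChange ↥(K0 A) (modularFunctionFieldFull (M' * q * q)))
      ((q : ℕ) : W0 A)
      ∈ ((![OInf3 hB, OMid hq A hA hζ M' hqM (IsLocalRing.residue A), OZero3 hB w] :
        Fin 3 → ValuationSubring
          ↥(laurentBaseChange ↥(K0 A) (modularFunctionFieldFull (M' * q * q)))) i).nonunits := by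
  rw [map_natCast]
  exact q_mem_fin3 hq A hA hζ M' hqM hB w

include hq hA in
/-- `he` of the chart theorem (`e = q - 1`) for the family of the three components. -/
theorem he_fin3 : ∀ i : Fin 3,
    ∀ z ∈ ((![OInf3 hB, OMid hq A hA hζ M' hqM (IsLocalRing.residue A), OZero3 hB w] :
        Fin 3 → ValuationSubring
          ↥(laurentBaseChange ↥(K0 A) (modularFunctionFieldFull (M' * q * q)))) i).nonunits,
      z ^ (q - 1) /
        algebraMap ↥(W0 A) ↥(laurentBaseChange ↥(K0 A) (modularFunctionFieldFull (M' * q * q)))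
          ((q : ℕ) : W0 A)
        ∈ (![OInf3 hB, OMid hq A hA hζ M' hqM (IsLocalRing.residue A), OZero3 hB w] :
          Fin 3 → ValuationSubring
            ↥(laurentBaseChange ↥(K0 A) (modularFunctionFieldFull (M' * q * q)))) i := by
  rw [map_natCast]
  exact he_natCast_fin3 hq A hA hζ M' hqM hB w

/-! #### Contract / cusp-record shapes for a `W0`-subalgebra `R` (e.g. a chart ring) with
`qB := algebraMap W0 R q` -/

include hq hA in
/-- `q_mem` of `Contract` / `V3Base` / `V3BaseCusp` for `B = ↥R`, `q = algebraMap W0 R q`. -/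
theorem q_mem_subalgebra
    (R : Subalgebra ↥(W0 A) ↥(laurentBaseChange ↥(K0 A) (modularFunctionFieldFull (M' * q * q)))) :
    ∀ i : Fin 3,
    algebraMap ↥R ↥(laurentBaseChange ↥(K0 A) (modularFunctionFieldFull (M' * q * q)))
        (algebraMap ↥(W0 A) ↥R ((q : ℕ) : W0 A))
      ∈ ((![OInf3 hB, OMid hq A hA hζ M' hqM (IsLocalRing.residue A), OZero3 hB w] :
        Fin 3 → ValuationSubring
          ↥(laurentBaseChange ↥(K0 A) (modularFunctionFieldFull (M' * q * q)))) i).nonunits := by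
  rw [map_natCast, map_natCast]
  exact q_mem_fin3 hq A hA hζ M' hqM hB w

include hq hA in
/-- `unif_inf` of `Contract` / `V3Base` / `V3BaseCusp` for `B = ↥R`, `q = algebraMap W0 R q`. -/
theorem unif_inf_subalgebra
    (R : Subalgebra ↥(W0 A) ↥(laurentBaseChange ↥(K0 A) (modularFunctionFieldFull (M' * q * q)))) :
    ∀ z ∈ ((![OInf3 hB, OMid hq A hA hζ M' hqM (IsLocalRing.residue A), OZero3 hB w] :
        Fin 3 → ValuationSubring
          ↥(laurentBaseChange ↥(K0 A) (modularFunctionFieldFull (M' * q * q)))) 0).nonunits,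
      z / algebraMap ↥R ↥(laurentBaseChange ↥(K0 A) (modularFunctionFieldFull (M' * q * q)))
          (algebraMap ↥(W0 A) ↥R ((q : ℕ) : W0 A))
        ∈ (![OInf3 hB, OMid hq A hA hζ M' hqM (IsLocalRing.residue A), OZero3 hB w] :
          Fin 3 → ValuationSubring
            ↥(laurentBaseChange ↥(K0 A) (modularFunctionFieldFull (M' * q * q)))) 0 := by
  rw [map_natCast, map_natCast]
  exact unif_inf hq A hA M' hB

include hq hA in
/-- `unif_zero` of `Contract` / `V3Base` / `V3BaseCusp` for `B = ↥R`, `q = algebraMap W0 R q`. -/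
theorem unif_zero_subalgebra
    (R : Subalgebra ↥(W0 A) ↥(laurentBaseChange ↥(K0 A) (modularFunctionFieldFull (M' * q * q)))) :
    ∀ z ∈ ((![OInf3 hB, OMid hq A hA hζ M' hqM (IsLocalRing.residue A), OZero3 hB w] :
        Fin 3 → ValuationSubring
          ↥(laurentBaseChange ↥(K0 A) (modularFunctionFieldFull (M' * q * q)))) 2).nonunits,
      z / algebraMap ↥R ↥(laurentBaseChange ↥(K0 A) (modularFunctionFieldFull (M' * q * q)))
          (algebraMap ↥(W0 A) ↥R ((q : ℕ) : W0 A))
        ∈ (![OInf3 hB, OMid hq A hA hζ M' hqM (IsLocalRing.residue A), OZero3 hB w] :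
          Fin 3 → ValuationSubring
            ↥(laurentBaseChange ↥(K0 A) (modularFunctionFieldFull (M' * q * q)))) 2 := by
  rw [map_natCast, map_natCast]
  exact unif_zero hq A hA M' hB w

include hq hA hB in
/-- `q_ne` of `Contract` for `B = ↥R`, `q = algebraMap W0 R q`. -/
theorem q_ne_subalgebra
    (R : Subalgebra ↥(W0 A) ↥(laurentBaseChange ↥(K0 A) (modularFunctionFieldFull (M' * q * q)))) :
    algebraMap ↥(W0 A) ↥R ((q : ℕ) : W0 A) ≠ 0 := by
  intro h0
  have h1 := congrArg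
    (algebraMap ↥R ↥(laurentBaseChange ↥(K0 A) (modularFunctionFieldFull (M' * q * q)))) h0
  rw [map_natCast, map_natCast, map_zero] at h1
  exact (isUnif_inf hq A hA M' hB).ne_zero h1

end K0Alg

/-! ### Constants of `W0` and the chart rings in the three components

The `W0`-algebra structure of `F3 = K0 · F_{M' q²}` is an abstract instance binder: any instance
forming a scalar tower `W0 → K0 → F3` plugs in (`TowerW ↥(K0 A) (W0 A) M' q` is reducibly
`IsScalarTower ↥(W0 A) ↥(K0 A) F3`). -/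

section K0Chart

variable {q : ℕ} (hq : q.Prime) (A : ValuationSubring Qb) (hA : A.LiesOverPrime q)
  {ζ : Qb} (hζ : IsPrimitiveRoot ζ q) (M' : ℕ) [NeZero M'] [NeZero q] (hqM : ¬ q ∣ M')
  (hB : BadSetup (W0 A) (resW0 A) M' q) {w : Aut3 ↥(K0 A) M' q}
  [Algebra ↥(W0 A) ↥(laurentBaseChange ↥(K0 A) (modularFunctionFieldFull (M' * q * q)))]
  [TowerW ↥(K0 A) (W0 A) M' q]

/-- The constants of `W0` lie in `O_∞`. -/
theorem algebraMap_W0_mem_inf (a : W0 A) :
    algebraMap ↥(W0 A) ↥(laurentBaseChange ↥(K0 A) (modularFunctionFieldFull (M' * q * q))) a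
      ∈ OInf3 hB :=
  algebraMap_mem_OInf3 hB a

/-- The constants of `W0` lie in `O_0`. -/
theorem algebraMap_W0_mem_zero (w : Aut3 ↥(K0 A) M' q) (a : W0 A) :
    algebraMap ↥(W0 A) ↥(laurentBaseChange ↥(K0 A) (modularFunctionFieldFull (M' * q * q))) a
      ∈ OZero3 hB w :=
  algebraMap_mem_OZero3 hB w a

/-- The constants of `W0` lie in `O_mid`. -/
theorem algebraMap_W0_mem_mid (a : W0 A) :
    algebraMap ↥(W0 A) ↥(laurentBaseChange ↥(K0 A) (modularFunctionFieldFull (M' * q * q))) a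
      ∈ OMid hq A hA hζ M' hqM (IsLocalRing.residue A) := by
  rw [tower_algebraMap_apply a, algebraMap_eq_mk_C]
  exact (CK_mem_OMid_iff hq A hA hζ M' hqM _ (residue_eq_zero_of_not_isUnit A)
    (a : ↥(K0 A))).mpr a.2

/-! #### `hBO` / `hRV` / `hR'V` per component -/

/-- `chart W0 x ⊆ O_∞`. -/
theorem chart_le_inf :
    ∀ r ∈ chart ↥(W0 A) (CuspQuot.J0 (q := q) ↥(K0 A) M' * CuspQuot.J2 ↥(K0 A) M'),
      r ∈ OInf3 hB :=
  chart_le_of_mem (OInf3 hB) (algebraMap_W0_mem_inf A M' hB) (x_mem_inf A M' hB)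

/-- `chart W0 x⁻¹ ⊆ O_∞`. -/
theorem chart_inv_le_inf :
    ∀ r ∈ chart ↥(W0 A) (CuspQuot.J0 (q := q) ↥(K0 A) M' * CuspQuot.J2 ↥(K0 A) M')⁻¹,
      r ∈ OInf3 hB :=
  chart_le_of_mem (OInf3 hB) (algebraMap_W0_mem_inf A M' hB) (x_inv_mem_inf A M' hB)

/-- `chart W0 x ⊆ O_0`. -/
theorem chart_le_zero (hw : IsAL3 M' q w) :
    ∀ r ∈ chart ↥(W0 A) (CuspQuot.J0 (q := q) ↥(K0 A) M' * CuspQuot.J2 ↥(K0 A) M'),
      r ∈ OZero3 hB w :=
  chart_le_of_mem (OZero3 hB w) (algebraMap_W0_mem_zero A M' hB w) (x_mem_zero A M' hB hw)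

/-- `chart W0 x⁻¹ ⊆ O_0`. -/
theorem chart_inv_le_zero (hw : IsAL3 M' q w) :
    ∀ r ∈ chart ↥(W0 A) (CuspQuot.J0 (q := q) ↥(K0 A) M' * CuspQuot.J2 ↥(K0 A) M')⁻¹,
      r ∈ OZero3 hB w :=
  chart_le_of_mem (OZero3 hB w) (algebraMap_W0_mem_zero A M' hB w) (x_inv_mem_zero A M' hB hw)

include hB in
/-- `chart W0 x ⊆ O_mid`. -/
theorem chart_le_mid :
    ∀ r ∈ chart ↥(W0 A) (CuspQuot.J0 (q := q) ↥(K0 A) M' * CuspQuot.J2 ↥(K0 A) M'),
      r ∈ OMid hq A hA hζ M' hqM (IsLocalRing.residue A) :=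
  chart_le_of_mem (OMid hq A hA hζ M' hqM (IsLocalRing.residue A))
    (algebraMap_W0_mem_mid hq A hA hζ M' hqM) (x_mem_mid hq A hA hζ M' hqM hB)

include hB in
/-- `chart W0 x⁻¹ ⊆ O_mid`. -/
theorem chart_inv_le_mid :
    ∀ r ∈ chart ↥(W0 A) (CuspQuot.J0 (q := q) ↥(K0 A) M' * CuspQuot.J2 ↥(K0 A) M')⁻¹,
      r ∈ OMid hq A hA hζ M' hqM (IsLocalRing.residue A) :=
  chart_le_of_mem (OMid hq A hA hζ M' hqM (IsLocalRing.residue A))
    (algebraMap_W0_mem_mid hq A hA hζ M' hqM) (x_inv_mem_mid hq A hA hζ M' hqM hB)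

/-! #### The literal family `![OInf3 hB, OMid …, OZero3 hB w]` -/

/-- `hRV` of the chart theorem / `hBO` of the Contract for the family of the three
components. -/
theorem hRV_fin3 (hw : IsAL3 M' q w) : ∀ i : Fin 3,
    ∀ r ∈ chart ↥(W0 A) (CuspQuot.J0 (q := q) ↥(K0 A) M' * CuspQuot.J2 ↥(K0 A) M'),
      r ∈ (![OInf3 hB, OMid hq A hA hζ M' hqM (IsLocalRing.residue A), OZero3 hB w] :
        Fin 3 → ValuationSubring
          ↥(laurentBaseChange ↥(K0 A) (modularFunctionFieldFull (M' * q * q)))) i :=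
  forall_fin3 (chart_le_inf A M' hB) (chart_le_mid hq A hA hζ M' hqM hB)
    (chart_le_zero A M' hB hw)

/-- `hR'V` of the chart theorem / `hBO` of the cusp records for the family of the three
components. -/
theorem hR'V_fin3 (hw : IsAL3 M' q w) : ∀ i : Fin 3,
    ∀ r ∈ chart ↥(W0 A) (CuspQuot.J0 (q := q) ↥(K0 A) M' * CuspQuot.J2 ↥(K0 A) M')⁻¹,
      r ∈ (![OInf3 hB, OMid hq A hA hζ M' hqM (IsLocalRing.residue A), OZero3 hB w] :
        Fin 3 → ValuationSubring
          ↥(laurentBaseChange ↥(K0 A) (modularFunctionFieldFull (M' * q * q)))) i :=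
  forall_fin3 (chart_inv_le_inf A M' hB) (chart_inv_le_mid hq A hA hζ M' hqM hB)
    (chart_inv_le_zero A M' hB hw)

end K0Chart

end Fermat.Agent.CAR.Inst.V3K0
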